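/-
Program J (S30), chapter J1 (KUM), helper25: **the function field `L · F_M` over ANY algebraically closed
field `L ⊇ ℚ`** (in particular `L = ℂ`): `F_L := laurentBaseChange L (modularFunctionFieldFull M) ⊂ L((q))`.

* `jL L M : F_L` the formal `j`-invariant;  `finrank_jL : [F_L : L(j)] = ψ(M)`;
* `isGen_jL : X0.FF.IsGen L (jL L M)` (so the whole generic package `X0.FF*` applies to `F_L / L`);
* `hasPrincipalDivisors_L`, `deg_eq_one_L`, `exists_divisor_L`, `nonempty_place_L`:
  the facts of `RED/TOP/FbarFacts20` for `L` instead of `ℚbar`.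
No analytic input: the degree is the algebraic base-change statement `DegBaseChange25`.
-/
import Mathlib
import Fermat.Agent.ES.RED.SpecialGen25
import Fermat.Agent.X0.FFGenus

set_option autoImplicit false
set_option linter.style.haveILetI false

noncomputable section

open HahnSeries ModularCurve IntermediateField AlgebraicCurve

namespace Fermat.Agent.ES.KUM.FieldL25

open Fermat.Agent.X0 Fermat.Agent.RED.PUR.DegBaseChange25 Fermat.Agent.ES.RED.SpecialGen25

variable (L : Type) [Field L] [Algebra ℚ L] (M : ℕ) [NeZero M]

/-- the formal `j`-invariant as an element of `F_L = L · F_M`. -/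
def jL : ↥(laurentBaseChange L (modularFunctionFieldFull M)) :=
  ⟨jqModC L, jqModC_mem_laurentBaseChange L M⟩

omit [NeZero M] in
@[simp] theorem coe_jL :
    ((jL L M : ↥(laurentBaseChange L (modularFunctionFieldFull M))) : LaurentSeries L) = jqModC L :=
  rfl

/-- `[F_L : L(j)] = ψ(M)`, computed inside `F_L`. -/
theorem finrank_jL :
    Module.finrank
      ↥(L⟮jL L M⟯ : IntermediateField L ↥(laurentBaseChange L (modularFunctionFieldFull M)))
      ↥(laurentBaseChange L (modularFunctionFieldFull M)) = dedekindPsi M := by
  rw [finrank_adjoin_simple_eq_relfinrank]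
  exact relfinrank_laurentBaseChange_eq_psi L M

/-- `j` is a transcendental generator of `F_L / L`. -/
theorem isGen_jL : FF.IsGen L (jL L M) := by
  refine isGen_of_relfinrank_ne_zero _ _
    (Fermat.Agent.IG.VAL.OvBasics22.transcendental_jqModC L) ?_
  have h := relfinrank_laurentBaseChange_eq_psi L M
  rw [coe_jL, h]
  exact (Fermat.Agent.X0.GNPsi.gnp_dedekindPsi_pos (NeZero.ne M)).ne'

theorem finiteDimensional_jL :
    FiniteDimensional
      ↥(L⟮jL L M⟯ : IntermediateField L ↥(laurentBaseChange L (modularFunctionFieldFull M)))
      ↥(laurentBaseChange L (modularFunctionFieldFull M)) :=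
  (isGen_jL L M).finite

section AlgClosed

variable [IsAlgClosed L]

/-- Principal divisors of `F_L` exist (finite support) and have degree `0`. -/
theorem hasPrincipalDivisors_L :
    HasPrincipalDivisors L ↥(laurentBaseChange L (modularFunctionFieldFull M)) := by
  haveI : CharZero L := algebraRat.charZero L
  exact FFGenus.hasPrincipalDivisors (isGen_jL L M)

/-- Every place of `F_L / L` has degree `1`. -/
theorem deg_eq_one_L (v : Place L ↥(laurentBaseChange L (modularFunctionFieldFull M))) :
    v.deg = 1 :=
  FF.deg_eq_one (isGen_jL L M) v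

/-- The divisor of a nonzero function, as a `Finsupp`, of degree `0`. -/
theorem exists_divisor_L {f : ↥(laurentBaseChange L (modularFunctionFieldFull M))} (hf : f ≠ 0) :
    ∃ D : Divisor L ↥(laurentBaseChange L (modularFunctionFieldFull M)),
      (∀ v, D v = v.ord f) ∧ Divisor.degree D = 0 :=
  (hasPrincipalDivisors_L L M).exists_divisor f hf

/-- `F_L` has at least one place (a pole of `j`). -/
theorem nonempty_place_L :
    Nonempty (Place L ↥(laurentBaseChange L (modularFunctionFieldFull M))) := by
  haveI : CharZero L := algebraRat.charZero L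
  by_contra hempty
  rw [not_nonempty_iff] at hempty
  have h := FF.sum_ord_poles (isGen_jL L M)
  have h0 : (∑ᶠ (v : Place L ↥(laurentBaseChange L (modularFunctionFieldFull M)))
      (_ : v.ord (jL L M) < 0), -v.ord (jL L M)) = 0 := by
    apply finsum_eq_zero_of_forall_eq_zero
    intro v
    exact (hempty.false v).elim
  rw [h0, finrank_jL] at h
  have hpos := Fermat.Agent.X0.GNPsi.gnp_dedekindPsi_pos (NeZero.ne M)
  omega

end AlgClosed

end Fermat.Agent.ES.KUM.FieldL25
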