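/-
Program J, chapter J1.3-ABS (helper17): the ABSTRACT KUMMER MAP — pure algebra, Mathlib + Prelude only.

Setting (`Setting K F M G`): a function field `F / K`, a field `M` ("meromorphic functions") with
constants `ι : K →+* M`, an embedding `Θ : F →+* M` compatible with the constants, and a family of
ring endomorphisms `act γ : M →+* M` (`γ : G`, a group) fixing the constants and `Θ F`, and
multiplicative on eigenvectors (`act_mul_eigen`: true for a left as well as for a right action).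

For `x ∈ Pic0(F)[n]`, `x = [D]`, `n • D = div f`, `h ^ n = Θ f` in `M`, the ratio `act γ h / h` is a
constant `n`-th root of unity `χ_x γ`, and `χ_x : G →* Kˣ` depends only on `x`.

* `IsKum S n x χ` : the relation "`χ` is the Kummer character of `x`" (existence of `(D, f, h)`);
* `IsKum.eigen` : for ANY datum `(D, f, h)` of `x`: `act γ h = ι (χ γ) * h` (needs `ConstOnly K F`);
* `IsKum.unique`, `IsKum.pow_eq_one`, `IsKum.add`, `isKum_zero`, `exists_isKum` (needs `S.HasRoots n`);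
* `kummer : ↥(Pic0.torsion K F n) →+ Additive (G →* Kˣ)`, `isKum_kummer`, `kummer_eigen`,
  `kummer_pow_eq_one`;
* `kummer_injective` under `S.InvClosed n` (invariant `n`-th roots of elements of `Θ F` lie in `Θ F`);
* `exists_kummer_eq` : image criterion (`χ` with an eigenfunction `h`, `h ^ n = Θ f`, `n ∣ ord_v f`);
* compatibilities in `n`: `IsKum.mul_right` (`J[n] ⊂ J[n m]`), `IsKum.nsmul` (`m : J[n m] → J[n]`,
  `χ ↦ χ ^ m`), `kummer_nsmul`;
* `finite_torsion` : `Pic0(F)[n]` is finite if `G` is finitely generated (under `InvClosed`).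
-/
import Mathlib
import Fermat.Prelude.Def_AlgebraicCurve_DivisorClassGroup

set_option autoImplicit false

noncomputable section

open AlgebraicCurve

namespace Fermat.Agent.ES.KUM.KummerAbstract17

universe uK uF uM uG

/-! ### Roots of unity in an extension field are constants -/

section Roots

variable {K : Type uK} {M : Type uM} [Field K] [Field M]

/-- In a field `M` containing an algebraically closed field `K` with `n ≠ 0` in `K`, every `n`-th
root of unity of `M` is a constant. -/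
theorem exists_const_of_pow_eq_one [IsAlgClosed K] (ι : K →+* M) (n : ℕ) [NeZero (n : K)] {u : M}
    (hu : u ^ n = 1) : ∃ ζ : K, ζ ^ n = 1 ∧ u = ι ζ := by
  have hn0 : n ≠ 0 := by
    rintro rfl
    exact NeZero.ne ((0 : ℕ) : K) (by simp)
  have : NeZero n := ⟨hn0⟩
  obtain ⟨ζ₀, hζ₀⟩ := HasEnoughRootsOfUnity.exists_primitiveRoot K n
  have hζM : IsPrimitiveRoot (ι ζ₀) n := hζ₀.map_of_injective ι.injective
  obtain ⟨i, -, hi⟩ := hζM.eq_pow_of_pow_eq_one hu
  refine ⟨ζ₀ ^ i, ?_, ?_⟩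
  · rw [← pow_mul, mul_comm, pow_mul, hζ₀.pow_eq_one, one_pow]
  · rw [map_pow, hi]

/-- Two `n`-th roots of the same nonzero element differ by a constant root of unity. -/
theorem exists_const_mul_of_pow_eq [IsAlgClosed K] (ι : K →+* M) (n : ℕ) [NeZero (n : K)]
    {h h' : M} (hh : h ≠ 0) (he : h' ^ n = h ^ n) : ∃ ζ : K, ζ ^ n = 1 ∧ h' = ι ζ * h := by
  have hu : (h' / h) ^ n = 1 := by
    rw [div_pow, he, div_self (pow_ne_zero n hh)]
  obtain ⟨ζ, hζ, hζu⟩ := exists_const_of_pow_eq_one ι n hu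
  exact ⟨ζ, hζ, by rw [← hζu, div_mul_cancel₀ _ hh]⟩

end Roots

/-! ### The setting -/

/-- The abstract Kummer setting. -/
structure Setting (K : Type uK) (F : Type uF) (M : Type uM) (G : Type uG) [Field K] [Field F]
    [Algebra K F] [Field M] [Group G] : Type (max uK uF uM uG) where
  /-- the constants of `M`. -/
  ι : K →+* M
  /-- the embedding of the function field. -/
  Θ : F →+* M
  Θ_algebraMap : ∀ c : K, Θ (algebraMap K F c) = ι c
  /-- the operators `act γ` on `M`. -/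
  act : G → M →+* M
  act_ι : ∀ (γ : G) (c : K), act γ (ι c) = ι c
  act_Θ : ∀ (γ : G) (f : F), act γ (Θ f) = Θ f
  act_mul_eigen : ∀ (γ δ : G) (h : M) (a b : K), act γ h = ι a * h → act δ h = ι b * h →
    act (γ * δ) h = ι (a * b) * h

namespace Setting

variable {K : Type uK} {F : Type uF} {M : Type uM} {G : Type uG} [Field K] [Field F]
  [Algebra K F] [Field M] [Group G]

/-- `act_mul_eigen` holds for a RIGHT action (`act (γ δ) = act δ ∘ act γ`, e.g. `h ↦ h ∘ γ`). -/
theorem act_mul_eigen_of_right (ι : K →+* M) (act : G → M →+* M)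
    (act_ι : ∀ (γ : G) (c : K), act γ (ι c) = ι c)
    (hmul : ∀ (γ δ : G) (h : M), act (γ * δ) h = act δ (act γ h))
    (γ δ : G) (h : M) (a b : K) (ha : act γ h = ι a * h) (hb : act δ h = ι b * h) :
    act (γ * δ) h = ι (a * b) * h := by
  rw [hmul, ha, map_mul, act_ι, hb, map_mul]
  ring

/-- `act_mul_eigen` holds for a LEFT action (`act (γ δ) = act γ ∘ act δ`). -/
theorem act_mul_eigen_of_left (ι : K →+* M) (act : G → M →+* M)
    (act_ι : ∀ (γ : G) (c : K), act γ (ι c) = ι c)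
    (hmul : ∀ (γ δ : G) (h : M), act (γ * δ) h = act γ (act δ h))
    (γ δ : G) (h : M) (a b : K) (ha : act γ h = ι a * h) (hb : act δ h = ι b * h) :
    act (γ * δ) h = ι (a * b) * h := by
  rw [hmul, hb, map_mul, act_ι, ha, map_mul]
  ring

variable (S : Setting K F M G)

theorem Θ_injective : Function.Injective S.Θ := S.Θ.injective

/-- (ROOT) elements of `F` all of whose orders are divisible by `n` have an `n`-th root in `M`. -/
def HasRoots (n : ℕ) : Prop :=
  ∀ f : F, f ≠ 0 → (∀ v : Place K F, (n : ℤ) ∣ v.ord f) → ∃ h : M, h ^ n = S.Θ f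

/-- (INV) invariant `n`-th roots of elements of `Θ F` lie in `Θ F`. -/
def InvClosed (n : ℕ) : Prop :=
  ∀ h : M, (∀ γ : G, S.act γ h = h) → (∃ f : F, h ^ n = S.Θ f) → ∃ g : F, S.Θ g = h

end Setting

/-- (CONST) functions without poles are constant. -/
def ConstOnly (K : Type uK) (F : Type uF) [Field K] [Field F] [Algebra K F] : Prop :=
  ∀ f : F, (∀ v : Place K F, 0 ≤ v.ord f) → ∃ c : K, f = algebraMap K F c

/-! ### Small facts on `Pic0.mk` and `Place.ord` -/

section Basic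

variable {K : Type uK} {F : Type uF} [Field K] [Field F] [Algebra K F]

theorem mk_eq_zero_iff (D : Divisor.degZero (K := K) (F := F)) :
    Pic0.mk D = 0 ↔ Divisor.IsPrincipal (D : Divisor K F) := by
  unfold Pic0.mk
  rw [QuotientAddGroup.eq_zero_iff, AddSubgroup.mem_addSubgroupOf]
  exact Divisor.mem_principal

theorem mk_sub (D E : Divisor.degZero (K := K) (F := F)) :
    Pic0.mk (D - E) = Pic0.mk D - Pic0.mk E := rfl

theorem mk_nsmul (m : ℕ) (D : Divisor.degZero (K := K) (F := F)) :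
    Pic0.mk (m • D) = m • Pic0.mk D := rfl

theorem ord_pow (v : Place K F) (f : F) (n : ℕ) : v.ord (f ^ n) = (n : ℤ) * v.ord f := by
  rw [← zpow_natCast, Place.ord_zpow]

theorem ord_algebraMap (v : Place K F) (c : K) : v.ord (algebraMap K F c) = 0 := by
  rcases eq_or_ne c 0 with rfl | hc
  · simp
  · have hmem : algebraMap K F c ∈ v.toValuationSubring := v.algebraMap_mem' c
    have hmem' : algebraMap K F c⁻¹ ∈ v.toValuationSubring := v.algebraMap_mem' c⁻¹
    have hu : IsUnit (⟨algebraMap K F c, hmem⟩ : v.toValuationSubring) := by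
      refine IsUnit.of_mul_eq_one ⟨algebraMap K F c⁻¹, hmem'⟩ ?_
      ext
      show algebraMap K F c * algebraMap K F c⁻¹ = 1
      rw [← map_mul, mul_inv_cancel₀ hc, map_one]
    exact v.ord_coe_unit hu.unit

end Basic

/-! ### The Kummer relation -/

section Kummer

variable {K : Type uK} {F : Type uF} {M : Type uM} {G : Type uG} [Field K] [Field F]
  [Algebra K F] [Field M] [Group G] (S : Setting K F M G)

/-- `(D, f, h)` is a Kummer datum of level `n` for the class `x`. -/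
def IsDatum (n : ℕ) (x : Pic0 K F) (D : Divisor.degZero (K := K) (F := F)) (f : F) (h : M) :
    Prop :=
  Pic0.mk D = x ∧ f ≠ 0 ∧ (∀ v : Place K F, (n : ℤ) * (D : Divisor K F) v = v.ord f) ∧
    h ^ n = S.Θ f

/-- `χ` is the Kummer character of `x` at level `n`. -/
def IsKum (n : ℕ) (x : Pic0 K F) (χ : G →* Kˣ) : Prop :=
  ∃ (D : Divisor.degZero (K := K) (F := F)) (f : F) (h : M), IsDatum S n x D f h ∧
    ∀ γ : G, S.act γ h = S.ι ((χ γ : Kˣ) : K) * h

variable {S}

theorem IsDatum.ne_zero {n : ℕ} (hn : n ≠ 0) {x : Pic0 K F}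
    {D : Divisor.degZero (K := K) (F := F)} {f : F} {h : M} (hd : IsDatum S n x D f h) :
    h ≠ 0 := by
  rintro rfl
  have h1 := hd.2.2.2
  rw [zero_pow hn] at h1
  exact hd.2.1 (S.Θ_injective (by rw [← h1, map_zero]))

theorem IsDatum.mem_torsion {n : ℕ} {x : Pic0 K F}
    {D : Divisor.degZero (K := K) (F := F)} {f : F} {h : M} (hd : IsDatum S n x D f h) :
    x ∈ Pic0.torsion K F n := by
  rw [Pic0.mem_torsion, ← hd.1, natCast_zsmul, ← mk_nsmul, mk_eq_zero_iff]
  refine ⟨f, hd.2.1, fun v => ?_⟩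
  rw [← hd.2.2.1 v]
  simp

/-- The eigenvalue equation at one datum propagates to any other datum of the same class. -/
theorem IsDatum.eigen_of_eigen [IsAlgClosed K] {n : ℕ} [NeZero (n : K)] (hc : ConstOnly K F)
    {x : Pic0 K F} {D D' : Divisor.degZero (K := K) (F := F)} {f f' : F} {h h' : M}
    (hd : IsDatum S n x D f h) (hd' : IsDatum S n x D' f' h') {γ : G} {a : K}
    (ha : S.act γ h' = S.ι a * h') : S.act γ h = S.ι a * h := by
  have hn0 : n ≠ 0 := by
    rintro rfl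
    exact NeZero.ne ((0 : ℕ) : K) (by simp)
  -- `D - D' = div g`
  have hprin : Divisor.IsPrincipal ((D - D' : Divisor.degZero (K := K) (F := F)) : Divisor K F) := by
    rw [← mk_eq_zero_iff, mk_sub, hd.1, hd'.1, sub_self]
  obtain ⟨g, hg0, hg⟩ := hprin
  -- `u := f / (f' * g ^ n)` has trivial divisor
  have hf'g : f' * g ^ n ≠ 0 := mul_ne_zero hd'.2.1 (pow_ne_zero n hg0)
  have hu0 : f / (f' * g ^ n) ≠ 0 := div_ne_zero hd.2.1 hf'g
  have hord : ∀ v : Place K F, v.ord (f / (f' * g ^ n)) = 0 := by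
    intro v
    rw [div_eq_mul_inv, v.ord_mul hd.2.1 (inv_ne_zero hf'g), v.ord_inv,
      v.ord_mul hd'.2.1 (pow_ne_zero n hg0), ord_pow, ← hd.2.2.1 v, ← hd'.2.2.1 v, ← hg v]
    simp only [AddSubgroup.coe_sub, Finsupp.coe_sub, Pi.sub_apply]
    ring
  obtain ⟨c, hcu⟩ := hc _ (fun v => (hord v).ge)
  obtain ⟨c₀, hc₀⟩ := IsAlgClosed.exists_pow_nat_eq c (Nat.pos_of_ne_zero hn0)
  -- `f = c₀ ^ n * f' * g ^ n`
  have hf : f = algebraMap K F c * (f' * g ^ n) := by
    rw [← hcu, div_mul_cancel₀ _ hf'g]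
  have hΘ : h ^ n = (S.ι c₀ * h' * S.Θ g) ^ n := by
    rw [hd.2.2.2, hf, map_mul, map_mul, map_pow, S.Θ_algebraMap, ← hd'.2.2.2, ← hc₀, map_pow]
    ring
  have hne : S.ι c₀ * h' * S.Θ g ≠ 0 := by
    intro h0
    have : h ^ n = 0 := by rw [hΘ, h0, zero_pow hn0]
    exact hd.ne_zero hn0 (pow_eq_zero_iff hn0 |>.mp this)
  obtain ⟨ζ, -, hζ⟩ := exists_const_mul_of_pow_eq S.ι n hne hΘ
  rw [hζ, map_mul, map_mul, map_mul, S.act_ι, S.act_ι, S.act_Θ, ha]
  ring

variable (S) in
/-- (existence) every `n`-torsion class has a Kummer character. -/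
theorem exists_isKum [IsAlgClosed K] {n : ℕ} [NeZero (n : K)] (hr : S.HasRoots n)
    {x : Pic0 K F} (hx : x ∈ Pic0.torsion K F n) : ∃ χ : G →* Kˣ, IsKum S n x χ := by
  have hn0 : n ≠ 0 := by
    rintro rfl
    exact NeZero.ne ((0 : ℕ) : K) (by simp)
  obtain ⟨D, rfl⟩ := Pic0.mk_surjective x
  rw [Pic0.mem_torsion, natCast_zsmul, ← mk_nsmul, mk_eq_zero_iff] at hx
  obtain ⟨f, hf0, hf⟩ := hx
  have hf' : ∀ v : Place K F, (n : ℤ) * (D : Divisor K F) v = v.ord f := by
    intro v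
    rw [← hf v]
    simp
  obtain ⟨h, hh⟩ := hr f hf0 (fun v => ⟨_, (hf' v).symm⟩)
  have hd : IsDatum S n (Pic0.mk D) D f h := ⟨rfl, hf0, hf', hh⟩
  have hh0 : h ≠ 0 := hd.ne_zero hn0
  -- the eigenvalues
  have hex : ∀ γ : G, ∃ ζ : K, ζ ^ n = 1 ∧ S.act γ h = S.ι ζ * h := by
    intro γ
    refine exists_const_mul_of_pow_eq S.ι n hh0 ?_
    rw [← map_pow, hh, S.act_Θ]
  choose ζ hζ1 hζ using hex
  have hmul : ∀ γ δ : G, ζ (γ * δ) = ζ γ * ζ δ := by
    intro γ δ
    have h1 := S.act_mul_eigen γ δ h _ _ (hζ γ) (hζ δ)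
    rw [hζ (γ * δ)] at h1
    exact S.ι.injective (mul_right_cancel₀ hh0 h1)
  let χ : G →* Kˣ := MonoidHom.mk' (fun γ => Units.ofPowEqOne (ζ γ) n (hζ1 γ) hn0) (by
    intro γ δ
    ext
    simp [hmul])
  exact ⟨χ, D, f, h, hd, fun γ => by simpa [χ] using hζ γ⟩

/-- For ANY datum `(D, f, h)` of `x`: `act γ h = χ_x(γ) h`. -/
theorem IsKum.eigen [IsAlgClosed K] {n : ℕ} [NeZero (n : K)] (hc : ConstOnly K F)
    {x : Pic0 K F} {χ : G →* Kˣ} (hχ : IsKum S n x χ)
    {D : Divisor.degZero (K := K) (F := F)} {f : F} {h : M} (hd : IsDatum S n x D f h) (γ : G) :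
    S.act γ h = S.ι ((χ γ : Kˣ) : K) * h := by
  obtain ⟨D', f', h', hd', he⟩ := hχ
  exact hd.eigen_of_eigen hc hd' (he γ)

/-- (uniqueness) the Kummer character depends only on the class. -/
theorem IsKum.unique [IsAlgClosed K] {n : ℕ} [NeZero (n : K)] (hc : ConstOnly K F)
    {x : Pic0 K F} {χ χ' : G →* Kˣ} (hχ : IsKum S n x χ) (hχ' : IsKum S n x χ') : χ = χ' := by
  have hn0 : n ≠ 0 := by
    rintro rfl
    exact NeZero.ne ((0 : ℕ) : K) (by simp)
  obtain ⟨D, f, h, hd, he⟩ := hχ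
  ext γ
  have h1 := hχ'.eigen hc hd γ
  rw [he γ] at h1
  exact S.ι.injective (mul_right_cancel₀ (hd.ne_zero hn0) h1)

/-- The values of a Kummer character are `n`-th roots of unity. -/
theorem IsKum.pow_eq_one {n : ℕ} (hn0 : n ≠ 0) {x : Pic0 K F} {χ : G →* Kˣ}
    (hχ : IsKum S n x χ) (γ : G) : χ γ ^ n = 1 := by
  obtain ⟨D, f, h, hd, he⟩ := hχ
  have h1 : (S.act γ h) ^ n = h ^ n := by
    rw [← map_pow, hd.2.2.2, S.act_Θ]
  rw [he γ, mul_pow] at h1
  have h2 : S.ι (((χ γ : Kˣ) : K) ^ n) = S.ι 1 := by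
    rw [map_pow, map_one]
    exact mul_right_cancel₀ (pow_ne_zero n (hd.ne_zero hn0)) (by rw [h1, one_mul])
  ext
  simpa using S.ι.injective h2

variable (S) in
theorem isKum_zero (n : ℕ) : IsKum S n (0 : Pic0 K F) 1 := by
  refine ⟨0, 1, 1, ⟨rfl, one_ne_zero, fun v => by simp, by simp⟩, fun γ => by simp⟩

theorem IsKum.add {n : ℕ} {x y : Pic0 K F} {χ ψ : G →* Kˣ} (hχ : IsKum S n x χ)
    (hψ : IsKum S n y ψ) : IsKum S n (x + y) (χ * ψ) := by
  obtain ⟨D, f, h, hd, he⟩ := hχ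
  obtain ⟨E, g, k, hd', he'⟩ := hψ
  refine ⟨D + E, f * g, h * k, ⟨?_, mul_ne_zero hd.2.1 hd'.2.1, fun v => ?_, ?_⟩, fun γ => ?_⟩
  · rw [Pic0.mk_add, hd.1, hd'.1]
  · rw [v.ord_mul hd.2.1 hd'.2.1, ← hd.2.2.1 v, ← hd'.2.2.1 v]
    simp only [AddSubgroup.coe_add, Finsupp.coe_add, Pi.add_apply]
    ring
  · rw [mul_pow, hd.2.2.2, hd'.2.2.2, map_mul]
  · rw [map_mul, he γ, he' γ, MonoidHom.mul_apply, Units.val_mul, map_mul]
    ring

/-- `J[n] ⊂ J[n m]`: the same character. -/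
theorem IsKum.mul_right {n : ℕ} (m : ℕ) {x : Pic0 K F} {χ : G →* Kˣ} (hχ : IsKum S n x χ) :
    IsKum S (n * m) x χ := by
  obtain ⟨D, f, h, hd, he⟩ := hχ
  refine ⟨D, f ^ m, h, ⟨hd.1, pow_ne_zero m hd.2.1, fun v => ?_, ?_⟩, he⟩
  · rw [ord_pow, ← hd.2.2.1 v]
    push_cast
    ring
  · rw [pow_mul, hd.2.2.2, map_pow]

/-- `m : J[n m] → J[n]` corresponds to `χ ↦ χ ^ m`. -/
theorem IsKum.nsmul {n m : ℕ} {x : Pic0 K F} {χ : G →* Kˣ} (hχ : IsKum S (n * m) x χ) :
    IsKum S n (m • x) (χ ^ m) := by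
  obtain ⟨D, f, h, hd, he⟩ := hχ
  refine ⟨m • D, f, h ^ m, ⟨?_, hd.2.1, fun v => ?_, ?_⟩, fun γ => ?_⟩
  · rw [mk_nsmul, hd.1]
  · rw [← hd.2.2.1 v]
    simp only [AddSubgroup.coe_nsmul, Finsupp.coe_smul, Pi.smul_apply, nsmul_eq_mul]
    push_cast
    ring
  · rw [← pow_mul, mul_comm, hd.2.2.2]
  · rw [map_pow, he γ, mul_pow, MonoidHom.pow_apply, Units.val_pow_eq_pow_val, map_pow]

/-- Kernel: trivial Kummer character ⇒ trivial class (under (INV)). -/
theorem IsKum.eq_zero_of_one {n : ℕ} (hn0 : n ≠ 0) (hi : S.InvClosed n) {x : Pic0 K F}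
    (hχ : IsKum S n x 1) : x = 0 := by
  obtain ⟨D, f, h, hd, he⟩ := hχ
  obtain ⟨g, hg⟩ := hi h (fun γ => by simpa using he γ) ⟨f, hd.2.2.2⟩
  have hgf : g ^ n = f := by
    apply S.Θ_injective
    rw [map_pow, hg, hd.2.2.2]
  have hg0 : g ≠ 0 := by
    rintro rfl
    rw [zero_pow hn0] at hgf
    exact hd.2.1 hgf.symm
  rw [← hd.1, mk_eq_zero_iff]
  refine ⟨g, hg0, fun v => ?_⟩
  have h1 := hd.2.2.1 v
  rw [← hgf, ord_pow] at h1
  exact mul_left_cancel₀ (by exact_mod_cast hn0) h1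

/-! ### The Kummer map -/

variable (S)

/-- The Kummer character of an `n`-torsion class. -/
def kummerFun [IsAlgClosed K] (n : ℕ) [NeZero (n : K)] (hr : S.HasRoots n)
    (x : ↥(Pic0.torsion K F n)) : G →* Kˣ :=
  (exists_isKum S hr x.2).choose

theorem isKum_kummerFun [IsAlgClosed K] (n : ℕ) [NeZero (n : K)] (hr : S.HasRoots n)
    (x : ↥(Pic0.torsion K F n)) : IsKum S n (x : Pic0 K F) (kummerFun S n hr x) :=
  (exists_isKum S hr x.2).choose_spec

/-- **The Kummer map** `Pic0(F)[n] → Hom(G, Kˣ)`. -/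
def kummer [IsAlgClosed K] (n : ℕ) [NeZero (n : K)] (hr : S.HasRoots n) (hc : ConstOnly K F) :
    ↥(Pic0.torsion K F n) →+ Additive (G →* Kˣ) where
  toFun x := Additive.ofMul (kummerFun S n hr x)
  map_zero' := by
    have h1 := isKum_kummerFun S n hr 0
    have h2 : IsKum S n ((0 : ↥(Pic0.torsion K F n)) : Pic0 K F) 1 := isKum_zero S n
    rw [h1.unique hc h2]
    rfl
  map_add' x y := by
    have h1 := isKum_kummerFun S n hr (x + y)
    have h2 : IsKum S n ((x + y : ↥(Pic0.torsion K F n)) : Pic0 K F)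
        (kummerFun S n hr x * kummerFun S n hr y) :=
      (isKum_kummerFun S n hr x).add (isKum_kummerFun S n hr y)
    rw [h1.unique hc h2]
    rfl

theorem isKum_kummer [IsAlgClosed K] (n : ℕ) [NeZero (n : K)] (hr : S.HasRoots n)
    (hc : ConstOnly K F) (x : ↥(Pic0.torsion K F n)) :
    IsKum S n (x : Pic0 K F) (Additive.toMul (kummer S n hr hc x)) :=
  isKum_kummerFun S n hr x

/-- Characterisation of the Kummer map: if `IsKum S n x χ` then `kummer x = χ`. -/
theorem kummer_eq_of_isKum [IsAlgClosed K] (n : ℕ) [NeZero (n : K)] (hr : S.HasRoots n)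
    (hc : ConstOnly K F) (x : ↥(Pic0.torsion K F n)) {χ : G →* Kˣ}
    (hχ : IsKum S n (x : Pic0 K F) χ) : kummer S n hr hc x = Additive.ofMul χ := by
  have := (isKum_kummer S n hr hc x).unique hc hχ
  rw [← this]
  rfl

/-- The eigenvalue equation: for ANY datum `(D, f, h)` of `x`, `act γ h = κ(x)(γ) · h`. -/
theorem kummer_eigen [IsAlgClosed K] (n : ℕ) [NeZero (n : K)] (hr : S.HasRoots n)
    (hc : ConstOnly K F) (x : ↥(Pic0.torsion K F n))
    {D : Divisor.degZero (K := K) (F := F)} {f : F} {h : M}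
    (hd : IsDatum S n (x : Pic0 K F) D f h) (γ : G) :
    S.act γ h = S.ι (((Additive.toMul (kummer S n hr hc x) : G →* Kˣ) γ : Kˣ) : K) * h :=
  (isKum_kummer S n hr hc x).eigen hc hd γ

theorem kummer_pow_eq_one [IsAlgClosed K] (n : ℕ) [NeZero (n : K)] (hr : S.HasRoots n)
    (hc : ConstOnly K F) (x : ↥(Pic0.torsion K F n)) (γ : G) :
    (Additive.toMul (kummer S n hr hc x) : G →* Kˣ) γ ^ n = 1 := by
  have hn0 : n ≠ 0 := by
    rintro rfl
    exact NeZero.ne ((0 : ℕ) : K) (by simp)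
  exact (isKum_kummer S n hr hc x).pow_eq_one hn0 γ

/-- **Injectivity** of the Kummer map under (INV). -/
theorem kummer_injective [IsAlgClosed K] (n : ℕ) [NeZero (n : K)] (hr : S.HasRoots n)
    (hc : ConstOnly K F) (hi : S.InvClosed n) : Function.Injective (kummer S n hr hc) := by
  have hn0 : n ≠ 0 := by
    rintro rfl
    exact NeZero.ne ((0 : ℕ) : K) (by simp)
  rw [injective_iff_map_eq_zero]
  intro x hx
  have h1 := isKum_kummer S n hr hc x
  rw [hx] at h1
  exact Subtype.ext (h1.eq_zero_of_one hn0 hi)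

/-- Compatibility in `n`: `κ_n (m • x) = κ_{n m}(x) ^ m`. -/
theorem kummer_nsmul [IsAlgClosed K] (n m : ℕ) [NeZero (n : K)] [NeZero ((n * m : ℕ) : K)]
    (hr : S.HasRoots n) (hr' : S.HasRoots (n * m)) (hc : ConstOnly K F)
    (x : ↥(Pic0.torsion K F (n * m))) (y : ↥(Pic0.torsion K F n))
    (hy : (y : Pic0 K F) = m • (x : Pic0 K F)) :
    kummer S n hr hc y = m • kummer S (n * m) hr' hc x := by
  have h1 := (isKum_kummer S (n * m) hr' hc x).nsmul
  rw [← hy] at h1
  rw [kummer_eq_of_isKum S n hr hc y h1]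
  rfl

/-- **Image criterion**: a character with an eigenfunction `h`, `h ^ n = Θ f`, all orders of `f`
divisible by `n`, is a Kummer character. -/
theorem exists_kummer_eq [IsAlgClosed K] (n : ℕ) [NeZero (n : K)] [HasPrincipalDivisors K F]
    (hr : S.HasRoots n) (hc : ConstOnly K F) (χ : G →* Kˣ) {h : M} (hh : h ≠ 0)
    (he : ∀ γ : G, S.act γ h = S.ι ((χ γ : Kˣ) : K) * h) {f : F} (hf : h ^ n = S.Θ f)
    (hdiv : ∀ v : Place K F, (n : ℤ) ∣ v.ord f) :
    ∃ x : ↥(Pic0.torsion K F n), kummer S n hr hc x = Additive.ofMul χ := by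
  have hn0 : n ≠ 0 := by
    rintro rfl
    exact NeZero.ne ((0 : ℕ) : K) (by simp)
  have hf0 : f ≠ 0 := by
    rintro rfl
    rw [map_zero] at hf
    exact hh (pow_eq_zero_iff hn0 |>.mp hf)
  obtain ⟨Df, hDf, hdeg⟩ := HasPrincipalDivisors.exists_divisor (K := K) f hf0
  -- `D := Df / n`
  let D : Divisor K F := Df.mapRange (fun a : ℤ => a / (n : ℤ)) (Int.zero_ediv _)
  have hD : ∀ v : Place K F, (n : ℤ) * D v = v.ord f := by
    intro v
    show (n : ℤ) * (Df.mapRange (fun a : ℤ => a / (n : ℤ)) (Int.zero_ediv _)) v = _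
    rw [Finsupp.mapRange_apply, hDf v]
    exact Int.mul_ediv_cancel' (hdiv v)
  have hnD : (n : ℤ) • D = Df := by
    ext v
    rw [Finsupp.smul_apply, smul_eq_mul, hD v, hDf v]
  have hdegD : Divisor.degree D = 0 := by
    have h1 : (n : ℤ) • Divisor.degree D = 0 := by
      rw [← map_zsmul, hnD, hdeg]
    rcases smul_eq_zero.mp h1 with h2 | h2
    · exact absurd (by exact_mod_cast h2) hn0
    · exact h2
  let D0 : Divisor.degZero (K := K) (F := F) := ⟨D, hdegD⟩
  have hd : IsDatum S n (Pic0.mk D0) D0 f h := ⟨rfl, hf0, hD, hf⟩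
  refine ⟨⟨Pic0.mk D0, hd.mem_torsion⟩, ?_⟩
  exact kummer_eq_of_isKum S n hr hc _ ⟨D0, f, h, hd, he⟩

/-- `Pic0(F)[n]` is finite as soon as `G` is finitely generated (under (INV)). -/
theorem finite_torsion [IsAlgClosed K] (n : ℕ) [NeZero (n : K)] (hr : S.HasRoots n)
    (hc : ConstOnly K F) (hi : S.InvClosed n) (hG : Group.FG G) :
    Finite ↥(Pic0.torsion K F n) := by
  have hn0 : n ≠ 0 := by
    rintro rfl
    exact NeZero.ne ((0 : ℕ) : K) (by simp)
  have : NeZero n := ⟨hn0⟩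
  obtain ⟨T, hT, hTfin⟩ := Group.fg_iff.mp hG
  have : Finite ↥T := hTfin.to_subtype
  let Φ : ↥(Pic0.torsion K F n) → (↥T → ↥(rootsOfUnity n K)) := fun x t =>
    ⟨(Additive.toMul (kummer S n hr hc x) : G →* Kˣ) t,
      (mem_rootsOfUnity _ _).mpr (kummer_pow_eq_one S n hr hc x t)⟩
  have hΦ : Function.Injective Φ := by
    intro x y hxy
    apply kummer_injective S n hr hc hi
    have h1 : (Additive.toMul (kummer S n hr hc x) : G →* Kˣ)
        = Additive.toMul (kummer S n hr hc y) := by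
      refine MonoidHom.eq_of_eqOn_dense hT (fun t ht => ?_)
      have := congrFun hxy ⟨t, ht⟩
      exact congrArg (fun z : ↥(rootsOfUnity n K) => (z : Kˣ)) this
    exact Additive.toMul.injective h1
  exact Finite.of_injective Φ hΦ

/-- The Kummer map with values in a subgroup `H` of characters containing all Kummer
characters. -/
def kummerTo [IsAlgClosed K] (n : ℕ) [NeZero (n : K)] (hr : S.HasRoots n)
    (hc : ConstOnly K F) (H : Subgroup (G →* Kˣ))
    (hmem : ∀ x : ↥(Pic0.torsion K F n), (Additive.toMul (kummer S n hr hc x) : G →* Kˣ) ∈ H) :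
    ↥(Pic0.torsion K F n) →+ Additive ↥H where
  toFun x := Additive.ofMul
    (⟨(Additive.toMul (kummer S n hr hc x) : G →* Kˣ), hmem x⟩ : ↥H)
  map_zero' := by
    apply Additive.toMul.injective
    apply Subtype.ext
    simp
  map_add' x y := by
    apply Additive.toMul.injective
    apply Subtype.ext
    simp

theorem kummerTo_apply [IsAlgClosed K] (n : ℕ) [NeZero (n : K)] (hr : S.HasRoots n)
    (hc : ConstOnly K F) (H : Subgroup (G →* Kˣ))
    (hmem : ∀ x : ↥(Pic0.torsion K F n), (Additive.toMul (kummer S n hr hc x) : G →* Kˣ) ∈ H)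
    (x : ↥(Pic0.torsion K F n)) :
    ((Additive.toMul (kummerTo S n hr hc H hmem x) : ↥H) : G →* Kˣ)
      = Additive.toMul (kummer S n hr hc x) := rfl

theorem kummerTo_bijective [IsAlgClosed K] (n : ℕ) [NeZero (n : K)] (hr : S.HasRoots n)
    (hc : ConstOnly K F) (hi : S.InvClosed n) (H : Subgroup (G →* Kˣ))
    (hmem : ∀ x : ↥(Pic0.torsion K F n), (Additive.toMul (kummer S n hr hc x) : G →* Kˣ) ∈ H)
    (hsurj : ∀ χ ∈ H, ∃ x : ↥(Pic0.torsion K F n), kummer S n hr hc x = Additive.ofMul χ) :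
    Function.Bijective (kummerTo S n hr hc H hmem) := by
  refine ⟨fun x y hxy => ?_, fun χ => ?_⟩
  · apply kummer_injective S n hr hc hi
    have h1 := congrArg (fun z : Additive ↥H => ((Additive.toMul z : ↥H) : G →* Kˣ)) hxy
    exact Additive.toMul.injective h1
  · obtain ⟨x, hx⟩ := hsurj (Additive.toMul χ : ↥H) (Additive.toMul χ : ↥H).2
    refine ⟨x, ?_⟩
    apply Additive.toMul.injective
    apply Subtype.ext
    rw [kummerTo_apply, hx]
    rfl

/-- **The Kummer isomorphism** onto a subgroup `H` of characters, given that the Kummer characters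
lie in `H` and that every element of `H` satisfies the image criterion. -/
def kummerEquiv [IsAlgClosed K] (n : ℕ) [NeZero (n : K)] (hr : S.HasRoots n)
    (hc : ConstOnly K F) (hi : S.InvClosed n) (H : Subgroup (G →* Kˣ))
    (hmem : ∀ x : ↥(Pic0.torsion K F n), (Additive.toMul (kummer S n hr hc x) : G →* Kˣ) ∈ H)
    (hsurj : ∀ χ ∈ H, ∃ x : ↥(Pic0.torsion K F n), kummer S n hr hc x = Additive.ofMul χ) :
    ↥(Pic0.torsion K F n) ≃+ Additive ↥H :=
  AddEquiv.ofBijective (kummerTo S n hr hc H hmem)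
    (kummerTo_bijective S n hr hc hi H hmem hsurj)

theorem kummerEquiv_apply [IsAlgClosed K] (n : ℕ) [NeZero (n : K)] (hr : S.HasRoots n)
    (hc : ConstOnly K F) (hi : S.InvClosed n) (H : Subgroup (G →* Kˣ))
    (hmem : ∀ x : ↥(Pic0.torsion K F n), (Additive.toMul (kummer S n hr hc x) : G →* Kˣ) ∈ H)
    (hsurj : ∀ χ ∈ H, ∃ x : ↥(Pic0.torsion K F n), kummer S n hr hc x = Additive.ofMul χ)
    (x : ↥(Pic0.torsion K F n)) :
    ((Additive.toMul (kummerEquiv S n hr hc hi H hmem hsurj x) : ↥H) : G →* Kˣ)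
      = Additive.toMul (kummer S n hr hc x) := rfl

end Kummer

end Fermat.Agent.ES.KUM.KummerAbstract17
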