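/-
Program J, chapter J1.2 (trap (T1)): **holomorphic `n`-th roots on the upper half plane**.

If `g : ℍ → ℂ` is holomorphic and all its orders of vanishing are finite and divisible by `n`, then
`g = h₀ ^ n` with `h₀` holomorphic (`exists_root_HolH`).  No Weierstrass products: on a disc with
closure in `ℍ` there are finitely many zeros, which are divided out one by one; the zero-free
cofactor has a logarithm (primitive of `u'/u` on a disc); the roots on the exhausting discs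
`B(iT, T - 1/T)` are normalised at a base point and glued by the identity theorem.

Main statements (namespace `Fermat.Agent.ES.KUM.RootsH14`):
* `exists_root_ball_of_ne_zero`, `exists_eq_pow_mul`, `finite_zeros_of_isCompact`,
  `exists_root_ball`, `root_unique`, `exists_root_of_exhaustion`, `exists_root_upper` (in `ℂ`);
* `exists_root_fun`, `exists_root_HolH`, `exists_root_HolH'`, `exists_root_HolH_of_dvd`,
  `exists_root_mul_pow` (in `HolH`).
-/
import Fermat.Agent.X0.HolOrder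

set_option autoImplicit false

open Metric Set Filter Topology UpperHalfPlane
open scoped Manifold

noncomputable section

namespace Fermat.Agent.ES.KUM.RootsH14

/-- Step A: a nowhere vanishing holomorphic function on a disc has a holomorphic `n`-th root. -/
theorem exists_root_ball_of_ne_zero {c : ℂ} {r : ℝ} {u : ℂ → ℂ}
    (hu : DifferentiableOn ℂ u (ball c r)) (hu0 : ∀ z ∈ ball c r, u z ≠ 0) (n : ℕ) (hn : n ≠ 0) :
    ∃ v : ℂ → ℂ, DifferentiableOn ℂ v (ball c r) ∧ ∀ z ∈ ball c r, v z ^ n = u z := by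
  rcases (ball c r).eq_empty_or_nonempty with he | ⟨b, hb⟩
  · refine ⟨fun _ => 0, by simp [he], by simp [he]⟩
  -- the logarithmic derivative has a primitive
  have hf : DifferentiableOn ℂ (fun z => deriv u z / u z) (ball c r) :=
    (hu.deriv isOpen_ball).div hu hu0
  obtain ⟨L, hL⟩ := hf.isExactOn_ball
  -- `w = u * exp (-L)` has zero derivative
  have hu' : ∀ z ∈ ball c r, HasDerivAt u (deriv u z) z := fun z hz =>
    (hu.differentiableAt (isOpen_ball.mem_nhds hz)).hasDerivAt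
  have hw : ∀ z ∈ ball c r, HasDerivAt (fun z => u z * Complex.exp (-L z)) 0 z := by
    intro z hz
    have h1 : HasDerivAt (fun z => Complex.exp (-L z))
        (Complex.exp (-L z) * (-(deriv u z / u z))) z := (hL z hz).neg.cexp
    have h2 : HasDerivAt (fun z => u z * Complex.exp (-L z))
        (deriv u z * Complex.exp (-L z) + u z * (Complex.exp (-L z) * -(deriv u z / u z))) z :=
      (hu' z hz).mul h1
    refine h2.congr_deriv ?_
    have h0 := hu0 z hz
    have h3 : u z * (Complex.exp (-L z) * -(deriv u z / u z)) =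
        -(Complex.exp (-L z) * (u z * (deriv u z / u z))) := by ring
    rw [h3, mul_div_cancel₀ _ h0]
    ring
  have hwd : DifferentiableOn ℂ (fun z => u z * Complex.exp (-L z)) (ball c r) := fun z hz =>
    (hw z hz).differentiableAt.differentiableWithinAt
  have hconst : ∀ z ∈ ball c r, u z * Complex.exp (-L z) = u b * Complex.exp (-L b) := by
    intro z hz
    exact isOpen_ball.is_const_of_deriv_eq_zero (convex_ball c r).isPreconnected hwd
      (fun x hx => (hw x hx).deriv) hz hb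
  set κ : ℂ := u b * Complex.exp (-L b) with hκ
  have hκ0 : κ ≠ 0 := mul_ne_zero (hu0 b hb) (Complex.exp_ne_zero _)
  have hnC : (n : ℂ) ≠ 0 := by exact_mod_cast hn
  refine ⟨fun z => Complex.exp ((L z + Complex.log κ) / n), ?_, ?_⟩
  · intro z hz
    have : HasDerivAt (fun z => Complex.exp ((L z + Complex.log κ) / n)) _ z :=
      (((hL z hz).add_const (Complex.log κ)).div_const (n : ℂ)).cexp
    exact this.differentiableAt.differentiableWithinAt
  · intro z hz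
    have h1 := hconst z hz
    rw [← Complex.exp_nat_mul, mul_div_cancel₀ _ hnC, Complex.exp_add, Complex.exp_log hκ0,
      ← h1, mul_comm (u z), ← mul_assoc, ← Complex.exp_add]
    simp



/-- Step B: dividing out a zero of finite order. -/
theorem exists_eq_pow_mul {V : Set ℂ} (hV : IsOpen V) {G : ℂ → ℂ} (hG : DifferentiableOn ℂ G V)
    {z₁ : ℂ} (hz₁ : z₁ ∈ V) {k : ℕ} (hk : analyticOrderAt G z₁ = k) :
    ∃ G₁ : ℂ → ℂ, DifferentiableOn ℂ G₁ V ∧ G₁ z₁ ≠ 0 ∧ ∀ z, G z = (z - z₁) ^ k * G₁ z := by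
  classical
  have hGa : AnalyticAt ℂ G z₁ := hG.analyticAt (hV.mem_nhds hz₁)
  obtain ⟨g₀, hg₀a, hg₀0, hev⟩ := hGa.analyticOrderAt_eq_natCast.1 hk
  refine ⟨fun z => if z = z₁ then g₀ z₁ else G z / (z - z₁) ^ k, ?_, by simpa using hg₀0, ?_⟩
  · intro z hz
    refine DifferentiableAt.differentiableWithinAt ?_
    by_cases hzz : z = z₁
    · subst hzz
      refine hg₀a.differentiableAt.congr_of_eventuallyEq ?_
      filter_upwards [hev] with w hw
      by_cases hw1 : w = z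
      · simp [hw1]
      · have : (w - z) ^ k ≠ 0 := pow_ne_zero _ (sub_ne_zero.2 hw1)
        simp only [hw1, if_false]
        rw [hw, smul_eq_mul, mul_div_cancel_left₀ _ this]
    · have hd : DifferentiableAt ℂ (fun w => G w / (w - z₁) ^ k) z := by
        refine (hG.differentiableAt (hV.mem_nhds hz)).div (by fun_prop) ?_
        exact pow_ne_zero _ (sub_ne_zero.2 hzz)
      refine hd.congr_of_eventuallyEq ?_
      filter_upwards [isOpen_ne.mem_nhds hzz] with w hw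
      simp [show w ≠ z₁ from hw]
  · intro z
    by_cases hzz : z = z₁
    · subst hzz
      have := hev.self_of_nhds
      simpa using this
    · have : (z - z₁) ^ k ≠ 0 := pow_ne_zero _ (sub_ne_zero.2 hzz)
      simp only [hzz, if_false]
      rw [mul_div_cancel₀ _ this]

/-- Orders away from the removed zero are unchanged. -/
theorem analyticOrderAt_of_eq_pow_mul {V : Set ℂ} (hV : IsOpen V) {G G₁ : ℂ → ℂ}
    (hG₁ : DifferentiableOn ℂ G₁ V) {z₁ : ℂ} {k : ℕ} (h : ∀ z, G z = (z - z₁) ^ k * G₁ z)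
    {z : ℂ} (hz : z ∈ V) (hzz : z ≠ z₁) : analyticOrderAt G z = analyticOrderAt G₁ z := by
  have hfun : G = (fun w => (w - z₁) ^ k) * G₁ := funext h
  have h1 : AnalyticAt ℂ (fun w : ℂ => (w - z₁) ^ k) z := by fun_prop
  have h2 : AnalyticAt ℂ G₁ z := hG₁.analyticAt (hV.mem_nhds hz)
  rw [hfun, analyticOrderAt_mul h1 h2, h1.analyticOrderAt_eq_zero.2, zero_add]
  exact pow_ne_zero _ (sub_ne_zero.2 hzz)

/-- Step C: finitely many zeros in a compact subset of the domain. -/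
theorem finite_zeros_of_isCompact {V K : Set ℂ} (hV : IsOpen V) {G : ℂ → ℂ}
    (hG : DifferentiableOn ℂ G V) (hK : IsCompact K) (hKV : K ⊆ V)
    (hord : ∀ z ∈ K, analyticOrderAt G z ≠ ⊤) : {z | z ∈ K ∧ G z = 0}.Finite := by
  have hKa : AnalyticOnNhd ℂ G K := fun z hz => hG.analyticAt (hV.mem_nhds (hKV hz))
  have h1 := hKa.codiscreteWithin_setOfPred_analyticOrderAt_eq_zero_or_top
  refine (hK.finite_sdiff_of_mem_codiscreteWithin h1).subset ?_
  rintro z ⟨hzK, hz0⟩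
  refine ⟨hzK, ?_⟩
  simp only [Set.mem_ofPred_eq, not_or]
  exact ⟨(hKa z hzK).analyticOrderAt_ne_zero.2 hz0, hord z hzK⟩


/-- Step C': induction on the number of zeros in the disc. -/
theorem exists_root_ball_aux (n : ℕ) (hn : n ≠ 0) {c : ℂ} {r : ℝ} :
    ∀ (N : ℕ) (G : ℂ → ℂ), DifferentiableOn ℂ G (ball c r) →
      (∀ z ∈ ball c r, ∃ m : ℕ, analyticOrderAt G z = ((n * m : ℕ) : ℕ∞)) →
      {z | z ∈ ball c r ∧ G z = 0}.Finite → {z | z ∈ ball c r ∧ G z = 0}.ncard = N →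
      ∃ R : ℂ → ℂ, DifferentiableOn ℂ R (ball c r) ∧ ∀ z ∈ ball c r, R z ^ n = G z := by
  intro N
  induction N with
  | zero =>
    intro G hG _ hfin hcard
    have hempty : {z | z ∈ ball c r ∧ G z = 0} = ∅ := (Set.ncard_eq_zero hfin).1 hcard
    refine exists_root_ball_of_ne_zero hG (fun z hz h0 => ?_) n hn
    have : z ∈ ({z | z ∈ ball c r ∧ G z = 0} : Set ℂ) := ⟨hz, h0⟩
    rw [hempty] at this
    exact this
  | succ N ih =>
    intro G hG hord hfin hcard
    have hne : {z | z ∈ ball c r ∧ G z = 0}.Nonempty := by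
      rw [← Set.ncard_pos hfin]; omega
    obtain ⟨z₁, hz₁, hz₁0⟩ := hne
    obtain ⟨m, hm⟩ := hord z₁ hz₁
    obtain ⟨G₁, hG₁d, hG₁0, hG₁⟩ := exists_eq_pow_mul isOpen_ball hG hz₁ hm
    have hzeros : {z | z ∈ ball c r ∧ G₁ z = 0} = {z | z ∈ ball c r ∧ G z = 0} \ {z₁} := by
      ext z
      constructor
      · rintro ⟨hz, h0⟩
        refine ⟨⟨hz, by rw [hG₁, h0, mul_zero]⟩, ?_⟩
        rintro rfl
        exact hG₁0 h0
      · rintro ⟨⟨hz, h0⟩, hzz⟩
        refine ⟨hz, ?_⟩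
        rw [hG₁] at h0
        rcases mul_eq_zero.1 h0 with h | h
        · exact absurd (sub_eq_zero.1 (eq_zero_of_pow_eq_zero h)) hzz
        · exact h
    have hfin₁ : {z | z ∈ ball c r ∧ G₁ z = 0}.Finite := by
      rw [hzeros]; exact hfin.subset Set.sdiff_subset
    have hcard₁ : {z | z ∈ ball c r ∧ G₁ z = 0}.ncard = N := by
      rw [hzeros, Set.ncard_sdiff_singleton_of_mem (show z₁ ∈ {z | z ∈ ball c r ∧ G z = 0} from
        ⟨hz₁, hz₁0⟩), hcard]
      rfl
    have hord₁ : ∀ z ∈ ball c r, ∃ m : ℕ, analyticOrderAt G₁ z = ((n * m : ℕ) : ℕ∞) := by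
      intro z hz
      by_cases hzz : z = z₁
      · refine ⟨0, ?_⟩
        rw [hzz, mul_zero, Nat.cast_zero]
        exact (hG₁d.analyticAt (isOpen_ball.mem_nhds hz₁)).analyticOrderAt_eq_zero.2 hG₁0
      · obtain ⟨m', hm'⟩ := hord z hz
        exact ⟨m', by rw [← analyticOrderAt_of_eq_pow_mul isOpen_ball hG₁d hG₁ hz hzz, hm']⟩
    obtain ⟨R₁, hR₁d, hR₁⟩ := ih G₁ hG₁d hord₁ hfin₁ hcard₁
    refine ⟨fun z => (z - z₁) ^ m * R₁ z, ?_, ?_⟩
    · exact (by fun_prop : DifferentiableOn ℂ (fun z : ℂ => (z - z₁) ^ m) (ball c r)).mul hR₁d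
    · intro z hz
      rw [mul_pow, hR₁ z hz, hG₁ z, ← pow_mul, mul_comm m n]

/-- Root on a disc whose closure lies in the domain. -/
theorem exists_root_ball (n : ℕ) (hn : n ≠ 0) {V : Set ℂ} (hV : IsOpen V) {G : ℂ → ℂ}
    (hG : DifferentiableOn ℂ G V)
    (hord : ∀ z ∈ V, ∃ m : ℕ, analyticOrderAt G z = ((n * m : ℕ) : ℕ∞))
    {c : ℂ} {r : ℝ} (hcr : closedBall c r ⊆ V) :
    ∃ R : ℂ → ℂ, DifferentiableOn ℂ R (ball c r) ∧ ∀ z ∈ ball c r, R z ^ n = G z := by
  have hbV : ball c r ⊆ V := ball_subset_closedBall.trans hcr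
  have hfin : {z | z ∈ ball c r ∧ G z = 0}.Finite := by
    refine (finite_zeros_of_isCompact hV hG (isCompact_closedBall c r) hcr ?_).subset ?_
    · intro z hz
      obtain ⟨m, hm⟩ := hord z (hcr hz)
      rw [hm]
      exact ENat.natCast_ne_top _
    · rintro z ⟨hz, h0⟩
      exact ⟨ball_subset_closedBall hz, h0⟩
  exact exists_root_ball_aux n hn _ G (hG.mono hbV) (fun z hz => hord z (hbV hz)) hfin rfl

/-- Step D: two roots agreeing at a point where they do not vanish agree on a preconnected open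
set. -/
theorem root_unique {B : Set ℂ} (hB : IsOpen B) (hBc : IsPreconnected B) {n : ℕ} (hn : n ≠ 0)
    {R R' : ℂ → ℂ} (hR : DifferentiableOn ℂ R B) (hR' : DifferentiableOn ℂ R' B)
    (hpow : ∀ z ∈ B, R z ^ n = R' z ^ n) {b : ℂ} (hb : b ∈ B) (hb0 : R b ≠ 0)
    (hbe : R b = R' b) : EqOn R R' B := by
  have hRa : AnalyticOnNhd ℂ R B := hR.analyticOnNhd hB
  have hR'a : AnalyticOnNhd ℂ R' B := hR'.analyticOnNhd hB
  refine hRa.eqOn_of_preconnected_of_eventuallyEq hR'a hBc hb ?_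
  -- the geometric sum is non-zero near `b`
  set S : ℂ → ℂ := fun z => ∑ i ∈ Finset.range n, R z ^ i * R' z ^ (n - 1 - i) with hS
  have hSc : ContinuousAt S b := by
    have h1 : ContinuousAt R b := (hRa b hb).continuousAt
    have h2 : ContinuousAt R' b := (hR'a b hb).continuousAt
    simp only [hS]
    fun_prop
  have hSb : S b ≠ 0 := by
    have : S b = n * R b ^ (n - 1) := by
      simp only [hS, ← hbe]
      rw [Finset.sum_congr rfl (fun i hi => ?_), Finset.sum_const, Finset.card_range, nsmul_eq_mul]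
      rw [← pow_add]
      congr 1
      have := Finset.mem_range.1 hi
      omega
    rw [this]
    exact mul_ne_zero (by exact_mod_cast hn) (pow_ne_zero _ hb0)
  filter_upwards [hSc.eventually_ne hSb, hB.mem_nhds hb] with z hz hzB
  have h1 : S z * (R z - R' z) = 0 := by
    simp only [hS]
    rw [geom_sum₂_mul, hpow z hzB, sub_self]
  rcases mul_eq_zero.1 h1 with h | h
  · exact absurd h hz
  · exact sub_eq_zero.1 h


/-- Step E: gluing roots along an exhaustion by convex open sets. -/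
theorem exists_root_of_exhaustion {U : Set ℂ} (hU : IsOpen U) {G : ℂ → ℂ} {n : ℕ} (hn : n ≠ 0)
    (B : ℕ → Set ℂ) (hBo : ∀ k, IsOpen (B k)) (hBc : ∀ k, Convex ℝ (B k))
    (hcov : ∀ z ∈ U, ∃ k₀ : ℕ, ∀ k, k₀ ≤ k → z ∈ B k)
    (hroot : ∀ k, ∃ R : ℂ → ℂ, DifferentiableOn ℂ R (B k) ∧ ∀ z ∈ B k, R z ^ n = G z)
    {b : ℂ} (hb : b ∈ U) (hGb : G b ≠ 0) :
    ∃ R : ℂ → ℂ, DifferentiableOn ℂ R U ∧ ∀ z ∈ U, R z ^ n = G z := by
  classical
  choose Rk hRkd hRk using hroot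
  choose! κ₀ hκ₀ using hcov
  set k₀ := κ₀ b with hk₀
  have hbB : ∀ k, k₀ ≤ k → b ∈ B k := hκ₀ b hb
  set β := Rk k₀ b with hβ
  have hβn : β ^ n = G b := hRk k₀ b (hbB k₀ le_rfl)
  have hβ0 : β ≠ 0 := by
    intro h
    rw [h, zero_pow hn] at hβn
    exact hGb hβn.symm
  have hRkb0 : ∀ k, k₀ ≤ k → Rk k b ≠ 0 := by
    intro k hk h
    have h1 : Rk k b ^ n = G b := hRk k b (hbB k hk)
    rw [h, zero_pow hn] at h1
    exact hGb h1.symm
  let Rt : ℕ → ℂ → ℂ := fun k z => (β / Rk k b) * Rk k z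
  have hRtd : ∀ k, DifferentiableOn ℂ (Rt k) (B k) := fun k => (hRkd k).const_mul _
  have hRtpow : ∀ k, k₀ ≤ k → ∀ z ∈ B k, Rt k z ^ n = G z := by
    intro k hk z hz
    have h1 : Rk k b ^ n = G b := hRk k b (hbB k hk)
    simp only [Rt]
    rw [mul_pow, div_pow, hβn, h1, div_self hGb, one_mul, hRk k z hz]
  have hRtb : ∀ k, k₀ ≤ k → Rt k b = β := by
    intro k hk
    simp only [Rt]
    rw [div_mul_cancel₀ _ (hRkb0 k hk)]
  have hagree : ∀ k j, k₀ ≤ k → k₀ ≤ j → ∀ z ∈ B k ∩ B j, Rt k z = Rt j z := by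
    intro k j hk hj
    refine root_unique ((hBo k).inter (hBo j)) ((hBc k).inter (hBc j)).isPreconnected hn
      ((hRtd k).mono inter_subset_left) ((hRtd j).mono inter_subset_right)
      (fun z hz => by rw [hRtpow k hk z hz.1, hRtpow j hj z hz.2]) ⟨hbB k hk, hbB j hj⟩
      (by rw [hRtb k hk]; exact hβ0) (by rw [hRtb k hk, hRtb j hj])
  let κ : ℂ → ℕ := fun z => max k₀ (κ₀ z)
  refine ⟨fun z => Rt (κ z) z, ?_, ?_⟩
  · intro z hz
    have hzB : z ∈ B (κ z) := hκ₀ z hz _ (le_max_right _ _)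
    have hev : (fun w => Rt (κ w) w) =ᶠ[𝓝 z] Rt (κ z) := by
      filter_upwards [(hBo (κ z)).mem_nhds hzB, hU.mem_nhds hz] with w hw hwU
      exact hagree (κ w) (κ z) (le_max_left _ _) (le_max_left _ _) w
        ⟨hκ₀ w hwU _ (le_max_right _ _), hw⟩
    exact (((hRtd (κ z)).differentiableAt ((hBo _).mem_nhds hzB)).congr_of_eventuallyEq
      hev).differentiableWithinAt
  · intro z hz
    exact hRtpow (κ z) (le_max_left _ _) z (hκ₀ z hz _ (le_max_right _ _))

/-- The discs `B(iT, T - 1/T)` have closure inside the upper half plane. -/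
theorem closedBall_subset_upper {T : ℝ} (hT : 0 < T) :
    closedBall ((T : ℂ) * Complex.I) (T - 1 / T) ⊆ {z : ℂ | 0 < z.im} := by
  intro z hz
  rw [mem_closedBall, dist_eq_norm] at hz
  have h1 : |(z - (T : ℂ) * Complex.I).im| ≤ ‖z - (T : ℂ) * Complex.I‖ := Complex.abs_im_le_norm _
  have h2 : (z - (T : ℂ) * Complex.I).im = z.im - T := by simp
  rw [h2] at h1
  have h3 : T - z.im ≤ |z.im - T| := by
    rw [abs_sub_comm]
    exact le_abs_self _
  have h4 : 0 < 1 / T := by positivity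
  show 0 < z.im
  linarith

/-- Every point of the upper half plane lies in all but finitely many of the discs. -/
theorem eventually_mem_ball {z : ℂ} (hz : 0 < z.im) :
    ∃ k₀ : ℕ, ∀ k : ℕ, k₀ ≤ k →
      z ∈ ball ((((k : ℝ) + 1 : ℝ) : ℂ) * Complex.I) (((k : ℝ) + 1) - 1 / ((k : ℝ) + 1)) := by
  refine ⟨⌈(z.re ^ 2 + z.im ^ 2 + 2) / (2 * z.im)⌉₊, fun k hk => ?_⟩
  set T : ℝ := (k : ℝ) + 1 with hT
  have hT1 : 1 ≤ T := by
    have : (0 : ℝ) ≤ k := Nat.cast_nonneg k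
    linarith
  have hT0 : 0 < T := by linarith
  have hkT : (z.re ^ 2 + z.im ^ 2 + 2) / (2 * z.im) < T := by
    have h1 : (z.re ^ 2 + z.im ^ 2 + 2) / (2 * z.im) ≤ (⌈(z.re ^ 2 + z.im ^ 2 + 2) / (2 * z.im)⌉₊ : ℝ) :=
      Nat.le_ceil _
    have h2 : ((⌈(z.re ^ 2 + z.im ^ 2 + 2) / (2 * z.im)⌉₊ : ℕ) : ℝ) ≤ (k : ℝ) := by
      exact_mod_cast hk
    linarith
  have hkey : z.re ^ 2 + z.im ^ 2 + 2 < 2 * z.im * T := by
    rw [div_lt_iff₀ (by positivity)] at hkT
    linarith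
  have hρ : 0 ≤ T - 1 / T := by
    have : 1 / T ≤ 1 := by
      rw [div_le_one hT0]
      exact hT1
    linarith
  rw [mem_ball, dist_eq_norm]
  refine lt_of_pow_lt_pow_left₀ 2 hρ ?_
  rw [Complex.sq_norm, Complex.normSq_apply]
  have h1 : (z - (T : ℂ) * Complex.I).re = z.re := by simp
  have h2 : (z - (T : ℂ) * Complex.I).im = z.im - T := by simp
  rw [h1, h2]
  have h3 : (T - 1 / T) ^ 2 = T ^ 2 - 2 + (1 / T) ^ 2 := by
    field_simp
    ring
  rw [h3]
  have h4 : 0 < (1 / T) ^ 2 := by positivity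
  nlinarith

/-- Holomorphic `n`-th roots on the upper half plane (as a subset of `ℂ`). -/
theorem exists_root_upper (n : ℕ) (hn : n ≠ 0) {G : ℂ → ℂ}
    (hG : DifferentiableOn ℂ G {z : ℂ | 0 < z.im})
    (hord : ∀ z ∈ {z : ℂ | 0 < z.im}, ∃ m : ℕ, analyticOrderAt G z = ((n * m : ℕ) : ℕ∞)) :
    ∃ R : ℂ → ℂ, DifferentiableOn ℂ R {z : ℂ | 0 < z.im} ∧
      ∀ z ∈ {z : ℂ | 0 < z.im}, R z ^ n = G z := by
  have hUo : IsOpen {z : ℂ | 0 < z.im} := isOpen_lt continuous_const Complex.continuous_im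
  -- a point where `G` does not vanish
  have hI : Complex.I ∈ {z : ℂ | 0 < z.im} := by simp
  obtain ⟨b, hb, hGb⟩ : ∃ b ∈ {z : ℂ | 0 < z.im}, G b ≠ 0 := by
    obtain ⟨m, hm⟩ := hord Complex.I hI
    have h1 : analyticOrderAt G Complex.I ≠ ⊤ := by
      rw [hm]
      exact ENat.natCast_ne_top _
    rw [Ne, analyticOrderAt_eq_top] at h1
    have h2 : ∃ᶠ z in 𝓝 Complex.I, G z ≠ 0 := by
      simpa [Filter.not_eventually] using h1
    obtain ⟨b, hb0, hbU⟩ := (h2.and_eventually (hUo.mem_nhds hI)).exists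
    exact ⟨b, hbU, hb0⟩
  refine exists_root_of_exhaustion hUo hn
    (fun k => ball ((((k : ℝ) + 1 : ℝ) : ℂ) * Complex.I) (((k : ℝ) + 1) - 1 / ((k : ℝ) + 1)))
    (fun k => isOpen_ball) (fun k => convex_ball _ _) (fun z hz => eventually_mem_ball hz)
    (fun k => ?_) hb hGb
  have hT : (0 : ℝ) < (k : ℝ) + 1 := by positivity
  exact exists_root_ball n hn hUo hG hord (closedBall_subset_upper hT)


open Fermat.Agent.X0

/-- **Holomorphic `n`-th roots on `ℍ`** (J1.2, trap (T1)): a holomorphic function on the upper half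
plane all of whose orders of vanishing are (finite and) divisible by `n` is the `n`-th power of a
holomorphic function. -/
theorem exists_root_fun (n : ℕ) (hn : n ≠ 0) {g : ℍ → ℂ} (hg : g ∈ HolH)
    (h : ∀ z : ℍ, ∃ m : ℕ, ordH g z = ((n * m : ℕ) : ℕ∞)) :
    ∃ h₀ : ℍ → ℂ, h₀ ∈ HolH ∧ h₀ ^ n = g := by
  have hG : DifferentiableOn ℂ (g ∘ ofComplex) {z : ℂ | 0 < z.im} :=
    UpperHalfPlane.mdifferentiable_iff.1 hg
  obtain ⟨R, hRd, hR⟩ := exists_root_upper n hn hG (fun z hz => h ⟨z, hz⟩)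
  refine ⟨fun τ => R (τ : ℂ), ?_, ?_⟩
  · refine UpperHalfPlane.mdifferentiable_iff.2 (hRd.congr fun z hz => ?_)
    simp only [Function.comp_apply]
    rw [ofComplex_apply_of_im_pos hz]
  · funext τ
    have := hR (τ : ℂ) τ.im_pos
    simpa [Function.comp_apply] using this

/-- Subalgebra form of `exists_root_fun`. -/
theorem exists_root_HolH (n : ℕ) (hn : n ≠ 0) (g : HolH)
    (h : ∀ z : ℍ, ∃ m : ℕ, ordH (g : ℍ → ℂ) z = ((n * m : ℕ) : ℕ∞)) :
    ∃ h₀ : HolH, h₀ ^ n = g := by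
  obtain ⟨h₀, hh₀, hpow⟩ := exists_root_fun n hn g.2 h
  exact ⟨⟨h₀, hh₀⟩, Subtype.ext hpow⟩

/-- Variant allowing the zero function. -/
theorem exists_root_HolH' (n : ℕ) (hn : n ≠ 0) (g : HolH)
    (h : g ≠ 0 → ∀ z : ℍ, ∃ m : ℕ, ordH (g : ℍ → ℂ) z = ((n * m : ℕ) : ℕ∞)) :
    ∃ h₀ : HolH, h₀ ^ n = g := by
  by_cases hg : g = 0
  · exact ⟨0, by rw [hg, zero_pow hn]⟩
  · exact exists_root_HolH n hn g (h hg)

/-- Variant with divisibility in `ℕ` of the (finite) orders. -/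
theorem exists_root_HolH_of_dvd (n : ℕ) (hn : n ≠ 0) (g : HolH) (hg : g ≠ 0)
    (h : ∀ z : ℍ, n ∣ (ordH (g : ℍ → ℂ) z).toNat) :
    ∃ h₀ : HolH, h₀ ^ n = g := by
  refine exists_root_HolH n hn g fun z => ?_
  obtain ⟨m, hm⟩ := h z
  have hg0 : (g : ℍ → ℂ) ≠ 0 := fun h0 => hg (Subtype.ext h0)
  refine ⟨m, ?_⟩
  rw [← hm, ENat.natCast_toNat (ordH_ne_top g.2 hg0 z)]

/-- Quotient form: if `ord a - ord b` is everywhere divisible by `n`, then `a * b ^ (n - 1)` has a
holomorphic `n`-th root `h₀`; in the fraction field, `(h₀ / b) ^ n = a / b`. -/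
theorem exists_root_mul_pow (n : ℕ) (hn : n ≠ 0) (a b : HolH) (ha : a ≠ 0) (hb : b ≠ 0)
    (h : ∀ z : ℍ, ∃ m : ℤ, ((ordH (a : ℍ → ℂ) z).toNat : ℤ) - ((ordH (b : ℍ → ℂ) z).toNat : ℤ)
      = n * m) :
    ∃ h₀ : HolH, h₀ ^ n = a * b ^ (n - 1) ∧ h₀ ^ n * b = a * b ^ n := by
  have ha0 : (a : ℍ → ℂ) ≠ 0 := fun h0 => ha (Subtype.ext h0)
  have hb0 : (b : ℍ → ℂ) ≠ 0 := fun h0 => hb (Subtype.ext h0)
  have hroot : ∃ h₀ : HolH, h₀ ^ n = a * b ^ (n - 1) := by
    refine exists_root_HolH n hn _ fun z => ?_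
    obtain ⟨m, hm⟩ := h z
    have hbp : ((b ^ (n - 1) : HolH) : ℍ → ℂ) ∈ HolH := (b ^ (n - 1)).2
    have h1 : ordH ((a * b ^ (n - 1) : HolH) : ℍ → ℂ) z =
        ordH (a : ℍ → ℂ) z + (n - 1) • ordH (b : ℍ → ℂ) z := by
      have : ((a * b ^ (n - 1) : HolH) : ℍ → ℂ) = (a : ℍ → ℂ) * (b : ℍ → ℂ) ^ (n - 1) := rfl
      rw [this, ordH_mul a.2 (by simpa using hbp) z]
      congr 1
      unfold ordH
      have hba : AnalyticAt ℂ ((b : ℍ → ℂ) ∘ ofComplex) (z : ℂ) := analyticAt_comp_ofComplex b.2 z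
      have : ((b : ℍ → ℂ) ^ (n - 1)) ∘ ofComplex = ((b : ℍ → ℂ) ∘ ofComplex) ^ (n - 1) := rfl
      rw [this, analyticOrderAt_pow hba]
    obtain ⟨ka, hka⟩ := ENat.ne_top_iff_exists.1 (ordH_ne_top a.2 ha0 z)
    obtain ⟨kb, hkb⟩ := ENat.ne_top_iff_exists.1 (ordH_ne_top b.2 hb0 z)
    rw [← hka, ← hkb] at hm
    simp only [ENat.toNat_natCast] at hm
    -- `ka + (n-1) kb = n (m + kb)`
    have hn1 : 1 ≤ n := Nat.one_le_iff_ne_zero.2 hn
    have hm' : (ka : ℤ) + ((n - 1 : ℕ) : ℤ) * kb = n * (m + kb) := by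
      rw [Nat.cast_sub hn1]
      push_cast
      linarith
    have hnonneg : 0 ≤ m + kb := by
      have h2 : (0 : ℤ) ≤ (n : ℤ) * (m + kb) := by
        rw [← hm']
        positivity
      have h3 : (0 : ℤ) < n := by exact_mod_cast hn1
      exact nonneg_of_mul_nonneg_right h2 h3
    refine ⟨(m + kb).toNat, ?_⟩
    rw [h1, ← hka, ← hkb]
    have : ((ka + (n - 1) * kb : ℕ) : ℤ) = ((n * (m + kb).toNat : ℕ) : ℤ) := by
      push_cast
      rw [Int.toNat_of_nonneg hnonneg, ← hm']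
    have h4 : ka + (n - 1) * kb = n * (m + kb).toNat := by exact_mod_cast this
    rw [← h4]
    simp
  obtain ⟨h₀, hh₀⟩ := hroot
  refine ⟨h₀, hh₀, ?_⟩
  rw [hh₀, mul_assoc, ← pow_succ, Nat.sub_add_cancel (Nat.one_le_iff_ne_zero.2 hn)]

end Fermat.Agent.ES.KUM.RootsH14
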