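/-
Program J, chapter J1.2, corollary in the field `MerH = FractionRing HolH` of meromorphic functions
on `ℍ`: a quotient `a / b` (`a b : HolH` non-zero) all of whose orders `ord a - ord b` are divisible
by `n` is an `n`-th power in `MerH` (`exists_root_MerH`), and two `n`-th roots differ by an `n`-th
root of unity of the field `MerH` (`exists_pow_eq_one_of_pow_eq`).
-/
import Fermat.Agent.ES.KUM.RootsH14
import Fermat.Agent.X0.SurjPoint

set_option autoImplicit false

open UpperHalfPlane
open scoped Manifold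

noncomputable section

namespace Fermat.Agent.ES.KUM.RootsMer14

open Fermat.Agent.X0 Fermat.Agent.X0.SurjPoint Fermat.Agent.ES.KUM.RootsH14

/-- **`n`-th roots in `MerH`.**  If `a b : HolH` are non-zero and `ord_z a - ord_z b ∈ n ℤ` for
every `z : ℍ`, then `a / b` is an `n`-th power in `MerH`; more precisely there is `h₀ : HolH` with
`h₀ ^ n = a * b ^ (n - 1)`, and `x = h₀ / b` satisfies `x ^ n = a / b`. -/
theorem exists_root_MerH (n : ℕ) (hn : n ≠ 0) (a b : HolH) (ha : a ≠ 0) (hb : b ≠ 0)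
    (h : ∀ z : ℍ, ∃ m : ℤ, ((ordH (a : ℍ → ℂ) z).toNat : ℤ) - ((ordH (b : ℍ → ℂ) z).toNat : ℤ)
      = n * m) :
    ∃ x : MerH, x ≠ 0 ∧ x ^ n = algebraMap HolH MerH a / algebraMap HolH MerH b := by
  obtain ⟨h₀, -, hh₀⟩ := exists_root_mul_pow n hn a b ha hb h
  have hb' : algebraMap HolH MerH b ≠ 0 := by
    rw [Ne, ← map_zero (algebraMap HolH MerH)]
    exact fun h0 => hb (IsFractionRing.injective HolH MerH h0)
  have ha' : algebraMap HolH MerH a ≠ 0 := by
    rw [Ne, ← map_zero (algebraMap HolH MerH)]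
    exact fun h0 => ha (IsFractionRing.injective HolH MerH h0)
  have hx : (algebraMap HolH MerH h₀ / algebraMap HolH MerH b) ^ n =
      algebraMap HolH MerH a / algebraMap HolH MerH b := by
    have h1 := congrArg (algebraMap HolH MerH) hh₀
    rw [map_mul, map_mul, map_pow, map_pow] at h1
    rw [div_pow, div_eq_div_iff (pow_ne_zero _ hb') hb', h1]
  refine ⟨algebraMap HolH MerH h₀ / algebraMap HolH MerH b, ?_, hx⟩
  intro h0
  rw [h0, zero_pow hn] at hx
  exact div_ne_zero ha' hb' hx.symm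

/-- Two `n`-th roots of the same non-zero element of `MerH` differ by an `n`-th root of unity of
`MerH`. -/
theorem exists_pow_eq_one_of_pow_eq {n : ℕ} {x y : MerH} (hy : y ≠ 0) (h : x ^ n = y ^ n) :
    ∃ ζ : MerH, ζ ^ n = 1 ∧ x = ζ * y := by
  refine ⟨x / y, ?_, ?_⟩
  · rw [div_pow, h, div_self (pow_ne_zero _ hy)]
  · rw [div_mul_cancel₀ _ hy]

end Fermat.Agent.ES.KUM.RootsMer14
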