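/-
Program J (S30), chapter J1.3-INST (helper18): the CONCRETE Kummer map over `ℂ`.

Instantiation of helper17's abstract Kummer map (`KummerAbstract17`) at
`(K, F, M, G) = (ℂ, FC N, MerH, ↥(Gamma0 N))`, `Θ := realMer N`, `act γ := slMer γ`
(helper5's `CReal5`, `CPoint5`), with

* `settingC N` : the setting;
* `hasRootsC N n` : (ROOT) from helper14's `RootsMer14.exists_root_MerH` and the weak point dictionary
  `CPoint5.ordMer_realMer`;
* `constOnlyC N` : (CONST) from `RR/LSpace` (via `FieldL25.isGen_jL`);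
* `kummerC N n : ↥(Pic0.torsion ℂ (FC N) n) →+ Additive (↥(Gamma0 N) →* ℂˣ)` and its characterisation;
* `KumChar N n` : the target group (characters of exponent `n`, trivial on the elements of trace
  `|tr| ≤ 2`), the reduction `kummerC_mem_kumChar` of "`κ x ∈ KumChar`" to the two multiplier statements
  (elliptic / parabolic), and `kummerEquivC` from (INV) and surjectivity.
-/
import Mathlib
import Fermat.Agent.ES.KUM.KummerAbstract17
import Fermat.Agent.ES.KUM.CPoint5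
import Fermat.Agent.ES.KUM.RootsMer14
import Fermat.Agent.ES.KUM.FieldL25
import Fermat.Agent.RR.LHypGen

set_option autoImplicit false

open UpperHalfPlane ModularCurve AlgebraicCurve
open scoped MatrixGroups

noncomputable section

namespace Fermat.Agent.ES.KUM.KumInst18

open Fermat.Agent.X0 Fermat.Agent.X0.SurjPoint Fermat.Agent.ES.KUM
  Fermat.Agent.ES.KUM.KummerAbstract17

variable (N : ℕ) [NeZero N]

/-- the constants of `MerH`. -/
def constMer : ℂ →+* MerH := (algebraMap HolH MerH).comp (algebraMap ℂ HolH)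

@[simp] theorem constMer_apply (c : ℂ) :
    constMer c = algebraMap HolH MerH (algebraMap ℂ HolH c) := rfl

/-- **The Kummer setting over `ℂ` at level `N`.** -/
def settingC : Setting ℂ (FC N) MerH ↥(CongruenceSubgroup.Gamma0 N) where
  ι := constMer
  Θ := realMer N
  Θ_algebraMap c := realMer_algebraMap N c
  act γ := slMer (γ : SL(2, ℤ))
  act_ι γ c := slMer_const (γ : SL(2, ℤ)) c
  act_Θ γ f := slMer_realMer_of_mem N (γ : SL(2, ℤ)) γ.2 f
  act_mul_eigen := Setting.act_mul_eigen_of_right constMer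
    (fun γ : ↥(CongruenceSubgroup.Gamma0 N) => slMer (γ : SL(2, ℤ)))
    (fun γ c => slMer_const (γ : SL(2, ℤ)) c)
    (fun γ δ h => by
      change slMer ((γ : SL(2, ℤ)) * (δ : SL(2, ℤ))) h = _
      exact slMer_mul _ _ h)

@[simp] theorem settingC_ι (c : ℂ) :
    (settingC N).ι c = algebraMap HolH MerH (algebraMap ℂ HolH c) := rfl

@[simp] theorem settingC_Θ (f : FC N) : (settingC N).Θ f = realMer N f := rfl

@[simp] theorem settingC_act (γ : ↥(CongruenceSubgroup.Gamma0 N)) (h : MerH) :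
    (settingC N).act γ h = slMer (γ : SL(2, ℤ)) h := rfl

theorem realMer_ne_zero {f : FC N} (hf : f ≠ 0) : realMer N f ≠ 0 :=
  fun h => hf ((realMer N).injective (by rw [h, map_zero]))

/-- **(ROOT)**: an element of `F_ℂ` all of whose orders are divisible by `n` has an `n`-th root in
`MerH`. -/
theorem hasRootsC (n : ℕ) (hn : n ≠ 0) : (settingC N).HasRoots n := by
  intro f hf hdiv
  have hne : realMer N f ≠ 0 := realMer_ne_zero N hf
  obtain ⟨a, b, ha, hb, hab⟩ := exists_div_ne_zero_frac (S := HolH) (realMer N f) hne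
  have hz : ∀ z : ℍ, ∃ m : ℤ,
      ((ordH (a : ℍ → ℂ) z).toNat : ℤ) - ((ordH (b : ℍ → ℂ) z).toNat : ℤ) = n * m := by
    intro z
    obtain ⟨m, hm⟩ := hdiv (ptPlaceC N 1 z)
    refine ⟨ptIdx N 1 z * m, ?_⟩
    rw [← ordMer_div_algebraMap z ha hb, ← hab, ordMer_realMer N z hf, hm]
    ring
  obtain ⟨x, -, hx⟩ := RootsMer14.exists_root_MerH n hn a b ha hb hz
  exact ⟨x, by rw [hx, settingC_Θ, hab]⟩

/-- **(CONST)**: functions of `F_ℂ` without poles are constant. -/
theorem constOnlyC : ConstOnly ℂ (FC N) := fun _ hf =>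
  Fermat.Agent.RR.LSpace.eq_algebraMap_of_forall_ord_nonneg
    (Fermat.Agent.RR.LHypGen.lHyp_of_isGen (FieldL25.isGen_jL ℂ N)) hf

/-- **The Kummer map over `ℂ`**: `Pic0(F_ℂ)[n] → Hom(Γ0(N), ℂˣ)`. -/
def kummerC (n : ℕ) [NeZero n] :
    ↥(Pic0.torsion ℂ (FC N) n) →+ Additive (↥(CongruenceSubgroup.Gamma0 N) →* ℂˣ) :=
  kummer (settingC N) n (hasRootsC N n (NeZero.ne n)) (constOnlyC N)

/-- the character `κ x`. -/
def kumCharOf (n : ℕ) [NeZero n] (x : ↥(Pic0.torsion ℂ (FC N) n)) :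
    ↥(CongruenceSubgroup.Gamma0 N) →* ℂˣ :=
  Additive.toMul (kummerC N n x)

theorem isKum_kummerC (n : ℕ) [NeZero n] (x : ↥(Pic0.torsion ℂ (FC N) n)) :
    IsKum (settingC N) n (x : Pic0 ℂ (FC N)) (kumCharOf N n x) :=
  isKum_kummer (settingC N) n _ _ x

/-- **Characterisation**: for ANY datum `x = [D]`, `n • D = div f`, `h ^ n = Θ f`, one has
`h ∘ γ = κ x γ · h`. -/
theorem kummerC_eigen (n : ℕ) [NeZero n] (x : ↥(Pic0.torsion ℂ (FC N) n))
    {D : Divisor.degZero (K := ℂ) (F := FC N)} {f : FC N} {h : MerH}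
    (hd : IsDatum (settingC N) n (x : Pic0 ℂ (FC N)) D f h)
    (γ : ↥(CongruenceSubgroup.Gamma0 N)) :
    slMer (γ : SL(2, ℤ)) h =
      algebraMap HolH MerH (algebraMap ℂ HolH ((kumCharOf N n x γ : ℂˣ) : ℂ)) * h :=
  kummer_eigen (settingC N) n _ _ x hd γ

/-- every torsion class has a datum. -/
theorem exists_datum (n : ℕ) [NeZero n] (x : ↥(Pic0.torsion ℂ (FC N) n)) :
    ∃ (D : Divisor.degZero (K := ℂ) (F := FC N)) (f : FC N) (h : MerH),
      IsDatum (settingC N) n (x : Pic0 ℂ (FC N)) D f h ∧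
      ∀ γ : ↥(CongruenceSubgroup.Gamma0 N), slMer (γ : SL(2, ℤ)) h =
        algebraMap HolH MerH (algebraMap ℂ HolH ((kumCharOf N n x γ : ℂˣ) : ℂ)) * h :=
  isKum_kummerC N n x

theorem kummerC_pow_eq_one (n : ℕ) [NeZero n] (x : ↥(Pic0.torsion ℂ (FC N) n))
    (γ : ↥(CongruenceSubgroup.Gamma0 N)) : kumCharOf N n x γ ^ n = 1 :=
  kummer_pow_eq_one (settingC N) n _ _ x γ

theorem kummerC_eq_of_isKum (n : ℕ) [NeZero n] (x : ↥(Pic0.torsion ℂ (FC N) n))
    {χ : ↥(CongruenceSubgroup.Gamma0 N) →* ℂˣ}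
    (hχ : IsKum (settingC N) n (x : Pic0 ℂ (FC N)) χ) : kumCharOf N n x = χ := by
  have h := kummer_eq_of_isKum (settingC N) n (hasRootsC N n (NeZero.ne n)) (constOnlyC N) x hχ
  change Additive.toMul (kummerC N n x) = χ
  change kummerC N n x = Additive.ofMul χ at h
  rw [h]
  rfl

/-! ### The target group -/

/-- **The target of the Kummer map**: characters of `Γ0(N)` of exponent `n` which are trivial on the
elements of trace `|tr γ| ≤ 2` (parabolic, elliptic, `±1`). -/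
def KumChar (n : ℕ) : Subgroup (↥(CongruenceSubgroup.Gamma0 N) →* ℂˣ) where
  carrier := {χ | (∀ γ, χ γ ^ n = 1) ∧
    ∀ γ : ↥(CongruenceSubgroup.Gamma0 N), |((γ : SL(2, ℤ)) : Matrix (Fin 2) (Fin 2) ℤ).trace| ≤ 2 →
      χ γ = 1}
  mul_mem' := by
    rintro χ ψ ⟨h1, h2⟩ ⟨h1', h2'⟩
    refine ⟨fun γ => ?_, fun γ hγ => ?_⟩
    · rw [MonoidHom.mul_apply, mul_pow, h1, h1', one_mul]
    · rw [MonoidHom.mul_apply, h2 γ hγ, h2' γ hγ, one_mul]
  one_mem' := ⟨fun γ => by simp, fun γ _ => rfl⟩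
  inv_mem' := by
    rintro χ ⟨h1, h2⟩
    refine ⟨fun γ => ?_, fun γ hγ => ?_⟩
    · rw [MonoidHom.inv_apply, inv_pow, h1, inv_one]
    · rw [MonoidHom.inv_apply, h2 γ hγ, inv_one]

omit [NeZero N] in
theorem mem_kumChar_iff {n : ℕ} {χ : ↥(CongruenceSubgroup.Gamma0 N) →* ℂˣ} :
    χ ∈ KumChar N n ↔ (∀ γ, χ γ ^ n = 1) ∧
      ∀ γ : ↥(CongruenceSubgroup.Gamma0 N),
        |((γ : SL(2, ℤ)) : Matrix (Fin 2) (Fin 2) ℤ).trace| ≤ 2 → χ γ = 1 := Iff.rfl

/-- (MULT) the multiplier hypothesis: for every datum, the eigen-constant of an element of trace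
`|tr| ≤ 2` is `1`.  To be discharged by the elliptic (`EllMult14`), parabolic (`ParMult3`) and `±1`
multiplier formulas. -/
def MultTrivial (n : ℕ) : Prop :=
  ∀ (f : FC N) (h : MerH), f ≠ 0 → h ≠ 0 → h ^ n = realMer N f →
    (∀ v : Place ℂ (FC N), (n : ℤ) ∣ v.ord f) →
    ∀ (γ : ↥(CongruenceSubgroup.Gamma0 N)) (c : ℂ),
      |((γ : SL(2, ℤ)) : Matrix (Fin 2) (Fin 2) ℤ).trace| ≤ 2 →
      slMer (γ : SL(2, ℤ)) h = algebraMap HolH MerH (algebraMap ℂ HolH c) * h → c = 1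

/-- `κ x ∈ KumChar N n`, given the multiplier statements. -/
theorem kummerC_mem_kumChar (n : ℕ) [NeZero n] (hmult : MultTrivial N n)
    (x : ↥(Pic0.torsion ℂ (FC N) n)) : kumCharOf N n x ∈ KumChar N n := by
  refine ⟨kummerC_pow_eq_one N n x, fun γ hγ => ?_⟩
  obtain ⟨D, f, h, hd, he⟩ := exists_datum N n x
  have hh : h ≠ 0 := hd.ne_zero (NeZero.ne n)
  have hdiv : ∀ v : Place ℂ (FC N), (n : ℤ) ∣ v.ord f := fun v => ⟨_, (hd.2.2.1 v).symm⟩
  have h1 := hmult f h hd.2.1 hh hd.2.2.2 hdiv γ _ hγ (he γ)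
  exact Units.ext h1

/-- the Kummer map with values in `KumChar`. -/
def kummerToC (n : ℕ) [NeZero n] (hmult : MultTrivial N n) :
    ↥(Pic0.torsion ℂ (FC N) n) →+ Additive ↥(KumChar N n) :=
  kummerTo (settingC N) n (hasRootsC N n (NeZero.ne n)) (constOnlyC N) (KumChar N n)
    (kummerC_mem_kumChar N n hmult)

theorem kummerToC_apply (n : ℕ) [NeZero n] (hmult : MultTrivial N n)
    (x : ↥(Pic0.torsion ℂ (FC N) n)) :
    ((Additive.toMul (kummerToC N n hmult x) : ↥(KumChar N n)) :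
      ↥(CongruenceSubgroup.Gamma0 N) →* ℂˣ) = kumCharOf N n x := rfl

/-- injectivity of the Kummer map from (INV). -/
theorem kummerC_injective (n : ℕ) [NeZero n] (hinv : (settingC N).InvClosed n) :
    Function.Injective (kummerC N n) :=
  kummer_injective (settingC N) n _ _ hinv

/-- (SURJ) in the literal shape of the image criterion `exists_kummer_eq`: every `χ ∈ KumChar` has an
eigenfunction `h` with `h ^ n = Θ f`, `n ∣ ord_v f` for all places. -/
def HasEigenfunctions (n : ℕ) : Prop :=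
  ∀ χ ∈ KumChar N n, ∃ (h : MerH) (f : FC N), h ≠ 0 ∧ h ^ n = realMer N f ∧
    (∀ v : Place ℂ (FC N), (n : ℤ) ∣ v.ord f) ∧
    ∀ γ : ↥(CongruenceSubgroup.Gamma0 N), slMer (γ : SL(2, ℤ)) h =
      algebraMap HolH MerH (algebraMap ℂ HolH ((χ γ : ℂˣ) : ℂ)) * h

theorem kummerC_surjective_of (n : ℕ) [NeZero n] (hE : HasEigenfunctions N n)
    (χ : ↥(CongruenceSubgroup.Gamma0 N) →* ℂˣ) (hχ : χ ∈ KumChar N n) :
    ∃ x : ↥(Pic0.torsion ℂ (FC N) n), kummerC N n x = Additive.ofMul χ := by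
  obtain ⟨h, f, hh, hf, hdiv, he⟩ := hE χ hχ
  have := FieldL25.hasPrincipalDivisors_L ℂ N
  exact exists_kummer_eq (settingC N) n (hasRootsC N n (NeZero.ne n)) (constOnlyC N) χ hh he hf hdiv

/-- **The Kummer isomorphism over `ℂ`** from the three analytic inputs (MULT), (INV), (SURJ). -/
def kummerEquivC (n : ℕ) [NeZero n] (hmult : MultTrivial N n)
    (hinv : (settingC N).InvClosed n) (hE : HasEigenfunctions N n) :
    ↥(Pic0.torsion ℂ (FC N) n) ≃+ Additive ↥(KumChar N n) :=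
  kummerEquiv (settingC N) n (hasRootsC N n (NeZero.ne n)) (constOnlyC N) hinv (KumChar N n)
    (kummerC_mem_kumChar N n hmult) (kummerC_surjective_of N n hE)

theorem kummerEquivC_apply (n : ℕ) [NeZero n] (hmult : MultTrivial N n)
    (hinv : (settingC N).InvClosed n) (hE : HasEigenfunctions N n)
    (x : ↥(Pic0.torsion ℂ (FC N) n)) :
    ((Additive.toMul (kummerEquivC N n hmult hinv hE x) : ↥(KumChar N n)) :
      ↥(CongruenceSubgroup.Gamma0 N) →* ℂˣ) = kumCharOf N n x := rfl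

/-- finiteness of `Pic0(F_ℂ)[n]` (input of the descent J2) from (INV). -/
theorem finite_torsionC (n : ℕ) [NeZero n] (hinv : (settingC N).InvClosed n)
    (hfg : Group.FG ↥(CongruenceSubgroup.Gamma0 N)) : Finite ↥(Pic0.torsion ℂ (FC N) n) :=
  finite_torsion (settingC N) n (hasRootsC N n (NeZero.ne n)) (constOnlyC N) hinv hfg

end Fermat.Agent.ES.KUM.KumInst18
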