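/-
Program J, chapter J1 (Kummer theory on `ℍ`), file K1 (helper5): the function field
`F_ℂ = ℂ(j_d : d ∣ N) ⊆ ℂ((q))` of `X₀(N)` over `ℂ` and its analytic realisation.

* `FC N := ↥(laurentBaseChange ℂ (modularFunctionFieldFull N))`, generators `jdC`, `jC`,
  the subalgebra `RC N = ℂ[j_d : d ∣ N]`, `IsFractionRing (RC N) (FC N)`;
* `realC N : RC N →+* HolH` (injective, `j_d ↦ j(d z)`, constants, `Γ₀(N)`-invariant values,
  convergent `q`-expansion = the formal element);
* `slMer g : MerH →+* MerH` (precomposition with `g ∈ SL(2, ℤ)` on meromorphic functions);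
* `embC N g : FC N →+* MerH`, `u / s ↦ (Θ u ∘ g⁻¹) / (Θ s ∘ g⁻¹)`; `realMer N := embC N 1`.

Everything is a port of `X0/Analytic`, `X0/FracR`, `X0/SurjPoint` (first half) from `ℚbar` to `ℂ`,
through the field-free API `X0.Analytic.HasQExp`.
-/
import Fermat.Agent.X0.SurjPoint
import Fermat.Agent.X0.Analytic
import Fermat.Agent.X0.FracR

set_option autoImplicit false
set_option linter.unusedSectionVars false

open ModularCurve HahnSeries UpperHalfPlane
open scoped Topology Manifold MatrixGroups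

noncomputable section

namespace Fermat.Agent.ES.KUM

open Fermat.Agent.X0 Fermat.Agent.X0.Analytic Fermat.Agent.X0.SurjPoint Fermat.Agent.X0.JQExp
open IntermediateField

variable (N : ℕ) [NeZero N]

/-- The function field `F_ℂ = ℂ(j(q^d) : d ∣ N) ⊆ ℂ((q))` of `X₀(N)` over `ℂ`. -/
abbrev FC : Type := ↥(laurentBaseChange ℂ (modularFunctionFieldFull N))

/-- The formal `j(q^d)` as an element of `F_ℂ`, for `d ∣ N`. -/
def jdC (d : ℕ) [NeZero d] (hd : d ∣ N) : FC N :=
  ⟨coeffEmb ℂ (qExpand ℚ d jq), coeffEmb_mem_laurentBaseChange ℂ (jqd_mem_full N hd)⟩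

/-- The formal `j` as an element of `F_ℂ`. -/
def jC : FC N := jdC N 1 (one_dvd N)

/-- The generators `j_d`, `d ∣ N`, of `F_ℂ`. -/
def genSetC : Set (FC N) := {x | ∃ (d : ℕ) (_ : NeZero d) (hd : d ∣ N), x = jdC N d hd}

/-- The `ℂ`-subalgebra `R_ℂ = ℂ[j_d : d ∣ N]` of `F_ℂ`. -/
def RC : Subalgebra ℂ (FC N) := Algebra.adjoin ℂ (genSetC N)

theorem coe_jdC (d : ℕ) [NeZero d] (hd : d ∣ N) :
    ((jdC N d hd : FC N) : LaurentSeries ℂ) = coeffEmb ℂ (qExpand ℚ d jq) := rfl

theorem jdC_mem_genSetC (d : ℕ) [NeZero d] (hd : d ∣ N) : jdC N d hd ∈ genSetC N :=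
  ⟨d, inferInstance, hd, rfl⟩

/-- The generators, as elements of `R_ℂ`. -/
def jdRC (d : ℕ) [NeZero d] (hd : d ∣ N) : RC N :=
  ⟨jdC N d hd, Algebra.subset_adjoin (jdC_mem_genSetC N d hd)⟩

@[simp] theorem coe_jdRC (d : ℕ) [NeZero d] (hd : d ∣ N) :
    ((jdRC N d hd : RC N) : FC N) = jdC N d hd := rfl

/-- `j` as an element of `R_ℂ`. -/
def jRC : RC N := jdRC N 1 (one_dvd N)

@[simp] theorem coe_jRC : ((jRC N : RC N) : FC N) = jC N := rfl

/-- Induction principle for `R_ℂ`. -/
theorem RC_induction {p : RC N → Prop}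
    (hgen : ∀ (d : ℕ) [NeZero d] (hd : d ∣ N), p (jdRC N d hd))
    (hconst : ∀ c : ℂ, p (algebraMap ℂ (RC N) c))
    (hadd : ∀ u v, p u → p v → p (u + v))
    (hmul : ∀ u v, p u → p v → p (u * v)) (u : RC N) : p u := by
  obtain ⟨x, hx⟩ := u
  induction hx using Algebra.adjoin_induction with
  | mem y hy =>
      obtain ⟨d, hne, hd, rfl⟩ := hy
      have := hne
      exact hgen d hd
  | algebraMap c => exact hconst c
  | add x y hx hy ihx ihy => exact hadd ⟨x, hx⟩ ⟨y, hy⟩ ihx ihy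
  | mul x y hx hy ihx ihy => exact hmul ⟨x, hx⟩ ⟨y, hy⟩ ihx ihy

/-! ### `F_ℂ = Frac R_ℂ` -/

theorem coeffEmbC_algebraMap (r : ℚ) :
    coeffEmb ℂ (algebraMap ℚ (LaurentSeries ℚ) r) =
      algebraMap ℂ (LaurentSeries ℂ) (algebraMap ℚ ℂ r) := by
  rw [coeffEmb, algebraMap_laurentSeries_eq_single, algebraMap_laurentSeries_eq_single,
    coeffMap_single]

theorem coeffEmbC_mem_map {x : LaurentSeries ℚ} (hx : x ∈ modularFunctionFieldFull N) :
    coeffEmb ℂ x ∈
      (IntermediateField.adjoin ℂ (genSetC N)).map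
        (laurentBaseChange ℂ (modularFunctionFieldFull N)).val := by
  unfold modularFunctionFieldFull at hx
  induction hx using IntermediateField.adjoin_induction with
  | mem y hy =>
      obtain ⟨d, hne, hd, rfl⟩ := hy
      have := hne
      exact ⟨jdC N d hd, IntermediateField.subset_adjoin _ _ (jdC_mem_genSetC N d hd), rfl⟩
  | algebraMap r =>
      rw [coeffEmbC_algebraMap]
      exact IntermediateField.algebraMap_mem _ _
  | add x y _ _ hx hy => rw [map_add]; exact add_mem hx hy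
  | inv x _ hx => rw [map_inv₀]; exact inv_mem hx
  | mul x y _ _ hx hy => rw [map_mul]; exact mul_mem hx hy

/-- `F_ℂ = ℂ(j_d : d ∣ N)`. -/
theorem FC_eq_adjoin :
    (⊤ : IntermediateField ℂ (FC N)) = IntermediateField.adjoin ℂ (genSetC N) := by
  symm
  rw [eq_top_iff]
  intro y _
  have hle : laurentBaseChange ℂ (modularFunctionFieldFull N) ≤
      (IntermediateField.adjoin ℂ (genSetC N)).map
        (laurentBaseChange ℂ (modularFunctionFieldFull N)).val := by
    unfold laurentBaseChange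
    rw [IntermediateField.adjoin_le_iff]
    rintro _ ⟨x, hx, rfl⟩
    exact coeffEmbC_mem_map N hx
  obtain ⟨a, ha, hay⟩ := hle y.2
  have : a = y := Subtype.ext hay
  rw [← this]
  exact ha

theorem mem_adjoin_genSetC (y : FC N) : y ∈ IntermediateField.adjoin ℂ (genSetC N) := by
  rw [← FC_eq_adjoin]
  exact IntermediateField.mem_top

/-- Every element of `F_ℂ` is a quotient of two elements of `R_ℂ`. -/
theorem exists_divC (y : FC N) : ∃ r s : RC N, y = (r : FC N) / (s : FC N) := by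
  obtain ⟨r, hr, s, hs, h⟩ := IntermediateField.mem_adjoin_iff_div.mp (mem_adjoin_genSetC N y)
  exact ⟨⟨r, hr⟩, ⟨s, hs⟩, h⟩

/-- `F_ℂ` is the fraction field of `R_ℂ = ℂ[j_d : d ∣ N]`. -/
instance isFractionRingC : IsFractionRing (RC N) (FC N) :=
  IsFractionRing.of_field _ _ fun y => by
    obtain ⟨r, s, h⟩ := exists_divC N y
    exact ⟨r, s, h⟩

/-- Variant with a nonzero denominator. -/
theorem exists_divC_ne_zero (y : FC N) :
    ∃ r s : RC N, s ≠ 0 ∧ y = (r : FC N) / (s : FC N) := by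
  obtain ⟨r, s, h⟩ := exists_divC N y
  by_cases hs : s = 0
  · refine ⟨0, 1, one_ne_zero, ?_⟩
    rw [h, hs]
    simp
  · exact ⟨r, s, hs, h⟩

/-! ### convergent `q`-expansions of the elements of `R_ℂ` -/

theorem coeffEmbC_jq : coeffEmb ℂ jq = jqModC ℂ := by
  rw [← jqModC_rat]
  exact map_jqModC (algebraMap ℚ ℂ)

theorem coeffEmbC_jd (d : ℕ) [NeZero d] :
    coeffEmb ℂ (qExpand ℚ d jq) = qExpand ℂ d (jqModC ℂ) := by
  rw [coeffEmb, Analytic.coeffMap_qExpand]
  congr 1
  exact coeffEmbC_jq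

theorem hasQExp_jdC (d : ℕ) [NeZero d] :
    HasQExp (coeffEmb ℂ (qExpand ℚ d jq)) (jdFun d) := by
  rw [coeffEmbC_jd]
  exact hasQExp_jqModC.qExpand d

theorem algebraMapC_eq_C (c : ℂ) :
    algebraMap ℂ (LaurentSeries ℂ) c = HahnSeries.C c := by
  rw [algebraMap_laurentSeries_eq_single]
  rfl

theorem exists_hasQExp_of_memC {x : FC N} (hx : x ∈ RC N) :
    ∃ g : ℍ → ℂ, HasQExp (x : LaurentSeries ℂ) g := by
  unfold RC at hx
  induction hx using Algebra.adjoin_induction with
  | mem y hy =>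
      obtain ⟨d, hd0, hd, rfl⟩ := hy
      exact ⟨jdFun d, hasQExp_jdC d⟩
  | algebraMap c =>
      refine ⟨fun _ => c, ?_⟩
      have : ((algebraMap ℂ (FC N) c : FC N) : LaurentSeries ℂ)
          = algebraMap ℂ (LaurentSeries ℂ) c := rfl
      rw [this, algebraMapC_eq_C]
      exact HasQExp.const _
  | add y z _ _ hy hz =>
      obtain ⟨g₁, h₁⟩ := hy
      obtain ⟨g₂, h₂⟩ := hz
      refine ⟨g₁ + g₂, ?_⟩
      have : ((y + z : FC N) : LaurentSeries ℂ) = (y : LaurentSeries ℂ) + z := rfl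
      rw [this]
      exact h₁.add h₂
  | mul y z _ _ hy hz =>
      obtain ⟨g₁, h₁⟩ := hy
      obtain ⟨g₂, h₂⟩ := hz
      refine ⟨g₁ * g₂, ?_⟩
      have : ((y * z : FC N) : LaurentSeries ℂ) = (y : LaurentSeries ℂ) * z := rfl
      rw [this]
      exact h₁.mul h₂

/-- the holomorphic function attached to an element of `R_ℂ`. -/
def anFunC (u : RC N) : ℍ → ℂ := (exists_hasQExp_of_memC N u.2).choose

theorem hasQExp_anFunC (u : RC N) :
    HasQExp (((u : FC N)) : LaurentSeries ℂ) (anFunC N u) :=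
  (exists_hasQExp_of_memC N u.2).choose_spec

theorem anFunC_eq {u : RC N} {g : ℍ → ℂ}
    (h : HasQExp (((u : FC N)) : LaurentSeries ℂ) g) : anFunC N u = g :=
  (hasQExp_anFunC N u).unique_right h

theorem anFunC_mem_HolH (u : RC N) : anFunC N u ∈ HolH :=
  (hasQExp_anFunC N u).mdifferentiable

/-- The analytic realisation `Θ_ℂ : R_ℂ = ℂ[j_d : d ∣ N] → Hol(ℍ)`. -/
def realC : RC N →+* HolH where
  toFun u := ⟨anFunC N u, anFunC_mem_HolH N u⟩
  map_one' := by
    apply Subtype.ext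
    apply anFunC_eq
    have : (((1 : RC N) : FC N) : LaurentSeries ℂ) = 1 := rfl
    rw [this]
    have h := HasQExp.const 1
    rw [map_one] at h
    exact h
  map_mul' u w := by
    apply Subtype.ext
    apply anFunC_eq
    have : (((u * w : RC N) : FC N) : LaurentSeries ℂ)
        = ((u : FC N) : LaurentSeries ℂ) * ((w : FC N) : LaurentSeries ℂ) := rfl
    rw [this]
    exact (hasQExp_anFunC N u).mul (hasQExp_anFunC N w)
  map_zero' := by
    apply Subtype.ext
    apply anFunC_eq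
    have : (((0 : RC N) : FC N) : LaurentSeries ℂ) = 0 := rfl
    rw [this]
    have h := HasQExp.const 0
    rw [map_zero] at h
    exact h
  map_add' u w := by
    apply Subtype.ext
    apply anFunC_eq
    have : (((u + w : RC N) : FC N) : LaurentSeries ℂ)
        = ((u : FC N) : LaurentSeries ℂ) + ((w : FC N) : LaurentSeries ℂ) := rfl
    rw [this]
    exact (hasQExp_anFunC N u).add (hasQExp_anFunC N w)

theorem coe_realC (u : RC N) : ((realC N u : HolH) : ℍ → ℂ) = anFunC N u := rfl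

/-- The realisation has the formal element as its convergent `q`-expansion. -/
theorem hasQExp_realC (u : RC N) :
    HasQExp (((u : FC N)) : LaurentSeries ℂ) ((realC N u : HolH) : ℍ → ℂ) :=
  hasQExp_anFunC N u

theorem realC_eq_of_hasQExp {u : RC N} {g : ℍ → ℂ}
    (h : HasQExp (((u : FC N)) : LaurentSeries ℂ) g) : ((realC N u : HolH) : ℍ → ℂ) = g :=
  anFunC_eq N h

theorem realC_injective : Function.Injective (realC N) := by
  intro u w h
  have h1 := hasQExp_realC N u
  have h2 := hasQExp_realC N w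
  rw [h] at h1
  exact Subtype.ext (Subtype.ext (h1.unique_left h2))

theorem realC_algebraMap (c : ℂ) :
    ((realC N (algebraMap ℂ (RC N) c) : HolH) : ℍ → ℂ) = fun _ => c := by
  apply realC_eq_of_hasQExp
  have : (((algebraMap ℂ (RC N) c : RC N) : FC N) : LaurentSeries ℂ)
      = algebraMap ℂ (LaurentSeries ℂ) c := rfl
  rw [this, algebraMapC_eq_C]
  exact HasQExp.const _

theorem realC_algebraMap' (c : ℂ) :
    realC N (algebraMap ℂ (RC N) c) = algebraMap ℂ HolH c :=
  Subtype.ext (realC_algebraMap N c)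

theorem realC_jdRC (d : ℕ) [NeZero d] (hd : d ∣ N) :
    ((realC N (jdRC N d hd) : HolH) : ℍ → ℂ) = jdFun d := by
  apply realC_eq_of_hasQExp
  exact hasQExp_jdC d

theorem realC_jRC : ((realC N (jRC N) : HolH) : ℍ → ℂ) = jFun := by
  rw [jRC, realC_jdRC]
  funext z
  unfold jdFun
  congr 1
  apply UpperHalfPlane.ext
  simp

/-- `q`-expansion datum in the sense of `X0/AnDefs`. -/
theorem realC_isQExp (u : RC N) :
    ∃ (m : ℕ) (P : PowerSeries ℂ), IsQExp 1 ((realC N u : HolH) : ℍ → ℂ) m P ∧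
      (((u : FC N)) : LaurentSeries ℂ) = laurentOf m P :=
  (hasQExp_realC N u).exists_isQExp

/-- `Γ₀(N)`-invariance of the realisation. -/
theorem realC_Gamma0_invariant (u : RC N) (γ : SL(2, ℤ))
    (hγ : γ ∈ CongruenceSubgroup.Gamma0 N) :
    compSL ((realC N u : HolH) : ℍ → ℂ) γ = ((realC N u : HolH) : ℍ → ℂ) := by
  have hN : (N : ℤ) ∣ γ 1 0 := by
    rw [CongruenceSubgroup.Gamma0_mem] at hγ
    exact (ZMod.intCast_zmod_eq_zero_iff_dvd _ _).mp hγ
  induction u using RC_induction with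
  | hgen d hd =>
      rw [realC_jdRC]
      funext z
      have hd' : (d : ℤ) ∣ γ 1 0 := (Int.natCast_dvd_natCast.mpr hd).trans hN
      exact Analytic.jdFun_smul_of_dvd γ d hd' z
  | hconst c =>
      rw [realC_algebraMap]
      rfl
  | hadd u v ihu ihv =>
      rw [map_add]
      show compSL ((realC N u : HolH) : ℍ → ℂ) γ + compSL ((realC N v : HolH) : ℍ → ℂ) γ = _
      rw [ihu, ihv]
      rfl
  | hmul u v ihu ihv =>
      rw [map_mul]
      show compSL ((realC N u : HolH) : ℍ → ℂ) γ * compSL ((realC N v : HolH) : ℍ → ℂ) γ = _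
      rw [ihu, ihv]
      rfl

theorem compSLHom_realC_of_mem (u : RC N) (γ : SL(2, ℤ))
    (hγ : γ ∈ CongruenceSubgroup.Gamma0 N) : compSLHom γ (realC N u) = realC N u :=
  Subtype.ext (realC_Gamma0_invariant N u γ hγ)

/-! ### `SL(2, ℤ)` acting on meromorphic functions -/

theorem compSLHom_mul (γ δ : SL(2, ℤ)) (f : HolH) :
    compSLHom (γ * δ) f = compSLHom δ (compSLHom γ f) :=
  Subtype.ext (compSL_mul f.1 γ δ)

theorem compSLHom_one (f : HolH) : compSLHom 1 f = f :=
  Subtype.ext (compSL_one f.1)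

theorem compSLHom_inv_cancel (γ : SL(2, ℤ)) (f : HolH) :
    compSLHom γ (compSLHom γ⁻¹ f) = f := by
  rw [← compSLHom_mul, inv_mul_cancel, compSLHom_one]

theorem compSLHom_cancel_inv (γ : SL(2, ℤ)) (f : HolH) :
    compSLHom γ⁻¹ (compSLHom γ f) = f := by
  rw [← compSLHom_mul, mul_inv_cancel, compSLHom_one]

theorem compSLHom_injective (γ : SL(2, ℤ)) : Function.Injective (compSLHom γ) := by
  intro f g h
  rw [← compSLHom_cancel_inv γ f, h, compSLHom_cancel_inv]

/-- Precomposition with `γ ∈ SL(2, ℤ)` on the field of meromorphic functions on `ℍ`: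
`a / b ↦ (a ∘ γ) / (b ∘ γ)`. -/
def slMer (γ : SL(2, ℤ)) : MerH →+* MerH :=
  IsFractionRing.lift (A := HolH) (K := MerH)
    (g := (algebraMap HolH MerH).comp (compSLHom γ))
    ((IsFractionRing.injective HolH MerH).comp (compSLHom_injective γ))

theorem slMer_algebraMap (γ : SL(2, ℤ)) (a : HolH) :
    slMer γ (algebraMap HolH MerH a) = algebraMap HolH MerH (compSLHom γ a) :=
  IsFractionRing.lift_algebraMap _ a

theorem slMer_div (γ : SL(2, ℤ)) (a b : HolH) :
    slMer γ (algebraMap HolH MerH a / algebraMap HolH MerH b) =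
      algebraMap HolH MerH (compSLHom γ a) / algebraMap HolH MerH (compSLHom γ b) := by
  rw [map_div₀, slMer_algebraMap, slMer_algebraMap]

theorem exists_div_MerH (h : MerH) :
    ∃ a b : HolH, b ≠ 0 ∧ h = algebraMap HolH MerH a / algebraMap HolH MerH b := by
  obtain ⟨a, b, hb, rfl⟩ := IsFractionRing.div_surjective (A := HolH) h
  exact ⟨a, b, nonZeroDivisors.ne_zero hb, rfl⟩

theorem slMer_mul (γ δ : SL(2, ℤ)) (h : MerH) :
    slMer (γ * δ) h = slMer δ (slMer γ h) := by
  obtain ⟨a, b, -, rfl⟩ := exists_div_MerH h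
  rw [slMer_div, slMer_div, slMer_div, compSLHom_mul, compSLHom_mul]

theorem slMer_one (h : MerH) : slMer 1 h = h := by
  obtain ⟨a, b, -, rfl⟩ := exists_div_MerH h
  rw [slMer_div, compSLHom_one, compSLHom_one]

theorem slMer_inv_cancel (γ : SL(2, ℤ)) (h : MerH) : slMer γ (slMer γ⁻¹ h) = h := by
  rw [← slMer_mul, inv_mul_cancel, slMer_one]

theorem slMer_cancel_inv (γ : SL(2, ℤ)) (h : MerH) : slMer γ⁻¹ (slMer γ h) = h := by
  rw [← slMer_mul, mul_inv_cancel, slMer_one]

/-- Constants are fixed. -/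
theorem slMer_const (γ : SL(2, ℤ)) (c : ℂ) :
    slMer γ (algebraMap HolH MerH (algebraMap ℂ HolH c)) =
      algebraMap HolH MerH (algebraMap ℂ HolH c) := by
  rw [slMer_algebraMap]
  rfl

/-! ### The embeddings `F_ℂ → MerH` -/

/-- `u ↦ Θ u ∘ g⁻¹` as a ring hom `R_ℂ → HolH`. -/
def embRC (g : SL(2, ℤ)) : RC N →+* HolH := (compSLHom g⁻¹).comp (realC N)

theorem coe_embRC (g : SL(2, ℤ)) (u : RC N) :
    ((embRC N g u : HolH) : ℍ → ℂ) = compSL ((realC N u : HolH) : ℍ → ℂ) g⁻¹ := rfl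

theorem embRC_injective (g : SL(2, ℤ)) : Function.Injective (embRC N g) :=
  (compSLHom_injective g⁻¹).comp (realC_injective N)

theorem embRC_ne_zero (g : SL(2, ℤ)) {u : RC N} (hu : u ≠ 0) : embRC N g u ≠ 0 :=
  fun h => hu (embRC_injective N g (by rw [h, map_zero]))

/-- The embedding `F_ℂ → MerH`, `u / s ↦ (Θ u ∘ g⁻¹) / (Θ s ∘ g⁻¹)`. -/
def embC (g : SL(2, ℤ)) : FC N →+* MerH :=
  IsFractionRing.lift (A := RC N) (K := FC N)
    (g := (algebraMap HolH MerH).comp (embRC N g))
    ((IsFractionRing.injective HolH MerH).comp (embRC_injective N g))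

theorem embC_coe (g : SL(2, ℤ)) (u : RC N) :
    embC N g (u : FC N) = algebraMap HolH MerH (embRC N g u) :=
  IsFractionRing.lift_algebraMap _ u

theorem embC_div (g : SL(2, ℤ)) (u s : RC N) :
    embC N g ((u : FC N) / (s : FC N)) =
      algebraMap HolH MerH (embRC N g u) / algebraMap HolH MerH (embRC N g s) := by
  rw [map_div₀, embC_coe, embC_coe]

theorem embC_injective (g : SL(2, ℤ)) : Function.Injective (embC N g) :=
  (embC N g).injective

theorem embC_algebraMap (g : SL(2, ℤ)) (a : ℂ) :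
    embC N g (algebraMap ℂ (FC N) a) = algebraMap HolH MerH (algebraMap ℂ HolH a) := by
  change embC N g ((algebraMap ℂ (RC N) a : RC N) : FC N) = _
  rw [embC_coe]
  congr 1
  apply Subtype.ext
  rw [coe_embRC, realC_algebraMap]
  rfl

theorem embC_jC (g : SL(2, ℤ)) :
    embC N g (jC N) = algebraMap HolH MerH ⟨jFun, jFun_mdifferentiable⟩ := by
  change embC N g ((jRC N : RC N) : FC N) = _
  rw [embC_coe]
  congr 1
  apply Subtype.ext
  rw [coe_embRC, realC_jRC]
  funext z
  exact jFun_smul g⁻¹ z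

/-- The realisation of `F_ℂ` in the field of meromorphic functions on `ℍ`. -/
def realMer : FC N →+* MerH := embC N 1

theorem embRC_eq (g : SL(2, ℤ)) (u : RC N) : embRC N g u = compSLHom g⁻¹ (realC N u) := rfl

theorem embRC_one (u : RC N) : embRC N 1 u = realC N u := by
  rw [embRC_eq, inv_one, compSLHom_one]

theorem realMer_coe (u : RC N) : realMer N (u : FC N) = algebraMap HolH MerH (realC N u) := by
  rw [realMer, embC_coe, embRC_one]

/-- `embC g = (· ∘ g⁻¹) ∘ realMer`. -/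
theorem embC_eq_slMer (g : SL(2, ℤ)) (f : FC N) : embC N g f = slMer g⁻¹ (realMer N f) := by
  obtain ⟨u, s, -, rfl⟩ := exists_divC_ne_zero N f
  rw [embC_div, realMer, embC_div, slMer_div, embRC_one, embRC_one]
  rfl

/-- The realisation of `F_ℂ` consists of `Γ₀(N)`-invariant functions. -/
theorem slMer_realMer_of_mem (γ : SL(2, ℤ)) (hγ : γ ∈ CongruenceSubgroup.Gamma0 N) (f : FC N) :
    slMer γ (realMer N f) = realMer N f := by
  obtain ⟨u, s, -, rfl⟩ := exists_divC_ne_zero N f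
  rw [map_div₀, realMer_coe, realMer_coe, slMer_div, compSLHom_realC_of_mem N u γ hγ,
    compSLHom_realC_of_mem N s γ hγ]

/-- `embC` only depends on the coset `g Γ₀(N)`. -/
theorem embC_mul_of_mem (g γ : SL(2, ℤ)) (hγ : γ ∈ CongruenceSubgroup.Gamma0 N) (f : FC N) :
    embC N (g * γ) f = embC N g f := by
  rw [embC_eq_slMer, embC_eq_slMer, mul_inv_rev, slMer_mul,
    slMer_realMer_of_mem N γ⁻¹ (inv_mem hγ)]

theorem realMer_algebraMap (a : ℂ) :
    realMer N (algebraMap ℂ (FC N) a) = algebraMap HolH MerH (algebraMap ℂ HolH a) :=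
  embC_algebraMap N 1 a

theorem realMer_jC : realMer N (jC N) = algebraMap HolH MerH ⟨jFun, jFun_mdifferentiable⟩ :=
  embC_jC N 1

end Fermat.Agent.ES.KUM
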