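/-
Program J, chapter J1 (Kummer theory on `ℍ`), file K2 (helper5): the `ℤ`-valued order `ordMer z₀`
on the field `MerH` of meromorphic functions on `ℍ`, and the POINT PLACES of `F_ℂ` (weak form):
for `g ∈ SL(2, ℤ)`, `z₀ ∈ ℍ` there are a place `ptPlaceC N g z₀` of `F_ℂ / ℂ` and an index
`ptIdx N g z₀ > 0` with
  `ordMer z₀ (embC N g f) = ptIdx N g z₀ * (ptPlaceC N g z₀).ord f`   (`f ≠ 0`).
The exact value of the index (the order of the stabiliser of `z₀` in `g Γ₀(N) g⁻¹ / ±1`) is NOT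
needed for the Kummer injection; it is determined in `CExact5`.
-/
import Fermat.Agent.ES.KUM.CReal5
import Fermat.Agent.X0.FFOrderPlace
import Fermat.Agent.X0.JOrderFinal

set_option autoImplicit false
set_option linter.unusedSectionVars false

open UpperHalfPlane
open scoped Topology Manifold MatrixGroups

noncomputable section

namespace Fermat.Agent.ES.KUM

open Fermat.Agent.X0 Fermat.Agent.X0.SurjPoint Fermat.Agent.X0.OrdVal AlgebraicCurve

/-! ### The `ℤ`-valued order on the fraction field attached to an `ℕ∞`-valued order function -/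

section OrdFrac

variable {S : Type*} [CommRing S] [IsDomain S] {E : Type*} [Field E] [Algebra S E]
  [IsFractionRing S E] {w : S → ℕ∞}

theorem algebraMap_ne_zero_of_ne {a : S} (ha : a ≠ 0) : algebraMap S E a ≠ 0 := by
  rwa [Ne, IsFractionRing.to_map_eq_zero_iff]

theorem exists_div_ne_zero_frac (x : E) (hx : x ≠ 0) :
    ∃ a b : S, a ≠ 0 ∧ b ≠ 0 ∧ x = algebraMap S E a / algebraMap S E b := by
  obtain ⟨a, b, hb, rfl⟩ := IsFractionRing.div_surjective (A := S) x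
  have hb0 : b ≠ 0 := nonZeroDivisors.ne_zero hb
  refine ⟨a, b, ?_, hb0, rfl⟩
  rintro rfl
  apply hx
  simp

open Classical in
/-- The `ℤ`-valued order function on `E = Frac S` attached to `w` (`0` at `0`). -/
def ordFrac (_hw : IsOrd w) (x : E) : ℤ :=
  if hx : x = 0 then 0 else
    ((w (exists_div_ne_zero_frac (S := S) x hx).choose).toNat : ℤ) -
      ((w (exists_div_ne_zero_frac (S := S) x hx).choose_spec.choose).toNat : ℤ)

variable (hw : IsOrd w)

include hw in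
theorem ordFrac_welldefined {a b a' b' : S} (ha : a ≠ 0) (hb : b ≠ 0) (ha' : a' ≠ 0) (hb' : b' ≠ 0)
    (h : algebraMap S E a / algebraMap S E b = algebraMap S E a' / algebraMap S E b') :
    ((w a).toNat : ℤ) - ((w b).toNat : ℤ) = ((w a').toNat : ℤ) - ((w b').toNat : ℤ) := by
  have hbE : algebraMap S E b ≠ 0 := algebraMap_ne_zero_of_ne hb
  have hbE' : algebraMap S E b' ≠ 0 := algebraMap_ne_zero_of_ne hb'
  rw [div_eq_div_iff hbE hbE', ← map_mul, ← map_mul] at h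
  have h2 : a * b' = a' * b := IsFractionRing.injective S E h
  have h3 : w a + w b' = w a' + w b := by rw [← hw.map_mul, ← hw.map_mul, h2]
  have e1 := ENat.natCast_toNat (hw.ne_top ha)
  have e2 := ENat.natCast_toNat (hw.ne_top hb)
  have e3 := ENat.natCast_toNat (hw.ne_top ha')
  have e4 := ENat.natCast_toNat (hw.ne_top hb')
  rw [← e1, ← e2, ← e3, ← e4] at h3
  have h4 : (w a).toNat + (w b').toNat = (w a').toNat + (w b).toNat := by exact_mod_cast h3
  omega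

@[simp] theorem ordFrac_zero : ordFrac hw (0 : E) = 0 := by
  unfold ordFrac
  rw [dif_pos rfl]

theorem ordFrac_div {a b : S} (ha : a ≠ 0) (hb : b ≠ 0) :
    ordFrac hw (algebraMap S E a / algebraMap S E b) = ((w a).toNat : ℤ) - ((w b).toNat : ℤ) := by
  have hx : algebraMap S E a / algebraMap S E b ≠ 0 :=
    div_ne_zero (algebraMap_ne_zero_of_ne ha) (algebraMap_ne_zero_of_ne hb)
  unfold ordFrac
  rw [dif_neg hx]
  obtain ⟨h1, h2, h3⟩ := (exists_div_ne_zero_frac (S := S) _ hx).choose_spec.choose_spec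
  exact (ordFrac_welldefined hw ha hb h1 h2 h3).symm

theorem ordFrac_algebraMap {a : S} (ha : a ≠ 0) :
    ordFrac hw (algebraMap S E a) = ((w a).toNat : ℤ) := by
  have h := ordFrac_div (E := E) hw ha (one_ne_zero (α := S))
  rw [map_one, div_one, hw.map_one] at h
  simpa using h

theorem ordFrac_mul {x y : E} (hx : x ≠ 0) (hy : y ≠ 0) :
    ordFrac hw (x * y) = ordFrac hw x + ordFrac hw y := by
  obtain ⟨a, b, ha, hb, rfl⟩ := exists_div_ne_zero_frac (S := S) x hx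
  obtain ⟨a', b', ha', hb', rfl⟩ := exists_div_ne_zero_frac (S := S) y hy
  have e : algebraMap S E a / algebraMap S E b * (algebraMap S E a' / algebraMap S E b')
      = algebraMap S E (a * a') / algebraMap S E (b * b') := by
    rw [map_mul, map_mul, div_mul_div_comm]
  rw [e, ordFrac_div hw (mul_ne_zero ha ha') (mul_ne_zero hb hb'), ordFrac_div hw ha hb,
    ordFrac_div hw ha' hb', hw.map_mul, hw.map_mul,
    ENat.toNat_add (hw.ne_top ha) (hw.ne_top ha'), ENat.toNat_add (hw.ne_top hb) (hw.ne_top hb')]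
  push_cast
  ring

theorem ordFrac_one : ordFrac hw (1 : E) = 0 := by
  have h := ordFrac_algebraMap (E := E) hw (one_ne_zero (α := S))
  rw [map_one, hw.map_one] at h
  simpa using h

theorem ordFrac_inv (x : E) : ordFrac hw x⁻¹ = -ordFrac hw x := by
  rcases eq_or_ne x 0 with rfl | hx
  · simp
  have h := ordFrac_mul hw hx (inv_ne_zero hx)
  rw [mul_inv_cancel₀ hx, ordFrac_one] at h
  linarith

theorem ordFrac_div' {x y : E} (hx : x ≠ 0) (hy : y ≠ 0) :
    ordFrac hw (x / y) = ordFrac hw x - ordFrac hw y := by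
  rw [div_eq_mul_inv, ordFrac_mul hw hx (inv_ne_zero hy), ordFrac_inv]
  ring

theorem ordFrac_pow {x : E} (hx : x ≠ 0) (n : ℕ) : ordFrac hw (x ^ n) = n * ordFrac hw x := by
  induction n with
  | zero => simp [ordFrac_one]
  | succ n ih =>
    rw [pow_succ, ordFrac_mul hw (pow_ne_zero n hx) hx, ih]
    push_cast
    ring

theorem ordFrac_add {x y : E} (hx : x ≠ 0) (hy : y ≠ 0) (hxy : x + y ≠ 0) :
    min (ordFrac hw x) (ordFrac hw y) ≤ ordFrac hw (x + y) := by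
  obtain ⟨a, b, ha, hb, rfl⟩ := exists_div_ne_zero_frac (S := S) x hx
  obtain ⟨a', b', ha', hb', rfl⟩ := exists_div_ne_zero_frac (S := S) y hy
  have hbE : algebraMap S E b ≠ 0 := algebraMap_ne_zero_of_ne hb
  have hbE' : algebraMap S E b' ≠ 0 := algebraMap_ne_zero_of_ne hb'
  have e : algebraMap S E a / algebraMap S E b + algebraMap S E a' / algebraMap S E b'
      = algebraMap S E (a * b' + a' * b) / algebraMap S E (b * b') := by
    rw [map_add, map_mul, map_mul, map_mul, div_add_div _ _ hbE hbE']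
    congr 1
    ring
  have hnum : a * b' + a' * b ≠ 0 := by
    intro h0
    apply hxy
    rw [e, h0, map_zero, zero_div]
  rw [e, ordFrac_div hw hnum (mul_ne_zero hb hb'), ordFrac_div hw ha hb, ordFrac_div hw ha' hb']
  have h1 := hw.map_add (a * b') (a' * b)
  rw [hw.map_mul, hw.map_mul] at h1
  have e1 := ENat.natCast_toNat (hw.ne_top ha)
  have e2 := ENat.natCast_toNat (hw.ne_top hb)
  have e3 := ENat.natCast_toNat (hw.ne_top ha')
  have e4 := ENat.natCast_toNat (hw.ne_top hb')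
  have e5 := ENat.natCast_toNat (hw.ne_top hnum)
  rw [hw.map_mul, ENat.toNat_add (hw.ne_top hb) (hw.ne_top hb')]
  rw [← e1, ← e2, ← e3, ← e4, ← e5] at h1
  push_cast
  rcases le_total ((w a).toNat + (w b').toNat) ((w a').toNat + (w b).toNat) with h | h
  · have h' : ((w a).toNat : ℕ∞) + ((w b').toNat : ℕ∞)
        ≤ ((w a').toNat : ℕ∞) + ((w b).toNat : ℕ∞) := by exact_mod_cast h
    rw [min_eq_left h'] at h1
    have h2 : (w a).toNat + (w b').toNat ≤ (w (a * b' + a' * b)).toNat := by exact_mod_cast h1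
    refine le_trans (min_le_left _ _) ?_
    omega
  · have h' : ((w a').toNat : ℕ∞) + ((w b).toNat : ℕ∞)
        ≤ ((w a).toNat : ℕ∞) + ((w b').toNat : ℕ∞) := by exact_mod_cast h
    rw [min_eq_right h'] at h1
    have h2 : (w a').toNat + (w b).toNat ≤ (w (a * b' + a' * b)).toNat := by exact_mod_cast h1
    refine le_trans (min_le_right _ _) ?_
    omega

theorem mem_valuationSubring_iff_ordFrac {x : E} (hx : x ≠ 0) :
    x ∈ hw.valuationSubring (E := E) ↔ 0 ≤ ordFrac hw x := by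
  obtain ⟨a, b, ha, hb, rfl⟩ := exists_div_ne_zero_frac (S := S) x hx
  rw [hw.div_mem_valuationSubring_iff a b hb, ordFrac_div hw ha hb,
    ← ENat.natCast_toNat (hw.ne_top ha), ← ENat.natCast_toNat (hw.ne_top hb), Nat.cast_le]
  simp only [ENat.toNat_natCast]
  omega

theorem mem_nonunits_iff_ordFrac {x : E} (hx : x ≠ 0) :
    x ∈ (hw.valuationSubring (E := E)).nonunits ↔ 0 < ordFrac hw x := by
  obtain ⟨a, b, ha, hb, rfl⟩ := exists_div_ne_zero_frac (S := S) x hx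
  rw [hw.div_mem_nonunits_iff a b hb, ordFrac_div hw ha hb,
    ← ENat.natCast_toNat (hw.ne_top ha), ← ENat.natCast_toNat (hw.ne_top hb), Nat.cast_lt]
  simp only [ENat.toNat_natCast]
  omega

end OrdFrac

/-! ### The order of a meromorphic function on `ℍ` at a point -/

/-- The order at `z₀` of a meromorphic function on `ℍ` (`0` for the zero function). -/
def ordMer (z₀ : ℍ) : MerH → ℤ := ordFrac (isOrd_ordH z₀)

@[simp] theorem ordMer_zero (z₀ : ℍ) : ordMer z₀ 0 = 0 := ordFrac_zero _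

theorem ordMer_one (z₀ : ℍ) : ordMer z₀ 1 = 0 := ordFrac_one _

theorem ordMer_mul (z₀ : ℍ) {x y : MerH} (hx : x ≠ 0) (hy : y ≠ 0) :
    ordMer z₀ (x * y) = ordMer z₀ x + ordMer z₀ y := ordFrac_mul _ hx hy

theorem ordMer_inv (z₀ : ℍ) (x : MerH) : ordMer z₀ x⁻¹ = -ordMer z₀ x := ordFrac_inv _ x

theorem ordMer_div (z₀ : ℍ) {x y : MerH} (hx : x ≠ 0) (hy : y ≠ 0) :
    ordMer z₀ (x / y) = ordMer z₀ x - ordMer z₀ y := ordFrac_div' _ hx hy

theorem ordMer_pow (z₀ : ℍ) {x : MerH} (hx : x ≠ 0) (n : ℕ) :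
    ordMer z₀ (x ^ n) = n * ordMer z₀ x := ordFrac_pow _ hx n

theorem ordMer_add (z₀ : ℍ) {x y : MerH} (hx : x ≠ 0) (hy : y ≠ 0) (hxy : x + y ≠ 0) :
    min (ordMer z₀ x) (ordMer z₀ y) ≤ ordMer z₀ (x + y) := ordFrac_add _ hx hy hxy

theorem ordMer_algebraMap (z₀ : ℍ) {a : HolH} (ha : a ≠ 0) :
    ordMer z₀ (algebraMap HolH MerH a) = ((ordH (a : ℍ → ℂ) z₀).toNat : ℤ) :=
  ordFrac_algebraMap _ ha

theorem ordMer_div_algebraMap (z₀ : ℍ) {a b : HolH} (ha : a ≠ 0) (hb : b ≠ 0) :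
    ordMer z₀ (algebraMap HolH MerH a / algebraMap HolH MerH b) =
      ((ordH (a : ℍ → ℂ) z₀).toNat : ℤ) - ((ordH (b : ℍ → ℂ) z₀).toNat : ℤ) :=
  ordFrac_div _ ha hb

theorem mem_valAt_iff (z₀ : ℍ) {x : MerH} (hx : x ≠ 0) : x ∈ valAt z₀ ↔ 0 ≤ ordMer z₀ x :=
  mem_valuationSubring_iff_ordFrac _ hx

theorem mem_nonunits_valAt_iff (z₀ : ℍ) {x : MerH} (hx : x ≠ 0) :
    x ∈ (valAt z₀).nonunits ↔ 0 < ordMer z₀ x :=
  mem_nonunits_iff_ordFrac _ hx

theorem algebraMap_const_ne_zero {c : ℂ} (hc : c ≠ 0) : algebraMap ℂ HolH c ≠ 0 := by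
  intro h
  apply hc
  have h1 := congrArg (fun f : HolH => (f : ℍ → ℂ) ptI) h
  simpa using h1

theorem ordMer_const (z₀ : ℍ) {c : ℂ} (hc : c ≠ 0) :
    ordMer z₀ (algebraMap HolH MerH (algebraMap ℂ HolH c)) = 0 := by
  rw [ordMer_algebraMap z₀ (algebraMap_const_ne_zero hc)]
  have : ordH ((algebraMap ℂ HolH c : HolH) : ℍ → ℂ) z₀ = 0 := ordH_const hc z₀
  rw [this]
  rfl

theorem compSLHom_ne_zero (γ : SL(2, ℤ)) {a : HolH} (ha : a ≠ 0) : compSLHom γ a ≠ 0 :=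
  fun h => ha (compSLHom_injective γ (by rw [h, map_zero]))

/-- Moebius invariance of the order. -/
theorem ordMer_slMer (γ : SL(2, ℤ)) (z₀ : ℍ) (x : MerH) :
    ordMer z₀ (slMer γ x) = ordMer (γ • z₀) x := by
  rcases eq_or_ne x 0 with rfl | hx
  · simp
  obtain ⟨a, b, ha, hb, rfl⟩ := exists_div_ne_zero_frac (S := HolH) x hx
  rw [slMer_div, ordMer_div_algebraMap z₀ (compSLHom_ne_zero γ ha) (compSLHom_ne_zero γ hb),
    ordMer_div_algebraMap _ ha hb, coe_compSLHom, coe_compSLHom, ordH_compSL a.2, ordH_compSL b.2]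

/-! ### Point places of `F_ℂ` -/

variable (N : ℕ) [NeZero N]

/-- The order function on `F_ℂ` at the point `z₀`, through the embedding `embC N g`. -/
def ptOrdC (g : SL(2, ℤ)) (z₀ : ℍ) (f : FC N) : ℤ := ordMer z₀ (embC N g f)

theorem embC_ne_zero (g : SL(2, ℤ)) {f : FC N} (hf : f ≠ 0) : embC N g f ≠ 0 :=
  fun h => hf ((embC N g).injective (by rw [h, map_zero]))

theorem ptOrdC_mul (g : SL(2, ℤ)) (z₀ : ℍ) {f f' : FC N} (hf : f ≠ 0) (hf' : f' ≠ 0) :
    ptOrdC N g z₀ (f * f') = ptOrdC N g z₀ f + ptOrdC N g z₀ f' := by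
  unfold ptOrdC
  rw [map_mul, ordMer_mul z₀ (embC_ne_zero N g hf) (embC_ne_zero N g hf')]

theorem ptOrdC_add (g : SL(2, ℤ)) (z₀ : ℍ) {f f' : FC N} (hf : f ≠ 0) (hf' : f' ≠ 0)
    (h : f + f' ≠ 0) :
    min (ptOrdC N g z₀ f) (ptOrdC N g z₀ f') ≤ ptOrdC N g z₀ (f + f') := by
  unfold ptOrdC
  rw [map_add]
  refine ordMer_add z₀ (embC_ne_zero N g hf) (embC_ne_zero N g hf') ?_
  rw [← map_add]
  exact embC_ne_zero N g h

theorem ptOrdC_algebraMap (g : SL(2, ℤ)) (z₀ : ℍ) {c : ℂ} (hc : c ≠ 0) :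
    ptOrdC N g z₀ (algebraMap ℂ (FC N) c) = 0 := by
  unfold ptOrdC
  rw [embC_algebraMap, ordMer_const z₀ hc]

/-- `embC N g (j - c) = jFun - c`. -/
theorem embC_jC_sub (g : SL(2, ℤ)) (c : ℂ) :
    embC N g (jC N - algebraMap ℂ (FC N) c) =
      algebraMap HolH MerH ⟨fun z => jFun z - c,
        jFun_mdifferentiable.sub mdifferentiable_const⟩ := by
  rw [map_sub, embC_jC, embC_algebraMap, ← map_sub]
  rfl

theorem jFun_sub_ne_zero (c : ℂ) :
    (⟨fun z => jFun z - c, jFun_mdifferentiable.sub mdifferentiable_const⟩ : HolH) ≠ 0 := by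
  intro h
  obtain ⟨z, hz⟩ := jFun_surjective (c + 1)
  have h1 := congrArg (fun f : HolH => (f : ℍ → ℂ) z) h
  simp only [hz] at h1
  have : (c + 1 - c : ℂ) = 0 := h1
  simp at this

open Fermat.Agent.X0.JOrderFinal Fermat.Agent.X0.JOrderMain in
/-- The order of `j - j(z₀)` at `z₀` is `ellOrder z₀`. -/
theorem ptOrdC_jC_sub (g : SL(2, ℤ)) (z₀ : ℍ) :
    ptOrdC N g z₀ (jC N - algebraMap ℂ (FC N) (jFun z₀)) = ellOrder z₀ := by
  unfold ptOrdC
  rw [embC_jC_sub, ordMer_algebraMap z₀ (jFun_sub_ne_zero _)]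
  have : ordH (fun z => jFun z - jFun z₀) z₀ = ellOrder z₀ := ordH_jFun_sub z₀
  show ((ordH (fun z => jFun z - jFun z₀) z₀).toNat : ℤ) = _
  rw [this]
  rfl

open Fermat.Agent.X0.JOrderFinal Fermat.Agent.X0.JOrderMain in
/-- If `c ≠ j(z₀)`, then `j - c` has order `0` at `z₀`. -/
theorem ptOrdC_jC_sub_of_ne (g : SL(2, ℤ)) (z₀ : ℍ) {c : ℂ} (hc : jFun z₀ ≠ c) :
    ptOrdC N g z₀ (jC N - algebraMap ℂ (FC N) c) = 0 := by
  unfold ptOrdC
  rw [embC_jC_sub, ordMer_algebraMap z₀ (jFun_sub_ne_zero _)]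
  have : ordH (fun z => jFun z - c) z₀ = 0 := ordH_jFun_sub_const_of_ne z₀ c hc
  show ((ordH (fun z => jFun z - c) z₀).toNat : ℤ) = _
  rw [this]
  rfl

theorem jC_sub_ne_zero (c : ℂ) : jC N - algebraMap ℂ (FC N) c ≠ 0 := by
  intro h
  have h1 := congrArg (embC N 1) h
  rw [embC_jC_sub, map_zero] at h1
  exact algebraMap_ne_zero_of_ne (jFun_sub_ne_zero c) h1

open Fermat.Agent.X0.JOrderMain in
/-- Existence of the point place (FF5). -/
theorem exists_ptPlaceC (g : SL(2, ℤ)) (z₀ : ℍ) :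
    ∃ (v : Place ℂ (FC N)) (m : ℕ), 0 < m ∧
      (∀ f : FC N, f ≠ 0 → ptOrdC N g z₀ f = m * v.ord f) ∧
      (∀ f : FC N, f ≠ 0 → (f ∈ v.toValuationSubring ↔ 0 ≤ ptOrdC N g z₀ f)) := by
  refine FF.exists_place_of_order (K := ℂ) (ptOrdC N g z₀)
    (fun f f' hf hf' => ptOrdC_mul N g z₀ hf hf')
    (fun f f' hf hf' h => ptOrdC_add N g z₀ hf hf' h)
    (fun c hc => ptOrdC_algebraMap N g z₀ hc)
    ⟨jC N - algebraMap ℂ (FC N) (jFun z₀), jC_sub_ne_zero N _, ?_⟩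
  rw [ptOrdC_jC_sub]
  exact_mod_cast (ellOrder_pos z₀).ne'

/-- The point place of `F_ℂ` attached to `(g, z₀)`. -/
def ptPlaceC (g : SL(2, ℤ)) (z₀ : ℍ) : Place ℂ (FC N) := (exists_ptPlaceC N g z₀).choose

/-- The index of the analytic order at `z₀` with respect to the point place. -/
def ptIdx (g : SL(2, ℤ)) (z₀ : ℍ) : ℕ := (exists_ptPlaceC N g z₀).choose_spec.choose

theorem ptIdx_pos (g : SL(2, ℤ)) (z₀ : ℍ) : 0 < ptIdx N g z₀ :=
  (exists_ptPlaceC N g z₀).choose_spec.choose_spec.1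

/-- **Point dictionary over `ℂ`, weak form.** -/
theorem ptOrdC_eq (g : SL(2, ℤ)) (z₀ : ℍ) {f : FC N} (hf : f ≠ 0) :
    ptOrdC N g z₀ f = ptIdx N g z₀ * (ptPlaceC N g z₀).ord f :=
  (exists_ptPlaceC N g z₀).choose_spec.choose_spec.2.1 f hf

theorem ordMer_embC (g : SL(2, ℤ)) (z₀ : ℍ) {f : FC N} (hf : f ≠ 0) :
    ordMer z₀ (embC N g f) = ptIdx N g z₀ * (ptPlaceC N g z₀).ord f :=
  ptOrdC_eq N g z₀ hf

theorem mem_ptPlaceC_iff (g : SL(2, ℤ)) (z₀ : ℍ) {f : FC N} (hf : f ≠ 0) :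
    f ∈ (ptPlaceC N g z₀).toValuationSubring ↔ 0 ≤ ptOrdC N g z₀ f :=
  (exists_ptPlaceC N g z₀).choose_spec.choose_spec.2.2 f hf

/-- The valuation subring of the point place is the pull-back of the ring of functions regular at
`z₀`. -/
theorem ptPlaceC_toValuationSubring (g : SL(2, ℤ)) (z₀ : ℍ) :
    (ptPlaceC N g z₀).toValuationSubring = (valAt z₀).comap (embC N g) := by
  ext f
  rcases eq_or_ne f 0 with rfl | hf
  · simp
  rw [mem_ptPlaceC_iff N g z₀ hf, ValuationSubring.mem_comap, mem_valAt_iff z₀ (embC_ne_zero N g hf)]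
  rfl

/-- A place whose valuation subring is the pull-back of `valAt z₀` is the point place. -/
theorem eq_ptPlaceC_of_comap {v : Place ℂ (FC N)} {g : SL(2, ℤ)} {z₀ : ℍ}
    (h : v.toValuationSubring = (valAt z₀).comap (embC N g)) : v = ptPlaceC N g z₀ :=
  Place.ext (h.trans (ptPlaceC_toValuationSubring N g z₀).symm)

/-- The point place only depends on the coset `g Γ₀(N)`. -/
theorem ptPlaceC_mul_of_mem (g γ : SL(2, ℤ)) (hγ : γ ∈ CongruenceSubgroup.Gamma0 N) (z₀ : ℍ) :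
    ptPlaceC N (g * γ) z₀ = ptPlaceC N g z₀ := by
  apply eq_ptPlaceC_of_comap
  rw [ptPlaceC_toValuationSubring]
  ext f
  rw [ValuationSubring.mem_comap, ValuationSubring.mem_comap, embC_mul_of_mem N g γ hγ]

theorem ptOrdC_mul_of_mem (g γ : SL(2, ℤ)) (hγ : γ ∈ CongruenceSubgroup.Gamma0 N) (z₀ : ℍ)
    (f : FC N) : ptOrdC N (g * γ) z₀ f = ptOrdC N g z₀ f := by
  unfold ptOrdC
  rw [embC_mul_of_mem N g γ hγ]

/-- Moving the base point: `(σ g, σ z₀)` and `(g, z₀)` give the same order function. -/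
theorem ptOrdC_smul (σ g : SL(2, ℤ)) (z₀ : ℍ) (f : FC N) :
    ptOrdC N (σ * g) (σ • z₀) f = ptOrdC N g z₀ f := by
  unfold ptOrdC
  rw [embC_eq_slMer, embC_eq_slMer, mul_inv_rev, slMer_mul, ordMer_slMer, inv_smul_smul]

theorem ptPlaceC_smul (σ g : SL(2, ℤ)) (z₀ : ℍ) :
    ptPlaceC N (σ * g) (σ • z₀) = ptPlaceC N g z₀ := by
  apply Place.ext
  ext f
  rcases eq_or_ne f 0 with rfl | hf
  · simp
  rw [mem_ptPlaceC_iff N _ _ hf, mem_ptPlaceC_iff N _ _ hf, ptOrdC_smul]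

theorem ptIdx_smul (σ g : SL(2, ℤ)) (z₀ : ℍ) : ptIdx N (σ * g) (σ • z₀) = ptIdx N g z₀ := by
  have h1 := ptOrdC_eq N (σ * g) (σ • z₀) (jC_sub_ne_zero N (jFun z₀))
  have h2 := ptOrdC_eq N g z₀ (jC_sub_ne_zero N (jFun z₀))
  rw [ptOrdC_smul, ptPlaceC_smul] at h1
  rw [h1] at h2
  have h3 : (ptPlaceC N g z₀).ord (jC N - algebraMap ℂ (FC N) (jFun z₀)) ≠ 0 := by
    intro h0
    rw [h0, mul_zero] at h1
    have h4 := ptOrdC_jC_sub N g z₀
    rw [h1] at h4
    have := Fermat.Agent.X0.JOrderMain.ellOrder_pos z₀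
    omega
  exact_mod_cast mul_right_cancel₀ h3 h2

theorem ptIdx_mul_of_mem (g γ : SL(2, ℤ)) (hγ : γ ∈ CongruenceSubgroup.Gamma0 N) (z₀ : ℍ) :
    ptIdx N (g * γ) z₀ = ptIdx N g z₀ := by
  have h1 := ptOrdC_eq N (g * γ) z₀ (jC_sub_ne_zero N (jFun z₀))
  have h2 := ptOrdC_eq N g z₀ (jC_sub_ne_zero N (jFun z₀))
  rw [ptOrdC_mul_of_mem N g γ hγ, ptPlaceC_mul_of_mem N g γ hγ] at h1
  rw [h1] at h2
  have h3 : (ptPlaceC N g z₀).ord (jC N - algebraMap ℂ (FC N) (jFun z₀)) ≠ 0 := by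
    intro h0
    rw [h0, mul_zero] at h1
    have h4 := ptOrdC_jC_sub N g z₀
    rw [h1] at h4
    have := Fermat.Agent.X0.JOrderMain.ellOrder_pos z₀
    omega
  exact_mod_cast mul_right_cancel₀ h3 h2

/-- `ptIdx * ord_P (j - j(z₀)) = ellOrder z₀`. -/
theorem ptIdx_mul_ord_jC_sub (g : SL(2, ℤ)) (z₀ : ℍ) :
    (ptIdx N g z₀ : ℤ) * (ptPlaceC N g z₀).ord (jC N - algebraMap ℂ (FC N) (jFun z₀)) =
      ellOrder z₀ := by
  rw [← ptOrdC_eq N g z₀ (jC_sub_ne_zero N _), ptOrdC_jC_sub]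

theorem ord_jC_sub_pos (g : SL(2, ℤ)) (z₀ : ℍ) :
    0 < (ptPlaceC N g z₀).ord (jC N - algebraMap ℂ (FC N) (jFun z₀)) := by
  have h := ptIdx_mul_ord_jC_sub N g z₀
  have h1 : (0 : ℤ) < ptIdx N g z₀ := by exact_mod_cast ptIdx_pos N g z₀
  have h2 : (0 : ℤ) < ellOrder z₀ := by exact_mod_cast Fermat.Agent.X0.JOrderMain.ellOrder_pos z₀
  rw [← h] at h2
  exact (mul_pos_iff_of_pos_left h1).mp h2

theorem ptIdx_dvd_ellOrder (g : SL(2, ℤ)) (z₀ : ℍ) : ptIdx N g z₀ ∣ ellOrder z₀ := by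
  have h := ptIdx_mul_ord_jC_sub N g z₀
  have : (ptIdx N g z₀ : ℤ) ∣ (ellOrder z₀ : ℤ) := ⟨_, h.symm⟩
  exact_mod_cast this

/-- The analytic order of the realisation at any point, in terms of the point place `(1, z₀)`. -/
theorem ordMer_realMer (z₀ : ℍ) {f : FC N} (hf : f ≠ 0) :
    ordMer z₀ (realMer N f) = ptIdx N 1 z₀ * (ptPlaceC N 1 z₀).ord f :=
  ordMer_embC N 1 z₀ hf

end Fermat.Agent.ES.KUM
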