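/-
Program J (S30), chapter J1.4 (helper15) — the analytic core of `ratio_mem`, FIELD-FREE
(no function field `F_ℂ` occurs; everything lives in `HolH` and `MerH := FractionRing HolH`).

`algA N ⊂ HolH` (`𝒜`): the `ℂ`-algebra of holomorphic functions on `ℍ`, invariant under `Γ₀(N)`, all of
whose `SL(2,ℤ)`-translates have a pole of bounded order at `i∞` (`(G ∘ γ) Δ^m` bounded at `i∞`).

Main results (`Q N := SL(2,ℤ) ⧸ Γ₀(N)`, `jM : MerH` the `j`-function, `CjM := ℂ(jM) ⊂ MerH`):
* `normPoly a b = ∏_{x : Q N} (b_x X − a_x) : HolH[X]`, `exists_poly_coeff`: its coefficients are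
  polynomials in `j` (symmetric functions are level one: `LevelOneFunctions.exists_polynomial_jFun`);
* `isIntegral_div`: every `a / b` (`a, b ∈ 𝒜`) is algebraic of degree `≤ #Q N` over `ℂ(j)`;
* `finrank_le_of_forall_natDegree_le`: (pure field theory) bounded degree in char 0 ⇒ finite extension;
* `fracA N : IntermediateField ℂ MerH` (`Frac 𝒜`), `fracAj N` the same over `CjM`,
  `finrank_fracAj_le`, `finrank_fracAj_le_psi : [Frac 𝒜 : ℂ(j)] ≤ ψ(N)`;
* `ratio_mem_fracA`: the ratio of two modular forms of the same weight `k ≥ 0` on `Γ₀(N)` is in `Frac 𝒜`;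
* `mem_algA_of_pow_mem`: a `Γ₀(N)`-invariant holomorphic `n`-th root of an element of `𝒜` is in `𝒜`;
* `jdFun`-hook: `jH_mem_algA`; consumers show `Θ(F_ℂ) ⊆ Frac 𝒜` and conclude by degrees.
-/
import Mathlib
import Fermat.Agent.X0.LevelOneFunctions
import Fermat.Agent.X0.HolOrder
import Fermat.Agent.X0.SurjPoint
import Fermat.Agent.X0.G1Index

set_option autoImplicit false
set_option linter.unusedSectionVars false
set_option linter.style.haveILetI false

open UpperHalfPlane ModularForm CongruenceSubgroup Polynomial IntermediateField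
open scoped MatrixGroups Manifold

noncomputable section

namespace Fermat.Agent.ES.KUM.RatioAlg15

open Fermat.Agent.X0 Fermat.Agent.X0.SurjPoint

local notation "Δ" => ModularForm.discriminant

section

/-! ### growth at `i∞` -/

def Bdd (M : ℕ) (f : ℍ → ℂ) : Prop := IsBoundedAtImInfty (fun z => f z * Δ z ^ M)

theorem isBoundedAtImInfty_discriminant : IsBoundedAtImInfty (fun z => Δ z) :=
  ModularFormClass.bdd_at_infty (CuspForm.discriminant)

theorem isBoundedAtImInfty_one : IsBoundedAtImInfty (fun _ : ℍ => (1 : ℂ)) :=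
  Filter.const_boundedAtFilter atImInfty (1 : ℂ)

theorem isBoundedAtImInfty_discriminant_pow (M : ℕ) : IsBoundedAtImInfty (fun z => Δ z ^ M) := by
  induction M with
  | zero => simpa using isBoundedAtImInfty_one
  | succ M ih =>
    have h := Filter.BoundedAtFilter.mul ih isBoundedAtImInfty_discriminant
    have e : (fun z => Δ z ^ (M + 1)) = (fun z => Δ z ^ M) * (fun z => Δ z) := by
      funext z; simp [pow_succ]
    rw [e]; exact h

theorem Bdd.mono {M M' : ℕ} {f : ℍ → ℂ} (h : Bdd M f) (hM : M ≤ M') : Bdd M' f := by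
  have h1 := Filter.BoundedAtFilter.mul h (isBoundedAtImInfty_discriminant_pow (M' - M))
  have e : (fun z => f z * Δ z ^ M') = (fun z => f z * Δ z ^ M) * (fun z => Δ z ^ (M' - M)) := by
    funext z
    simp only [Pi.mul_apply]
    rw [mul_assoc, ← pow_add, Nat.add_sub_cancel' hM]
  unfold Bdd
  rw [e]; exact h1

theorem Bdd.add {M : ℕ} {f g : ℍ → ℂ} (hf : Bdd M f) (hg : Bdd M g) : Bdd M (f + g) := by
  have h1 := Filter.BoundedAtFilter.add hf hg
  have e : (fun z => (f + g) z * Δ z ^ M) = (fun z => f z * Δ z ^ M) + (fun z => g z * Δ z ^ M) := by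
    funext z; simp [add_mul]
  unfold Bdd
  rw [e]; exact h1

theorem Bdd.mul {M M' : ℕ} {f g : ℍ → ℂ} (hf : Bdd M f) (hg : Bdd M' g) : Bdd (M + M') (f * g) := by
  have h1 := Filter.BoundedAtFilter.mul hf hg
  have e : (fun z => (f * g) z * Δ z ^ (M + M')) =
      (fun z => f z * Δ z ^ M) * (fun z => g z * Δ z ^ M') := by
    funext z; simp [pow_add]; ring
  unfold Bdd
  rw [e]; exact h1

theorem Bdd.neg {M : ℕ} {f : ℍ → ℂ} (hf : Bdd M f) : Bdd M (-f) := by
  have h1 := Filter.BoundedAtFilter.neg hf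
  have e : (fun z => (-f) z * Δ z ^ M) = -(fun z => f z * Δ z ^ M) := by
    funext z; simp
  unfold Bdd
  rw [e]; exact h1

theorem Bdd.sub {M : ℕ} {f g : ℍ → ℂ} (hf : Bdd M f) (hg : Bdd M g) : Bdd M (f - g) := by
  rw [sub_eq_add_neg]; exact hf.add hg.neg

theorem bdd_const (c : ℂ) : Bdd 0 (fun _ => c) := by
  have e : (fun z : ℍ => (fun _ : ℍ => c) z * Δ z ^ 0) = Function.const ℍ c := by
    funext z; simp
  unfold Bdd
  rw [e]; exact Filter.const_boundedAtFilter atImInfty c

theorem bdd_zero (M : ℕ) : Bdd M 0 := (bdd_const 0).mono (Nat.zero_le _)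

theorem bdd_one (M : ℕ) : Bdd M 1 := (bdd_const 1).mono (Nat.zero_le _)

end

section

/-! ### the algebra `𝒜` -/

variable (N : ℕ)

/-- The algebra `𝒜 N`. -/
def algA : Subalgebra ℂ HolH where
  carrier := {G | (∀ γ ∈ Gamma0 N, compSL G.1 γ = G.1) ∧
    ∃ m : ℕ, ∀ γ : SL(2, ℤ), Bdd m (compSL G.1 γ)}
  mul_mem' := by
    rintro a b ⟨ha, ma, hma⟩ ⟨hb, mb, hmb⟩
    refine ⟨fun γ hγ => ?_, ma + mb, fun γ => ?_⟩
    · show compSL (a.1 * b.1) γ = a.1 * b.1
      rw [compSL_mul_fun, ha γ hγ, hb γ hγ]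
    · show Bdd (ma + mb) (compSL (a.1 * b.1) γ)
      rw [compSL_mul_fun]
      exact (hma γ).mul (hmb γ)
  one_mem' := ⟨fun γ _ => rfl, 0, fun γ => bdd_const 1⟩
  add_mem' := by
    rintro a b ⟨ha, ma, hma⟩ ⟨hb, mb, hmb⟩
    refine ⟨fun γ hγ => ?_, max ma mb, fun γ => ?_⟩
    · show compSL (a.1 + b.1) γ = a.1 + b.1
      rw [compSL_add_fun, ha γ hγ, hb γ hγ]
    · show Bdd (max ma mb) (compSL (a.1 + b.1) γ)
      rw [compSL_add_fun]
      exact ((hma γ).mono (le_max_left _ _)).add ((hmb γ).mono (le_max_right _ _))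
  zero_mem' := ⟨fun γ _ => rfl, 0, fun γ => bdd_const 0⟩
  algebraMap_mem' c := ⟨fun γ _ => rfl, 0, fun γ => bdd_const c⟩

theorem mem_algA_iff (G : HolH) : G ∈ algA N ↔ (∀ γ ∈ Gamma0 N, compSL G.1 γ = G.1) ∧
    ∃ m : ℕ, ∀ γ : SL(2, ℤ), Bdd m (compSL G.1 γ) := Iff.rfl

/-- `j` as an element of `HolH`. -/
def jH : HolH := ⟨jFun, lof_jFun_mdifferentiable⟩

theorem compSL_jFun (γ : SL(2, ℤ)) : compSL jFun γ = jFun := by
  funext z; exact lof_jFun_smul γ z

theorem bdd_jFun : Bdd 1 jFun := by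
  have h : IsBoundedAtImInfty (fun z => E₄ z ^ 3) := by
    have h4 : IsBoundedAtImInfty (fun z => E₄ z) := ModularFormClass.bdd_at_infty E₄
    have := (h4.mul h4).mul h4
    have e : (fun z => E₄ z ^ 3) = ((fun z => E₄ z) * fun z => E₄ z) * fun z => E₄ z := by
      funext z; simp only [Pi.mul_apply]; ring
    rw [e]; exact this
  have e : (fun z => jFun z * Δ z ^ 1) = fun z => E₄ z ^ 3 := by
    funext z
    unfold jFun
    rw [pow_one, div_mul_cancel₀ _ (discriminant_ne_zero z)]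
  unfold Bdd
  rw [e]; exact h

theorem jH_mem_algA : jH ∈ algA N :=
  ⟨fun γ _ => compSL_jFun γ, 1, fun γ => by rw [show compSL jH.1 γ = jFun from compSL_jFun γ]; exact bdd_jFun⟩

end

section

/-! ### the norm polynomial -/

variable (N : ℕ)

/-- The coset space. -/
abbrev Q : Type := SL(2, ℤ) ⧸ Gamma0 N

/-- `compSLHom` is contravariant. -/
theorem compSLHom_mul (γ δ : SL(2, ℤ)) (f : HolH) :
    compSLHom (γ * δ) f = compSLHom δ (compSLHom γ f) :=
  Subtype.ext (compSL_mul f.1 γ δ)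

theorem compSLHom_one (f : HolH) : compSLHom 1 f = f := Subtype.ext (compSL_one f.1)

variable {N}

theorem compSLHom_of_mem {G : HolH} (hG : G ∈ algA N) {γ : SL(2, ℤ)} (hγ : γ ∈ Gamma0 N) :
    compSLHom γ G = G := Subtype.ext (hG.1 γ hγ)

/-- `G ∘ g⁻¹` only depends on the coset `g Γ₀(N)`. -/
theorem compSLHom_inv_eq {G : HolH} (hG : G ∈ algA N) {g g' : SL(2, ℤ)}
    (h : (g : Q N) = (g' : Q N)) : compSLHom g⁻¹ G = compSLHom g'⁻¹ G := by
  have hδ : g⁻¹ * g' ∈ Gamma0 N := QuotientGroup.eq.mp h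
  have h1 : g'⁻¹ = (g⁻¹ * g')⁻¹ * g⁻¹ := by group
  rw [h1, compSLHom_mul, compSLHom_of_mem hG (inv_mem hδ)]

/-- The conjugate `G_x := G ∘ (rep x)⁻¹`. -/
def conj (G : HolH) (x : Q N) : HolH := compSLHom (Quotient.out x)⁻¹ G

theorem conj_mk {G : HolH} (hG : G ∈ algA N) (g : SL(2, ℤ)) :
    conj G (g : Q N) = compSLHom g⁻¹ G :=
  compSLHom_inv_eq hG (QuotientGroup.out_eq' (g : Q N))

theorem conj_one {G : HolH} (hG : G ∈ algA N) : conj G ((1 : SL(2, ℤ)) : Q N) = G := by
  rw [conj_mk hG, inv_one, compSLHom_one]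

/-- Translation permutes the conjugates. -/
theorem compSLHom_conj {G : HolH} (hG : G ∈ algA N) (γ : SL(2, ℤ)) (x : Q N) :
    compSLHom γ (conj G x) = conj G (γ⁻¹ • x) := by
  obtain ⟨g, rfl⟩ := QuotientGroup.mk_surjective x
  have h1 : γ⁻¹ • (g : Q N) = ((γ⁻¹ * g : SL(2, ℤ)) : Q N) := rfl
  rw [h1, conj_mk hG, conj_mk hG, ← compSLHom_mul]
  congr 1
  group

theorem bdd_conj {G : HolH} {m : ℕ} (hm : ∀ γ : SL(2, ℤ), Bdd m (compSL G.1 γ)) (x : Q N) :
    Bdd m (conj G x).1 := by
  have := hm ((Quotient.out x)⁻¹ * 1)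
  rw [mul_one] at this
  exact this

variable [Fintype (Q N)]

/-- The norm polynomial `∏_x (b_x X − a_x)`. -/
def normPoly (a b : HolH) : HolH[X] := ∏ x : Q N, (C (conj b x) * X - C (conj a x))

theorem normPoly_map {a b : HolH} (ha : a ∈ algA N) (hb : b ∈ algA N) (γ : SL(2, ℤ)) :
    (normPoly (N := N) a b).map (compSLHom γ) = normPoly (N := N) a b := by
  unfold normPoly
  rw [Polynomial.map_prod]
  have h1 : ∀ x : Q N, (C (conj b x) * X - C (conj a x)).map (compSLHom γ) =
      C (conj b (γ⁻¹ • x)) * X - C (conj a (γ⁻¹ • x)) := by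
    intro x
    rw [Polynomial.map_sub, Polynomial.map_mul, Polynomial.map_C, Polynomial.map_C,
      Polynomial.map_X, compSLHom_conj hb, compSLHom_conj ha]
  simp_rw [h1]
  exact Fintype.prod_equiv (MulAction.toPerm γ⁻¹) _ _ (fun x => rfl)

/-- The coefficients of the norm polynomial are `SL(2,ℤ)`-invariant. -/
theorem compSL_coeff_normPoly {a b : HolH} (ha : a ∈ algA N) (hb : b ∈ algA N) (k : ℕ)
    (γ : SL(2, ℤ)) (z : ℍ) :
    ((normPoly (N := N) a b).coeff k).1 (γ • z) = ((normPoly (N := N) a b).coeff k).1 z := by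
  have h := congrArg (fun P => (P.coeff k).1 z) (normPoly_map ha hb γ)
  simp only [Polynomial.coeff_map] at h
  exact h

/-- Growth of the coefficients of partial products. -/
theorem bdd_coeff_prod {a b : HolH} {m : ℕ} (hma : ∀ x : Q N, Bdd m (conj a x).1)
    (hmb : ∀ x : Q N, Bdd m (conj b x).1) (S : Finset (Q N)) (k : ℕ) :
    Bdd (m * S.card) ((∏ x ∈ S, (C (conj b x) * X - C (conj a x))).coeff k).1 := by
  classical
  induction S using Finset.induction_on generalizing k with
  | empty =>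
    rw [Finset.prod_empty, Polynomial.coeff_one]
    split_ifs
    · exact bdd_one _
    · exact bdd_zero _
  | insert x S hx ih =>
    have e0 : (C (conj b x) * X - C (conj a x)) * ∏ x ∈ S, (C (conj b x) * X - C (conj a x)) =
        (∏ x ∈ S, (C (conj b x) * X - C (conj a x))) * C (conj b x) * X -
          (∏ x ∈ S, (C (conj b x) * X - C (conj a x))) * C (conj a x) := by ring
    rw [Finset.prod_insert hx, Finset.card_insert_of_notMem hx, e0, Polynomial.coeff_sub,
      Polynomial.coeff_mul_C]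
    have e : m * (S.card + 1) = m * S.card + m := by ring
    rw [e]
    refine Bdd.sub ?_ ((ih k).mul (hma x))
    cases k with
    | zero =>
      rw [Polynomial.coeff_mul_X_zero]
      exact bdd_zero _
    | succ k =>
      rw [Polynomial.coeff_mul_X, Polynomial.coeff_mul_C]
      exact (ih k).mul (hmb x)

/-- **The coefficients of the norm polynomial are polynomials in `j`.** -/
theorem exists_poly_coeff {a b : HolH} (ha : a ∈ algA N) (hb : b ∈ algA N) (k : ℕ) :
    ∃ p : ℂ[X], (normPoly (N := N) a b).coeff k = aeval jH p := by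
  obtain ⟨ma, hma⟩ := ha.2
  obtain ⟨mb, hmb⟩ := hb.2
  set m := max ma mb
  have hma' : ∀ x : Q N, Bdd m (conj a x).1 := fun x =>
    (bdd_conj hma x).mono (le_max_left _ _)
  have hmb' : ∀ x : Q N, Bdd m (conj b x).1 := fun x =>
    (bdd_conj hmb x).mono (le_max_right _ _)
  have hbd := bdd_coeff_prod hma' hmb' Finset.univ k
  obtain ⟨p, -, hp⟩ := exists_polynomial_jFun ((normPoly (N := N) a b).coeff k).2
    (fun γ z => compSL_coeff_normPoly ha hb k γ z) _ hbd
  refine ⟨p, Subtype.ext (funext fun z => ?_)⟩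
  rw [hp z]
  have h1 : ∀ q : ℂ[X], ((aeval jH q : HolH) : ℍ → ℂ) z = q.eval (jFun z) := by
    intro q
    induction q using Polynomial.induction_on' with
    | add p q hp hq =>
      rw [map_add, Polynomial.eval_add, ← hp, ← hq]; rfl
    | monomial n c =>
      rw [Polynomial.aeval_monomial, Polynomial.eval_monomial]
      rfl
  exact (h1 p).symm

end

section

/-! ### bounded degree ⇒ finite (field theory) -/

/-- **Bounded degree ⇒ finite.**  A field extension `L / K` in characteristic zero all of whose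
elements are algebraic of degree `≤ d` is finite of degree `≤ d`. -/
theorem finrank_le_of_forall_natDegree_le {K L : Type*} [Field K] [Field L] [Algebra K L]
    [CharZero K] (d : ℕ) (h : ∀ y : L, IsIntegral K y ∧ (minpoly K y).natDegree ≤ d) :
    FiniteDimensional K L ∧ Module.finrank K L ≤ d := by
  classical
  haveI : Algebra.IsAlgebraic K L := ⟨fun y => (h y).1.isAlgebraic⟩
  -- an element of maximal degree
  have hex : ∃ n, ∃ y : L, (minpoly K y).natDegree = n := ⟨_, 0, rfl⟩
  have hbd : ∀ n, (∃ y : L, (minpoly K y).natDegree = n) → n ≤ d := by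
    rintro n ⟨y, rfl⟩; exact (h y).2
  obtain ⟨x, hx⟩ := Nat.findGreatest_spec (P := fun n => ∃ y : L, (minpoly K y).natDegree = n)
    (hbd _ hex.choose_spec) hex.choose_spec
  set d' := Nat.findGreatest (fun n => ∃ y : L, (minpoly K y).natDegree = n) d with hd'
  have hmax : ∀ y : L, (minpoly K y).natDegree ≤ d' := fun y =>
    Nat.le_findGreatest (h y).2 ⟨y, rfl⟩
  have htop : K⟮x⟯ = ⊤ := by
    rw [eq_top_iff]
    intro y _
    -- the field `K(x, y)` is finite and separable, hence simple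
    let E : IntermediateField K L := K⟮x⟯ ⊔ K⟮y⟯
    haveI : FiniteDimensional K K⟮x⟯ := adjoin.finiteDimensional (h x).1
    haveI : FiniteDimensional K K⟮y⟯ := adjoin.finiteDimensional (h y).1
    haveI : FiniteDimensional K E := IntermediateField.finiteDimensional_sup K⟮x⟯ K⟮y⟯
    obtain ⟨w, hw⟩ := Field.exists_primitive_element K E
    have hwint : IsIntegral K w := IsIntegral.of_finite K w
    have h1 : Module.finrank K E = (minpoly K w).natDegree := by
      rw [← IntermediateField.adjoin.finrank hwint, hw, IntermediateField.finrank_top']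
    have h2 : (minpoly K w).natDegree = (minpoly K (w : L)).natDegree := by
      rw [minpoly.algebraMap_eq (algebraMap E L).injective w |>.symm]
      rfl
    have h3 : Module.finrank K K⟮x⟯ = d' := by
      rw [IntermediateField.adjoin.finrank (h x).1, hx]
    have hle : K⟮x⟯ ≤ E := le_sup_left
    have h4 : Module.finrank K E ≤ d' := by
      rw [h1, h2]; exact hmax _
    have h5 : K⟮x⟯ = E := by
      refine IntermediateField.eq_of_le_of_finrank_le hle ?_
      rw [h3]; exact h4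
    rw [h5]
    exact (le_sup_right : K⟮y⟯ ≤ E) (mem_adjoin_simple_self K y)
  have hfin : FiniteDimensional K K⟮x⟯ := adjoin.finiteDimensional (h x).1
  have e := (IntermediateField.topEquiv (F := K) (E := L))
  have hfinL : FiniteDimensional K L := by
    have : FiniteDimensional K (⊤ : IntermediateField K L) := htop ▸ hfin
    exact Module.Finite.equiv e.toLinearEquiv
  refine ⟨hfinL, ?_⟩
  rw [← IntermediateField.finrank_top', ← htop, IntermediateField.adjoin.finrank (h x).1, hx]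
  exact Nat.findGreatest_le d

end

section

/-! ### passing to `MerH` -/

variable {N : ℕ}

/-- `j` in `MerH`. -/
def jM : MerH := algebraMap HolH MerH jH

/-- The subfield `ℂ(j)` of `MerH`. -/
def CjM : IntermediateField ℂ MerH := ℂ⟮jM⟯

theorem compSLHom_injective (γ : SL(2, ℤ)) : Function.Injective (compSLHom γ) := by
  intro f g h
  have h1 := congrArg (compSLHom γ⁻¹) h
  rwa [← compSLHom_mul, ← compSLHom_mul, mul_inv_cancel, compSLHom_one, compSLHom_one] at h1

theorem conj_ne_zero {b : HolH} (hb : b ≠ 0) (x : Q N) : conj b x ≠ 0 := by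
  intro h
  apply hb
  exact compSLHom_injective _ (h.trans (map_zero _).symm)

variable [Fintype (Q N)]

theorem normPoly_ne_zero (a : HolH) {b : HolH} (hb : b ≠ 0) : normPoly (N := N) a b ≠ 0 := by
  unfold normPoly
  rw [Finset.prod_ne_zero_iff]
  intro x _ h
  have h1 := congrArg (fun P => P.coeff 1) h
  simp only [Polynomial.coeff_sub, Polynomial.coeff_C_mul, Polynomial.coeff_X_one, mul_one,
    Polynomial.coeff_C_succ, sub_zero, Polynomial.coeff_zero] at h1
  exact conj_ne_zero hb x h1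

theorem natDegree_normPoly_le (a b : HolH) :
    (normPoly (N := N) a b).natDegree ≤ Fintype.card (Q N) := by
  unfold normPoly
  refine (Polynomial.natDegree_prod_le _ _).trans ?_
  have h1 : ∀ x ∈ (Finset.univ : Finset (Q N)),
      (C (conj b x) * X - C (conj a x) : HolH[X]).natDegree ≤ 1 := by
    intro x _
    refine (Polynomial.natDegree_sub_le _ _).trans (max_le ?_ ?_)
    · exact (Polynomial.natDegree_C_mul_le _ _).trans Polynomial.natDegree_X_le
    · rw [Polynomial.natDegree_C]; exact Nat.zero_le _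
  refine (Finset.sum_le_sum h1).trans ?_
  simp

/-- `a / b` is a root of the norm polynomial. -/
theorem eval_normPoly {a b : HolH} (ha : a ∈ algA N) (hb : b ∈ algA N) (hb0 : b ≠ 0) :
    ((normPoly (N := N) a b).map (algebraMap HolH MerH)).eval
      (algebraMap HolH MerH a / algebraMap HolH MerH b) = 0 := by
  unfold normPoly
  rw [Polynomial.map_prod, Polynomial.eval_prod]
  refine Finset.prod_eq_zero (Finset.mem_univ ((1 : SL(2, ℤ)) : Q N)) ?_
  rw [conj_one ha, conj_one hb, Polynomial.map_sub, Polynomial.map_mul, Polynomial.map_C,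
    Polynomial.map_C, Polynomial.map_X, Polynomial.eval_sub, Polynomial.eval_mul,
    Polynomial.eval_C, Polynomial.eval_C, Polynomial.eval_X]
  have : algebraMap HolH MerH b ≠ 0 := by
    intro h
    exact hb0 (IsFractionRing.injective HolH MerH (h.trans (map_zero _).symm))
  rw [mul_div_cancel₀ _ this, sub_self]

theorem aeval_jH_map (p : ℂ[X]) : algebraMap HolH MerH (aeval jH p) = aeval jM p := by
  unfold jM
  rw [← Polynomial.aeval_algebraMap_apply]

/-- **Bounded degree**: every `a / b`, `a, b ∈ 𝒜`, is algebraic of degree `≤ [SL₂ℤ : Γ₀(N)]` over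
`ℂ(j)`. -/
theorem isIntegral_div {a b : HolH} (ha : a ∈ algA N) (hb : b ∈ algA N) :
    IsIntegral CjM (algebraMap HolH MerH a / algebraMap HolH MerH b) ∧
      (minpoly CjM (algebraMap HolH MerH a / algebraMap HolH MerH b)).natDegree ≤
        Fintype.card (Q N) := by
  rcases eq_or_ne b 0 with rfl | hb0
  · rw [map_zero, div_zero]
    refine ⟨isIntegral_zero, ?_⟩
    rw [minpoly.zero, Polynomial.natDegree_X]
    exact Fintype.card_pos_iff.mpr ⟨((1 : SL(2, ℤ)) : Q N)⟩
  set y := algebraMap HolH MerH a / algebraMap HolH MerH b with hy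
  set P := (normPoly (N := N) a b).map (algebraMap HolH MerH) with hP
  have hP0 : P ≠ 0 := by
    rw [hP, Ne, Polynomial.map_eq_zero_iff (IsFractionRing.injective HolH MerH)]
    exact normPoly_ne_zero a hb0
  have hlift : P ∈ Polynomial.lifts (algebraMap CjM MerH) := by
    rw [Polynomial.lifts_iff_coeff_lifts]
    intro k
    obtain ⟨p, hp⟩ := exists_poly_coeff ha hb k
    rw [hP, Polynomial.coeff_map, hp, aeval_jH_map]
    have hmem : aeval jM p ∈ CjM := by
      have h1 : jM ∈ CjM := mem_adjoin_simple_self ℂ jM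
      have : aeval jM p ∈ CjM.toSubalgebra := by
        rw [Polynomial.aeval_eq_sum_range]
        refine Subalgebra.sum_mem _ fun i _ => ?_
        exact Subalgebra.smul_mem _ (Subalgebra.pow_mem _ h1 _) _
      exact this
    exact ⟨⟨aeval jM p, hmem⟩, rfl⟩
  obtain ⟨q, hq, hqdeg⟩ := Polynomial.exists_degree_eq_of_mem_lifts hlift
  have hq0 : q ≠ 0 := by
    rintro rfl
    rw [Polynomial.map_zero] at hq
    exact hP0 hq.symm
  have hroot : aeval y q = 0 := by
    rw [Polynomial.aeval_def, ← Polynomial.eval_map, hq]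
    exact eval_normPoly ha hb hb0
  have hint : IsIntegral CjM y := (IsAlgebraic.isIntegral ⟨q, hq0, hroot⟩)
  refine ⟨hint, ?_⟩
  have h1 : (minpoly CjM y).natDegree ≤ q.natDegree :=
    Polynomial.natDegree_le_of_dvd (minpoly.dvd CjM y hroot) hq0
  have h2 : q.natDegree = P.natDegree := Polynomial.natDegree_eq_of_degree_eq hqdeg
  have h3 : P.natDegree ≤ (normPoly (N := N) a b).natDegree := Polynomial.natDegree_map_le
  exact h1.trans (h2.le.trans (h3.trans (natDegree_normPoly_le a b)))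

end

section

/-! ### `Frac 𝒜` -/

variable (N : ℕ)

theorem algebraMap_ne_zero {b : HolH} (hb : b ≠ 0) : algebraMap HolH MerH b ≠ 0 := fun h =>
  hb (IsFractionRing.injective HolH MerH (h.trans (map_zero _).symm))

/-- **`Frac 𝒜`** as a subfield of `MerH`. -/
def fracA : IntermediateField ℂ MerH where
  carrier := {y | ∃ a b : HolH, a ∈ algA N ∧ b ∈ algA N ∧ b ≠ 0 ∧
    y = algebraMap HolH MerH a / algebraMap HolH MerH b}
  mul_mem' := by
    rintro _ _ ⟨a, b, ha, hb, hb0, rfl⟩ ⟨a', b', ha', hb', hb0', rfl⟩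
    refine ⟨a * a', b * b', mul_mem ha ha', mul_mem hb hb', mul_ne_zero hb0 hb0', ?_⟩
    rw [map_mul, map_mul, div_mul_div_comm]
  one_mem' := ⟨1, 1, one_mem _, one_mem _, one_ne_zero, by rw [map_one, div_one]⟩
  add_mem' := by
    rintro _ _ ⟨a, b, ha, hb, hb0, rfl⟩ ⟨a', b', ha', hb', hb0', rfl⟩
    refine ⟨a * b' + b * a', b * b', add_mem (mul_mem ha hb') (mul_mem hb ha'), mul_mem hb hb',
      mul_ne_zero hb0 hb0', ?_⟩
    rw [map_add, map_mul, map_mul, map_mul,
      div_add_div _ _ (algebraMap_ne_zero hb0) (algebraMap_ne_zero hb0')]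
  zero_mem' := ⟨0, 1, zero_mem _, one_mem _, one_ne_zero, by rw [map_zero, zero_div]⟩
  algebraMap_mem' c := by
    refine ⟨algebraMap ℂ HolH c, 1, (algA N).algebraMap_mem c, one_mem _, one_ne_zero, ?_⟩
    rw [map_one, div_one]
    exact IsScalarTower.algebraMap_apply ℂ HolH MerH c
  inv_mem' := by
    rintro _ ⟨a, b, ha, hb, hb0, rfl⟩
    rcases eq_or_ne a 0 with rfl | ha0
    · refine ⟨0, 1, zero_mem _, one_mem _, one_ne_zero, ?_⟩
      rw [map_zero, zero_div, inv_zero, zero_div]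
    · exact ⟨b, a, hb, ha, ha0, by rw [inv_div]⟩

theorem mem_fracA_iff (y : MerH) : y ∈ fracA N ↔ ∃ a b : HolH, a ∈ algA N ∧ b ∈ algA N ∧ b ≠ 0 ∧
    y = algebraMap HolH MerH a / algebraMap HolH MerH b := Iff.rfl

theorem algebraMap_mem_fracA {a : HolH} (ha : a ∈ algA N) : algebraMap HolH MerH a ∈ fracA N :=
  ⟨a, 1, ha, one_mem _, one_ne_zero, by rw [map_one, div_one]⟩

theorem CjM_le_fracA : CjM ≤ fracA N := by
  unfold CjM
  rw [IntermediateField.adjoin_simple_le_iff]
  exact algebraMap_mem_fracA N (jH_mem_algA N)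

/-- `Frac 𝒜` as an extension of `ℂ(j)`. -/
def fracAj : IntermediateField CjM MerH := IntermediateField.extendScalars (CjM_le_fracA N)

theorem mem_fracAj_iff (y : MerH) : y ∈ fracAj N ↔ y ∈ fracA N :=
  IntermediateField.mem_extendScalars (CjM_le_fracA N)

variable [Fintype (Q N)]

/-- **`[Frac 𝒜 : ℂ(j)] ≤ [SL₂ℤ : Γ₀(N)]`.** -/
theorem finrank_fracAj_le :
    FiniteDimensional CjM (fracAj N) ∧ Module.finrank CjM (fracAj N) ≤ Fintype.card (Q N) := by
  refine finrank_le_of_forall_natDegree_le (K := CjM) (L := fracAj N) _ fun y => ?_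
  obtain ⟨a, b, ha, hb, hb0, hy⟩ := (mem_fracAj_iff N y).mp y.2
  have h := isIntegral_div (N := N) ha hb
  rw [← hy] at h
  have hinj : Function.Injective (algebraMap (fracAj N) MerH) := (algebraMap (fracAj N) MerH).injective
  have h1 : IsIntegral CjM y := by
    have := h.1
    rwa [show ((y : fracAj N) : MerH) = algebraMap (fracAj N) MerH y from rfl,
      isIntegral_algebraMap_iff hinj] at this
  refine ⟨h1, ?_⟩
  have h2 : minpoly CjM (y : MerH) = minpoly CjM y :=
    minpoly.algebraMap_eq hinj y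
  rw [← h2]
  exact h.2

end

section

/-! ### modular forms divided by powers of `Δ` -/

variable {N : ℕ}

/-- `F / Δ^n` for a holomorphic `F`. -/
def divDisc (F : ℍ → ℂ) (hF : MDifferentiable 𝓘(ℂ) 𝓘(ℂ) F) (n : ℕ) : HolH :=
  ⟨fun z => F z / Δ z ^ n,
    hF.div (lof_mdifferentiable_pow lof_mdifferentiable_discriminant n)
      (fun z => pow_ne_zero n (discriminant_ne_zero z))⟩

theorem divDisc_apply (F : ℍ → ℂ) (hF : MDifferentiable 𝓘(ℂ) 𝓘(ℂ) F) (n : ℕ) (z : ℍ) :
    (divDisc F hF n).1 z = F z / Δ z ^ n := rfl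

/-- A holomorphic function of weight `12 n` for `Γ₀(N)`, all of whose slashes are bounded at `i∞`,
divided by `Δ^n`, lies in `𝒜`. -/
theorem divDisc_mem_algA (F : ℍ → ℂ) (hF : MDifferentiable 𝓘(ℂ) 𝓘(ℂ) F) (n : ℕ)
    (hinv : ∀ γ ∈ Gamma0 N, F ∣[(12 * n : ℤ)] γ = F)
    (hbdd : ∀ γ : SL(2, ℤ), IsBoundedAtImInfty (F ∣[(12 * n : ℤ)] γ)) :
    divDisc F hF n ∈ algA N := by
  have key : ∀ (γ : SL(2, ℤ)) (z : ℍ),
      F (γ • z) / Δ (γ • z) ^ n = (F ∣[(12 * n : ℤ)] γ) z / Δ z ^ n := by
    intro γ z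
    have hd : denom γ z ≠ 0 := denom_ne_zero γ z
    have hΔ : Δ z ≠ 0 := discriminant_ne_zero z
    rw [SL_slash_apply, lof_discriminant_smul, mul_pow, ← zpow_natCast (denom γ z ^ (12 : ℤ)) n,
      ← zpow_mul, zpow_neg]
    field_simp
  refine ⟨fun γ hγ => funext fun z => ?_, n, fun γ => ?_⟩
  · show F (γ • z) / Δ (γ • z) ^ n = F z / Δ z ^ n
    rw [key, hinv γ hγ]
  · have e : (fun z => compSL (divDisc F hF n).1 γ z * Δ z ^ n) = F ∣[(12 * n : ℤ)] γ := by
      funext z
      show F (γ • z) / Δ (γ • z) ^ n * Δ z ^ n = _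
      rw [key, div_mul_cancel₀ _ (pow_ne_zero n (discriminant_ne_zero z))]
    unfold Bdd
    rw [e]
    exact hbdd γ

end

section

variable {N : ℕ} [NeZero N]

theorem modularForm_slash_eq {w : ℤ} (F : ModularForm (Gamma0 N) w) (γ : SL(2, ℤ))
    (hγ : γ ∈ Gamma0 N) : (F : ℍ → ℂ) ∣[w] γ = F :=
  SlashInvariantFormClass.slash_action_eq F _ ⟨γ, hγ, rfl⟩

theorem modularForm_slash_bdd {w : ℤ} (F : ModularForm (Gamma0 N) w) (γ : SL(2, ℤ)) :
    IsBoundedAtImInfty ((F : ℍ → ℂ) ∣[w] γ) := by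
  have hc : IsCusp (Matrix.SpecialLinearGroup.mapGL ℝ γ • OnePoint.infty) 𝒮ℒ :=
    isCusp_SL2Z_iff'.mpr ⟨γ, rfl⟩
  have hc' : IsCusp (Matrix.SpecialLinearGroup.mapGL ℝ γ • OnePoint.infty)
      ((Gamma0 N : Subgroup SL(2, ℤ)) : Subgroup (GL (Fin 2) ℝ)) :=
    (Subgroup.IsArithmetic.isCusp_iff_isCusp_SL2Z _).mpr hc
  have h := ModularFormClass.bdd_at_cusps F hc'
  exact (OnePoint.isBoundedAt_iff_forall_SL2Z hc).mp h γ rfl

end

section

/-! ### ratios of modular forms; invariant roots -/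

variable {N : ℕ} [NeZero N]

theorem mem_algA_of_modularForm {w : ℤ} (F : ModularForm (Gamma0 N) w) (n : ℕ)
    (hw : w = 12 * n) : divDisc F F.holo' n ∈ algA N := by
  subst hw
  exact divDisc_mem_algA F F.holo' n (fun γ hγ => modularForm_slash_eq F γ hγ)
    (fun γ => modularForm_slash_bdd F γ)

/-- A modular form as an element of `HolH`. -/
def toHolH {w : ℤ} (F : ModularForm (Gamma0 N) w) : HolH := ⟨F, F.holo'⟩

/-- **(D5) ratio_mem, field-free form**: the ratio of two modular forms of the same weight `k ≥ 0`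
on `Γ₀(N)` lies in `Frac 𝒜`. -/
theorem ratio_mem_fracA {k : ℤ} (hk : 0 ≤ k) (A B : ModularForm (Gamma0 N) k) :
    algebraMap HolH MerH (toHolH A) / algebraMap HolH MerH (toHolH B) ∈ fracA N := by
  obtain ⟨n, rfl⟩ := Int.eq_ofNat_of_zero_le hk
  by_cases hB : (B : ℍ → ℂ) = 0
  · have : toHolH B = 0 := Subtype.ext hB
    rw [this, map_zero, div_zero]
    exact zero_mem _
  set Fa : ModularForm (Gamma0 N) ((n : ℤ) + (11 : ℕ) * (n : ℤ)) := A.mul (B.pow 11)
  set Fb : ModularForm (Gamma0 N) ((12 : ℕ) * (n : ℤ)) := B.pow 12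
  have ha := mem_algA_of_modularForm Fa n (by push_cast; ring)
  have hb := mem_algA_of_modularForm Fb n (by push_cast; ring)
  have hFa : ∀ z, Fa z = A z * B z ^ 11 := by
    intro z
    show (A.mul (B.pow 11)) z = _
    rw [ModularForm.coe_mul, Pi.mul_apply, ModularForm.coe_pow]
    rfl
  have hFb : ∀ z, Fb z = B z ^ 12 := by
    intro z
    show (B.pow 12) z = _
    rw [ModularForm.coe_pow]
    rfl
  obtain ⟨z₀, hz₀⟩ : ∃ z, B z ≠ 0 := by
    by_contra h
    exact hB (funext fun z => not_not.mp fun hz => h ⟨z, hz⟩)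
  have hb0 : divDisc Fb Fb.holo' n ≠ 0 := by
    intro h
    have h1 := congrArg (fun f : HolH => f.1 z₀) h
    simp only [divDisc_apply] at h1
    rw [hFb] at h1
    have h2 : (0 : HolH).1 z₀ = 0 := rfl
    rw [h2, div_eq_zero_iff] at h1
    rcases h1 with h1 | h1
    · exact hz₀ (pow_eq_zero_iff (by norm_num) |>.mp h1)
    · exact pow_ne_zero n (discriminant_ne_zero z₀) h1
  refine ⟨divDisc Fa Fa.holo' n, divDisc Fb Fb.holo' n, ha, hb, hb0, ?_⟩
  have hB0 : toHolH B ≠ 0 := fun h => hB (congrArg Subtype.val h)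
  rw [div_eq_div_iff (algebraMap_ne_zero hB0) (algebraMap_ne_zero hb0), ← map_mul, ← map_mul]
  congr 1
  apply Subtype.ext
  funext z
  show A z * (Fb z / Δ z ^ n) = Fa z / Δ z ^ n * B z
  rw [hFa, hFb]
  ring

/-- If `u ^ n` is bounded at `i∞` (`n > 0`) then so is `u`. -/
theorem isBoundedAtImInfty_of_pow {u : ℍ → ℂ} {n : ℕ} (hn : 0 < n)
    (h : IsBoundedAtImInfty (fun z => u z ^ n)) : IsBoundedAtImInfty u := by
  obtain ⟨c, hc⟩ := Asymptotics.isBigO_iff.mp h
  refine Asymptotics.isBigO_iff.mpr ⟨max 1 c, ?_⟩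
  filter_upwards [hc] with z hz
  simp only [Pi.one_apply, norm_one, mul_one, norm_pow] at hz ⊢
  by_cases h1 : ‖u z‖ ≤ 1
  · exact h1.trans (le_max_left _ _)
  · have h1 : 1 < ‖u z‖ := not_le.mp h1
    have h2 : ‖u z‖ ≤ ‖u z‖ ^ n := by
      calc ‖u z‖ = ‖u z‖ ^ 1 := (pow_one _).symm
        _ ≤ ‖u z‖ ^ n := pow_le_pow_right₀ h1.le hn
    exact (h2.trans hz).trans (le_max_right _ _)

omit [NeZero N] in
/-- **(b′)** A `Γ₀(N)`-invariant holomorphic `n`-th root of an element of `𝒜` lies in `𝒜`. -/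
theorem mem_algA_of_pow_mem {h : HolH} {n : ℕ} (hn : 0 < n)
    (hinv : ∀ γ ∈ Gamma0 N, compSL h.1 γ = h.1) (hpow : h ^ n ∈ algA N) : h ∈ algA N := by
  obtain ⟨m, hm⟩ := hpow.2
  refine ⟨hinv, m, fun γ => ?_⟩
  apply isBoundedAtImInfty_of_pow hn
  have h1 := (hm γ).mul (M' := m * (n - 1)) (f := compSL (h ^ n).1 γ) (g := 1)
    ((bdd_one 0).mono (Nat.zero_le _))
  have e : (fun z => (compSL h.1 γ z * Δ z ^ m) ^ n) =
      fun z => (compSL (h ^ n).1 γ * 1) z * Δ z ^ (m + m * (n - 1)) := by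
    funext z
    have e1 : m + m * (n - 1) = m * n := by
      cases n with
      | zero => omega
      | succ n => simp; ring
    rw [e1, mul_pow, ← pow_mul]
    simp only [Pi.mul_apply, Pi.one_apply, mul_one]
    rfl
  rw [e]
  exact h1

end

section

variable (N : ℕ) [NeZero N]

/-- **`[Frac 𝒜 : ℂ(j)] ≤ ψ(N)`.** -/
theorem finrank_fracAj_le_psi :
    FiniteDimensional CjM (fracAj N) ∧
      Module.finrank CjM (fracAj N) ≤ ModularCurve.dedekindPsi N := by
  haveI : Fintype (Q N) := Fintype.ofFinite _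
  have h := finrank_fracAj_le N
  rw [← Nat.card_eq_fintype_card, G1Index.g1_card N] at h
  exact h

end

end Fermat.Agent.ES.KUM.RatioAlg15
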