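/-
Program J (S30), chapter J1.4 part (B1) (helper15): **the analytic realisation of `R_ℂ = ℂ[j_d : d ∣ N]`
lies in the algebra `𝒜 = RatioAlg15.algA N`**, hence `realMer N (F_ℂ) ⊆ Frac 𝒜`.

* `exists_uniform_bdd`: for a `Γ₀(N)`-invariant function the pole orders of the translates `f ∘ γ`
  at `i∞` are uniformly bounded (finitely many cosets);
* `jdH d : HolH`, `jdH_mem_algA`: `z ↦ j(d z) ∈ 𝒜` for `d ∣ N` (`q_N`-expansions of `j_d ∘ γ`:
  `X0/CuspGen` + `X0/Integrality`);
* `realC_mem_algA`, `realMer_mem_fracA`.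
-/
import Mathlib
import Fermat.Agent.ES.KUM.RatioAlg15
import Fermat.Agent.ES.KUM.CReal5
import Fermat.Agent.X0.CuspGen
import Fermat.Agent.X0.Integrality

set_option autoImplicit false
set_option linter.unusedSectionVars false
set_option linter.style.haveILetI false

open UpperHalfPlane ModularForm CongruenceSubgroup
open scoped MatrixGroups Manifold

noncomputable section

namespace Fermat.Agent.ES.KUM.RatioGen15

open Fermat.Agent.X0 Fermat.Agent.X0.SurjPoint Fermat.Agent.ES.KUM.RatioAlg15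

variable (N : ℕ) [NeZero N]

/-- **Uniform pole order.**  For a `Γ₀(N)`-invariant function, pole-order bounds at `i∞` for each
translate `f ∘ γ` give a uniform bound (finitely many cosets). -/
theorem exists_uniform_bdd {f : ℍ → ℂ} (hinv : ∀ γ ∈ Gamma0 N, compSL f γ = f)
    (h : ∀ γ : SL(2, ℤ), ∃ M : ℕ, Bdd M (compSL f γ)) :
    ∃ M : ℕ, ∀ γ : SL(2, ℤ), Bdd M (compSL f γ) := by
  classical
  haveI : Fintype (Q N) := Fintype.ofFinite _
  choose Mf hMf using h
  refine ⟨Finset.univ.sup fun x : Q N => Mf (Quotient.out x)⁻¹, fun γ => ?_⟩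
  set x : Q N := ((γ⁻¹ : SL(2, ℤ)) : Q N) with hx
  have hδ : γ * Quotient.out x ∈ Gamma0 N := by
    have h1 : ((γ⁻¹ : SL(2, ℤ)) : Q N) = ((Quotient.out x : SL(2, ℤ)) : Q N) :=
      (QuotientGroup.out_eq' x).symm
    have h2 := QuotientGroup.eq.mp h1
    rwa [inv_inv] at h2
  have hγ : γ = (γ * Quotient.out x) * (Quotient.out x)⁻¹ := by group
  have h3 : compSL f γ = compSL f (Quotient.out x)⁻¹ := by
    conv_lhs => rw [hγ]
    rw [compSL_mul, hinv _ hδ]
  rw [h3]
  exact (hMf _).mono (Finset.le_sup (f := fun x : Q N => Mf (Quotient.out x)⁻¹) (Finset.mem_univ x))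

/-- `z ↦ j(d z)` as an element of `HolH`. -/
def jdH (d : ℕ) [NeZero d] : HolH := ⟨jdFun d, (Analytic.hasQExp_jd d).mdifferentiable⟩

theorem compSL_jdFun_of_mem {d : ℕ} [NeZero d] (hd : d ∣ N) {γ : SL(2, ℤ)}
    (hγ : γ ∈ Gamma0 N) : compSL (jdFun d) γ = jdFun d := by
  have hN : (N : ℤ) ∣ γ 1 0 := by
    rw [CongruenceSubgroup.Gamma0_mem] at hγ
    exact (ZMod.intCast_zmod_eq_zero_iff_dvd _ _).mp hγ
  funext z
  exact Analytic.jdFun_smul_of_dvd γ d ((Int.natCast_dvd_natCast.mpr hd).trans hN) z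

/-- **`j_d ∈ 𝒜`** for `d ∣ N`. -/
theorem jdH_mem_algA {d : ℕ} [NeZero d] (hd : d ∣ N) : jdH d ∈ algA N := by
  refine ⟨fun γ hγ => compSL_jdFun_of_mem N hd hγ, ?_⟩
  refine exists_uniform_bdd N (fun γ hγ => compSL_jdFun_of_mem N hd hγ) fun γ => ?_
  obtain ⟨m, P, hP⟩ := CuspGen.exists_isQExp_compSL_jdFun' N d hd γ
  exact intg_qn_bounded N (intg_qn_of_isQExp N hP)

/-- **`Θ(R_ℂ) ⊆ 𝒜`.** -/
theorem realC_mem_algA (u : RC N) : realC N u ∈ algA N := by
  induction u using RC_induction with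
  | hgen d hd =>
    have h : realC N (jdRC N d hd) = jdH d := Subtype.ext (realC_jdRC N d hd)
    rw [h]
    exact jdH_mem_algA N hd
  | hconst c =>
    rw [realC_algebraMap']
    exact (algA N).algebraMap_mem c
  | hadd u v hu hv =>
    rw [map_add]; exact add_mem hu hv
  | hmul u v hu hv =>
    rw [map_mul]; exact mul_mem hu hv

/-- **`Θ(F_ℂ) ⊆ Frac 𝒜`.** -/
theorem realMer_mem_fracA (f : FC N) : realMer N f ∈ fracA N := by
  obtain ⟨r, s, hs, rfl⟩ := exists_divC_ne_zero N f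
  have hs' : realC N s ≠ 0 := fun h => hs (realC_injective N (h.trans (map_zero _).symm))
  refine ⟨realC N r, realC N s, realC_mem_algA N r, realC_mem_algA N s, hs', ?_⟩
  rw [map_div₀, realMer_coe, realMer_coe]

end Fermat.Agent.ES.KUM.RatioGen15
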