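/-
Program J (S30), chapter J1.4 parts (B2)+(B3) (helper15): **`Θ(F_ℂ) = Frac 𝒜`**, hence
* `ratio_mem`: the ratio of two modular forms of the same weight on `Γ₀(N)` lies in `Θ(F_ℂ)`;
* `root_mem`: a `Γ₀(N)`-invariant meromorphic `n`-th root of an element of `Θ(F_ℂ)` lies in `Θ(F_ℂ)`.

`Θ = CReal5.realMer N : FC N →+* MerH`.  Inputs: `RatioAlg15` (`[Frac 𝒜 : ℂ(j)] ≤ ψ(N)`), `RatioGen15`
(`Θ(F_ℂ) ⊆ Frac 𝒜`), `FieldL25.finrank_jL` (`[F_ℂ : ℂ(j)] = ψ(N)`), `RootsH14` (holomorphic roots).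
-/
import Mathlib
import Fermat.Agent.ES.KUM.RatioGen15
import Fermat.Agent.ES.KUM.FieldL25
import Fermat.Agent.ES.KUM.CPoint5
import Fermat.Agent.ES.KUM.RootsMer14
import Fermat.Agent.ES.KUM.RootsH14

set_option autoImplicit false
set_option linter.unusedSectionVars false
set_option linter.style.haveILetI false

open UpperHalfPlane ModularForm CongruenceSubgroup IntermediateField ModularCurve
open scoped MatrixGroups Manifold

noncomputable section

namespace Fermat.Agent.ES.KUM.RatioMem15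

open Fermat.Agent.X0 Fermat.Agent.X0.SurjPoint Fermat.Agent.ES.KUM.RatioAlg15
  Fermat.Agent.ES.KUM.RatioGen15 Fermat.Agent.ES.KUM.FieldL25

variable (N : ℕ) [NeZero N]

/-! ### `Θ` as a `ℂ`-algebra homomorphism and its range -/

/-- `Θ = realMer N` as a `ℂ`-algebra homomorphism. -/
def realMerAlg : FC N →ₐ[ℂ] MerH :=
  { realMer N with
    commutes' := fun a => by
      show realMer N (algebraMap ℂ (FC N) a) = algebraMap ℂ MerH a
      rw [realMer_algebraMap]
      exact (IsScalarTower.algebraMap_apply ℂ HolH MerH a).symm }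

@[simp] theorem realMerAlg_apply (f : FC N) : realMerAlg N f = realMer N f := rfl

/-- `jC N = jL ℂ N`. -/
theorem jC_eq_jL : jC N = jL ℂ N := by
  apply Subtype.ext
  show coeffEmb ℂ (qExpand ℚ 1 jq) = jqModC ℂ
  rw [coeffEmbC_jd, qExpand_one_apply]

theorem realMer_jL : realMer N (jL ℂ N) = jM := by
  rw [← jC_eq_jL, realMer_jC]
  rfl

/-- The range `Θ(F_ℂ)` as a subfield of `MerH`. -/
def rangeΘ : IntermediateField ℂ MerH := (realMerAlg N).fieldRange

theorem mem_rangeΘ_iff (y : MerH) : y ∈ rangeΘ N ↔ ∃ f : FC N, realMer N f = y := Iff.rfl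

theorem rangeΘ_le_fracA : rangeΘ N ≤ fracA N := by
  rintro _ ⟨f, rfl⟩
  exact realMer_mem_fracA N f

theorem CjM_le_rangeΘ : CjM ≤ rangeΘ N := by
  unfold CjM
  rw [IntermediateField.adjoin_simple_le_iff]
  exact ⟨jL ℂ N, realMer_jL N⟩

/-- `Θ(F_ℂ)` as an extension of `ℂ(j)`. -/
def rangeΘj : IntermediateField CjM MerH := IntermediateField.extendScalars (CjM_le_rangeΘ N)

theorem mem_rangeΘj_iff (y : MerH) : y ∈ rangeΘj N ↔ ∃ f : FC N, realMer N f = y :=
  IntermediateField.mem_extendScalars (CjM_le_rangeΘ N)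

theorem rangeΘj_le_fracAj : rangeΘj N ≤ fracAj N := by
  intro y hy
  rw [mem_fracAj_iff]
  exact rangeΘ_le_fracA N ((IntermediateField.mem_extendScalars _).mp hy)

theorem realMer_mem_CjM {x : FC N} (hx : x ∈ ℂ⟮jL ℂ N⟯) : realMer N x ∈ CjM := by
  have h1 : realMerAlg N x ∈ (ℂ⟮jL ℂ N⟯).map (realMerAlg N) := ⟨x, hx, rfl⟩
  rw [IntermediateField.adjoin_map, Set.image_singleton, realMerAlg_apply, realMer_jL] at h1
  exact h1

theorem exists_of_mem_CjM {y : MerH} (hy : y ∈ CjM) :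
    ∃ x : FC N, x ∈ ℂ⟮jL ℂ N⟯ ∧ realMer N x = y := by
  have h1 : y ∈ (ℂ⟮jL ℂ N⟯).map (realMerAlg N) := by
    rw [IntermediateField.adjoin_map, Set.image_singleton, realMerAlg_apply, realMer_jL]
    exact hy
  obtain ⟨x, hx, rfl⟩ := h1
  exact ⟨x, hx, rfl⟩

/-- **`[Θ(F_ℂ) : ℂ(j)] = ψ(N)`** (transport of `FieldL25.finrank_jL` along `Θ`). -/
theorem finrank_rangeΘj : Module.finrank CjM (rangeΘj N) = dedekindPsi N := by
  rw [← finrank_jL ℂ N]
  symm
  -- the two ring isomorphisms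
  let f₀ : ↥(ℂ⟮jL ℂ N⟯) →+* ↥CjM :=
    ((realMer N).comp (algebraMap ↥(ℂ⟮jL ℂ N⟯) (FC N))).codRestrict CjM.toSubfield
      (fun x => realMer_mem_CjM N x.2)
  have hf₀ : Function.Bijective f₀ := by
    refine ⟨fun a b h => ?_, fun y => ?_⟩
    · have h1 : realMer N (a : FC N) = realMer N (b : FC N) := congrArg Subtype.val h
      exact Subtype.ext (embC_injective N 1 h1)
    · obtain ⟨x, hx, hxy⟩ := exists_of_mem_CjM N y.2
      exact ⟨⟨x, hx⟩, Subtype.ext hxy⟩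
  let f₁ : FC N →+* ↥(rangeΘj N) :=
    (realMer N).codRestrict (rangeΘj N).toSubfield
      (fun x => (mem_rangeΘj_iff N _).mpr ⟨x, rfl⟩)
  have hf₁ : Function.Bijective f₁ := by
    refine ⟨fun a b h => ?_, fun y => ?_⟩
    · have h1 : realMer N a = realMer N b := congrArg Subtype.val h
      exact embC_injective N 1 h1
    · obtain ⟨x, hx⟩ := (mem_rangeΘj_iff N _).mp y.2
      exact ⟨x, Subtype.ext hx⟩
  exact Algebra.finrank_eq_of_equiv_equiv (RingEquiv.ofBijective f₀ hf₀)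
    (RingEquiv.ofBijective f₁ hf₁) (RingHom.ext fun x => Subtype.ext rfl)

/-- **`Θ(F_ℂ) = Frac 𝒜`.** -/
theorem rangeΘj_eq_fracAj : rangeΘj N = fracAj N := by
  obtain ⟨hfin, hle⟩ := finrank_fracAj_le_psi N
  haveI := hfin
  refine IntermediateField.eq_of_le_of_finrank_le (rangeΘj_le_fracAj N) ?_
  rw [finrank_rangeΘj]
  exact hle

/-- every element of `Frac 𝒜` is `Θ f`. -/
theorem exists_realMer_eq_of_mem_fracA {y : MerH} (hy : y ∈ fracA N) :
    ∃ f : FC N, realMer N f = y := by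
  have h1 : y ∈ fracAj N := (mem_fracAj_iff N y).mpr hy
  rw [← rangeΘj_eq_fracAj] at h1
  exact (mem_rangeΘj_iff N y).mp h1

/-! ### negative weights: multiply by a power of `Δ` -/

local notation "Δ" => ModularForm.discriminant

/-- `F · Δ^n` for a holomorphic `F`. -/
def mulDisc (F : ℍ → ℂ) (hF : MDifferentiable 𝓘(ℂ) 𝓘(ℂ) F) (n : ℕ) : HolH :=
  ⟨fun z => F z * Δ z ^ n,
    hF.mul (lof_mdifferentiable_pow lof_mdifferentiable_discriminant n)⟩

/-- A holomorphic function of weight `-12 n` for `Γ₀(N)`, all of whose slashes are bounded at `i∞`,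
multiplied by `Δ^n`, lies in `𝒜`. -/
theorem mulDisc_mem_algA (F : ℍ → ℂ) (hF : MDifferentiable 𝓘(ℂ) 𝓘(ℂ) F) (n : ℕ)
    (hinv : ∀ γ ∈ Gamma0 N, F ∣[(-(12 * n) : ℤ)] γ = F)
    (hbdd : ∀ γ : SL(2, ℤ), IsBoundedAtImInfty (F ∣[(-(12 * n) : ℤ)] γ)) :
    mulDisc F hF n ∈ algA N := by
  have key : ∀ (γ : SL(2, ℤ)) (z : ℍ),
      F (γ • z) * Δ (γ • z) ^ n = (F ∣[(-(12 * n) : ℤ)] γ) z * Δ z ^ n := by
    intro γ z
    have hd : denom γ z ≠ 0 := denom_ne_zero γ z
    rw [SL_slash_apply, lof_discriminant_smul, mul_pow, ← zpow_natCast (denom γ z ^ (12 : ℤ)) n,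
      ← zpow_mul, neg_neg]
    ring
  refine ⟨fun γ hγ => funext fun z => ?_, 0, fun γ => ?_⟩
  · show F (γ • z) * Δ (γ • z) ^ n = F z * Δ z ^ n
    rw [key, hinv γ hγ]
  · have e : (fun z => compSL (mulDisc F hF n).1 γ z * Δ z ^ 0) =
        (F ∣[(-(12 * n) : ℤ)] γ) * fun z => Δ z ^ n := by
      funext z
      show F (γ • z) * Δ (γ • z) ^ n * Δ z ^ 0 = _
      rw [key, pow_zero, mul_one]
      rfl
    unfold Bdd
    rw [e]
    exact (hbdd γ).mul (isBoundedAtImInfty_discriminant_pow n)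

theorem mem_algA_of_modularForm_neg {w : ℤ} (F : ModularForm (Gamma0 N) w) (n : ℕ)
    (hw : w = -(12 * n)) : mulDisc F F.holo' n ∈ algA N := by
  subst hw
  exact mulDisc_mem_algA N F F.holo' n (fun γ hγ => modularForm_slash_eq F γ hγ)
    (fun γ => modularForm_slash_bdd F γ)

/-- the ratio of two modular forms of the same negative weight lies in `Frac 𝒜`. -/
theorem ratio_mem_fracA_neg {k : ℤ} (hk : k ≤ 0) (A B : ModularForm (Gamma0 N) k) :
    algebraMap HolH MerH (toHolH A) / algebraMap HolH MerH (toHolH B) ∈ fracA N := by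
  obtain ⟨n, hn⟩ := Int.eq_ofNat_of_zero_le (neg_nonneg.mpr hk)
  have hkn : k = -(n : ℤ) := by omega
  subst hkn
  by_cases hB : (B : ℍ → ℂ) = 0
  · have : toHolH B = 0 := Subtype.ext hB
    rw [this, map_zero, div_zero]
    exact zero_mem _
  set Fa : ModularForm (Gamma0 N) (-(n : ℤ) + (11 : ℕ) * (-(n : ℤ))) := A.mul (B.pow 11)
  set Fb : ModularForm (Gamma0 N) ((12 : ℕ) * (-(n : ℤ))) := B.pow 12
  have ha := mem_algA_of_modularForm_neg N Fa n (by push_cast; ring)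
  have hb := mem_algA_of_modularForm_neg N Fb n (by push_cast; ring)
  have hFa : ∀ z, Fa z = A z * B z ^ 11 := by
    intro z
    show (A.mul (B.pow 11)) z = _
    rw [ModularForm.coe_mul, Pi.mul_apply, ModularForm.coe_pow]
    rfl
  have hFb : ∀ z, Fb z = B z ^ 12 := by
    intro z
    show (B.pow 12) z = _
    rw [ModularForm.coe_pow]
    rfl
  obtain ⟨z₀, hz₀⟩ : ∃ z, B z ≠ 0 := by
    by_contra h
    exact hB (funext fun z => not_not.mp fun hz => h ⟨z, hz⟩)
  have hb0 : mulDisc Fb Fb.holo' n ≠ 0 := by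
    intro h
    have h1 : (mulDisc Fb Fb.holo' n).1 z₀ = (0 : HolH).1 z₀ := by rw [h]
    have h2 : (0 : HolH).1 z₀ = 0 := rfl
    have h3 : (mulDisc Fb Fb.holo' n).1 z₀ = Fb z₀ * Δ z₀ ^ n := rfl
    rw [h2, h3, hFb, mul_eq_zero] at h1
    rcases h1 with h1 | h1
    · exact hz₀ (pow_eq_zero_iff (by norm_num) |>.mp h1)
    · exact pow_ne_zero n (discriminant_ne_zero z₀) h1
  refine ⟨mulDisc Fa Fa.holo' n, mulDisc Fb Fb.holo' n, ha, hb, hb0, ?_⟩
  have hB0 : toHolH B ≠ 0 := fun h => hB (congrArg Subtype.val h)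
  rw [div_eq_div_iff (algebraMap_ne_zero hB0) (algebraMap_ne_zero hb0), ← map_mul, ← map_mul]
  congr 1
  apply Subtype.ext
  funext z
  show A z * (Fb z * Δ z ^ n) = Fa z * Δ z ^ n * B z
  rw [hFa, hFb]
  ring

/-! ### the two exports of J1.4 -/

/-- **(D5) `ratio_mem`**: the ratio of two modular forms of the same weight on `Γ₀(N)` lies in
`Θ(F_ℂ)`. -/
theorem ratio_mem (k : ℤ) (A B : ModularForm (Gamma0 N) k) (hB : B ≠ 0) :
    ∃ f : FC N, realMer N f * algebraMap HolH MerH ⟨B, B.holo'⟩ =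
      algebraMap HolH MerH ⟨A, A.holo'⟩ := by
  have hmem : algebraMap HolH MerH (toHolH A) / algebraMap HolH MerH (toHolH B) ∈ fracA N := by
    rcases le_total 0 k with hk | hk
    · exact ratio_mem_fracA hk A B
    · exact ratio_mem_fracA_neg N hk A B
  obtain ⟨f, hf⟩ := exists_realMer_eq_of_mem_fracA N hmem
  refine ⟨f, ?_⟩
  have hB0 : toHolH B ≠ 0 := by
    intro h
    apply hB
    have h1 : (B : ℍ → ℂ) = 0 := congrArg Subtype.val h
    exact DFunLike.coe_injective h1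
  rw [hf]
  exact div_mul_cancel₀ _ (algebraMap_ne_zero hB0)

/-- A root of unity of `MerH` is a constant. -/
theorem exists_const_of_pow_eq_one {n : ℕ} (hn : n ≠ 0) {ζ : MerH} (hζ : ζ ^ n = 1) :
    ∃ c : ℂ, c ^ n = 1 ∧ ζ = algebraMap HolH MerH (algebraMap ℂ HolH c) := by
  have hint : IsIntegral ℂ ζ := by
    refine ⟨Polynomial.X ^ n - 1, Polynomial.monic_X_pow_sub_C 1 hn, ?_⟩
    simp [hζ]
  have hdeg : (minpoly ℂ ζ).degree = 1 :=
    IsAlgClosed.degree_eq_one_of_irreducible ℂ (minpoly.irreducible hint)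
  obtain ⟨c, hc⟩ := minpoly.mem_range_of_degree_eq_one ℂ ζ hdeg
  refine ⟨c, ?_, ?_⟩
  · have h1 : algebraMap ℂ MerH (c ^ n) = algebraMap ℂ MerH 1 := by
      rw [map_pow, hc, hζ, map_one]
    exact (algebraMap ℂ MerH).injective h1
  · rw [← hc]
    exact IsScalarTower.algebraMap_apply ℂ HolH MerH c

/-- **Corollary (b) `root_mem`**: a `Γ₀(N)`-invariant meromorphic `n`-th root of an element of
`Θ(F_ℂ)` lies in `Θ(F_ℂ)`. -/
theorem root_mem (n : ℕ) (hn : n ≠ 0) (h : MerH)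
    (hinv : ∀ γ ∈ Gamma0 N, slMer γ h = h) (f : FC N) (hf : h ^ n = realMer N f) :
    ∃ f' : FC N, realMer N f' = h := by
  rcases eq_or_ne h 0 with rfl | h0
  · exact ⟨0, map_zero _⟩
  obtain ⟨r, s, hs, rfl⟩ := exists_divC_ne_zero N f
  have hs' : realC N s ≠ 0 := fun h => hs (realC_injective N (h.trans (map_zero _).symm))
  have hsM : algebraMap HolH MerH (realC N s) ≠ 0 := algebraMap_ne_zero hs'
  -- `h₁ := h · Θ s` has `h₁ ^ n = Θ (r s^{n-1})`
  set g : HolH := realC N (r * s ^ (n - 1)) with hg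
  set h₁ : MerH := h * algebraMap HolH MerH (realC N s) with hh₁
  have h₁0 : h₁ ≠ 0 := mul_ne_zero h0 hsM
  have hpow : h₁ ^ n = algebraMap HolH MerH g := by
    rw [hh₁, mul_pow, hf, map_div₀, realMer_coe, realMer_coe, hg, map_mul, map_pow, map_mul,
      map_pow]
    have e : algebraMap HolH MerH (realC N s) ^ n =
        algebraMap HolH MerH (realC N s) ^ (n - 1) * algebraMap HolH MerH (realC N s) := by
      rw [← pow_succ, Nat.sub_add_cancel (Nat.one_le_iff_ne_zero.mpr hn)]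
    rw [e]
    field_simp
  have hg0 : g ≠ 0 := by
    intro hg0
    rw [hg0, map_zero] at hpow
    exact h₁0 (pow_eq_zero_iff hn |>.mp hpow)
  -- a holomorphic root of `g`
  obtain ⟨h₀, hh₀⟩ := RootsH14.exists_root_HolH_of_dvd n hn g hg0 (fun z => by
    have h1 := ordMer_algebraMap z hg0
    rw [← hpow, ordMer_pow z h₁0] at h1
    have h2 : (0 : ℤ) ≤ ordMer z h₁ := by
      have : (0 : ℤ) ≤ (n : ℤ) * ordMer z h₁ := by rw [h1]; exact Int.natCast_nonneg _
      exact nonneg_of_mul_nonneg_right this (by exact_mod_cast Nat.pos_of_ne_zero hn)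
    obtain ⟨m, hm⟩ := Int.eq_ofNat_of_zero_le h2
    refine ⟨m, ?_⟩
    rw [hm] at h1
    exact_mod_cast h1.symm)
  have hh₀0 : algebraMap HolH MerH h₀ ≠ 0 := by
    intro h
    have : algebraMap HolH MerH g = 0 := by rw [← hh₀, map_pow, h, zero_pow hn]
    exact algebraMap_ne_zero hg0 this
  obtain ⟨ζ, hζ, hζh⟩ := RootsMer14.exists_pow_eq_one_of_pow_eq (n := n) (x := h₁)
    (y := algebraMap HolH MerH h₀) hh₀0 (by rw [hpow, ← hh₀, map_pow])
  obtain ⟨c, hc, rfl⟩ := exists_const_of_pow_eq_one hn hζ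
  -- `h₁` is the image of `h₂ := c · h₀ ∈ HolH`
  set h₂ : HolH := algebraMap ℂ HolH c * h₀ with hh₂
  have hh₁₂ : h₁ = algebraMap HolH MerH h₂ := by rw [hζh, hh₂, map_mul]
  have hh₂pow : h₂ ^ n = g := by
    rw [hh₂, mul_pow, ← map_pow, hc, map_one, one_mul, hh₀]
  have hinv₂ : ∀ γ ∈ Gamma0 N, compSL h₂.1 γ = h₂.1 := by
    intro γ hγ
    have h1 : slMer γ h₁ = h₁ := by
      rw [hh₁, map_mul, hinv γ hγ, slMer_algebraMap, compSLHom_realC_of_mem N s γ hγ]
    rw [hh₁₂, slMer_algebraMap] at h1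
    have h2 := IsFractionRing.injective HolH MerH h1
    exact congrArg Subtype.val h2
  have hmem₂ : h₂ ∈ algA N :=
    mem_algA_of_pow_mem (Nat.pos_of_ne_zero hn) hinv₂ (hh₂pow ▸ realC_mem_algA N _)
  have hmem : h ∈ fracA N := by
    have h1 : h = h₁ / algebraMap HolH MerH (realC N s) := by
      rw [hh₁, mul_div_cancel_right₀ _ hsM]
    rw [h1, hh₁₂]
    exact ⟨h₂, realC N s, hmem₂, realC_mem_algA N s, hs', rfl⟩
  exact exists_realMer_eq_of_mem_fracA N hmem

end Fermat.Agent.ES.KUM.RatioMem15
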