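/-
Program J (S30), glue (helper15): **(INV) for the concrete Kummer setting and FINITENESS of torsion.**

* `invClosedC N n : (KumInst18.settingC N).InvClosed n` (= `RatioMem15.root_mem`);
* `finite_torsionC N n : Finite ↥(Pic0.torsion ℂ (FC N) n)` (Kummer injectivity + `Γ₀(N)` f.g.);
* `finite_torsion_bar N n`, `finite_setOf_nsmul_eq_zero N n : {y : JZero N | n • y = 0}.Finite`
  — UNCONDITIONAL (via `DescentFinal24`), the input (FIN) of the Tate module chapter J6;
* `kummerC_injective N n`, and `torsionEquivC` is now available without hypotheses.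
-/
import Mathlib
import Fermat.Agent.ES.KUM.RatioMem15
import Fermat.Agent.ES.KUM.KumInst18
import Fermat.Agent.J.DESC.DescentFinal24
import Fermat.Agent.S22.CocycleFG

set_option autoImplicit false
set_option linter.unusedSectionVars false
set_option linter.style.haveILetI false

open AlgebraicCurve ModularCurve CongruenceSubgroup
open scoped MatrixGroups

noncomputable section

namespace Fermat.Agent.ES.KUM.FiniteTorsion15

open Fermat.Agent.X0 Fermat.Agent.X0.SurjPoint Fermat.Agent.ES.KUM
  Fermat.Agent.ES.KUM.KummerAbstract17 Fermat.Agent.ES.KUM.KumInst18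

variable (N : ℕ) [NeZero N]

/-- **(INV)** for the concrete Kummer setting over `ℂ`. -/
theorem invClosedC (n : ℕ) (hn : n ≠ 0) : (settingC N).InvClosed n := by
  rintro h hinv ⟨f, hf⟩
  exact RatioMem15.root_mem N n hn h (fun γ hγ => hinv ⟨γ, hγ⟩) f hf

theorem fg_Gamma0 : Group.FG ↥(Gamma0 N) :=
  (Group.fg_iff_subgroup_fg _).mpr (Fermat.Agent.S22.gamma0_fg N)

/-- **`Pic⁰(F_ℂ)[n]` is finite.** -/
theorem finite_torsionC (n : ℕ) [NeZero n] : Finite ↥(Pic0.torsion ℂ (FC N) n) :=
  KumInst18.finite_torsionC N n (invClosedC N n (NeZero.ne n)) (fg_Gamma0 N)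

/-- the Kummer map over `ℂ` is injective. -/
theorem kummerC_injective (n : ℕ) [NeZero n] : Function.Injective (kummerC N n) :=
  KumInst18.kummerC_injective N n (invClosedC N n (NeZero.ne n))

open Fermat.Agent.J.DESC.DescentFinal24 in
/-- **`J₀(N)[n]` is finite** (over `ℚ̄`). -/
theorem finite_torsion_bar (n : ℕ) [NeZero n] :
    Finite (Pic0.torsion (AlgebraicClosure ℚ) (FQ N) n) := by
  haveI : Finite (Pic0.torsion ℂ (FCx N) n) := finite_torsionC N n
  exact Fermat.Agent.J.DESC.DescentFinal24.finite_torsion_bar N n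

open Fermat.Agent.J.DESC.DescentFinal24 in
/-- **(FIN)**: `{y : J₀(N) | n • y = 0}` is finite. -/
theorem finite_setOf_nsmul_eq_zero (n : ℕ) [NeZero n] : {y : JZero N | n • y = 0}.Finite := by
  haveI : Finite (Pic0.torsion ℂ (FCx N) n) := finite_torsionC N n
  exact Fermat.Agent.J.DESC.DescentFinal24.finite_setOf_nsmul_eq_zero N n

open Fermat.Agent.J.DESC.DescentFinal24 in
/-- the comparison `J₀(N)[n] ≃ Pic⁰(F_ℂ)[n]`, unconditional. -/
def torsionEquivC' (n : ℕ) [NeZero n] :
    Pic0.torsion (AlgebraicClosure ℚ) (FQ N) n ≃+ Pic0.torsion ℂ (FCx N) n :=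
  haveI : Finite (Pic0.torsion ℂ (FCx N) n) := finite_torsionC N n
  torsionEquivC N n

end Fermat.Agent.ES.KUM.FiniteTorsion15
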