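/-
Program J, chapter J1 (Kummer theory on `ℍ`), file K5a (helper16): **cusp expansions over `ℂ`**.

For `γ ∈ SL(2, ℤ)` every `Θ u ∘ γ` (`u ∈ R_ℂ = ℂ[j_d : d ∣ N]`, `Θ = realC N`) has a `q_N`-expansion; the
resulting map `R_ℂ → ℂ((q_N))` is an injective ring hom and extends to `cuspEmbC N γ : F_ℂ →+* ℂ((q))`
(`T_γ`).  Properties (port of `X0/CuspExpand`, `X0/CuspEquiv`, `X0/CuspGood` from `ℚbar` to `ℂ`):

* `cuspEmbC_spec`, `cuspEmbC_eq_of_isQExp` : `T_γ u = laurentOf m P` for ANY datum `IsQExp N (Θ u ∘ γ) m P`;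
* `cuspEmbC_algebraMap` (constants), `cuspEmbC_jC` (`T_γ j = j(q^N)`), `cuspEmbC_one` (`T_1 f = f(q^N)`);
* `cuspEmbC_mul_left` : `T_{δ γ} = T_γ` for `δ ∈ Γ₀(N)`;
* `cuspEmbC_mul_T`, `cuspEmbC_mul_T_coeff`, `cuspEmbC_mul_T_pow_coeff` : `T_{γ T}` is `T_γ` twisted by `q ↦ ζ_N q`;
* `cuspEmbC_width` : if `γ T^w γ⁻¹ ∈ Γ₀(N)`, `0 < w ∣ N`, then `T_γ f` is a series in `q^{N/w}`;
* `order_cuspEmbC_mul_T`, `dvd_order_cuspEmbC` : the order forms.
-/
import Fermat.Agent.ES.KUM.CReal5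
import Fermat.Agent.X0.CuspGen
import Fermat.Agent.X0.CuspGood

set_option autoImplicit false
set_option linter.unusedSectionVars false

open ModularCurve HahnSeries UpperHalfPlane
open scoped Topology Manifold MatrixGroups

noncomputable section

namespace Fermat.Agent.ES.KUM.CCusp16

open Fermat.Agent.X0 Fermat.Agent.ES.KUM Fermat.Agent.X0.SurjPoint

variable (N : ℕ) [NeZero N] (γ : SL(2, ℤ))

/-- Every `Θ u ∘ γ` has a `q_N`-expansion. -/
theorem exists_cuspExpC (u : RC N) :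
    ∃ (m : ℕ) (P : PowerSeries ℂ), IsQExp N (compSL ((realC N u : HolH) : ℍ → ℂ) γ) m P := by
  induction u using RC_induction with
  | hgen d hd =>
      rw [realC_jdRC]
      obtain ⟨m, P, h⟩ := CuspGen.exists_isQExp_compSL_jdFun' N d hd γ
      exact ⟨m, _, h⟩
  | hconst c =>
      refine ⟨0, PowerSeries.C c, ?_⟩
      rw [realC_algebraMap, compSL_const]
      exact isQExp_const N c
  | hadd u v hu hv =>
      obtain ⟨m, P, hP⟩ := hu
      obtain ⟨m', Q, hQ⟩ := hv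
      refine ⟨m + m', PowerSeries.X ^ m' * P + PowerSeries.X ^ m * Q, ?_⟩
      rw [map_add]
      exact hP.add hQ
  | hmul u v hu hv =>
      obtain ⟨m, P, hP⟩ := hu
      obtain ⟨m', Q, hQ⟩ := hv
      refine ⟨m + m', P * Q, ?_⟩
      rw [map_mul]
      exact hP.mul hQ

/-- The pole order bound chosen for `u`. -/
def expMC (u : RC N) : ℕ := (exists_cuspExpC N γ u).choose

/-- The power series chosen for `u`. -/
def expPC (u : RC N) : PowerSeries ℂ := (exists_cuspExpC N γ u).choose_spec.choose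

theorem isQExp_expC (u : RC N) :
    IsQExp N (compSL ((realC N u : HolH) : ℍ → ℂ) γ) (expMC N γ u) (expPC N γ u) :=
  (exists_cuspExpC N γ u).choose_spec.choose_spec

/-- The `q_N`-expansion of `Θ u ∘ γ` as a Laurent series. -/
def cuspRC (u : RC N) : LaurentSeries ℂ := laurentOf (expMC N γ u) (expPC N γ u)

/-- Any expansion datum computes `cuspRC`. -/
theorem cuspRC_eq (u : RC N) {m : ℕ} {P : PowerSeries ℂ}
    (h : IsQExp N (compSL ((realC N u : HolH) : ℍ → ℂ) γ) m P) : cuspRC N γ u = laurentOf m P :=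
  (isQExp_expC N γ u).unique h

theorem cuspRC_add (u v : RC N) : cuspRC N γ (u + v) = cuspRC N γ u + cuspRC N γ v := by
  have h := (isQExp_expC N γ u).add (isQExp_expC N γ v)
  have h' : IsQExp N (compSL ((realC N (u + v) : HolH) : ℍ → ℂ) γ) (expMC N γ u + expMC N γ v)
      (PowerSeries.X ^ expMC N γ v * expPC N γ u + PowerSeries.X ^ expMC N γ u * expPC N γ v) := by
    rw [map_add]
    exact h
  rw [cuspRC_eq N γ (u + v) h', cuspRC, cuspRC, laurentOf_add, laurentOf_shift]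
  conv_lhs => rw [add_comm (expMC N γ u) (expMC N γ v), laurentOf_shift]

theorem cuspRC_mul (u v : RC N) : cuspRC N γ (u * v) = cuspRC N γ u * cuspRC N γ v := by
  have h := (isQExp_expC N γ u).mul (isQExp_expC N γ v)
  have h' : IsQExp N (compSL ((realC N (u * v) : HolH) : ℍ → ℂ) γ) (expMC N γ u + expMC N γ v)
      (expPC N γ u * expPC N γ v) := by
    rw [map_mul]
    exact h
  rw [cuspRC_eq N γ (u * v) h', cuspRC, cuspRC, laurentOf_mul]

theorem cuspRC_algebraMap (c : ℂ) : cuspRC N γ (algebraMap ℂ (RC N) c) = HahnSeries.C c := by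
  have h : IsQExp N (compSL ((realC N (algebraMap ℂ (RC N) c) : HolH) : ℍ → ℂ) γ) 0
      (PowerSeries.C c) := by
    rw [realC_algebraMap, compSL_const]
    exact isQExp_const N c
  rw [cuspRC_eq N γ _ h, laurentOf_zero_left, HahnSeries.ofPowerSeries_C]

theorem cuspRC_one : cuspRC N γ 1 = 1 := by
  have := cuspRC_algebraMap N γ 1
  rwa [map_one, map_one] at this

theorem cuspRC_zero : cuspRC N γ 0 = 0 := by
  have := cuspRC_algebraMap N γ 0
  rwa [map_zero, map_zero] at this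

/-- The expansion map on `R_ℂ` as a ring hom. -/
def cuspRHomC : RC N →+* LaurentSeries ℂ where
  toFun := cuspRC N γ
  map_one' := cuspRC_one N γ
  map_mul' := cuspRC_mul N γ
  map_zero' := cuspRC_zero N γ
  map_add' := cuspRC_add N γ

@[simp] theorem cuspRHomC_apply (u : RC N) : cuspRHomC N γ u = cuspRC N γ u := rfl

theorem cuspRHomC_injective : Function.Injective (cuspRHomC N γ) := by
  rw [injective_iff_map_eq_zero]
  intro u hu
  have hP := isQExp_expC N γ u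
  have h0 : expPC N γ u = 0 := by
    have h1 : laurentOf (expMC N γ u) (expPC N γ u) = 0 := hu
    rwa [laurentOf_eq_zero_iff] at h1
  have h2 : compSL ((realC N u : HolH) : ℍ → ℂ) γ = 0 := hP.eq_zero_iff.mpr h0
  have h3 : ((realC N u : HolH) : ℍ → ℂ) = 0 := by
    funext z
    have := congrFun h2 (γ⁻¹ • z)
    simpa [compSL] using this
  apply realC_injective N
  rw [map_zero]
  exact Subtype.ext h3

/-- **The cusp expansion** `T_γ : F_ℂ → ℂ((q_N))`. -/
def cuspEmbC : FC N →+* LaurentSeries ℂ :=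
  IsFractionRing.lift (A := RC N) (K := FC N) (g := cuspRHomC N γ) (cuspRHomC_injective N γ)

theorem cuspEmbC_coe (u : RC N) : cuspEmbC N γ (u : FC N) = cuspRC N γ u :=
  IsFractionRing.lift_algebraMap (A := RC N) (K := FC N) (cuspRHomC_injective N γ) u

/-- `T_γ u` is computed by ANY `q_N`-expansion datum of `Θ u ∘ γ`. -/
theorem cuspEmbC_eq_of_isQExp (u : RC N) {m : ℕ} {P : PowerSeries ℂ}
    (h : IsQExp N (compSL ((realC N u : HolH) : ℍ → ℂ) γ) m P) :
    cuspEmbC N γ (u : FC N) = laurentOf m P := by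
  rw [cuspEmbC_coe, cuspRC_eq N γ u h]

theorem cuspEmbC_spec (u : RC N) :
    ∃ (m : ℕ) (P : PowerSeries ℂ), IsQExp N (compSL ((realC N u : HolH) : ℍ → ℂ) γ) m P ∧
      cuspEmbC N γ (u : FC N) = laurentOf m P :=
  ⟨_, _, isQExp_expC N γ u, cuspEmbC_coe N γ u⟩

/-- Value on constants. -/
theorem cuspEmbC_algebraMap (c : ℂ) : cuspEmbC N γ (algebraMap ℂ (FC N) c) = HahnSeries.C c := by
  have : algebraMap ℂ (FC N) c = ((algebraMap ℂ (RC N) c : RC N) : FC N) := rfl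
  rw [this, cuspEmbC_coe, cuspRC_algebraMap]

theorem cuspEmbC_injective : Function.Injective (cuspEmbC N γ) := (cuspEmbC N γ).injective

theorem cuspEmbC_ne_zero {f : FC N} (hf : f ≠ 0) : cuspEmbC N γ f ≠ 0 :=
  fun h => hf (cuspEmbC_injective N γ (by rw [h, map_zero]))

/-- Two ring homs out of `F_ℂ` into a field which agree on `R_ℂ` are equal. -/
theorem ringHom_ext_RC {L : Type*} [Field L] {φ ψ : FC N →+* L}
    (h : ∀ u : RC N, φ (u : FC N) = ψ (u : FC N)) : φ = ψ := by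
  ext y
  obtain ⟨r, s, rfl⟩ := exists_divC N y
  rw [map_div₀, map_div₀, h r, h s]

/-! ### `T_1` and the value on `j` -/

/-- `T_1 f = f(q^N)`. -/
theorem cuspEmbC_one (f : FC N) :
    cuspEmbC N 1 f = qExpand ℂ N ((f : FC N) : LaurentSeries ℂ) := by
  let ψ : FC N →+* LaurentSeries ℂ :=
    (qExpand ℂ N).comp (laurentBaseChange ℂ (modularFunctionFieldFull N)).val.toRingHom
  have hψ : ∀ f : FC N, ψ f = qExpand ℂ N ((f : FC N) : LaurentSeries ℂ) := fun f => rfl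
  rw [← hψ]
  revert f
  rw [← RingHom.ext_iff]
  apply ringHom_ext_RC
  intro u
  obtain ⟨m, P, hP, hu⟩ := realC_isQExp N u
  have h1 : IsQExp N (compSL ((realC N u : HolH) : ℍ → ℂ) 1) (N * m)
      (P.expand N (NeZero.ne N)) := by
    rw [compSL_one]
    exact CuspGood.isQExp_level hP
  rw [cuspEmbC_eq_of_isQExp N 1 u h1, hψ, hu, qExpand_laurentOf, mul_comm]

/-- `T_γ j = j(q^N)`. -/
theorem cuspEmbC_jC : cuspEmbC N γ (jC N) = qExpand ℂ N (jqModC ℂ) := by
  have hcoe : jC N = ((jRC N : RC N) : FC N) := rfl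
  have hfun : compSL ((realC N (jRC N) : HolH) : ℍ → ℂ) γ =
      compSL ((realC N (jRC N) : HolH) : ℍ → ℂ) 1 := by
    rw [realC_jRC, compSL_one]
    funext z
    exact jFun_smul γ z
  obtain ⟨m, P, hP, hT⟩ := cuspEmbC_spec N 1 (jRC N)
  rw [hcoe, cuspEmbC_eq_of_isQExp N γ (jRC N) (hfun ▸ hP), ← hT, cuspEmbC_one]
  congr 1
  show coeffEmb ℂ (qExpand ℚ 1 jq) = jqModC ℂ
  rw [qExpand_one_apply]
  exact coeffEmbC_jq

/-! ### Equivariance -/

/-- (4a) `T_{δ γ} = T_γ` for `δ ∈ Γ₀(N)`. -/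
theorem cuspEmbC_mul_left (δ : SL(2, ℤ)) (hδ : δ ∈ CongruenceSubgroup.Gamma0 N) :
    cuspEmbC N (δ * γ) = cuspEmbC N γ := by
  apply ringHom_ext_RC
  intro u
  obtain ⟨m, P, hP, hT⟩ := cuspEmbC_spec N γ u
  rw [hT]
  apply cuspEmbC_eq_of_isQExp
  have hfun : compSL ((realC N u : HolH) : ℍ → ℂ) (δ * γ) =
      compSL ((realC N u : HolH) : ℍ → ℂ) γ := by
    funext z
    simp only [compSL]
    rw [mul_smul]
    exact congrFun (realC_Gamma0_invariant N u δ hδ) (γ • z)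
  rw [hfun]
  exact hP

/-- The root of unity `exp (2πi / N)`. -/
def zetaN : ℂ := Complex.exp (2 * Real.pi * Complex.I / N)

theorem zetaN_isPrimitiveRoot : IsPrimitiveRoot (zetaN N) N :=
  Complex.isPrimitiveRoot_exp N (NeZero.ne N)

theorem zetaN_ne_zero : zetaN N ≠ 0 := Complex.exp_ne_zero _

theorem qh_T_smulC (z : ℍ) : qh N (ModularGroup.T • z) = zetaN N * qh N z := by
  rw [zetaN, qh, qh, Function.Periodic.qParam, Function.Periodic.qParam,
    UpperHalfPlane.modular_T_smul, ← Complex.exp_add]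
  congr 1
  rw [UpperHalfPlane.coe_vadd]
  push_cast
  ring

/-- The `q_N`-expansion of `z ↦ g (z + 1)`. -/
theorem isQExp_comp_TC {g : ℍ → ℂ} {m : ℕ} {P : PowerSeries ℂ} (hP : IsQExp N g m P) :
    IsQExp N (fun z => g (ModularGroup.T • z)) m
      (PowerSeries.mk fun n => zetaN N ^ ((n : ℤ) - m) * PowerSeries.coeff n P) := by
  intro z
  have hζ : zetaN N ≠ 0 := zetaN_ne_zero N
  have h := (hP (ModularGroup.T • z)).mul_left ((zetaN N)⁻¹ ^ m)
  rw [qh_T_smulC] at h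
  have hval : (zetaN N)⁻¹ ^ m * (g (ModularGroup.T • z) * (zetaN N * qh N z) ^ m)
      = g (ModularGroup.T • z) * qh N z ^ m := by
    rw [mul_pow, inv_pow]
    field_simp
  rw [hval] at h
  refine h.congr_fun fun n => ?_
  rw [PowerSeries.coeff_mk, zpow_sub₀ hζ, zpow_natCast, zpow_natCast, mul_pow, inv_pow]
  field_simp

/-- (4b) `T_{γ T} = twist ζ_N ∘ T_γ`. -/
theorem cuspEmbC_mul_T :
    cuspEmbC N (γ * ModularGroup.T) =
      (CuspEquiv.twist (zetaN N) (zetaN_ne_zero N)).comp (cuspEmbC N γ) := by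
  apply ringHom_ext_RC
  intro u
  obtain ⟨m, P, hP, hT⟩ := cuspEmbC_spec N γ u
  rw [RingHom.comp_apply, hT, CuspEquiv.twist_laurentOf]
  apply cuspEmbC_eq_of_isQExp
  have hfun : compSL ((realC N u : HolH) : ℍ → ℂ) (γ * ModularGroup.T)
      = fun z => compSL ((realC N u : HolH) : ℍ → ℂ) γ (ModularGroup.T • z) := by
    funext z
    simp only [compSL]
    rw [mul_smul]
  rw [hfun]
  exact isQExp_comp_TC N hP

/-- (4b), coefficientwise. -/
theorem cuspEmbC_mul_T_coeff (f : FC N) (n : ℤ) :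
    (cuspEmbC N (γ * ModularGroup.T) f).coeff n = zetaN N ^ n * (cuspEmbC N γ f).coeff n := by
  rw [cuspEmbC_mul_T]
  rfl

/-- (4b) for powers of `T`. -/
theorem cuspEmbC_mul_T_pow_coeff (k : ℕ) (f : FC N) (n : ℤ) :
    (cuspEmbC N (γ * ModularGroup.T ^ k) f).coeff n =
      (zetaN N ^ n) ^ k * (cuspEmbC N γ f).coeff n := by
  induction k with
  | zero => simp
  | succ k ih =>
    rw [pow_succ, ← mul_assoc, cuspEmbC_mul_T_coeff, ih, pow_succ]
    ring

/-- (5) WIDTH, general form. -/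
theorem dvd_mul_of_coeff_ne_zeroC (w : ℕ)
    (h : γ * ModularGroup.T ^ w * γ⁻¹ ∈ CongruenceSubgroup.Gamma0 N) (f : FC N) (n : ℤ)
    (hn : (cuspEmbC N γ f).coeff n ≠ 0) : (N : ℤ) ∣ n * w := by
  have h1 : cuspEmbC N (γ * ModularGroup.T ^ w) = cuspEmbC N γ := by
    have := cuspEmbC_mul_left N γ (γ * ModularGroup.T ^ w * γ⁻¹) h
    rwa [inv_mul_cancel_right] at this
  have h2 := cuspEmbC_mul_T_pow_coeff N γ w f n
  rw [h1] at h2
  have h3 : (zetaN N ^ n) ^ w = 1 := by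
    have : ((zetaN N ^ n) ^ w - 1) * (cuspEmbC N γ f).coeff n = 0 := by
      rw [sub_mul, one_mul, ← h2, sub_self]
    rcases mul_eq_zero.mp this with h' | h'
    · exact sub_eq_zero.mp h'
    · exact absurd h' hn
  rw [← zpow_natCast, ← zpow_mul] at h3
  exact ((zetaN_isPrimitiveRoot N).zpow_eq_one_iff_dvd _).mp h3

/-- (5) WIDTH: if `γ T^w γ⁻¹ ∈ Γ₀(N)` with `0 < w ∣ N`, then `T_γ f` is a series in `q_N^{N/w}`. -/
theorem cuspEmbC_width (w : ℕ) (hw : 0 < w) (hwN : w ∣ N)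
    (h : γ * ModularGroup.T ^ w * γ⁻¹ ∈ CongruenceSubgroup.Gamma0 N) (f : FC N) (n : ℤ)
    (hn : (cuspEmbC N γ f).coeff n ≠ 0) : ((N / w : ℕ) : ℤ) ∣ n := by
  have h1 := dvd_mul_of_coeff_ne_zeroC N γ w h f n hn
  obtain ⟨e, he⟩ := hwN
  have hNw : N / w = e := by rw [he, Nat.mul_div_cancel_left e hw]
  rw [hNw]
  rw [he] at h1
  push_cast at h1
  have hw' : (w : ℤ) ≠ 0 := by exact_mod_cast hw.ne'
  rw [mul_comm n] at h1
  exact (mul_dvd_mul_iff_left hw').mp h1

/-! ### order forms -/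

theorem order_cuspEmbC_mul_T (f : FC N) :
    (cuspEmbC N (γ * ModularGroup.T) f).order = (cuspEmbC N γ f).order :=
  LaurentPlace.order_eq_of_coeff_eq_mul (fun n => zetaN N ^ n)
    (fun n => zpow_ne_zero n (zetaN_ne_zero N)) (cuspEmbC_mul_T_coeff N γ f)

theorem dvd_order_cuspEmbC (w : ℕ) (hw : 0 < w) (hwN : w ∣ N)
    (h : γ * ModularGroup.T ^ w * γ⁻¹ ∈ CongruenceSubgroup.Gamma0 N) (f : FC N) (hf : f ≠ 0) :
    ((N / w : ℕ) : ℤ) ∣ (cuspEmbC N γ f).order := by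
  apply cuspEmbC_width N γ w hw hwN h f
  exact fun h0 => cuspEmbC_ne_zero N γ hf (HahnSeries.coeff_order_eq_zero.mp h0)

theorem order_cuspEmbC_jC : (cuspEmbC N γ (jC N)).order = -(N : ℤ) := by
  rw [cuspEmbC_jC]
  have hN : (0 : ℤ) < N := by exact_mod_cast Nat.pos_of_ne_zero (NeZero.ne N)
  have hm1 : (jqModC ℂ).coeff (-1) = 1 := by
    rw [← coeffEmbC_jq, coeffEmb_coeff, coeff_jq_neg_one, map_one]
  have hlt : ∀ k : ℤ, k < -1 → (jqModC ℂ).coeff k = 0 := by
    intro k hk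
    rw [← coeffEmbC_jq, coeffEmb_coeff, coeff_jq_of_lt hk, map_zero]
  have h1 : (qExpand ℂ N (jqModC ℂ)).coeff (-(N : ℤ)) = 1 := by
    have := qExpand_coeff_mul (R := ℂ) N (jqModC ℂ) (-1)
    rw [mul_neg_one] at this
    rw [this, hm1]
  have hne : qExpand ℂ N (jqModC ℂ) ≠ 0 := by
    intro h
    rw [h] at h1
    simp at h1
  apply le_antisymm
  · exact HahnSeries.order_le_of_coeff_ne_zero (by rw [h1]; exact one_ne_zero)
  · rw [HahnSeries.le_order_iff_forall hne]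
    intro k hk
    by_cases hd : (N : ℤ) ∣ k
    · obtain ⟨m, rfl⟩ := hd
      rw [qExpand_coeff_mul]
      apply hlt
      by_contra hm
      have : -1 ≤ m := not_lt.mp hm
      nlinarith
    · exact qExpand_coeff_of_not_dvd N _ hd

end Fermat.Agent.ES.KUM.CCusp16
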