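/-
Program J, chapter J1 (Kummer theory on `ℍ`), file K5b (helper16): **the cusp places of `F_ℂ`**.

Mirror of K2 (`CPoint5`) at the cusps; port of `X0/CuspPlaces` from `ℚbar` to `ℂ`.  With
`T_γ = cuspEmbC N γ : F_ℂ →+* ℂ((q))` (expansion of `f ∘ γ` in `q_N`):

* `cuspPlaceC N g : Place ℂ (FC N)` has order function `f ↦ (T_{g⁻¹} f).order` up to the positive index
  `cuspIdx N g`:  `order_cuspEmbC : (T_{g⁻¹} f).order = cuspIdx N g * (cuspPlaceC N g).ord f`;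
* `cuspIdx_mul_ord_jC : cuspIdx * ord j = -N`, `cuspPlaceC_ord_jC_neg : ord j < 0`;
* invariances: `cuspPlaceC_mul_right` (`g ↦ g δ`, `δ ∈ Γ₀(N)`), `cuspPlaceC_T_zpow_mul` (`g ↦ T^k g`), with the
  indices (`cuspIdx_mul_right`, `cuspIdx_T_zpow_mul`);
* width: `dvd_cuspIdx` (`(N / w) ∣ cuspIdx N g` when `g⁻¹ T^w g ∈ Γ₀(N)`, `0 < w ∣ N`), and
  `cuspPlaceXC_neg_ord_jC_dvd` (`-ord j` divides the size of the `⟨T⟩`-orbit of the coset);
* coset form `cuspPlaceXC : SL(2, ℤ) ⧸ Γ₀(N) → Place ℂ (FC N)`.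
-/
import Fermat.Agent.ES.KUM.CCuspExpand16
import Fermat.Agent.X0.LaurentPlace
import Fermat.Agent.X0.G1Elliptic

set_option autoImplicit false
set_option linter.unusedSectionVars false

open ModularCurve HahnSeries UpperHalfPlane AlgebraicCurve
open scoped Topology Manifold MatrixGroups
open MulAction Subgroup CongruenceSubgroup

noncomputable section

namespace Fermat.Agent.ES.KUM.CCusp16

open Fermat.Agent.X0 Fermat.Agent.ES.KUM

variable (N : ℕ) [NeZero N]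

theorem jC_ne_zero : jC N ≠ 0 := by
  intro h
  have h1 := order_cuspEmbC_jC N 1
  rw [h, map_zero, HahnSeries.order_zero] at h1
  have hN : (0 : ℤ) < N := by exact_mod_cast Nat.pos_of_ne_zero (NeZero.ne N)
  omega

theorem cuspEmbC_nontrivial (γ : SL(2, ℤ)) : ∃ f : FC N, f ≠ 0 ∧ (cuspEmbC N γ f).order ≠ 0 := by
  refine ⟨jC N, jC_ne_zero N, ?_⟩
  rw [order_cuspEmbC_jC]
  have hN : (0 : ℤ) < N := by exact_mod_cast Nat.pos_of_ne_zero (NeZero.ne N)
  omega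

theorem order_cuspEmbC_mul_T_zpow (γ : SL(2, ℤ)) (k : ℤ) (f : FC N) :
    (cuspEmbC N (γ * ModularGroup.T ^ k) f).order = (cuspEmbC N γ f).order := by
  induction k using Int.induction_on generalizing γ with
  | zero => simp
  | succ n ih =>
    rw [zpow_add_one, ← mul_assoc, order_cuspEmbC_mul_T, ih]
  | pred n ih =>
    have := order_cuspEmbC_mul_T N (γ * ModularGroup.T ^ (-(n : ℤ) - 1)) f
    rw [mul_assoc, ← zpow_add_one, sub_add_cancel, ih] at this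
    exact this.symm

/-! ### The places over `∞` -/

/-- The place of `F_ℂ` attached to `g : SL(2, ℤ)`: order function `f ↦ (T_{g⁻¹} f).order`. -/
def cuspPlaceC (g : SL(2, ℤ)) : Place ℂ (FC N) :=
  LaurentPlace.embPlace (cuspEmbC N g⁻¹) (cuspEmbC_algebraMap N g⁻¹) (cuspEmbC_nontrivial N g⁻¹)

theorem mem_cuspPlaceC_iff (g : SL(2, ℤ)) {f : FC N} (hf : f ≠ 0) :
    f ∈ (cuspPlaceC N g).toValuationSubring ↔ 0 ≤ (cuspEmbC N g⁻¹ f).order :=
  LaurentPlace.mem_embPlace_iff _ _ _ hf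

theorem exists_cuspIdx (g : SL(2, ℤ)) :
    ∃ m : ℕ, 0 < m ∧ ∀ f : FC N, f ≠ 0 →
      (cuspEmbC N g⁻¹ f).order = m * (cuspPlaceC N g).ord f :=
  LaurentPlace.embPlace_spec (cuspEmbC N g⁻¹) (cuspEmbC_algebraMap N g⁻¹)
    (cuspEmbC_nontrivial N g⁻¹)

/-- The index of the cusp place: `ord_{q_N} (f ∘ g⁻¹) = cuspIdx * ord_v f`. -/
def cuspIdx (g : SL(2, ℤ)) : ℕ := (exists_cuspIdx N g).choose

theorem cuspIdx_pos (g : SL(2, ℤ)) : 0 < cuspIdx N g := (exists_cuspIdx N g).choose_spec.1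

/-- **The multiplicity relation.** -/
theorem order_cuspEmbC (g : SL(2, ℤ)) {f : FC N} (hf : f ≠ 0) :
    (cuspEmbC N g⁻¹ f).order = cuspIdx N g * (cuspPlaceC N g).ord f :=
  (exists_cuspIdx N g).choose_spec.2 f hf

theorem cuspIdx_mul_ord_jC (g : SL(2, ℤ)) :
    (cuspIdx N g : ℤ) * (cuspPlaceC N g).ord (jC N) = -(N : ℤ) := by
  rw [← order_cuspEmbC N g (jC_ne_zero N), order_cuspEmbC_jC]

theorem eq_cuspPlaceC_of_spec (g : SL(2, ℤ)) (v : Place ℂ (FC N)) {m : ℕ} (hm : 0 < m)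
    (h : ∀ f : FC N, f ≠ 0 → (cuspEmbC N g⁻¹ f).order = m * v.ord f) : v = cuspPlaceC N g :=
  LaurentPlace.eq_embPlace_of_spec _ _ _ v hm h

/-- The places `cuspPlaceC g` lie over `∞`. -/
theorem cuspPlaceC_ord_jC_neg (g : SL(2, ℤ)) : (cuspPlaceC N g).ord (jC N) < 0 := by
  have h := cuspIdx_mul_ord_jC N g
  have hN : (0 : ℤ) < N := by exact_mod_cast Nat.pos_of_ne_zero (NeZero.ne N)
  have hm' : (0 : ℤ) < cuspIdx N g := by exact_mod_cast cuspIdx_pos N g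
  by_contra hneg
  have h0 : 0 ≤ (cuspPlaceC N g).ord (jC N) := not_lt.mp hneg
  nlinarith

/-- `cuspPlaceC` only depends on the coset `g Γ₀(N)`. -/
theorem cuspPlaceC_mul_right (g δ : SL(2, ℤ)) (hδ : δ ∈ Gamma0 N) :
    cuspPlaceC N (g * δ) = cuspPlaceC N g := by
  unfold cuspPlaceC
  apply LaurentPlace.embPlace_eq_of_order_eq
  intro f
  rw [mul_inv_rev, cuspEmbC_mul_left N g⁻¹ δ⁻¹ (inv_mem hδ)]

/-- `cuspPlaceC` is invariant under `g ↦ T ^ k * g`. -/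
theorem cuspPlaceC_T_zpow_mul (g : SL(2, ℤ)) (k : ℤ) :
    cuspPlaceC N (ModularGroup.T ^ k * g) = cuspPlaceC N g := by
  unfold cuspPlaceC
  apply LaurentPlace.embPlace_eq_of_order_eq
  intro f
  rw [mul_inv_rev, ← zpow_neg, order_cuspEmbC_mul_T_zpow]

theorem cuspPlaceC_T_mul (g : SL(2, ℤ)) :
    cuspPlaceC N (ModularGroup.T * g) = cuspPlaceC N g := by
  have := cuspPlaceC_T_zpow_mul N g 1
  rwa [zpow_one] at this

/-- the index is determined by the place and the order function. -/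
theorem cuspIdx_eq_of {g g' : SL(2, ℤ)} (hv : cuspPlaceC N g' = cuspPlaceC N g)
    (h : ∀ f : FC N, (cuspEmbC N g'⁻¹ f).order = (cuspEmbC N g⁻¹ f).order) :
    cuspIdx N g' = cuspIdx N g := by
  obtain ⟨f, hf, h1⟩ := LaurentPlace.exists_ord_eq_one (cuspPlaceC N g)
  have e1 := order_cuspEmbC N g hf
  have e2 := order_cuspEmbC N g' hf
  rw [hv, h f, e1, h1, mul_one, mul_one] at e2
  exact_mod_cast e2.symm

theorem cuspIdx_mul_right (g δ : SL(2, ℤ)) (hδ : δ ∈ Gamma0 N) :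
    cuspIdx N (g * δ) = cuspIdx N g :=
  cuspIdx_eq_of N (cuspPlaceC_mul_right N g δ hδ) fun f => by
    rw [mul_inv_rev, cuspEmbC_mul_left N g⁻¹ δ⁻¹ (inv_mem hδ)]

theorem cuspIdx_T_zpow_mul (g : SL(2, ℤ)) (k : ℤ) :
    cuspIdx N (ModularGroup.T ^ k * g) = cuspIdx N g :=
  cuspIdx_eq_of N (cuspPlaceC_T_zpow_mul N g k) fun f => by
    rw [mul_inv_rev, ← zpow_neg, order_cuspEmbC_mul_T_zpow]

/-- WIDTH for the index: if `g⁻¹ T^w g ∈ Γ₀(N)` (`0 < w ∣ N`) then `N / w` divides `cuspIdx N g`. -/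
theorem dvd_cuspIdx (g : SL(2, ℤ)) (w : ℕ) (hw : 0 < w) (hwN : w ∣ N)
    (h : g⁻¹ * ModularGroup.T ^ w * g⁻¹⁻¹ ∈ Gamma0 N) : ((N / w : ℕ) : ℤ) ∣ (cuspIdx N g : ℤ) :=
  LaurentPlace.dvd_of_forall_dvd (w := fun f => (cuspEmbC N g⁻¹ f).order) (cuspPlaceC N g)
    (fun _ hf => order_cuspEmbC N g hf)
    (fun f hf => dvd_order_cuspEmbC N g⁻¹ w hw hwN h f hf)

/-! ### coset form -/

/-- `cuspPlaceC` on the coset space `SL(2, ℤ) ⧸ Γ₀(N)`. -/
def cuspPlaceXC (x : SL(2, ℤ) ⧸ Gamma0 N) : Place ℂ (FC N) :=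
  Quotient.liftOn' x (cuspPlaceC N) (by
    intro a b hab
    rw [QuotientGroup.leftRel_apply] at hab
    have := cuspPlaceC_mul_right N a (a⁻¹ * b) hab
    rw [mul_inv_cancel_left] at this
    exact this.symm)

@[simp] theorem cuspPlaceXC_mk (g : SL(2, ℤ)) :
    cuspPlaceXC N (QuotientGroup.mk g : SL(2, ℤ) ⧸ Gamma0 N) = cuspPlaceC N g := rfl

theorem cuspPlaceXC_smul_zpowers_T (h : zpowers ModularGroup.T) (x : SL(2, ℤ) ⧸ Gamma0 N) :
    cuspPlaceXC N (h • x) = cuspPlaceXC N x := by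
  obtain ⟨h, k, rfl⟩ := h
  induction x using QuotientGroup.induction_on with
  | H g =>
    show cuspPlaceXC N ((ModularGroup.T ^ k) • (QuotientGroup.mk g : SL(2, ℤ) ⧸ Gamma0 N)) = _
    rw [MulAction.Quotient.smul_mk, cuspPlaceXC_mk, cuspPlaceXC_mk, smul_eq_mul,
      cuspPlaceC_T_zpow_mul]

theorem cuspPlaceXC_ord_jC_neg (x : SL(2, ℤ) ⧸ Gamma0 N) : (cuspPlaceXC N x).ord (jC N) < 0 := by
  induction x using QuotientGroup.induction_on with
  | H g => exact cuspPlaceC_ord_jC_neg N g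

/-- WIDTH: the ramification index `-ord_v j` of `cuspPlaceXC x` divides the size of the
`⟨T⟩`-orbit of `x`. -/
theorem cuspPlaceXC_neg_ord_jC_dvd (x : SL(2, ℤ) ⧸ Gamma0 N) :
    -(cuspPlaceXC N x).ord (jC N) ∣ (Nat.card (orbit (zpowers ModularGroup.T) x) : ℤ) := by
  induction x using QuotientGroup.induction_on with
  | H g =>
    set x : SL(2, ℤ) ⧸ Gamma0 N := QuotientGroup.mk g with hx
    set w : ℕ := Nat.card (orbit (zpowers ModularGroup.T) x) with hw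
    have hwN : w ∣ N := G1Elliptic.g1_card_orbit_T_dvd x
    have hN0 : N ≠ 0 := NeZero.ne N
    have hw0 : 0 < w :=
      Nat.pos_of_ne_zero (fun h => hN0 (by rw [h] at hwN; exact zero_dvd_iff.mp hwN))
    have hper : ModularGroup.T ^ w • x = x := by
      rw [pow_smul_eq_iff_minimalPeriod_dvd, ← OrbitCount.card_orbit_zpowers]
      exact dvd_of_eq hw.symm
    have hmem : g⁻¹ * ModularGroup.T ^ w * g⁻¹⁻¹ ∈ Gamma0 N := by
      rw [hx, MulAction.Quotient.smul_mk, smul_eq_mul] at hper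
      have := QuotientGroup.eq.mp hper.symm
      rw [inv_inv, mul_assoc]
      exact this
    have hj := cuspIdx_mul_ord_jC N g
    obtain ⟨t, ht⟩ := dvd_cuspIdx N g w hw0 hwN hmem
    have hNw : ((N / w : ℕ) : ℤ) * w = N := by
      exact_mod_cast Nat.div_mul_cancel hwN
    have hNw0 : ((N / w : ℕ) : ℤ) ≠ 0 := by
      intro h
      rw [h, zero_mul] at hNw
      exact hN0 (by exact_mod_cast hNw.symm)
    rw [cuspPlaceXC_mk]
    refine ⟨t, ?_⟩
    have : ((N / w : ℕ) : ℤ) * (w : ℤ) =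
        ((N / w : ℕ) : ℤ) * (-(cuspPlaceC N g).ord (jC N) * t) := by
      rw [hNw]
      rw [ht] at hj
      linear_combination hj
    exact mul_left_cancel₀ hNw0 this

theorem cuspPlaceXC_neg_ord_jC_le (x : SL(2, ℤ) ⧸ Gamma0 N) :
    -(cuspPlaceXC N x).ord (jC N) ≤ (Nat.card (orbit (zpowers ModularGroup.T) x) : ℤ) := by
  have hpos : (0 : ℤ) < (Nat.card (orbit (zpowers ModularGroup.T) x) : ℤ) := by
    have hwN : Nat.card (orbit (zpowers ModularGroup.T) x) ∣ N := G1Elliptic.g1_card_orbit_T_dvd x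
    have hN0 : N ≠ 0 := NeZero.ne N
    have : Nat.card (orbit (zpowers ModularGroup.T) x) ≠ 0 := fun h =>
      hN0 (by rw [h] at hwN; exact zero_dvd_iff.mp hwN)
    exact_mod_cast Nat.pos_of_ne_zero this
  exact Int.le_of_dvd hpos (cuspPlaceXC_neg_ord_jC_dvd N x)

end Fermat.Agent.ES.KUM.CCusp16
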