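/-
Program J, chapter J1 (Kummer theory on `ℍ`), file K5c (helper16): **surjectivity at the cusps** and the
**glue lemma** for quotients of convergent expansions.

* `mem_Gamma0_of_cuspEmbC_eq` (DISTINCT): `T_γ = T_γ' → γ' γ⁻¹ ∈ Γ₀(N)` (port of `X0/CuspDistinct`);
* `exists_cuspPlaceC_eq` : every place `v` of `F_ℂ` with `v.ord j < 0` is a cusp place `cuspPlaceC N g`
  (port of `X0/CuspSurj`; degree from `FieldL25.finrank_jL`, index from `G1Index.g1_card`);
* `cuspEmbC_eq_div_of_isQExp` (GLUE): if `(realMer f) ∘ g = a / b` with `a, b` holomorphic on `ℍ` having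
  `q_N`-expansion data `(m, P)`, `(m', P')`, then `T_g f = laurentOf m P / laurentOf m' P'`.
-/
import Fermat.Agent.ES.KUM.CCuspPlaces16
import Fermat.Agent.ES.KUM.FieldL25
import Fermat.Agent.X0.CuspDistinct
import Fermat.Agent.X0.CuspSurj
import Fermat.Agent.X0.G1Index

set_option autoImplicit false
set_option linter.unusedSectionVars false

open ModularCurve HahnSeries UpperHalfPlane AlgebraicCurve IntermediateField
open scoped Topology Manifold MatrixGroups
open CongruenceSubgroup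

noncomputable section

namespace Fermat.Agent.ES.KUM.CCusp16

open Fermat.Agent.X0 Fermat.Agent.ES.KUM Fermat.Agent.X0.SurjPoint

variable (N : ℕ) [NeZero N]

/-! ### DISTINCT -/

/-- The cusp expansion of `j_N` at `γ`, in terms of the Hermite data of `γ`. -/
theorem cuspEmbC_jdC_eq (γ : SL(2, ℤ)) {a e : ℕ} {b : ℤ} (ha : 0 < a) (he : 0 < e)
    (hae : a * e = N)
    (hj : ∀ z : ℍ, jdFun N (γ • z) = jFun (Hermite.affH a e b ha he z)) :
    cuspEmbC N γ (jdC N N (dvd_refl N)) =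
      laurentOf (a * a) (CuspDistinct.cd_Q a e b ha) := by
  have hcoe : jdC N N (dvd_refl N) = ((jdRC N N (dvd_refl N) : RC N) : FC N) := rfl
  rw [hcoe]
  apply cuspEmbC_eq_of_isQExp
  rw [realC_jdRC]
  have hfun : compSL (jdFun N) γ = fun z => jFun (Hermite.affH a e b ha he z) :=
    funext fun z => hj z
  rw [hfun]
  exact CuspDistinct.cd_isQExp_jFun_affH b ha he hae

/-- **DISTINCT**: if the cusp expansions of `j_N` at `γ` and `γ'` agree, then `γ' γ⁻¹ ∈ Γ₀(N)`. -/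
theorem mem_Gamma0_of_cuspEmbC_jdC_eq (γ γ' : SL(2, ℤ))
    (h : cuspEmbC N γ (jdC N N (dvd_refl N)) = cuspEmbC N γ' (jdC N N (dvd_refl N))) :
    γ' * γ⁻¹ ∈ Gamma0 N := by
  obtain ⟨δ, a, e, b, ha, he, hae, _, _, _, h3, h4, _, hj⟩ := HermiteFull.exists_hermite_full γ N
  obtain ⟨δ', a', e', b', ha', he', hae', _, _, _, h3', h4', _, hj'⟩ :=
    HermiteFull.exists_hermite_full γ' N
  have e1 := cuspEmbC_jdC_eq N γ ha he hae hj
  have e2 := cuspEmbC_jdC_eq N γ' ha' he' hae' hj'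
  rw [h, e2] at e1
  obtain ⟨haa, hz⟩ := CuspDistinct.cd_eq_of_laurentOf_eq ha' ha e1
  subst haa
  have hee : e' = e := by
    have : a' * e' = a' * e := by rw [hae', hae]
    exact Nat.eq_of_mul_eq_mul_left ha' this
  subst hee
  have hbb : (e' : ℤ) ∣ b - b' := CuspDistinct.cd_dvd_of_zeta_eq he' hz.symm
  exact Hermite.mem_Gamma0_of_hermite γ γ' hae hbb h3 h4 h3' h4'

/-- **DISTINCT**, ring-hom form. -/
theorem mem_Gamma0_of_cuspEmbC_eq (γ γ' : SL(2, ℤ)) (h : cuspEmbC N γ = cuspEmbC N γ') :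
    γ' * γ⁻¹ ∈ Gamma0 N :=
  mem_Gamma0_of_cuspEmbC_jdC_eq N γ γ' (by rw [h])

/-! ### The valuation subring of `ℂ((q))` -/

theorem algebraMap_laurentC (c : ℂ) :
    (RingHom.id (LaurentSeries ℂ)) (algebraMap ℂ (LaurentSeries ℂ) c) = HahnSeries.C c := by
  rw [RingHom.id_apply, algebraMapC_eq_C]

/-- The order function of `ℂ((q))`. -/
theorem isOrderFun_orderC : FF.IsOrderFun ℂ (fun f : LaurentSeries ℂ => f.order) :=
  LaurentPlace.isOrderFun_embOrd (RingHom.id (LaurentSeries ℂ)) algebraMap_laurentC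

/-- The valuation subring `{f | f = 0 ∨ 0 ≤ order f}` of `ℂ((q))`. -/
def laurentVC : ValuationSubring (LaurentSeries ℂ) := isOrderFun_orderC.valuationSubring

theorem mem_laurentVC_of_ne_zero {f : LaurentSeries ℂ} (hf : f ≠ 0) :
    f ∈ laurentVC ↔ 0 ≤ f.order :=
  isOrderFun_orderC.mem_valuationSubring_of_ne_zero hf

theorem C_mem_laurentVC (c : ℂ) : HahnSeries.C c ∈ laurentVC := by
  by_cases hc : c = 0
  · left; simp [hc]
  · right
    show 0 ≤ (HahnSeries.C c : LaurentSeries ℂ).order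
    rw [HahnSeries.order_C]

/-! ### Surjectivity -/

/-- The embedding attached to a coset `x`, via a representative. -/
def sigmaC (x : SL(2, ℤ) ⧸ Gamma0 N) : FC N →+* LaurentSeries ℂ :=
  cuspEmbC N (Quotient.out x)⁻¹

theorem sigmaC_injective : Function.Injective (sigmaC N) := by
  intro x y hxy
  have h := mem_Gamma0_of_cuspEmbC_eq N _ _ hxy
  rw [inv_inv] at h
  have h2 : (QuotientGroup.mk (Quotient.out y) : SL(2, ℤ) ⧸ Gamma0 N)
      = QuotientGroup.mk (Quotient.out x) := QuotientGroup.eq.mpr h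
  have hx : (QuotientGroup.mk (Quotient.out x) : SL(2, ℤ) ⧸ Gamma0 N) = x := Quotient.out_eq' x
  have hy : (QuotientGroup.mk (Quotient.out y) : SL(2, ℤ) ⧸ Gamma0 N) = y := Quotient.out_eq' y
  rw [hx, hy] at h2
  exact h2.symm

theorem jC_eq_jL : jC N = FieldL25.jL ℂ N := by
  apply Subtype.ext
  show coeffEmb ℂ (qExpand ℚ 1 jq) = jqModC ℂ
  rw [qExpand_one_apply]
  exact coeffEmbC_jq

/-- `[F_ℂ : ℂ(j)] = #(SL(2, ℤ) ⧸ Γ₀(N))`. -/
theorem card_eq_finrank_jC :
    Nat.card (SL(2, ℤ) ⧸ Gamma0 N) = Module.finrank ℂ⟮jC N⟯ (FC N) := by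
  rw [G1Index.g1_card, jC_eq_jL]
  exact (FieldL25.finrank_jL ℂ N).symm

/-- **Surjectivity at the cusps.**  Every place `v` of `F_ℂ` with `ord_v j < 0` is a cusp place. -/
theorem exists_cuspPlaceC_eq (v : Place ℂ (FC N)) (hv : v.ord (jC N) < 0) :
    ∃ g : SL(2, ℤ), cuspPlaceC N g = v := by
  have hN : (0 : ℤ) < N := by exact_mod_cast Nat.pos_of_ne_zero (NeZero.ne N)
  have hO : jC N ∉ v.toValuationSubring := by
    rw [FF.ffp_mem_iff_ord_nonneg]
    omega
  have hV : ∀ x : SL(2, ℤ) ⧸ Gamma0 N, sigmaC N x (jC N) ∉ laurentVC := by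
    intro x
    have hne : sigmaC N x (jC N) ≠ 0 := cuspEmbC_ne_zero N _ (jC_ne_zero N)
    rw [mem_laurentVC_of_ne_zero hne, sigmaC, order_cuspEmbC_jC]
    omega
  have : FiniteDimensional ℂ⟮jC N⟯ (FC N) := by
    rw [jC_eq_jL]
    exact FieldL25.finiteDimensional_jL ℂ N
  obtain ⟨x, hx⟩ := ValUniq.exists_eq_comap_of_notMem (K := ℂ) (F := FC N)
    (E := LaurentSeries ℂ) (jC N) (sigmaC N) (card_eq_finrank_jC N) (sigmaC_injective N)
    (fun i j a => by rw [sigmaC, sigmaC, cuspEmbC_algebraMap, cuspEmbC_algebraMap])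
    (fun i j => by rw [sigmaC, sigmaC, cuspEmbC_jC, cuspEmbC_jC])
    laurentVC (fun i a => by rw [sigmaC, cuspEmbC_algebraMap]; exact C_mem_laurentVC a)
    v.toValuationSubring v.algebraMap_mem' hV hO
  refine ⟨Quotient.out x, ?_⟩
  apply Place.ext
  ext f
  by_cases hf : f = 0
  · subst hf
    simp only [zero_mem]
  · rw [mem_cuspPlaceC_iff N _ hf, hx, ValuationSubring.mem_comap]
    show _ ↔ cuspEmbC N (Quotient.out x)⁻¹ f ∈ laurentVC
    rw [mem_laurentVC_of_ne_zero (cuspEmbC_ne_zero N _ hf)]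

/-- Coset form: `cuspPlaceXC` is onto the places over `∞`. -/
theorem exists_cuspPlaceXC_eq (v : Place ℂ (FC N)) (hv : v.ord (jC N) < 0) :
    ∃ x : SL(2, ℤ) ⧸ Gamma0 N, cuspPlaceXC N x = v := by
  obtain ⟨g, hg⟩ := exists_cuspPlaceC_eq N v hv
  exact ⟨QuotientGroup.mk g, by rw [cuspPlaceXC_mk, hg]⟩

/-! ### GLUE: quotients of convergent expansions -/

/-- **(GLUE)** If `(realMer f) ∘ g = a / b` with `a, b ∈ HolH`, `b ≠ 0`, having `q_N`-expansion data
`(m, P)` and `(m', P')`, then the cusp expansion of `f` at `g` is `laurentOf m P / laurentOf m' P'`. -/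
theorem cuspEmbC_eq_div_of_isQExp (g : SL(2, ℤ)) (f : FC N) (a b : HolH) (hb : b ≠ 0)
    (hab : slMer g (realMer N f) = algebraMap HolH MerH a / algebraMap HolH MerH b)
    {m m' : ℕ} {P P' : PowerSeries ℂ}
    (ha : IsQExp N ((a : HolH) : ℍ → ℂ) m P) (hb' : IsQExp N ((b : HolH) : ℍ → ℂ) m' P') :
    cuspEmbC N g f = laurentOf m P / laurentOf m' P' := by
  obtain ⟨u, s, hs, rfl⟩ := exists_divC_ne_zero N f
  obtain ⟨mu, Pu, hPu, hTu⟩ := cuspEmbC_spec N g u
  obtain ⟨ms, Ps, hPs, hTs⟩ := cuspEmbC_spec N g s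
  -- the identity `(Θ u ∘ g) * b = a * (Θ s ∘ g)` in `HolH`
  have hs' : compSLHom g (realC N s) ≠ 0 := fun h0 => hs (by
    have h1 : compSLHom g (realC N s) = compSLHom g 0 := by rw [h0, map_zero]
    have h2 : realC N s = 0 := compSLHom_injective g h1
    exact realC_injective N (by rw [h2, map_zero]))
  have hsM : algebraMap HolH MerH (compSLHom g (realC N s)) ≠ 0 := fun h0 =>
    hs' (IsFractionRing.injective HolH MerH (by rw [h0, map_zero]))
  have hbM : algebraMap HolH MerH b ≠ 0 := fun h0 =>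
    hb (IsFractionRing.injective HolH MerH (by rw [h0, map_zero]))
  rw [map_div₀, realMer_coe, realMer_coe, slMer_div] at hab
  have hcross : compSLHom g (realC N u) * b = a * compSLHom g (realC N s) := by
    apply IsFractionRing.injective HolH MerH
    rw [map_mul, map_mul]
    field_simp at hab
    rw [hab, mul_comm]
  have hfun : compSL ((realC N u : HolH) : ℍ → ℂ) g * ((b : HolH) : ℍ → ℂ) =
      ((a : HolH) : ℍ → ℂ) * compSL ((realC N s : HolH) : ℍ → ℂ) g :=
    congrArg (fun x : HolH => (x : ℍ → ℂ)) hcross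
  have h1 := hPu.mul hb'
  have h2 := ha.mul hPs
  rw [hfun] at h1
  have hL := h1.unique h2
  rw [laurentOf_mul, laurentOf_mul] at hL
  have hP'0 : laurentOf m' P' ≠ 0 := by
    rw [Ne, laurentOf_eq_zero_iff]
    intro h0
    apply hb
    apply Subtype.ext
    exact hb'.eq_zero_iff.mpr h0
  have hTs0 : cuspEmbC N g (s : FC N) ≠ 0 :=
    cuspEmbC_ne_zero N g (fun h0 => hs (Subtype.ext h0))
  rw [map_div₀, hTu, hTs, div_eq_div_iff (hTs ▸ hTs0) hP'0]
  exact hL

end Fermat.Agent.ES.KUM.CCusp16
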