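/-
Program J, chapter J1.3 (helper17): the elements of `SL(2, ℤ)` with `|tr γ| ≤ 2`.

* `exists_fixed_point` : `|tr γ| < 2` (elliptic) ⇒ `γ` fixes a point of `ℍ`;
* `exists_conj_T_zpow` : `tr γ ^ 2 = 4` (parabolic or `±1`) ⇒ `γ = ± δ T^m δ⁻¹`;
* `map_eq_one_of_abs_trace_le_two` : a character of a subgroup `Γ ≤ SL(2, ℤ)` which is trivial on the
  stabilisers of points of `ℍ` and on the elements `± δ T^m δ⁻¹` of `Γ` is trivial on all `γ ∈ Γ` with
  `|tr γ| ≤ 2` (the condition defining the group `KumChar N n` of Kummer characters).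
-/
import Mathlib
import Fermat.Agent.S21.Parabolic

set_option autoImplicit false

open UpperHalfPlane
open scoped MatrixGroups

noncomputable section

namespace Fermat.Agent.ES.KUM.TraceClass17

theorem coe_smul_SL (γ : SL(2, ℤ)) (z : ℍ) :
    ((γ • z : ℍ) : ℂ) = (((γ 0 0 : ℤ) : ℂ) * z + ((γ 0 1 : ℤ) : ℂ)) /
      (((γ 1 0 : ℤ) : ℂ) * z + ((γ 1 1 : ℤ) : ℂ)) := by
  rw [UpperHalfPlane.coe_specialLinearGroup_apply]
  simp

theorem det_eq (γ : SL(2, ℤ)) : γ 0 0 * γ 1 1 - γ 0 1 * γ 1 0 = 1 := by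
  have := γ.det_coe
  rwa [Matrix.det_fin_two] at this

/-- A matrix of `SL(2, ℤ)` with `|tr| < 2` has `c ≠ 0`. -/
theorem c_ne_zero_of_abs_trace_lt (γ : SL(2, ℤ))
    (h : |(γ : Matrix (Fin 2) (Fin 2) ℤ).trace| < 2) : γ 1 0 ≠ 0 := by
  intro hc
  have hdet := det_eq γ
  rw [hc, mul_zero, sub_zero] at hdet
  rw [Matrix.trace_fin_two] at h
  rcases Int.eq_one_or_neg_one_of_mul_eq_one' hdet with ⟨h1, h2⟩ | ⟨h1, h2⟩
  · rw [h1, h2] at h
    norm_num at h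
  · rw [h1, h2] at h
    norm_num at h

/-- Fixed point of an elliptic element with `c > 0`. -/
theorem exists_fixed_point_of_pos (γ : SL(2, ℤ))
    (h : |(γ : Matrix (Fin 2) (Fin 2) ℤ).trace| < 2) (hc : 0 < γ 1 0) :
    ∃ z₀ : ℍ, γ • z₀ = z₀ := by
  rw [Matrix.trace_fin_two] at h
  have hdet := det_eq γ
  set a : ℤ := γ 0 0 with ha
  set b : ℤ := γ 0 1 with hb
  set c : ℤ := γ 1 0 with hc'
  set d : ℤ := γ 1 1 with hd
  -- the discriminant
  have ht : (a + d) ^ 2 < 4 := by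
    have h1 := abs_lt.mp h
    nlinarith [h1.1, h1.2]
  have hD : (0 : ℝ) < 4 - ((a : ℝ) + d) ^ 2 := by
    have : ((a + d : ℤ) : ℝ) ^ 2 < 4 := by exact_mod_cast ht
    push_cast at this
    linarith
  set s : ℝ := Real.sqrt (4 - ((a : ℝ) + d) ^ 2) with hs
  have hs0 : 0 < s := Real.sqrt_pos.mpr hD
  have hs2 : s ^ 2 = 4 - ((a : ℝ) + d) ^ 2 := Real.sq_sqrt hD.le
  have hcR : (0 : ℝ) < c := by exact_mod_cast hc
  have hcC : (c : ℂ) ≠ 0 := by exact_mod_cast hc.ne'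
  -- the point
  let zc : ℂ := (((a : ℂ) - d) + (s : ℂ) * Complex.I) / (2 * c)
  have hzc : zc = (⟨((a : ℝ) - d) / (2 * c), s / (2 * c)⟩ : ℂ) := by
    apply Complex.ext
    · simp only [zc]
      rw [show (((a : ℂ) - d) + (s : ℂ) * Complex.I) / (2 * c)
        = ((((a : ℝ) - d : ℝ) : ℂ) + (s : ℂ) * Complex.I) / (((2 * c : ℝ)) : ℂ) by push_cast; ring]
      rw [Complex.div_ofReal_re]
      simp
    · simp only [zc]
      rw [show (((a : ℂ) - d) + (s : ℂ) * Complex.I) / (2 * c)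
        = ((((a : ℝ) - d : ℝ) : ℂ) + (s : ℂ) * Complex.I) / (((2 * c : ℝ)) : ℂ) by push_cast; ring]
      rw [Complex.div_ofReal_im]
      simp
  have him : 0 < zc.im := by
    rw [hzc]
    show 0 < s / (2 * c)
    positivity
  let z₀ : ℍ := ⟨zc, him⟩
  refine ⟨z₀, ?_⟩
  apply UpperHalfPlane.ext
  rw [coe_smul_SL]
  show ((a : ℂ) * zc + b) / ((c : ℂ) * zc + d) = zc
  -- `w := 2 c z - (a - d)` has `w ^ 2 = (a - d) ^ 2 + 4 b c`
  have hw : ((s : ℂ) * Complex.I) ^ 2 = ((a : ℂ) - d) ^ 2 + 4 * b * c := by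
    rw [mul_pow, Complex.I_sq]
    have h1 : ((s : ℂ)) ^ 2 = 4 - ((a : ℂ) + d) ^ 2 := by
      have := congrArg (fun x : ℝ => (x : ℂ)) hs2
      push_cast at this
      exact this
    have h2 : (a : ℂ) * d - b * c = 1 := by exact_mod_cast hdet
    rw [h1]
    linear_combination (4 : ℂ) * h2
  have hden : (c : ℂ) * zc + d ≠ 0 := by
    intro h0
    have h1 := congrArg Complex.im h0
    have h2 : ((c : ℂ) * zc + d).im = c * zc.im := by
      simp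
    rw [h2, Complex.zero_im] at h1
    rcases mul_eq_zero.mp h1 with h3 | h3
    · exact hcR.ne' h3
    · exact him.ne' h3
  rw [div_eq_iff hden]
  have hzc2 : 2 * (c : ℂ) * zc = ((a : ℂ) - d) + (s : ℂ) * Complex.I := by
    simp only [zc]
    field_simp
  have hsI : (s : ℂ) * Complex.I = 2 * (c : ℂ) * zc - ((a : ℂ) - d) := by
    rw [hzc2]; ring
  rw [hsI] at hw
  have h4c : (4 * (c : ℂ)) ≠ 0 := mul_ne_zero (by norm_num) hcC
  apply mul_left_cancel₀ h4c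
  linear_combination (-1 : ℂ) * hw

/-- **Elliptic elements have a fixed point in `ℍ`.** -/
theorem exists_fixed_point (γ : SL(2, ℤ))
    (h : |(γ : Matrix (Fin 2) (Fin 2) ℤ).trace| < 2) : ∃ z₀ : ℍ, γ • z₀ = z₀ := by
  rcases lt_or_gt_of_ne (c_ne_zero_of_abs_trace_lt γ h) with hc | hc
  · -- replace `γ` by `-γ`
    have h' : |((-γ : SL(2, ℤ)) : Matrix (Fin 2) (Fin 2) ℤ).trace| < 2 := by
      rw [Matrix.SpecialLinearGroup.coe_neg, Matrix.trace_neg, abs_neg]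
      exact h
    have hc' : 0 < (-γ : SL(2, ℤ)) 1 0 := by
      rw [Matrix.SpecialLinearGroup.coe_neg, Matrix.neg_apply]
      omega
    obtain ⟨z₀, hz₀⟩ := exists_fixed_point_of_pos (-γ) h' hc'
    exact ⟨z₀, by rwa [ModularGroup.SL_neg_smul] at hz₀⟩
  · exact exists_fixed_point_of_pos γ h hc

/-- **Elements of trace `±2` are `± δ T^m δ⁻¹`.** -/
theorem exists_conj_T_zpow (γ : SL(2, ℤ))
    (h : (γ : Matrix (Fin 2) (Fin 2) ℤ).trace ^ 2 = 4) :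
    ∃ (δ : SL(2, ℤ)) (m : ℤ), γ = δ * ModularGroup.T ^ m * δ⁻¹ ∨
      γ = -(δ * ModularGroup.T ^ m * δ⁻¹) := by
  obtain ⟨δ, hδ⟩ := Fermat.Agent.S21.Parabolic.exists_conj_c_eq_zero γ h
  set g : SL(2, ℤ) := δ⁻¹ * γ * δ with hg
  have hγ : γ = δ * g * δ⁻¹ := by
    rw [hg]; group
  have hdet := det_eq g
  rw [hδ, mul_zero, sub_zero] at hdet
  rcases Int.eq_one_or_neg_one_of_mul_eq_one' hdet with ⟨h1, h2⟩ | ⟨h1, h2⟩
  · refine ⟨δ, g 0 1, Or.inl ?_⟩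
    rw [hγ]
    congr 2
    ext i j
    rw [ModularGroup.coe_T_zpow]
    fin_cases i <;> fin_cases j <;> simp [h1, h2, hδ]
  · refine ⟨δ, -(g 0 1), Or.inr ?_⟩
    have hg' : g = -(ModularGroup.T ^ (-(g 0 1))) := by
      ext i j
      rw [Matrix.SpecialLinearGroup.coe_neg, ModularGroup.coe_T_zpow]
      fin_cases i <;> fin_cases j <;> simp [h1, h2, hδ]
    rw [hγ]
    generalize -(g 0 1) = m at hg'
    rw [hg']
    apply Subtype.ext
    simp only [Matrix.SpecialLinearGroup.coe_mul, Matrix.SpecialLinearGroup.coe_neg,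
      Matrix.mul_neg, Matrix.neg_mul]

/-- **Criterion**: a character trivial on point stabilisers and on the elements `± δ T^m δ⁻¹` is
trivial on all elements of trace `≤ 2` in absolute value. -/
theorem map_eq_one_of_abs_trace_le_two (Γ : Subgroup SL(2, ℤ)) {A : Type*} [Monoid A]
    (χ : ↥Γ →* A)
    (hell : ∀ (γ : ↥Γ) (z₀ : ℍ), (γ : SL(2, ℤ)) • z₀ = z₀ → χ γ = 1)
    (hpar : ∀ (γ : ↥Γ) (δ : SL(2, ℤ)) (m : ℤ),
      ((γ : SL(2, ℤ)) = δ * ModularGroup.T ^ m * δ⁻¹ ∨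
        (γ : SL(2, ℤ)) = -(δ * ModularGroup.T ^ m * δ⁻¹)) → χ γ = 1)
    (γ : ↥Γ) (h : |((γ : SL(2, ℤ)) : Matrix (Fin 2) (Fin 2) ℤ).trace| ≤ 2) : χ γ = 1 := by
  rcases lt_or_eq_of_le h with h1 | h1
  · obtain ⟨z₀, hz₀⟩ := exists_fixed_point (γ : SL(2, ℤ)) h1
    exact hell γ z₀ hz₀
  · have h2 : ((γ : SL(2, ℤ)) : Matrix (Fin 2) (Fin 2) ℤ).trace ^ 2 = 4 := by
      rw [← sq_abs, h1]; norm_num
    obtain ⟨δ, m, hδ⟩ := exists_conj_T_zpow (γ : SL(2, ℤ)) h2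
    exact hpar γ δ m hδ

end Fermat.Agent.ES.KUM.TraceClass17
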