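/-
Program J (S30), chapter J1 (Kummer theory on `ℍ`), file K4 (helper25): **surjectivity at the finite
points over `ℂ`**.  Every place `v` of `F_ℂ = FC N` with `0 < v.ord (j - j(z₀))` is a point place
`ptPlaceC N g z₀` (`g ∈ SL(2, ℤ)`); consequently every place of `F_ℂ / ℂ` is a point place
`ptPlaceC N 1 z` (`z ∈ ℍ`) or a cusp place `cuspPlaceC N g`.

Port of `X0/SurjPoint.exists_comap_eq` from `ℚbar` to `ℂ`:
* degree `[F_ℂ : ℂ(j)] = #(SL(2, ℤ) ⧸ Γ₀(N))` from `FieldL25.finrank_jL` (via `CCusp16.card_eq_finrank_jC`);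
* DISTINCT from `CCusp16.mem_Gamma0_of_cuspEmbC_jdC_eq` (the `q_N`-expansion of `j_N ∘ γ` determines
  the coset of `γ`);
* `ValUniq.exists_eq_comap_of_sub_mem_nonunits` for the `ψ(N)` embeddings `embC N g : F_ℂ → MerH`.
-/
import Fermat.Agent.ES.KUM.CPoint5
import Fermat.Agent.ES.KUM.CCuspSurj16

set_option autoImplicit false
set_option linter.unusedSectionVars false

open ModularCurve UpperHalfPlane AlgebraicCurve IntermediateField
open scoped Topology Manifold MatrixGroups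
open CongruenceSubgroup

noncomputable section

namespace Fermat.Agent.ES.KUM.CSurj25

open Fermat.Agent.X0 Fermat.Agent.ES.KUM Fermat.Agent.X0.SurjPoint Fermat.Agent.ES.KUM.CCusp16

variable (N : ℕ) [NeZero N]

/-! ### DISTINCT, analytic form -/

/-- If `j_N ∘ γ = j_N ∘ γ'` as functions on `ℍ` then `γ' γ⁻¹ ∈ Γ₀(N)`. -/
theorem mem_Gamma0_of_compSL_realC_eq (γ γ' : SL(2, ℤ))
    (h : compSL ((realC N (jdRC N N (dvd_refl N)) : HolH) : ℍ → ℂ) γ =
      compSL ((realC N (jdRC N N (dvd_refl N)) : HolH) : ℍ → ℂ) γ') :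
    γ' * γ⁻¹ ∈ Gamma0 N := by
  apply mem_Gamma0_of_cuspEmbC_jdC_eq N γ γ'
  have hcoe : jdC N N (dvd_refl N) = ((jdRC N N (dvd_refl N) : RC N) : FC N) := rfl
  rw [hcoe]
  obtain ⟨m, P, hP, hT⟩ := cuspEmbC_spec N γ' (jdRC N N (dvd_refl N))
  rw [hT]
  apply cuspEmbC_eq_of_isQExp
  rw [h]
  exact hP

/-- The same for the function `j(N ·)` itself. -/
theorem mem_Gamma0_of_compSL_jdFun_eq (γ γ' : SL(2, ℤ))
    (h : compSL (jdFun N) γ = compSL (jdFun N) γ') : γ' * γ⁻¹ ∈ Gamma0 N := by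
  apply mem_Gamma0_of_compSL_realC_eq N γ γ'
  rw [realC_jdRC]
  exact h

/-- The embedding `F_ℂ → MerH` attached to a coset, via a representative. -/
def sigmaPt (x : SL(2, ℤ) ⧸ Gamma0 N) : FC N →+* MerH := embC N (Quotient.out x)

/-- The `ψ(N)` embeddings `embC N g`, `g` running over representatives of `SL(2, ℤ) ⧸ Γ₀(N)`, are
pairwise distinct. -/
theorem sigmaPt_injective : Function.Injective (sigmaPt N) := by
  intro x y hxy
  have h2 : embC N (Quotient.out x) ((jdRC N N (dvd_refl N) : RC N) : FC N) =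
      embC N (Quotient.out y) ((jdRC N N (dvd_refl N) : RC N) : FC N) :=
    congrArg (fun f : FC N →+* MerH => f ((jdRC N N (dvd_refl N) : RC N) : FC N)) hxy
  rw [embC_coe, embC_coe] at h2
  have h3 := IsFractionRing.injective HolH MerH h2
  have h1 : compSL ((realC N (jdRC N N (dvd_refl N)) : HolH) : ℍ → ℂ) (Quotient.out x)⁻¹ =
      compSL ((realC N (jdRC N N (dvd_refl N)) : HolH) : ℍ → ℂ) (Quotient.out y)⁻¹ := by
    rw [← coe_embRC, ← coe_embRC, h3]
  have h4 := mem_Gamma0_of_compSL_realC_eq N _ _ h1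
  rw [inv_inv] at h4
  have h5 : (QuotientGroup.mk (Quotient.out y) : SL(2, ℤ) ⧸ Gamma0 N)
      = QuotientGroup.mk (Quotient.out x) := QuotientGroup.eq.mpr h4
  have hx : (QuotientGroup.mk (Quotient.out x) : SL(2, ℤ) ⧸ Gamma0 N) = x := Quotient.out_eq' x
  have hy : (QuotientGroup.mk (Quotient.out y) : SL(2, ℤ) ⧸ Gamma0 N) = y := Quotient.out_eq' y
  rw [hx, hy] at h5
  exact h5.symm

theorem finiteDimensional_jC : FiniteDimensional ℂ⟮jC N⟯ (FC N) := by
  rw [jC_eq_jL]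
  exact FieldL25.finiteDimensional_jL ℂ N

/-! ### Surjectivity at the finite points -/

/-- **SURJ at finite points over `ℂ`, valuation-subring form.** -/
theorem exists_comap_eq (z₀ : ℍ) (v : Place ℂ (FC N))
    (hv : 0 < v.ord (jC N - algebraMap ℂ (FC N) (jFun z₀))) :
    ∃ g : SL(2, ℤ), v.toValuationSubring = (valAt z₀).comap (embC N g) := by
  have : FiniteDimensional ℂ⟮jC N⟯ (FC N) := finiteDimensional_jC N
  have : Algebra.IsIntegral ℂ⟮jC N⟯ (FC N) := Algebra.IsIntegral.of_finite _ _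
  have : Algebra.IsSeparable ℂ⟮jC N⟯ (FC N) := Algebra.IsSeparable.of_integral _ _
  obtain ⟨x, hx⟩ := ValUniq.exists_eq_comap_of_sub_mem_nonunits (K := ℂ) (F := FC N) (E := MerH)
    (jC N) (sigmaPt N) (card_eq_finrank_jC N) (sigmaPt_injective N)
    (fun i j a => by rw [sigmaPt, sigmaPt, embC_algebraMap, embC_algebraMap])
    (fun i j => by rw [sigmaPt, sigmaPt, embC_jC, embC_jC])
    (valAt z₀)
    (fun i a => by
      rw [sigmaPt, embC_algebraMap]
      exact (isOrd_ordH z₀).algebraMap_mem_valuationSubring _)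
    v.toValuationSubring v.algebraMap_mem' (jFun z₀)
    (fun i => by
      rw [sigmaPt, mem_nonunits_valAt_iff z₀ (embC_ne_zero N _ (jC_sub_ne_zero N _))]
      have h := ptOrdC_jC_sub N (Quotient.out i) z₀
      unfold ptOrdC at h
      rw [h]
      exact_mod_cast Fermat.Agent.X0.JOrderMain.ellOrder_pos z₀)
    (by
      rw [ValuationSubring.mem_nonunits_iff_or]
      right
      rw [FF.ffp_mem_iff_ord_nonneg, v.ord_inv]
      omega)
  exact ⟨Quotient.out x, hx⟩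

/-- **SURJ at finite points over `ℂ`** (K4): every place over `j = j(z₀)` is a point place at `z₀`. -/
theorem exists_ptPlaceC_eq (z₀ : ℍ) (v : Place ℂ (FC N))
    (hv : 0 < v.ord (jC N - algebraMap ℂ (FC N) (jFun z₀))) :
    ∃ g : SL(2, ℤ), v = ptPlaceC N g z₀ := by
  obtain ⟨g, hg⟩ := exists_comap_eq N z₀ v hv
  exact ⟨g, eq_ptPlaceC_of_comap N hg⟩

/-- The same in the form asked for by the J1 lead. -/
theorem exists_ptPlaceC_eq_of_jFun_eq (v : Place ℂ (FC N)) (c : ℂ)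
    (hv : 0 < v.ord (jC N - algebraMap ℂ (FC N) c)) (z₀ : ℍ) (hz : jFun z₀ = c) :
    ∃ g : SL(2, ℤ), v = ptPlaceC N g z₀ := by
  subst hz
  exact exists_ptPlaceC_eq N z₀ v hv

/-- Every point place is a point place with `g = 1`. -/
theorem ptPlaceC_eq_one (g : SL(2, ℤ)) (z₀ : ℍ) : ptPlaceC N g z₀ = ptPlaceC N 1 (g⁻¹ • z₀) := by
  have h := ptPlaceC_smul N g⁻¹ g z₀
  rw [inv_mul_cancel] at h
  exact h.symm

theorem ptIdx_eq_one (g : SL(2, ℤ)) (z₀ : ℍ) : ptIdx N g z₀ = ptIdx N 1 (g⁻¹ • z₀) := by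
  have h := ptIdx_smul N g⁻¹ g z₀
  rw [inv_mul_cancel] at h
  exact h.symm

/-- **Every place of `F_ℂ` which is not a pole of `j` is a point place.** -/
theorem exists_ptPlaceC_of_ord_jC_nonneg (v : Place ℂ (FC N)) (hv : 0 ≤ v.ord (jC N)) :
    ∃ z : ℍ, v = ptPlaceC N 1 z := by
  have : FiniteDimensional ℂ⟮jC N⟯ (FC N) := finiteDimensional_jC N
  have halg : Algebra.IsAlgebraic ℂ⟮jC N⟯ (FC N) := Algebra.IsAlgebraic.of_finite _ _
  obtain ⟨c, hc | hc⟩ := FF.ffp_exists_ord_sub_pos v (jC N) halg (FF.ffp_mem_of_ord_nonneg v hv)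
  · exact absurd (sub_eq_zero.mpr hc) (jC_sub_ne_zero N c)
  · obtain ⟨z₀, hz₀⟩ := jFun_surjective c
    obtain ⟨g, hg⟩ := exists_ptPlaceC_eq_of_jFun_eq N v c hc z₀ hz₀
    exact ⟨g⁻¹ • z₀, by rw [hg, ptPlaceC_eq_one]⟩

/-- **Classification of the places of `F_ℂ / ℂ`**: point places and cusp places. -/
theorem place_cases (v : Place ℂ (FC N)) :
    (∃ z : ℍ, v = ptPlaceC N 1 z) ∨ (∃ g : SL(2, ℤ), v = cuspPlaceC N g) := by
  by_cases h : 0 ≤ v.ord (jC N)
  · exact Or.inl (exists_ptPlaceC_of_ord_jC_nonneg N v h)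
  · obtain ⟨g, hg⟩ := exists_cuspPlaceC_eq N v (not_le.mp h)
    exact Or.inr ⟨g, hg.symm⟩

/-- A point place is not a pole of `j`. -/
theorem ptPlaceC_ord_jC_nonneg (g : SL(2, ℤ)) (z₀ : ℍ) : 0 ≤ (ptPlaceC N g z₀).ord (jC N) := by
  have h1 := ord_jC_sub_pos N g z₀
  have h2 : jC N - algebraMap ℂ (FC N) (jFun z₀) ∈ (ptPlaceC N g z₀).toValuationSubring :=
    FF.ffp_mem_of_ord_nonneg _ h1.le
  have h3 : jC N ∈ (ptPlaceC N g z₀).toValuationSubring := by
    have := add_mem h2 ((ptPlaceC N g z₀).algebraMap_mem' (jFun z₀))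
    rwa [sub_add_cancel] at this
  exact FF.ffp_ord_nonneg_of_mem _ h3

/-- Point places and cusp places are different. -/
theorem ptPlaceC_ne_cuspPlaceC (g g' : SL(2, ℤ)) (z₀ : ℍ) : ptPlaceC N g z₀ ≠ cuspPlaceC N g' := by
  intro h
  have h1 := ptPlaceC_ord_jC_nonneg N g z₀
  have h2 := cuspPlaceC_ord_jC_neg N g'
  rw [h] at h1
  omega

end Fermat.Agent.ES.KUM.CSurj25
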