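/-
Program J, chapter J1 (Kummer theory on `ℍ`), file K6-cusps (helper16): **exact indices at the cusps**.

From surjectivity (`CCuspSurj16`), the width divisibility (`CCuspPlaces16`) and the fundamental identity
`∑_{v | ∞} -ord_v j = [F_ℂ : ℂ(j)] = ψ(N) = #(SL(2, ℤ) ⧸ Γ₀(N))` (generic `FFSum.sum_ord_poles` + `FieldL25`):

* `neg_ord_jC_eq_card_orbit` : `-ord_{cuspPlaceXC x} j = #(⟨T⟩ · x)` (ramification index = width);
* `cuspIdx_mul_card_orbit`   : `cuspIdx N g * #(⟨T⟩ · [g]) = N` (the index is `N / width`);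
* `card_cuspPlaces`          : there are exactly `cuspCount N` places over `∞`;
* `cuspPlaceXC_eq_iff`       : two cosets give the same cusp place iff they are in the same `⟨T⟩`-orbit.
-/
import Fermat.Agent.ES.KUM.CCuspSurj16
import Fermat.Agent.X0.PlaceCountX0
import Fermat.Agent.X0.FFSum

set_option autoImplicit false
set_option linter.unusedSectionVars false

open ModularCurve HahnSeries UpperHalfPlane AlgebraicCurve IntermediateField
open scoped Topology Manifold MatrixGroups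
open MulAction Subgroup CongruenceSubgroup

noncomputable section

namespace Fermat.Agent.ES.KUM.CCusp16

open Fermat.Agent.X0 Fermat.Agent.ES.KUM

variable (N : ℕ) [NeZero N]

theorem isGen_jC : FF.IsGen ℂ (jC N) := by
  rw [jC_eq_jL]
  exact FieldL25.isGen_jL ℂ N

theorem finrank_jC : Module.finrank ℂ⟮jC N⟯ (FC N) = dedekindPsi N := by
  rw [jC_eq_jL]
  exact FieldL25.finrank_jL ℂ N

theorem finite_poles_jC : {v : Place ℂ (FC N) | v.ord (jC N) < 0}.Finite :=
  FF.finite_poles (isGen_jC N)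

theorem sum_ord_poles_jC :
    ∑ᶠ (v : Place ℂ (FC N)) (_ : v.ord (jC N) < 0), -v.ord (jC N) = (dedekindPsi N : ℤ) := by
  rw [FF.sum_ord_poles (isGen_jC N), finrank_jC]

/-- The count at the cusps. -/
theorem cusp_count :
    Nat.card {v : Place ℂ (FC N) // v.ord (jC N) < 0} = cuspCount N ∧
      ∀ x : SL(2, ℤ) ⧸ Gamma0 N,
        -(cuspPlaceXC N x).ord (jC N) = (Nat.card (orbit (zpowers ModularGroup.T) x) : ℤ) :=
  PlaceCountX0.pcx_count_cusps (K := ℂ) N (jC N) (finite_poles_jC N) (sum_ord_poles_jC N)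
    (cuspPlaceXC N) (cuspPlaceXC_ord_jC_neg N) (exists_cuspPlaceXC_eq N)
    (fun a => cuspPlaceXC_smul_zpowers_T N ⟨ModularGroup.T, mem_zpowers _⟩ a)
    (cuspPlaceXC_neg_ord_jC_le N)

/-- There are exactly `cuspCount N` places of `F_ℂ` over `∞`. -/
theorem card_cuspPlaces : Nat.card {v : Place ℂ (FC N) // v.ord (jC N) < 0} = cuspCount N :=
  (cusp_count N).1

/-- **Ramification index = width.** -/
theorem neg_ord_jC_eq_card_orbit (x : SL(2, ℤ) ⧸ Gamma0 N) :
    -(cuspPlaceXC N x).ord (jC N) = (Nat.card (orbit (zpowers ModularGroup.T) x) : ℤ) :=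
  (cusp_count N).2 x

/-- **The index is `N / width`.** -/
theorem cuspIdx_mul_card_orbit (g : SL(2, ℤ)) :
    cuspIdx N g * Nat.card (orbit (zpowers ModularGroup.T)
      (QuotientGroup.mk g : SL(2, ℤ) ⧸ Gamma0 N)) = N := by
  have h1 := cuspIdx_mul_ord_jC N g
  have h2 := neg_ord_jC_eq_card_orbit N (QuotientGroup.mk g : SL(2, ℤ) ⧸ Gamma0 N)
  rw [cuspPlaceXC_mk] at h2
  have h3 : ((cuspIdx N g * Nat.card (orbit (zpowers ModularGroup.T)
      (QuotientGroup.mk g : SL(2, ℤ) ⧸ Gamma0 N)) : ℕ) : ℤ) = (N : ℤ) := by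
    push_cast
    rw [← h2]
    linarith
  exact_mod_cast h3

/-- The order of `f ∘ g⁻¹` in `q_N` is `(N / width)` times the order at the cusp place. -/
theorem card_orbit_mul_order_cuspEmbC (g : SL(2, ℤ)) {f : FC N} (hf : f ≠ 0) :
    (Nat.card (orbit (zpowers ModularGroup.T) (QuotientGroup.mk g : SL(2, ℤ) ⧸ Gamma0 N)) : ℤ) *
      (cuspEmbC N g⁻¹ f).order = N * (cuspPlaceC N g).ord f := by
  rw [order_cuspEmbC N g hf, ← mul_assoc]
  have := cuspIdx_mul_card_orbit N g
  have h' : ((Nat.card (orbit (zpowers ModularGroup.T)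
      (QuotientGroup.mk g : SL(2, ℤ) ⧸ Gamma0 N)) : ℤ)) * (cuspIdx N g : ℤ) = N := by
    rw [mul_comm]
    exact_mod_cast this
  rw [h']

/-- The cusp places, on `⟨T⟩`-orbits of cosets. -/
def cuspPlaceOrb (ω : orbitRel.Quotient (zpowers ModularGroup.T) (SL(2, ℤ) ⧸ Gamma0 N)) :
    {v : Place ℂ (FC N) // v.ord (jC N) < 0} :=
  Quotient.liftOn' ω (fun x => ⟨cuspPlaceXC N x, cuspPlaceXC_ord_jC_neg N x⟩) (by
    intro a b hab
    change a ∈ orbit (zpowers ModularGroup.T) b at hab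
    obtain ⟨h, rfl⟩ := hab
    exact Subtype.ext (cuspPlaceXC_smul_zpowers_T N h b))

theorem cuspPlaceOrb_mk (x : SL(2, ℤ) ⧸ Gamma0 N) :
    cuspPlaceOrb N (Quotient.mk'' x) = ⟨cuspPlaceXC N x, cuspPlaceXC_ord_jC_neg N x⟩ := rfl

theorem cuspPlaceOrb_bijective : Function.Bijective (cuspPlaceOrb N) := by
  have : Finite (SL(2, ℤ) ⧸ Gamma0 N) := by
    apply Nat.finite_of_card_ne_zero
    rw [G1Index.g1_card]
    exact (GNPsi.gnp_dedekindPsi_pos (NeZero.ne N)).ne'
  rw [Nat.bijective_iff_surjective_and_card]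
  constructor
  · rintro ⟨v, hv⟩
    obtain ⟨x, hx⟩ := exists_cuspPlaceXC_eq N v hv
    exact ⟨Quotient.mk'' x, Subtype.ext hx⟩
  · rw [card_cuspPlaces, G1Cusps.g1_orbits_T]

/-- Two cosets give the same cusp place iff they lie in the same `⟨T⟩`-orbit. -/
theorem cuspPlaceXC_eq_iff (x y : SL(2, ℤ) ⧸ Gamma0 N) :
    cuspPlaceXC N x = cuspPlaceXC N y ↔ x ∈ orbit (zpowers ModularGroup.T) y := by
  constructor
  · intro h
    have h1 : cuspPlaceOrb N (Quotient.mk'' x) = cuspPlaceOrb N (Quotient.mk'' y) := by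
      rw [cuspPlaceOrb_mk, cuspPlaceOrb_mk]
      exact Subtype.ext h
    have h2 := (cuspPlaceOrb_bijective N).1 h1
    exact Quotient.exact' h2
  · rintro ⟨h, rfl⟩
    exact cuspPlaceXC_smul_zpowers_T N h y

end Fermat.Agent.ES.KUM.CCusp16
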