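/-
Program J, chapter J1.3b, (ELL-core): **the multiplier formula at a fixed point**.

If `φ ≠ 0` is meromorphic on `ℍ`, `γ ∈ SL(2, ℤ)` fixes `z₀ ∈ ℍ` and `φ ∘ γ = c φ` with `c` constant,
then `c = γ'(z₀) ^ ord_{z₀} φ`, `γ'(z₀) = (c z₀ + d)⁻²` (`eq_mult_zpow_ordMer`,
`eq_denom_zpow_ordMer`).  For `γ ∈ Γ₀(N)` the multiplier is a `ptIdx`-th root of unity
(`mult_pow_ptIdx`, from a uniformiser at the point place), hence Kummer characters are trivial on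
elements with a fixed point (`eq_one_of_fixed`), in particular on elements with `|tr| < 2`
(`exists_fixed_of_trace_sq_lt`, `eq_one_of_trace_sq_lt`).
-/
import Fermat.Agent.X0.HolSymm
import Fermat.Agent.ES.KUM.CPoint5

set_option autoImplicit false

open UpperHalfPlane Complex Filter Topology
open scoped MatrixGroups Manifold

noncomputable section

namespace Fermat.Agent.ES.KUM.EllMult14

open Fermat.Agent.X0

/-- Twisted local symmetry lemma for a quotient: if `A`, `B` have orders `ka`, `kb` at a fixed point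
`z₀` of `m`, `m w - z₀ = (w - z₀) μ w` and `A (m w) B w = c A w B (m w)` near `z₀`, then
`μ z₀ ^ ka = c μ z₀ ^ kb`. -/
theorem pow_eq_mul_pow_of_comp_eventuallyEq {A B m μ : ℂ → ℂ} {z₀ c : ℂ} {ka kb : ℕ}
    (hA : AnalyticAt ℂ A z₀) (hka : analyticOrderAt A z₀ = ka)
    (hB : AnalyticAt ℂ B z₀) (hkb : analyticOrderAt B z₀ = kb)
    (hm : ContinuousAt m z₀) (hmz : m z₀ = z₀)
    (hμ : ContinuousAt μ z₀) (hfac : ∀ᶠ w in 𝓝 z₀, m w - z₀ = (w - z₀) * μ w)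
    (hrel : ∀ᶠ w in 𝓝 z₀, A (m w) * B w = c * (A w * B (m w))) :
    μ z₀ ^ ka = c * μ z₀ ^ kb := by
  obtain ⟨HA, hHAa, hHA0, hAH⟩ := (hA.analyticOrderAt_eq_natCast).mp hka
  obtain ⟨HB, hHBa, hHB0, hBH⟩ := (hB.analyticOrderAt_eq_natCast).mp hkb
  have hmt : Tendsto m (𝓝 z₀) (𝓝 z₀) := by
    have := hm.tendsto
    rwa [hmz] at this
  have h1A : ∀ᶠ w in 𝓝 z₀, A (m w) = (m w - z₀) ^ ka • HA (m w) := hmt.eventually hAH
  have h1B : ∀ᶠ w in 𝓝 z₀, B (m w) = (m w - z₀) ^ kb • HB (m w) := hmt.eventually hBH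
  set D : ℂ → ℂ := fun w =>
    μ w ^ ka * HA (m w) * HB w - c * (HA w * (μ w ^ kb * HB (m w))) with hD
  have hDc : ContinuousAt D z₀ := by
    have hHAm : ContinuousAt (fun w => HA (m w)) z₀ := by
      have : ContinuousAt HA (m z₀) := by rw [hmz]; exact hHAa.continuousAt
      exact ContinuousAt.comp (g := HA) this hm
    have hHBm : ContinuousAt (fun w => HB (m w)) z₀ := by
      have : ContinuousAt HB (m z₀) := by rw [hmz]; exact hHBa.continuousAt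
      exact ContinuousAt.comp (g := HB) this hm
    exact (((hμ.pow ka).mul hHAm).mul hHBa.continuousAt).sub
      (continuousAt_const.mul (hHAa.continuousAt.mul ((hμ.pow kb).mul hHBm)))
  have h2 : ∀ᶠ w in 𝓝[≠] z₀, D w = 0 := by
    rw [eventually_nhdsWithin_iff]
    filter_upwards [hAH, hBH, h1A, h1B, hfac, hrel] with w a b a' b' f r hw
    have hw0 : w - z₀ ≠ 0 := sub_ne_zero.mpr hw
    have e : (w - z₀) ^ (ka + kb) * D w = 0 := by
      have : (w - z₀) ^ (ka + kb) * D w = A (m w) * B w - c * (A w * B (m w)) := by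
        rw [a', b', a, b, f, mul_pow, mul_pow, hD]
        simp only [smul_eq_mul]
        ring
      rw [this, r, sub_self]
    exact (mul_eq_zero.mp e).resolve_left (pow_ne_zero _ hw0)
  have h3 : Tendsto D (𝓝[≠] z₀) (𝓝 (D z₀)) := hDc.tendsto.mono_left nhdsWithin_le_nhds
  have h4 : Tendsto D (𝓝[≠] z₀) (𝓝 0) := by
    refine Tendsto.congr' ?_ tendsto_const_nhds
    filter_upwards [h2] with w hw
    exact hw.symm
  have h5 : D z₀ = 0 := tendsto_nhds_unique h3 h4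
  simp only [hD, hmz] at h5
  have h6 : (μ z₀ ^ ka - c * μ z₀ ^ kb) * (HA z₀ * HB z₀) = 0 := by rw [← h5]; ring
  exact sub_eq_zero.mp ((mul_eq_zero.mp h6).resolve_right (mul_ne_zero hHA0 hHB0))

/-- The multiplier of the Moebius map `σ` at a fixed point `z₀`: `σ'(z₀) = (c z₀ + d)⁻²`. -/
def mult (σ : SL(2, ℤ)) (z₀ : ℍ) : ℂ := ((((σ 1 0 : ℤ) : ℂ) * z₀ + (σ 1 1 : ℤ)) ^ 2)⁻¹

theorem mult_ne_zero (σ : SL(2, ℤ)) (z₀ : ℍ) : mult σ z₀ ≠ 0 :=
  inv_ne_zero (pow_ne_zero 2 (moebC_denom_ne_zero σ z₀))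

/-- Holomorphic form: `a ∘ σ · b = c · a · (b ∘ σ)` at a fixed point `z₀` of `σ` forces
`σ'(z₀) ^ ord a = c · σ'(z₀) ^ ord b`. -/
theorem mult_pow_eq_of_rel {a b : ℍ → ℂ} (ha : a ∈ HolH) (hb : b ∈ HolH) (σ : SL(2, ℤ)) (z₀ : ℍ)
    (hfix : σ • z₀ = z₀) {c : ℂ} (hrel : compSL a σ * b = c • (a * compSL b σ)) {ka kb : ℕ}
    (hka : ordH a z₀ = ka) (hkb : ordH b z₀ = kb) :
    mult σ z₀ ^ ka = c * mult σ z₀ ^ kb := by
  set cc : ℂ := ((σ 1 0 : ℤ) : ℂ) with hcc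
  set d : ℂ := ((σ 1 1 : ℤ) : ℂ) with hd
  have hden0 : cc * z₀ + d ≠ 0 := moebC_denom_ne_zero σ z₀
  have hmz : moebC σ (z₀ : ℂ) = z₀ := by rw [← coe_smul_eq_moebC, hfix]
  have key := pow_eq_mul_pow_of_comp_eventuallyEq (A := a ∘ ofComplex) (B := b ∘ ofComplex)
    (m := moebC σ) (μ := fun w => 1 / ((cc * w + d) * (cc * z₀ + d))) (z₀ := (z₀ : ℂ)) (c := c)
    (ka := ka) (kb := kb)
    (analyticAt_comp_ofComplex ha z₀) hka (analyticAt_comp_ofComplex hb z₀) hkb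
    (analyticAt_moebC σ z₀).continuousAt hmz ?_ ?_ ?_
  · have hμ : (1 / ((cc * (z₀ : ℂ) + d) * (cc * z₀ + d))) = mult σ z₀ := by
      rw [mult, one_div, ← sq]
    rw [hμ] at key
    exact key
  · have hc1 : ContinuousAt (fun w : ℂ => (cc * w + d) * (cc * z₀ + d)) (z₀ : ℂ) := by fun_prop
    exact continuousAt_const.div hc1 (mul_ne_zero hden0 hden0)
  · filter_upwards [isOpen_upperHalfPlaneSet.mem_nhds z₀.im_pos] with w hw
    have hdw : cc * w + d ≠ 0 := moebC_denom_ne_zero σ ⟨w, hw⟩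
    have hdet := det_coe_complex σ
    have e1 : moebC σ w - z₀ = moebC σ w - moebC σ z₀ := by rw [hmz]
    rw [e1]
    simp only [moebC]
    rw [div_sub_div _ _ hdw hden0, mul_one_div, div_eq_div_iff (mul_ne_zero hdw hden0)
      (mul_ne_zero hdw hden0)]
    linear_combination (w - z₀) * ((cc * w + d) * (cc * z₀ + d)) * hdet
  · have h1 := compSL_comp_ofComplex_eventuallyEq a σ z₀
    have h2 := compSL_comp_ofComplex_eventuallyEq b σ z₀
    filter_upwards [h1, h2] with w hw1 hw2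
    simp only [Function.comp_apply] at hw1 hw2 ⊢
    rw [← hw1, ← hw2]
    have := congrFun hrel (ofComplex w)
    simpa [Pi.mul_apply, Pi.smul_apply, smul_eq_mul] using this


/-- An element of `SL(2, ℤ)` with `|tr| < 2` has a fixed point in the upper half plane. -/
theorem exists_fixed_of_trace_sq_lt (γ : SL(2, ℤ)) (htr : ((γ 0 0 : ℤ) + γ 1 1) ^ 2 < 4) :
    ∃ z₀ : ℍ, γ • z₀ = z₀ := by
  set a : ℤ := γ 0 0 with ha
  set b : ℤ := γ 0 1 with hb
  set c : ℤ := γ 1 0 with hc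
  set d : ℤ := γ 1 1 with hd
  have hdet : a * d - b * c = 1 := by
    have := γ.det_coe
    rw [Matrix.det_fin_two] at this
    exact this
  have hc0 : c ≠ 0 := by
    intro h0
    rw [h0, mul_zero, sub_zero] at hdet
    have h1 : a = 1 ∧ d = 1 ∨ a = -1 ∧ d = -1 := Int.eq_one_or_neg_one_of_mul_eq_one' hdet
    rcases h1 with ⟨h1, h2⟩ | ⟨h1, h2⟩ <;> rw [h1, h2] at htr <;> norm_num at htr
  have hcR : (c : ℝ) ≠ 0 := by exact_mod_cast hc0
  have htrR : ((a : ℝ) + d) ^ 2 < 4 := by exact_mod_cast htr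
  have hdetR : (a : ℝ) * d - b * c = 1 := by exact_mod_cast hdet
  set s : ℝ := Real.sqrt (4 - ((a : ℝ) + d) ^ 2) with hs
  have hs2 : s ^ 2 = 4 - ((a : ℝ) + d) ^ 2 := Real.sq_sqrt (by linarith)
  have hs0 : 0 < s := Real.sqrt_pos.2 (by linarith)
  set x : ℝ := ((a : ℝ) - d) / (2 * c) with hx
  set y : ℝ := s / (2 * |(c : ℝ)|) with hy
  have hy0 : 0 < y := by
    have : 0 < |(c : ℝ)| := abs_pos.2 hcR
    positivity
  have hy2 : y ^ 2 = s ^ 2 / (4 * (c : ℝ) ^ 2) := by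
    rw [hy, div_pow, mul_pow, sq_abs]
    norm_num
  refine ⟨⟨⟨x, y⟩, hy0⟩, ?_⟩
  apply UpperHalfPlane.ext
  rw [coe_smul_eq_moebC]
  simp only [moebC]
  have hden : ((γ 1 0 : ℤ) : ℂ) * ((⟨⟨x, y⟩, hy0⟩ : ℍ) : ℂ) + (γ 1 1 : ℤ) ≠ 0 :=
    moebC_denom_ne_zero γ _
  rw [div_eq_iff hden]
  change ((a : ℤ) : ℂ) * (⟨x, y⟩ : ℂ) + ((b : ℤ) : ℂ) =
    (⟨x, y⟩ : ℂ) * (((c : ℤ) : ℂ) * (⟨x, y⟩ : ℂ) + ((d : ℤ) : ℂ))
  apply Complex.ext
  · simp only [add_re, mul_re, intCast_re, intCast_im, zero_mul, sub_zero, add_im, mul_im,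
      add_zero]
    have h1 : (c : ℝ) * y ^ 2 = s ^ 2 / (4 * c) := by
      rw [hy2]
      field_simp
    have h2 : (c : ℝ) * x = ((a : ℝ) - d) / 2 := by
      rw [hx]
      field_simp
    have key : (a : ℝ) * x + b - (x * ((c : ℝ) * x + d) - y * ((c : ℝ) * y)) = 0 := by
      have e1 : y * ((c : ℝ) * y) = s ^ 2 / (4 * c) := by rw [← h1]; ring
      rw [e1, h2, hs2, hx]
      field_simp
      linear_combination (-16 : ℝ) * hdetR
    linarith
  · simp only [add_im, mul_im, intCast_re, intCast_im, zero_mul, add_zero, add_re, mul_re,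
      sub_zero]
    have h2 : (c : ℝ) * x = ((a : ℝ) - d) / 2 := by
      rw [hx]
      field_simp
    have key : (a : ℝ) * y - (x * ((c : ℝ) * y) + y * ((c : ℝ) * x + d)) = 0 := by
      have : x * ((c : ℝ) * y) = y * ((c : ℝ) * x) := by ring
      rw [this, h2]
      ring
    linarith

open Fermat.Agent.X0.SurjPoint Fermat.Agent.ES.KUM AlgebraicCurve

/-- **(ELL-core) Multiplier formula at a fixed point.**  If `φ ≠ 0` is meromorphic on `ℍ`,
`γ z₀ = z₀` and `φ ∘ γ = c φ` with `c` a constant, then `c = γ'(z₀) ^ ord_{z₀} φ`, where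
`γ'(z₀) = (c z₀ + d)⁻²`. -/
theorem eq_mult_zpow_ordMer {φ : MerH} (hφ : φ ≠ 0) (γ : SL(2, ℤ)) (z₀ : ℍ) (hfix : γ • z₀ = z₀)
    {c : ℂ} (hc : slMer γ φ = algebraMap HolH MerH (algebraMap ℂ HolH c) * φ) :
    c = mult γ z₀ ^ (ordMer z₀ φ) := by
  obtain ⟨a, b, ha, hb, rfl⟩ := exists_div_ne_zero_frac (S := HolH) φ hφ
  rw [slMer_div] at hc
  have hb' : algebraMap HolH MerH b ≠ 0 := algebraMap_ne_zero_of_ne hb
  have hbγ' : algebraMap HolH MerH (compSLHom γ b) ≠ 0 :=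
    algebraMap_ne_zero_of_ne (compSLHom_ne_zero γ hb)
  have h1 : algebraMap HolH MerH (compSLHom γ a * b) =
      algebraMap HolH MerH (algebraMap ℂ HolH c * (a * compSLHom γ b)) := by
    rw [map_mul, map_mul, map_mul]
    rw [div_eq_iff hbγ'] at hc
    rw [hc]
    field_simp
  have h2 : compSLHom γ a * b = algebraMap ℂ HolH c * (a * compSLHom γ b) :=
    IsFractionRing.injective HolH MerH h1
  have h3 : compSL (a : ℍ → ℂ) γ * (b : ℍ → ℂ) = c • ((a : ℍ → ℂ) * compSL (b : ℍ → ℂ) γ) := by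
    have h := congrArg (fun f : HolH => (f : ℍ → ℂ)) h2
    funext z
    have hz := congrFun h z
    simpa [Pi.mul_apply, Pi.smul_apply, smul_eq_mul, coe_compSLHom] using hz
  have ha0 : (a : ℍ → ℂ) ≠ 0 := fun h0 => ha (Subtype.ext h0)
  have hb0 : (b : ℍ → ℂ) ≠ 0 := fun h0 => hb (Subtype.ext h0)
  obtain ⟨ka, hka⟩ := ENat.ne_top_iff_exists.1 (ordH_ne_top a.2 ha0 z₀)
  obtain ⟨kb, hkb⟩ := ENat.ne_top_iff_exists.1 (ordH_ne_top b.2 hb0 z₀)
  have key := mult_pow_eq_of_rel a.2 b.2 γ z₀ hfix h3 hka.symm hkb.symm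
  rw [ordMer_div_algebraMap z₀ ha hb, ← hka, ← hkb]
  simp only [ENat.toNat_natCast]
  rw [zpow_sub₀ (mult_ne_zero γ z₀), zpow_natCast, zpow_natCast,
    eq_div_iff (pow_ne_zero _ (mult_ne_zero _ _))]
  exact key.symm

/-- The same in helper5's normal form: `c = (c z₀ + d) ^ (-2 ord_{z₀} φ)`. -/
theorem eq_denom_zpow_ordMer {φ : MerH} (hφ : φ ≠ 0) (γ : SL(2, ℤ)) (z₀ : ℍ) (hfix : γ • z₀ = z₀)
    {c : ℂ} (hc : slMer γ φ = algebraMap HolH MerH (algebraMap ℂ HolH c) * φ) :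
    c = (((γ 1 0 : ℤ) : ℂ) * z₀ + (γ 1 1 : ℤ)) ^ (-2 * ordMer z₀ φ) := by
  rw [eq_mult_zpow_ordMer hφ γ z₀ hfix hc, mult, inv_zpow, ← zpow_natCast, ← zpow_mul, ← zpow_neg]
  congr 1
  push_cast
  ring

variable (N : ℕ) [NeZero N]

/-- For `γ ∈ Γ₀(N)` fixing `z₀`, the multiplier is a `ptIdx`-th root of unity. -/
theorem mult_pow_ptIdx (γ : SL(2, ℤ)) (hγ : γ ∈ CongruenceSubgroup.Gamma0 N) (z₀ : ℍ)
    (hfix : γ • z₀ = z₀) : mult γ z₀ ^ ptIdx N 1 z₀ = 1 := by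
  -- a uniformiser at the point place
  obtain ⟨π, hπ⟩ := Fermat.Agent.X0.FF.ffp_exists_irreducible (ptPlaceC N 1 z₀)
  have hord : (ptPlaceC N 1 z₀).ord (π : FC N) = 1 := (ptPlaceC N 1 z₀).ord_coe_irreducible hπ
  have hπ0 : (π : FC N) ≠ 0 := by
    intro h0
    rw [h0, Place.ord_zero] at hord
    exact zero_ne_one hord
  have hφ : realMer N (π : FC N) ≠ 0 := embC_ne_zero N 1 hπ0
  have hinv : slMer γ (realMer N (π : FC N)) =
      algebraMap HolH MerH (algebraMap ℂ HolH 1) * realMer N (π : FC N) := by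
    rw [slMer_realMer_of_mem N γ hγ, map_one, map_one, one_mul]
  have h1 := eq_mult_zpow_ordMer hφ γ z₀ hfix hinv
  rw [ordMer_realMer N z₀ hπ0, hord, mul_one, zpow_natCast] at h1
  exact h1.symm

/-- **Kummer characters are trivial on elliptic elements** (local form).  Let `γ ∈ Γ₀(N)` fix `z₀`,
`h ∈ MerH` with `h ^ n = Θ f`, `ord_P f = n d` at the point place `P` of `z₀`, and `h ∘ γ = c h`.
Then `c = 1`. -/
theorem eq_one_of_fixed {n : ℕ} (hn : n ≠ 0) (γ : SL(2, ℤ)) (hγ : γ ∈ CongruenceSubgroup.Gamma0 N)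
    (z₀ : ℍ) (hfix : γ • z₀ = z₀) {f : FC N} (hf : f ≠ 0) {h : MerH} (hh : h ^ n = realMer N f)
    {d : ℤ} (hd : (ptPlaceC N 1 z₀).ord f = n * d) {c : ℂ}
    (hc : slMer γ h = algebraMap HolH MerH (algebraMap ℂ HolH c) * h) : c = 1 := by
  have hh0 : h ≠ 0 := by
    rintro rfl
    rw [zero_pow hn] at hh
    exact embC_ne_zero N 1 hf hh.symm
  have h1 : (n : ℤ) * ordMer z₀ h = n * (ptIdx N 1 z₀ * d) := by
    rw [← ordMer_pow z₀ hh0 n, hh, ordMer_realMer N z₀ hf, hd]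
    ring
  have hnZ : (n : ℤ) ≠ 0 := by exact_mod_cast hn
  have h2 : ordMer z₀ h = ptIdx N 1 z₀ * d := mul_left_cancel₀ hnZ h1
  rw [eq_mult_zpow_ordMer hh0 γ z₀ hfix hc, h2, zpow_mul, zpow_natCast,
    mult_pow_ptIdx N γ hγ z₀ hfix, one_zpow]


/-- **Kummer characters are trivial on elliptic elements.**  Let `γ ∈ Γ₀(N)` with `|tr γ| < 2`,
`h ∈ MerH` with `h ^ n = Θ f`, all orders of `f` at point places divisible by `n`, and
`h ∘ γ = c h`.  Then `c = 1`. -/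
theorem eq_one_of_trace_sq_lt {n : ℕ} (hn : n ≠ 0) (γ : SL(2, ℤ))
    (hγ : γ ∈ CongruenceSubgroup.Gamma0 N) (htr : ((γ 0 0 : ℤ) + γ 1 1) ^ 2 < 4)
    {f : FC N} (hf : f ≠ 0) {h : MerH} (hh : h ^ n = realMer N f)
    (hdiv : ∀ z₀ : ℍ, ∃ d : ℤ, (ptPlaceC N 1 z₀).ord f = n * d) {c : ℂ}
    (hc : slMer γ h = algebraMap HolH MerH (algebraMap ℂ HolH c) * h) : c = 1 := by
  obtain ⟨z₀, hfix⟩ := exists_fixed_of_trace_sq_lt γ htr
  obtain ⟨d, hd⟩ := hdiv z₀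
  exact eq_one_of_fixed N hn γ hγ z₀ hfix hf hh hd hc

end Fermat.Agent.ES.KUM.EllMult14
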