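/-
Program J, chapter J1 (Kummer theory on `ℍ`), file PAR-ASSEMBLY (←) (helper16): **divisibility at the
cusps**, in the shape consumed by `DivAllPlaces25` / `EisSurj10` (E5), under helper18's literal
`MultTrivial18.ParMultStmt N` (= helper3's `ParMult3.parMult`).

If `h ∈ MerH` is an `n`-th root of `realMer N f` (`f ∈ F_ℂ^×`) invariant under the elements of `Γ₀(N)` with
`|trace| ≤ 2`, then `n ∣ ord_v f` at every cusp place `v = cuspPlaceC N g` (and at every place over `∞`).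
The proof is in `CuspDiv16`; this file only bridges the two (definitionally equal up to binder kinds)
forms of the multiplier statement, and the trace conventions.
-/
import Fermat.Agent.ES.KUM.CuspDiv16
import Fermat.Agent.ES.KUM.MultTrivial18

set_option autoImplicit false
set_option linter.unusedSectionVars false

open ModularCurve HahnSeries UpperHalfPlane AlgebraicCurve
open scoped Topology Manifold MatrixGroups
open MulAction Subgroup CongruenceSubgroup

noncomputable section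

namespace Fermat.Agent.ES.KUM.ParAsm16

open Fermat.Agent.X0 Fermat.Agent.ES.KUM Fermat.Agent.X0.SurjPoint Fermat.Agent.ES.KUM.CCusp16

variable (N : ℕ) [NeZero N]

/-- helper18's form of the multiplier statement gives helper16's. -/
theorem parMultStmt_of (hpar : MultTrivial18.ParMultStmt N) : CCusp16.ParMultStmt N :=
  fun n hn φ hφ a b hb hφn mₐ m_b Pₐ P_b ha hbq m c hc =>
    hpar n hn φ hφ a b hb hφn mₐ m_b Pₐ P_b ha hbq m c hc

theorem parDvdStmt_of (hpar : MultTrivial18.ParMultStmt N) : CCusp16.ParDvdStmt N :=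
  parDvdStmt_of_parMultStmt N (parMultStmt_of N hpar)

/-- **PAR-ASSEMBLY (←), trace `= 2` form.** -/
theorem dvd_ord_cuspPlaceC_of_trace_eq (hpar : MultTrivial18.ParMultStmt N) {n : ℕ} (hn : n ≠ 0)
    {f : FC N} (hf : f ≠ 0) (h : MerH) (hh : h ^ n = realMer N f)
    (hinv : ∀ γ : SL(2, ℤ), γ ∈ Gamma0 N →
      ((γ : SL(2, ℤ)) : Matrix (Fin 2) (Fin 2) ℤ).trace = 2 → slMer γ h = h)
    (g : SL(2, ℤ)) : (n : ℤ) ∣ (cuspPlaceC N g).ord f :=
  CCusp16.dvd_ord_cuspPlaceC N (parDvdStmt_of N hpar) hn hf h hh hinv g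

/-- **PAR-ASSEMBLY (←), `|trace| ≤ 2` form** (the shape of `KumInst18.KumChar`). -/
theorem dvd_ord_cuspPlaceC (hpar : MultTrivial18.ParMultStmt N) {n : ℕ} (hn : n ≠ 0)
    {f : FC N} (hf : f ≠ 0) (h : MerH) (hh : h ^ n = realMer N f)
    (hinv : ∀ γ : SL(2, ℤ), γ ∈ Gamma0 N →
      |((γ : SL(2, ℤ)) : Matrix (Fin 2) (Fin 2) ℤ).trace| ≤ 2 → slMer γ h = h)
    (g : SL(2, ℤ)) : (n : ℤ) ∣ (cuspPlaceC N g).ord f :=
  dvd_ord_cuspPlaceC_of_trace_eq N hpar hn hf h hh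
    (fun γ hγ htr => hinv γ hγ (by rw [htr]; norm_num)) g

/-- The same at every place over `∞`. -/
theorem dvd_ord_of_ord_jC_neg (hpar : MultTrivial18.ParMultStmt N) {n : ℕ} (hn : n ≠ 0)
    {f : FC N} (hf : f ≠ 0) (h : MerH) (hh : h ^ n = realMer N f)
    (hinv : ∀ γ : SL(2, ℤ), γ ∈ Gamma0 N →
      |((γ : SL(2, ℤ)) : Matrix (Fin 2) (Fin 2) ℤ).trace| ≤ 2 → slMer γ h = h)
    (v : Place ℂ (FC N)) (hv : v.ord (jC N) < 0) : (n : ℤ) ∣ v.ord f := by
  obtain ⟨g, rfl⟩ := exists_cuspPlaceC_eq N v hv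
  exact dvd_ord_cuspPlaceC N hpar hn hf h hh hinv g

/-- **Eigen-character form** (for E5): if `h` has multiplier `χ ∈ KumChar N n` and `h ^ n = realMer N f`,
then `n ∣ ord_v f` at every cusp place. -/
theorem dvd_ord_cuspPlaceC_of_eigen (hpar : MultTrivial18.ParMultStmt N) {n : ℕ} (hn : n ≠ 0)
    {χ : ↥(Gamma0 N) →* ℂˣ} (hχ : χ ∈ KumInst18.KumChar N n) {h : MerH} {f : FC N} (hf : f ≠ 0)
    (hpow : h ^ n = realMer N f)
    (he : ∀ γ : ↥(Gamma0 N), slMer (γ : SL(2, ℤ)) h =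
      algebraMap HolH MerH (algebraMap ℂ HolH ((χ γ : ℂˣ) : ℂ)) * h)
    (g : SL(2, ℤ)) : (n : ℤ) ∣ (cuspPlaceC N g).ord f := by
  refine dvd_ord_cuspPlaceC N hpar hn hf h hpow (fun γ hγ htr => ?_) g
  have h1 := he ⟨γ, hγ⟩
  have h2 : χ ⟨γ, hγ⟩ = 1 := (KumInst18.mem_kumChar_iff (N := N).mp hχ).2 ⟨γ, hγ⟩ htr
  rw [h2] at h1
  simpa using h1

end Fermat.Agent.ES.KUM.ParAsm16
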