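/-
Program J (S30), chapter J1.5 (χ-twisted Eisenstein series), leaf (G3), helper25 — Mathlib only.

For a bounded weight `w : (Fin 2 → ℤ) → ℂ` (`‖w v‖ ≤ 1`) and `3 ≤ k` the weighted Eisenstein sum
`E_w(z) = ∑' v, w v * eisSummand k v z` (`eisSummand k v z = (v 0 * z + v 1) ^ (-k)`)
* is (absolutely) summable: `summable_weighted`;
* is invariant under `z ↦ z + m` as soon as `w` is invariant under the shear `v ↦ (v 0, v 1 + m v 0)`
  (`= v ᵥ* T^m`): `weighted_vadd`;
* tends to `∑' d : ℤ, w ![0, d] * d ^ (-k)` as `Im z → ∞`: `tendsto_weighted`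
  (dominated convergence on a vertical strip + periodicity), hence is bounded at `i∞`.
-/
import Mathlib

set_option autoImplicit false

noncomputable section

open EisensteinSeries UpperHalfPlane Filter Topology Matrix

open scoped MatrixGroups

namespace Fermat.Agent.ES.KUM.EisLim25

/-! ### the shear `v ↦ v ᵥ* T^m` -/

/-- the shear `v ↦ (v 0, v 1 + m * v 0)` of `ℤ²`. -/
def shear (m : ℤ) : (Fin 2 → ℤ) ≃ (Fin 2 → ℤ) where
  toFun v := ![v 0, v 1 + m * v 0]
  invFun v := ![v 0, v 1 - m * v 0]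
  left_inv v := by
    ext i
    fin_cases i <;> simp
  right_inv v := by
    ext i
    fin_cases i <;> simp

@[simp] theorem shear_apply_zero (m : ℤ) (v : Fin 2 → ℤ) : shear m v 0 = v 0 := rfl

@[simp] theorem shear_apply_one (m : ℤ) (v : Fin 2 → ℤ) : shear m v 1 = v 1 + m * v 0 := rfl

theorem shear_add (m n : ℤ) (v : Fin 2 → ℤ) : shear (m + n) v = shear m (shear n v) := by
  ext i
  fin_cases i
  · rfl
  · show v 1 + (m + n) * v 0 = (v 1 + n * v 0) + m * v 0
    ring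

theorem shear_zero (v : Fin 2 → ℤ) : shear 0 v = v := by
  ext i
  fin_cases i
  · rfl
  · show v 1 + 0 * v 0 = v 1
    ring

/-- invariance under one shear gives invariance under all its multiples. -/
theorem invariant_mul {α : Type*} {w : (Fin 2 → ℤ) → α} {m : ℤ}
    (hper : ∀ v, w (shear m v) = w v) (n : ℤ) (v : Fin 2 → ℤ) : w (shear (n * m) v) = w v := by
  induction n using Int.induction_on generalizing v with
  | zero => rw [zero_mul, shear_zero]
  | succ i ih =>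
      have : ((i : ℤ) + 1) * m = m + i * m := by ring
      rw [this, shear_add, hper, ih]
  | pred i ih =>
      have h1 : w (shear (-(i : ℤ) * m) v) = w (shear m (shear ((-(i : ℤ) - 1) * m) v)) := by
        rw [← shear_add]
        have h2 : -(i : ℤ) * m = m + (-(i : ℤ) - 1) * m := by ring
        rw [h2]
      rw [hper] at h1
      rw [← h1]
      exact ih v

/-- `eisSummand` of a sheared vector is `eisSummand` at the translated point. -/
theorem eisSummand_shear (k : ℤ) (m : ℤ) (v : Fin 2 → ℤ) (z : ℍ) :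
    eisSummand k (shear m v) z = eisSummand k v (((m : ℝ)) +ᵥ z) := by
  simp only [eisSummand, shear_apply_zero, shear_apply_one, UpperHalfPlane.coe_vadd]
  congr 1
  push_cast
  ring

variable {k : ℤ} {w : (Fin 2 → ℤ) → ℂ}

/-! ### summability and periodicity -/

theorem norm_weighted_le (hw : ∀ v, ‖w v‖ ≤ 1) (v : Fin 2 → ℤ) (z : ℍ) :
    ‖w v * eisSummand k v z‖ ≤ ‖eisSummand k v z‖ := by
  rw [norm_mul]
  calc ‖w v‖ * ‖eisSummand k v z‖ ≤ 1 * ‖eisSummand k v z‖ :=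
        mul_le_mul_of_nonneg_right (hw v) (norm_nonneg _)
    _ = ‖eisSummand k v z‖ := one_mul _

theorem summable_weighted (hk : 3 ≤ k) (hw : ∀ v, ‖w v‖ ≤ 1) (z : ℍ) :
    Summable fun v : Fin 2 → ℤ => w v * eisSummand k v z := by
  apply Summable.of_norm
  exact (summable_norm_eisSummand hk z).of_nonneg_of_le (fun _ => norm_nonneg _)
    (fun v => norm_weighted_le hw v z)

/-- `T^m`-periodicity of the weighted sum for a shear-invariant weight. -/
theorem weighted_vadd {m : ℤ} (hper : ∀ v, w (shear m v) = w v) (z : ℍ) :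
    (∑' v : Fin 2 → ℤ, w v * eisSummand k v ((m : ℝ) +ᵥ z)) =
      ∑' v : Fin 2 → ℤ, w v * eisSummand k v z := by
  rw [← (shear m).tsum_eq (fun v => w v * eisSummand k v z)]
  refine tsum_congr fun v => ?_
  rw [hper, eisSummand_shear]

/-! ### the limit at `i∞` -/

/-- a summand with `v 0 ≠ 0` tends to `0`. -/
theorem tendsto_eisSummand_zero (hk : 1 ≤ k) {v : Fin 2 → ℤ} (hv : v 0 ≠ 0) :
    Tendsto (fun z : ℍ => eisSummand k v z) atImInfty (𝓝 0) := by
  obtain ⟨n, rfl⟩ := Int.eq_ofNat_of_zero_le (by omega : 0 ≤ k)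
  have hn : n ≠ 0 := by
    rintro rfl
    simp at hk
  -- `‖eisSummand‖ ≤ (im z ^ n)⁻¹` for `im z > 0`
  have hbound : ∀ z : ℍ, ‖eisSummand (n : ℤ) v z‖ ≤ (z.im ^ n)⁻¹ := by
    intro z
    have him : 0 < z.im := z.im_pos
    have h1 : z.im ≤ ‖(v 0 : ℂ) * (z : ℂ) + (v 1 : ℂ)‖ := by
      have h2 : |((v 0 : ℂ) * (z : ℂ) + (v 1 : ℂ)).im| ≤ ‖(v 0 : ℂ) * (z : ℂ) + (v 1 : ℂ)‖ :=
        Complex.abs_im_le_norm _
      have h3 : ((v 0 : ℂ) * (z : ℂ) + (v 1 : ℂ)).im = (v 0 : ℝ) * z.im := by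
        simp
      rw [h3, abs_mul, abs_of_pos him] at h2
      have h4 : (1 : ℝ) ≤ |(v 0 : ℝ)| := by
        have : (1 : ℤ) ≤ |v 0| := Int.one_le_abs hv
        exact_mod_cast this
      calc z.im = 1 * z.im := (one_mul _).symm
        _ ≤ |(v 0 : ℝ)| * z.im := mul_le_mul_of_nonneg_right h4 him.le
        _ ≤ _ := h2
    rw [eisSummand, _root_.zpow_neg, zpow_natCast, norm_inv, norm_pow]
    apply inv_anti₀ (pow_pos him n)
    exact pow_le_pow_left₀ him.le h1 n
  have hlim : Tendsto (fun z : ℍ => (z.im ^ n)⁻¹) atImInfty (𝓝 0) := by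
    have h1 : Tendsto (fun z : ℍ => z.im) atImInfty atTop := tendsto_comap
    exact tendsto_inv_atTop_zero.comp ((tendsto_pow_atTop hn).comp h1)
  exact squeeze_zero_norm hbound hlim

/-- the pointwise limit of the summands. -/
def limTerm (k : ℤ) (w : (Fin 2 → ℤ) → ℂ) (v : Fin 2 → ℤ) : ℂ :=
  if v 0 = 0 then w v * (v 1 : ℂ) ^ (-k) else 0

theorem tendsto_term (hk : 1 ≤ k) (v : Fin 2 → ℤ) :
    Tendsto (fun z : ℍ => w v * eisSummand k v z) atImInfty (𝓝 (limTerm k w v)) := by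
  unfold limTerm
  split_ifs with h
  · have : (fun z : ℍ => w v * eisSummand k v z) = fun _ => w v * (v 1 : ℂ) ^ (-k) := by
      funext z
      simp [eisSummand, h]
    rw [this]
    exact tendsto_const_nhds
  · have := (tendsto_eisSummand_zero hk h).const_mul (w v)
    rwa [mul_zero] at this

theorem tsum_limTerm : (∑' v : Fin 2 → ℤ, limTerm k w v) = ∑' d : ℤ, w ![0, d] * (d : ℂ) ^ (-k) := by
  have hinj : Function.Injective (fun d : ℤ => (![0, d] : Fin 2 → ℤ)) := by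
    intro d d' h
    have := congrFun h 1
    simpa using this
  have hsupp : Function.support (limTerm k w) ⊆ Set.range (fun d : ℤ => (![0, d] : Fin 2 → ℤ)) := by
    intro v hv
    rw [Function.mem_support] at hv
    have h0 : v 0 = 0 := by
      by_contra h
      apply hv
      unfold limTerm
      rw [if_neg h]
    refine ⟨v 1, ?_⟩
    ext i
    fin_cases i
    · exact h0.symm
    · rfl
  rw [← hinj.tsum_eq hsupp]
  refine tsum_congr fun d => ?_
  simp [limTerm]

/-- the strip `|Re z| ≤ m`. -/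
def strip (m : ℤ) : Set ℍ := {z | |z.re| ≤ (m : ℝ)}

/-- the limit along the strip, by dominated convergence. -/
theorem tendsto_weighted_strip (hk : 3 ≤ k) (hw : ∀ v, ‖w v‖ ≤ 1) (m : ℤ) :
    Tendsto (fun z : ℍ => ∑' v : Fin 2 → ℤ, w v * eisSummand k v z)
      (atImInfty ⊓ 𝓟 (strip m)) (𝓝 (∑' v : Fin 2 → ℤ, limTerm k w v)) := by
  have hk' : (2 : ℝ) < k := by norm_cast
  have hk0 : (0 : ℝ) ≤ k := by linarith
  refine tendsto_tsum_of_dominated_convergence
    (bound := fun v : Fin 2 → ℤ =>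
      r ⟨⟨(m : ℝ), 1⟩, one_pos⟩ ^ (-(k : ℝ)) * ‖v‖ ^ (-(k : ℝ)))
    ((summable_one_div_norm_rpow hk').mul_left _) ?_ ?_
  · intro v
    exact (tendsto_term (by omega) v).mono_left inf_le_left
  · have h1 : {z : ℍ | 1 ≤ z.im} ∈ atImInfty :=
      (UpperHalfPlane.atImInfty_mem _).mpr ⟨1, fun z hz => hz⟩
    have h2 : strip m ∈ atImInfty ⊓ 𝓟 (strip m) := mem_inf_of_right (mem_principal_self _)
    filter_upwards [mem_inf_of_left h1, h2] with z hz1 hz2 v
    refine (norm_weighted_le hw v z).trans ?_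
    have hz : z ∈ verticalStrip (m : ℝ) 1 := ⟨hz2, hz1⟩
    have := summand_bound_of_mem_verticalStrip hk0 v one_pos hz
    simp only [eisSummand, norm_zpow]
    exact_mod_cast this

/-- every point can be moved into the strip by a multiple of `m`. -/
theorem exists_mul_vadd_mem_strip {m : ℤ} (hm : 1 ≤ m) (z : ℍ) :
    ∃ n : ℤ, (((n * m : ℤ) : ℝ) +ᵥ z) ∈ strip m := by
  have hm0 : (0 : ℝ) < m := by exact_mod_cast (by omega : 0 < m)
  refine ⟨-⌊z.re / m⌋, ?_⟩
  show |(((((-⌊z.re / m⌋) * m : ℤ) : ℝ)) +ᵥ z).re| ≤ (m : ℝ)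
  rw [UpperHalfPlane.vadd_re]
  push_cast
  have h1 : (⌊z.re / m⌋ : ℝ) ≤ z.re / m := Int.floor_le _
  have h2 : z.re / m < ⌊z.re / m⌋ + 1 := Int.lt_floor_add_one _
  have h3 : (⌊z.re / m⌋ : ℝ) * m ≤ z.re := by
    have := mul_le_mul_of_nonneg_right h1 hm0.le
    rwa [div_mul_cancel₀ _ hm0.ne'] at this
  have h4 : z.re < (⌊z.re / m⌋ + 1) * m := by
    have := mul_lt_mul_of_pos_right h2 hm0
    rwa [div_mul_cancel₀ _ hm0.ne'] at this
  rw [abs_le]
  constructor <;> nlinarith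

/-- **(G3)** the weighted Eisenstein sum tends to `∑' d, w ![0, d] * d ^ (-k)` at `i∞`. -/
theorem tendsto_weighted (hk : 3 ≤ k) (hw : ∀ v, ‖w v‖ ≤ 1) {m : ℤ} (hm : 1 ≤ m)
    (hper : ∀ v, w (shear m v) = w v) :
    Tendsto (fun z : ℍ => ∑' v : Fin 2 → ℤ, w v * eisSummand k v z) atImInfty
      (𝓝 (∑' d : ℤ, w ![0, d] * (d : ℂ) ^ (-k))) := by
  rw [← tsum_limTerm]
  intro s hs
  have h1 := tendsto_weighted_strip hk hw m hs
  rw [Filter.mem_map, Filter.mem_inf_principal, UpperHalfPlane.atImInfty_mem] at h1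
  obtain ⟨A, hA⟩ := h1
  rw [Filter.mem_map, UpperHalfPlane.atImInfty_mem]
  refine ⟨A, fun z hz => ?_⟩
  obtain ⟨n, hn⟩ := exists_mul_vadd_mem_strip hm z
  have him : ((((n * m : ℤ) : ℝ)) +ᵥ z).im = z.im := UpperHalfPlane.vadd_im _ _
  have h2 := hA ((((n * m : ℤ) : ℝ)) +ᵥ z) (by rw [him]; exact hz) hn
  have h3 := weighted_vadd (k := k) (invariant_mul hper n) z
  rw [Set.mem_preimage] at h2 ⊢
  rw [h3] at h2
  exact h2

/-- the weighted Eisenstein sum is bounded at `i∞`. -/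
theorem isBoundedAtImInfty_weighted (hk : 3 ≤ k) (hw : ∀ v, ‖w v‖ ≤ 1) {m : ℤ} (hm : 1 ≤ m)
    (hper : ∀ v, w (shear m v) = w v) :
    IsBoundedAtImInfty (fun z : ℍ => ∑' v : Fin 2 → ℤ, w v * eisSummand k v z) :=
  (tendsto_weighted hk hw hm hper).isBigO_one ℝ

/-- the limit for a weight supported on primitive vectors. -/
theorem tsum_of_primitive (hprim : ∀ d : ℤ, d ≠ 1 → d ≠ -1 → w ![0, d] = 0) :
    (∑' d : ℤ, w ![0, d] * (d : ℂ) ^ (-k)) = w ![0, 1] + w ![0, -1] * (-1 : ℂ) ^ (-k) := by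
  rw [tsum_eq_sum (s := {1, -1})]
  · rw [Finset.sum_pair (by decide)]
    simp
  · intro d hd
    rw [Finset.mem_insert, Finset.mem_singleton, not_or] at hd
    rw [hprim d hd.1 hd.2, zero_mul]

theorem tendsto_weighted_of_primitive (hk : 3 ≤ k) (hw : ∀ v, ‖w v‖ ≤ 1) {m : ℤ} (hm : 1 ≤ m)
    (hper : ∀ v, w (shear m v) = w v)
    (hprim : ∀ d : ℤ, d ≠ 1 → d ≠ -1 → w ![0, d] = 0) :
    Tendsto (fun z : ℍ => ∑' v : Fin 2 → ℤ, w v * eisSummand k v z) atImInfty
      (𝓝 (w ![0, 1] + w ![0, -1] * (-1 : ℂ) ^ (-k))) := by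
  rw [← tsum_of_primitive hprim]
  exact tendsto_weighted hk hw hm hper

end Fermat.Agent.ES.KUM.EisLim25
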