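/-
Program J, chapter J1.5 (helper20): weighted / `χ`-twisted Eisenstein series on `Γ₀(N)`.

* `eisW k w z = ∑' v : Fin 2 → ℤ, w v * (v 0 * z + v 1) ^ (-k)` for a bounded weight function
  `w` on `ℤ²`: summable, locally uniformly convergent, holomorphic (`3 ≤ k`), and every
  `SL(2, ℤ)`-slash is again of this form: `eisW k w ∣[k] σ = eisW k (fun v => w (v ᵥ* σ⁻¹))`.
* `wChi N χ` : the weight `v ↦ χ(γ)⁻¹` for `γ ∈ Γ₀(N)` with bottom row `v` (and `0` when `v`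
  is not a bottom row), for a character `χ` of `Γ₀(N)` which is trivial on the upper
  unipotent elements; `eisChi N k χ := eisW k (wChi N χ)` satisfies
  `eisChi N k χ ∣[k] δ = χ δ • eisChi N k χ` for `δ ∈ Γ₀(N)`.
-/
import Mathlib

set_option autoImplicit false

open EisensteinSeries UpperHalfPlane Matrix CongruenceSubgroup ModularForm Filter Topology
open scoped MatrixGroups Manifold

noncomputable section

namespace Fermat.Agent.ES.KUM.EisChar20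

/-- The weighted Eisenstein series `∑_v w(v) (v₀ z + v₁)^{-k}` over all of `ℤ²`
(the summand at `v = 0` vanishes for `k ≠ 0`). -/
def eisW (k : ℤ) (w : (Fin 2 → ℤ) → ℂ) (z : ℍ) : ℂ :=
  ∑' v : Fin 2 → ℤ, w v * eisSummand k v z

theorem norm_mul_eisSummand_le {k : ℤ} {w : (Fin 2 → ℤ) → ℂ} (hw : ∀ v, ‖w v‖ ≤ 1)
    (v : Fin 2 → ℤ) (z : ℍ) : ‖w v * eisSummand k v z‖ ≤ ‖eisSummand k v z‖ := by
  rw [norm_mul]
  calc ‖w v‖ * ‖eisSummand k v z‖ ≤ 1 * ‖eisSummand k v z‖ := by gcongr; exact hw v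
    _ = _ := one_mul _

theorem summable_eisW {k : ℤ} (hk : 3 ≤ k) {w : (Fin 2 → ℤ) → ℂ} (hw : ∀ v, ‖w v‖ ≤ 1) (z : ℍ) :
    Summable fun v : Fin 2 → ℤ => w v * eisSummand k v z :=
  Summable.of_norm_bounded (summable_norm_eisSummand hk z) (fun v => norm_mul_eisSummand_le hw v z)

theorem hasSum_eisW {k : ℤ} (hk : 3 ≤ k) {w : (Fin 2 → ℤ) → ℂ} (hw : ∀ v, ‖w v‖ ≤ 1) (z : ℍ) :
    HasSum (fun v : Fin 2 → ℤ => w v * eisSummand k v z) (eisW k w z) :=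
  (summable_eisW hk hw z).hasSum

/-- The partial sums converge locally uniformly on `ℍ`. -/
theorem eisW_tendstoLocallyUniformly {k : ℤ} (hk : 3 ≤ k) {w : (Fin 2 → ℤ) → ℂ}
    (hw : ∀ v, ‖w v‖ ≤ 1) :
    TendstoLocallyUniformly (fun (s : Finset (Fin 2 → ℤ)) ↦ (∑ x ∈ s, w x * eisSummand k x ·))
      (eisW k w ·) Filter.atTop := by
  have hk' : (2 : ℝ) < k := by norm_cast
  have p_sum : Summable fun x : Fin 2 → ℤ ↦ ‖x‖ ^ (-k) :=
    mod_cast (summable_one_div_norm_rpow hk')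
  simp only [tendstoLocallyUniformly_iff_forall_isCompact, eisW]
  intro K hK
  obtain ⟨A, B, hB, HABK⟩ := subset_verticalStrip_of_isCompact hK
  refine (tendstoUniformlyOn_tsum (hu := p_sum.mul_left <| r ⟨⟨A, B⟩, hB⟩ ^ (-k : ℝ))
    (fun p z hz ↦ ?_)).mono HABK
  refine (norm_mul_eisSummand_le hw p z).trans ?_
  simpa only [eisSummand, one_div, ← _root_.zpow_neg, norm_zpow, ← Real.rpow_intCast,
    Int.cast_neg] using summand_bound_of_mem_verticalStrip (by positivity) p hB hz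

theorem eisW_tendstoLocallyUniformlyOn {k : ℤ} (hk : 3 ≤ k) {w : (Fin 2 → ℤ) → ℂ}
    (hw : ∀ v, ‖w v‖ ≤ 1) :
    TendstoLocallyUniformlyOn (fun (s : Finset (Fin 2 → ℤ)) ↦
      ↑ₕ(fun (z : ℍ) ↦ ∑ x ∈ s, w x * eisSummand k x z)) (↑ₕ(eisW k w))
          Filter.atTop {z : ℂ | 0 < z.im} := by
  rw [← upperHalfPlaneSet, ← range_coe, ← Set.image_univ]
  apply TendstoLocallyUniformlyOn.comp (s := ⊤) _ _ _ (OpenPartialHomeomorph.continuousOn_symm _)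
  · simp only [Set.top_eq_univ, tendstoLocallyUniformlyOn_univ]
    apply eisW_tendstoLocallyUniformly hk hw
  · simp only [IsOpenEmbedding.toOpenPartialHomeomorph_target, Set.top_eq_univ,
      Set.mapsTo_range_iff, Set.mem_univ, forall_const]

/-- `eisW k w` is holomorphic on `ℍ`. -/
theorem eisW_mdifferentiable {k : ℤ} (hk : 3 ≤ k) {w : (Fin 2 → ℤ) → ℂ}
    (hw : ∀ v, ‖w v‖ ≤ 1) : MDiff (eisW k w) := by
  rw [UpperHalfPlane.mdifferentiable_iff]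
  refine (eisW_tendstoLocallyUniformlyOn hk hw).differentiableOn
    (Eventually.of_forall fun s ↦ ?_) isOpen_upperHalfPlaneSet
  have : (↑ₕ(fun (z : ℍ) ↦ ∑ x ∈ s, w x * eisSummand k x z)) =
      fun z : ℂ => ∑ x ∈ s, w x * (↑ₕ(eisSummand k x)) z := by
    funext z; simp [Function.comp]
  rw [this]
  exact DifferentiableOn.fun_sum fun x _ ↦
    (eisSummand_extension_differentiableOn k x).const_mul (w x)

/-! ### Slash action -/

/-- Right multiplication by `σ ∈ SL(2, ℤ)` as a permutation of `ℤ²`. -/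
def vecMulEquiv (σ : SL(2, ℤ)) : (Fin 2 → ℤ) ≃ (Fin 2 → ℤ) where
  toFun v := v ᵥ* (σ : Matrix (Fin 2) (Fin 2) ℤ)
  invFun v := v ᵥ* ((σ⁻¹ : SL(2, ℤ)) : Matrix (Fin 2) (Fin 2) ℤ)
  left_inv v := by
    simp only [vecMul_vecMul, ← Matrix.SpecialLinearGroup.coe_mul, mul_inv_cancel,
      Matrix.SpecialLinearGroup.coe_one, vecMul_one]
  right_inv v := by
    simp only [vecMul_vecMul, ← Matrix.SpecialLinearGroup.coe_mul, inv_mul_cancel,
      Matrix.SpecialLinearGroup.coe_one, vecMul_one]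

@[simp] theorem vecMulEquiv_apply (σ : SL(2, ℤ)) (v : Fin 2 → ℤ) :
    vecMulEquiv σ v = v ᵥ* (σ : Matrix (Fin 2) (Fin 2) ℤ) := rfl

@[simp] theorem vecMulEquiv_symm_apply (σ : SL(2, ℤ)) (v : Fin 2 → ℤ) :
    (vecMulEquiv σ).symm v = v ᵥ* ((σ⁻¹ : SL(2, ℤ)) : Matrix (Fin 2) (Fin 2) ℤ) := rfl

/-- **(G2)** every `SL(2, ℤ)`-slash of a weighted Eisenstein series is the weighted Eisenstein
series of the translated weight. -/
theorem eisW_slash (k : ℤ) (w : (Fin 2 → ℤ) → ℂ) (σ : SL(2, ℤ)) :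
    eisW k w ∣[k] σ =
      eisW k (fun v => w (v ᵥ* ((σ⁻¹ : SL(2, ℤ)) : Matrix (Fin 2) (Fin 2) ℤ))) := by
  ext1 z
  rw [SL_slash_apply, _root_.zpow_neg,
    mul_inv_eq_iff_eq_mul₀ (zpow_ne_zero _ <| denom_ne_zero _ z)]
  simp only [eisW, eisSummand_SL2_apply]
  rw [← tsum_mul_right]
  rw [← (vecMulEquiv σ).tsum_eq (fun v =>
    w (v ᵥ* ((σ⁻¹ : SL(2, ℤ)) : Matrix (Fin 2) (Fin 2) ℤ)) * eisSummand k v z * denom σ z ^ k)]
  refine tsum_congr fun v => ?_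
  simp only [vecMulEquiv_apply, vecMul_vecMul, ← Matrix.SpecialLinearGroup.coe_mul, mul_inv_cancel,
    Matrix.SpecialLinearGroup.coe_one, vecMul_one]
  ring

/-- `eisW` is linear in the weight (scalars). -/
theorem eisW_const_mul (k : ℤ) (c : ℂ) (w : (Fin 2 → ℤ) → ℂ) :
    eisW k (fun v => c * w v) = c • eisW k w := by
  ext1 z
  simp only [eisW, Pi.smul_apply, smul_eq_mul, mul_assoc]
  exact tsum_mul_left

/-- Weights invariant under `v ↦ v ᵥ* T^m` give `T^m`-periodic series. -/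
theorem eisW_T_zpow_smul {k : ℤ} {w : (Fin 2 → ℤ) → ℂ} {m : ℤ}
    (hper : ∀ v, w (v ᵥ* ((ModularGroup.T ^ m : SL(2, ℤ)) : Matrix (Fin 2) (Fin 2) ℤ)) = w v)
    (z : ℍ) : eisW k w (ModularGroup.T ^ m • z) = eisW k w z := by
  have h1 := congrFun (eisW_slash k w (ModularGroup.T ^ m)) z
  rw [SL_slash_apply] at h1
  have hden : denom (ModularGroup.T ^ m : SL(2, ℤ)) z = 1 := by
    rw [ModularGroup.denom_apply]
    have e10 : (ModularGroup.T ^ m : SL(2, ℤ)) 1 0 = 0 := by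
      rw [ModularGroup.coe_T_zpow]; simp
    have e11 : (ModularGroup.T ^ m : SL(2, ℤ)) 1 1 = 1 := by
      rw [ModularGroup.coe_T_zpow]; simp
    rw [e10, e11]; simp
  rw [hden, _root_.one_zpow, mul_one] at h1
  rw [h1]
  congr 1
  funext v
  have := hper (v ᵥ* (((ModularGroup.T ^ m)⁻¹ : SL(2, ℤ)) : Matrix (Fin 2) (Fin 2) ℤ))
  rw [vecMul_vecMul, ← Matrix.SpecialLinearGroup.coe_mul, inv_mul_cancel,
    Matrix.SpecialLinearGroup.coe_one, vecMul_one] at this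
  exact this.symm

theorem eisW_vadd {k : ℤ} {w : (Fin 2 → ℤ) → ℂ} {m : ℤ}
    (hper : ∀ v, w (v ᵥ* ((ModularGroup.T ^ m : SL(2, ℤ)) : Matrix (Fin 2) (Fin 2) ℤ)) = w v)
    (z : ℍ) : eisW k w ((m : ℝ) +ᵥ z) = eisW k w z := by
  rw [← modular_T_zpow_smul]
  exact eisW_T_zpow_smul hper z

/-- Explicit form of `v ᵥ* T^m`. -/
theorem vecMul_T_zpow (m : ℤ) (v : Fin 2 → ℤ) :
    v ᵥ* ((ModularGroup.T ^ m : SL(2, ℤ)) : Matrix (Fin 2) (Fin 2) ℤ) = ![v 0, m * v 0 + v 1] := by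
  rw [ModularGroup.coe_T_zpow]
  ext i
  fin_cases i <;> simp [Matrix.vecMul, dotProduct, Fin.sum_univ_two, mul_comm]

/-! ### The `χ`-weights on `Γ₀(N)` -/

variable {N : ℕ}

/-- The bottom row of `γ ∈ SL(2, ℤ)`. -/
def botRow (γ : SL(2, ℤ)) : Fin 2 → ℤ := (γ : Matrix (Fin 2) (Fin 2) ℤ) 1

@[simp] theorem botRow_apply (γ : SL(2, ℤ)) (i : Fin 2) : botRow γ i = γ 1 i := rfl

theorem botRow_mul (γ δ : SL(2, ℤ)) :
    botRow (γ * δ) = botRow γ ᵥ* (δ : Matrix (Fin 2) (Fin 2) ℤ) := by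
  unfold botRow
  rw [Matrix.SpecialLinearGroup.coe_mul]
  exact Matrix.mul_apply_eq_vecMul _ _ _

open Classical in
/-- The weight attached to a character `χ` of `Γ₀(N)`: `v ↦ χ(γ)⁻¹` if `v` is the bottom row of
`γ ∈ Γ₀(N)`, and `0` if `v` is not such a bottom row. -/
def wChi (N : ℕ) (χ : ↥(Gamma0 N) →* ℂˣ) (v : Fin 2 → ℤ) : ℂ :=
  if h : ∃ γ : ↥(Gamma0 N), botRow (γ : SL(2, ℤ)) = v then ((χ h.choose)⁻¹ : ℂˣ) else 0

/-- The `χ`-twisted Eisenstein series of weight `k` on `Γ₀(N)`. -/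
def eisChi (N : ℕ) (k : ℤ) (χ : ↥(Gamma0 N) →* ℂˣ) : ℍ → ℂ := eisW k (wChi N χ)

/-- `χ γ = 1` as soon as the bottom row of `γ` is `(0, 1)` (i.e. `γ = T^m`). -/
def TrivOnUnip (χ : ↥(Gamma0 N) →* ℂˣ) : Prop :=
  ∀ γ : ↥(Gamma0 N), (γ : SL(2, ℤ)) 1 0 = 0 → (γ : SL(2, ℤ)) 1 1 = 1 → χ γ = 1

theorem chi_eq_of_botRow_eq {χ : ↥(Gamma0 N) →* ℂˣ} (hχ : TrivOnUnip χ)
    {γ γ' : ↥(Gamma0 N)} (h : botRow (γ : SL(2, ℤ)) = botRow (γ' : SL(2, ℤ))) : χ γ = χ γ' := by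
  have h0 : (γ : SL(2, ℤ)) 1 0 = (γ' : SL(2, ℤ)) 1 0 := congrFun h 0
  have h1 : (γ : SL(2, ℤ)) 1 1 = (γ' : SL(2, ℤ)) 1 1 := congrFun h 1
  have hdet := (γ : SL(2, ℤ)).det_coe
  rw [Matrix.det_fin_two] at hdet
  have key : χ (γ' * γ⁻¹) = 1 := by
    apply hχ
    · simp only [Subgroup.coe_mul, Subgroup.coe_inv, Matrix.SpecialLinearGroup.coe_mul,
        Matrix.SpecialLinearGroup.coe_inv, Matrix.adjugate_fin_two, Matrix.mul_apply,
        Fin.sum_univ_two, Matrix.of_apply, Matrix.cons_val', Matrix.cons_val_zero,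
        Matrix.cons_val_one, Fin.isValue, cons_val_fin_one]
      rw [← h0, ← h1]; ring
    · simp only [Subgroup.coe_mul, Subgroup.coe_inv, Matrix.SpecialLinearGroup.coe_mul,
        Matrix.SpecialLinearGroup.coe_inv, Matrix.adjugate_fin_two, Matrix.mul_apply,
        Fin.sum_univ_two, Matrix.of_apply, Matrix.cons_val', Matrix.cons_val_zero,
        Matrix.cons_val_one, Fin.isValue, cons_val_fin_one]
      rw [← h0, ← h1]; linarith
  rw [map_mul, map_inv, mul_inv_eq_one] at key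
  exact key.symm

theorem wChi_botRow {χ : ↥(Gamma0 N) →* ℂˣ} (hχ : TrivOnUnip χ) (γ : ↥(Gamma0 N)) :
    wChi N χ (botRow (γ : SL(2, ℤ))) = ((χ γ)⁻¹ : ℂˣ) := by
  have h : ∃ γ' : ↥(Gamma0 N), botRow (γ' : SL(2, ℤ)) = botRow (γ : SL(2, ℤ)) := ⟨γ, rfl⟩
  rw [wChi, dif_pos h, chi_eq_of_botRow_eq hχ h.choose_spec]

theorem wChi_of_not {χ : ↥(Gamma0 N) →* ℂˣ} {v : Fin 2 → ℤ}
    (h : ¬ ∃ γ : ↥(Gamma0 N), botRow (γ : SL(2, ℤ)) = v) : wChi N χ v = 0 := by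
  rw [wChi, dif_neg h]

/-- The transformation rule of the weights under right multiplication by `δ ∈ Γ₀(N)`. -/
theorem wChi_vecMul {χ : ↥(Gamma0 N) →* ℂˣ} (hχ : TrivOnUnip χ) (δ : ↥(Gamma0 N))
    (v : Fin 2 → ℤ) :
    wChi N χ (v ᵥ* ((δ : SL(2, ℤ)) : Matrix (Fin 2) (Fin 2) ℤ)) =
      ((χ δ)⁻¹ : ℂˣ) * wChi N χ v := by
  by_cases h : ∃ γ : ↥(Gamma0 N), botRow (γ : SL(2, ℤ)) = v
  · obtain ⟨γ, rfl⟩ := h
    have : botRow (γ : SL(2, ℤ)) ᵥ* ((δ : SL(2, ℤ)) : Matrix (Fin 2) (Fin 2) ℤ) =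
        botRow ((γ * δ : ↥(Gamma0 N)) : SL(2, ℤ)) := by
      rw [Subgroup.coe_mul, botRow_mul]
    rw [this, wChi_botRow hχ, wChi_botRow hχ, map_mul, _root_.mul_inv_rev, Units.val_mul]
  · have h' : ¬ ∃ γ : ↥(Gamma0 N),
        botRow (γ : SL(2, ℤ)) = v ᵥ* ((δ : SL(2, ℤ)) : Matrix (Fin 2) (Fin 2) ℤ) := by
      rintro ⟨γ, hγ⟩
      refine h ⟨γ * δ⁻¹, ?_⟩
      rw [Subgroup.coe_mul, botRow_mul, hγ, Subgroup.coe_inv, vecMul_vecMul,
        ← Matrix.SpecialLinearGroup.coe_mul, mul_inv_cancel, Matrix.SpecialLinearGroup.coe_one,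
        vecMul_one]
    rw [wChi_of_not h, wChi_of_not h', mul_zero]

theorem norm_wChi_le {χ : ↥(Gamma0 N) →* ℂˣ} (hfin : ∀ γ, ‖(χ γ : ℂ)‖ = 1) (v : Fin 2 → ℤ) :
    ‖wChi N χ v‖ ≤ 1 := by
  rw [wChi]
  split_ifs with h
  · rw [Units.val_inv_eq_inv_val, norm_inv, hfin, inv_one]
  · simp

/-- A character of finite exponent has values of norm one. -/
theorem norm_chi_eq_one {χ : ↥(Gamma0 N) →* ℂˣ} {n : ℕ} (hn : n ≠ 0) (h : ∀ γ, χ γ ^ n = 1)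
    (γ : ↥(Gamma0 N)) : ‖(χ γ : ℂ)‖ = 1 := by
  have h1 : ((χ γ : ℂ)) ^ n = 1 := by
    rw [← Units.val_pow_eq_pow_val, h γ, Units.val_one]
  exact Complex.norm_eq_one_of_pow_eq_one h1 hn

/-- **(E2)** the `χ`-twisted Eisenstein series transforms under `Γ₀(N)` through `χ`. -/
theorem eisChi_slash {χ : ↥(Gamma0 N) →* ℂˣ} (hχ : TrivOnUnip χ) (k : ℤ) (δ : ↥(Gamma0 N)) :
    eisChi N k χ ∣[k] (δ : SL(2, ℤ)) = (χ δ : ℂ) • eisChi N k χ := by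
  rw [eisChi, eisW_slash, ← eisW_const_mul]
  congr 1
  funext v
  have := wChi_vecMul hχ δ⁻¹ v
  rw [Subgroup.coe_inv] at this
  rw [this, map_inv, inv_inv]

theorem eisChi_mdifferentiable {χ : ↥(Gamma0 N) →* ℂˣ} (hfin : ∀ γ, ‖(χ γ : ℂ)‖ = 1)
    {k : ℤ} (hk : 3 ≤ k) : MDiff (eisChi N k χ) :=
  eisW_mdifferentiable hk (norm_wChi_le hfin)

end Fermat.Agent.ES.KUM.EisChar20
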