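/-
Program J, chapter J1.5 (helper20), part (E4): every `SL(2, ℤ)`-slash of the `χ`-twisted
Eisenstein series is bounded at `i∞`, and `(E_χ)^n` is a modular form of weight `n k` on `Γ₀(N)`
when `χ^n = 1` and `χ` is trivial on the elements of trace `2`.
-/
import Fermat.Agent.ES.KUM.EisChar20

set_option autoImplicit false

open EisensteinSeries UpperHalfPlane Matrix CongruenceSubgroup ModularForm Filter Topology
open scoped MatrixGroups Manifold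

noncomputable section

namespace Fermat.Agent.ES.KUM.EisPack20

open Fermat.Agent.ES.KUM.EisChar20

/-! ### Boundedness at `i∞` of periodic weighted Eisenstein series -/

/-- The subgroup of `SL(2, ℤ)` leaving a weight function invariant. -/
def stabW (w : (Fin 2 → ℤ) → ℂ) : Subgroup SL(2, ℤ) where
  carrier := {σ | ∀ v, w (v ᵥ* (σ : Matrix (Fin 2) (Fin 2) ℤ)) = w v}
  mul_mem' {a b} ha hb v := by
    rw [Matrix.SpecialLinearGroup.coe_mul, ← vecMul_vecMul, hb, ha]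
  one_mem' v := by simp
  inv_mem' {a} ha v := by
    have := ha (v ᵥ* ((a⁻¹ : SL(2, ℤ)) : Matrix (Fin 2) (Fin 2) ℤ))
    rw [vecMul_vecMul, ← Matrix.SpecialLinearGroup.coe_mul, inv_mul_cancel,
      Matrix.SpecialLinearGroup.coe_one, vecMul_one] at this
    exact this.symm

theorem mem_stabW {w : (Fin 2 → ℤ) → ℂ} {σ : SL(2, ℤ)} :
    σ ∈ stabW w ↔ ∀ v, w (v ᵥ* (σ : Matrix (Fin 2) (Fin 2) ℤ)) = w v := Iff.rfl

/-- A weighted Eisenstein series whose weight is invariant under `T^m` (`m ≥ 1`) is bounded at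
`i∞`. -/
theorem isBoundedAtImInfty_eisW {k : ℤ} (hk : 3 ≤ k) {w : (Fin 2 → ℤ) → ℂ}
    (hw : ∀ v, ‖w v‖ ≤ 1) {m : ℕ} (hm : 0 < m)
    (hT : ModularGroup.T ^ (m : ℤ) ∈ stabW w) : IsBoundedAtImInfty (eisW k w) := by
  rw [UpperHalfPlane.isBoundedAtImInfty_iff]
  refine ⟨∑' (x : Fin 2 → ℤ), r ⟨⟨m, 2⟩, Nat.ofNat_pos⟩ ^ (-k) * ‖x‖ ^ (-k), 2, ?_⟩
  intro z hz
  obtain ⟨n, hn⟩ := ModularGroup_T_zpow_mem_verticalStrip z hm
  have hper : ModularGroup.T ^ ((m : ℤ) * n) ∈ stabW w := by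
    rw [_root_.zpow_mul]; exact Subgroup.zpow_mem _ hT n
  rw [← eisW_T_zpow_smul (k := k) (mem_stabW.mp hper) z]
  set z' : ℍ := ModularGroup.T ^ ((m : ℤ) * n) • z with hz'
  have hk' : (2 : ℝ) < k := by norm_cast
  have hs := summable_norm_eisSummand hk z'
  have hs2 : Summable fun v : Fin 2 → ℤ => ‖w v * eisSummand k v z'‖ :=
    Summable.of_nonneg_of_le (fun _ => norm_nonneg _)
      (fun v => norm_mul_eisSummand_le hw v z') hs
  refine (norm_tsum_le_tsum_norm hs2).trans ?_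
  refine (hs2.tsum_le_tsum (fun v => norm_mul_eisSummand_le hw v z') hs).trans ?_
  apply hs.tsum_le_tsum _
  · exact_mod_cast (summable_one_div_norm_rpow hk').mul_left <| r ⟨⟨m, 2⟩, Nat.ofNat_pos⟩ ^ (-k)
  · intro x
    simp_rw [eisSummand, norm_zpow]
    exact_mod_cast
      summand_bound_of_mem_verticalStrip (lt_trans two_pos hk').le x two_pos
      (verticalStrip_anti_right m hz hn)

/-! ### Characters trivial on elements of trace `2` -/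

variable {N : ℕ}

/-- `χ` is trivial on the elements of `Γ₀(N)` of trace `2` (the parabolic elements conjugate in
`SL(2, ℤ)` to some `T^m`). -/
def TrivOnTr2 (χ : ↥(Gamma0 N) →* ℂˣ) : Prop :=
  ∀ γ : ↥(Gamma0 N),
    Matrix.trace ((γ : SL(2, ℤ)) : Matrix (Fin 2) (Fin 2) ℤ) = 2 → χ γ = 1

theorem TrivOnTr2.trivOnUnip {χ : ↥(Gamma0 N) →* ℂˣ} (h : TrivOnTr2 χ) : TrivOnUnip χ := by
  intro γ h10 h11
  apply h
  have hdet := (γ : SL(2, ℤ)).det_coe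
  rw [Matrix.det_fin_two] at hdet
  rw [Matrix.trace_fin_two]
  have h10' : ((γ : SL(2, ℤ)) : Matrix (Fin 2) (Fin 2) ℤ) 1 0 = 0 := h10
  have h11' : ((γ : SL(2, ℤ)) : Matrix (Fin 2) (Fin 2) ℤ) 1 1 = 1 := h11
  rw [h10', h11'] at hdet
  rw [h11']
  linarith

/-- `σ T^N σ⁻¹ ∈ Γ₀(N)`. -/
theorem conj_T_pow_mem_Gamma0 (N : ℕ) (σ : SL(2, ℤ)) :
    σ * ModularGroup.T ^ (N : ℤ) * σ⁻¹ ∈ Gamma0 N := by
  have h1 : ModularGroup.T ^ (N : ℤ) ∈ Gamma N := by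
    simpa using ModularGroup_T_pow_mem_Gamma (N : ℤ) (N : ℤ) dvd_rfl
  have h2 : σ * ModularGroup.T ^ (N : ℤ) * σ⁻¹ ∈ Gamma N :=
    (Gamma_normal N).conj_mem _ h1 σ
  rw [Gamma_mem] at h2
  rw [Gamma0_mem]
  exact h2.2.2.1

theorem trace_conj_T_pow (m : ℤ) (σ : SL(2, ℤ)) :
    Matrix.trace ((σ * ModularGroup.T ^ m * σ⁻¹ : SL(2, ℤ)) : Matrix (Fin 2) (Fin 2) ℤ) = 2 := by
  rw [Matrix.SpecialLinearGroup.coe_mul, Matrix.trace_mul_comm, ← Matrix.SpecialLinearGroup.coe_mul,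
    ← mul_assoc, inv_mul_cancel, one_mul, ModularGroup.coe_T_zpow, Matrix.trace_fin_two]
  simp

/-- The `σ`-translate of the `χ`-weight is invariant under `T^N`. -/
theorem T_pow_mem_stabW_translate {χ : ↥(Gamma0 N) →* ℂˣ} (hχ : TrivOnTr2 χ) (σ : SL(2, ℤ)) :
    ModularGroup.T ^ (N : ℤ) ∈
      stabW (fun v => wChi N χ (v ᵥ* ((σ⁻¹ : SL(2, ℤ)) : Matrix (Fin 2) (Fin 2) ℤ))) := by
  rw [mem_stabW]
  intro v
  set δ : ↥(Gamma0 N) := ⟨σ * ModularGroup.T ^ (N : ℤ) * σ⁻¹, conj_T_pow_mem_Gamma0 N σ⟩ with hδ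
  have h1 : χ δ = 1 := hχ δ (trace_conj_T_pow _ σ)
  have h2 := wChi_vecMul hχ.trivOnUnip δ
    (v ᵥ* ((σ⁻¹ : SL(2, ℤ)) : Matrix (Fin 2) (Fin 2) ℤ))
  rw [h1, inv_one, Units.val_one, one_mul] at h2
  rw [← h2]
  congr 1
  simp only [vecMul_vecMul, ← Matrix.SpecialLinearGroup.coe_mul]
  congr 2
  simp [hδ, mul_assoc]

/-- **(E4a)** every `SL(2, ℤ)`-slash of `E_χ` is bounded at `i∞`. -/
theorem isBoundedAtImInfty_eisChi_slash [NeZero N] {χ : ↥(Gamma0 N) →* ℂˣ}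
    (hχ : TrivOnTr2 χ) (hfin : ∀ γ, ‖(χ γ : ℂ)‖ = 1) {k : ℤ} (hk : 3 ≤ k) (σ : SL(2, ℤ)) :
    IsBoundedAtImInfty (eisChi N k χ ∣[k] σ) := by
  rw [eisChi, eisW_slash]
  exact isBoundedAtImInfty_eisW hk (fun v => norm_wChi_le hfin _) (NeZero.pos N)
    (T_pow_mem_stabW_translate hχ σ)

/-- **(E4a')** every `SL(2, ℤ)`-slash of `E_χ` is `T^N`-periodic. -/
theorem eisChi_slash_vadd {χ : ↥(Gamma0 N) →* ℂˣ} (hχ : TrivOnTr2 χ) (k : ℤ) (σ : SL(2, ℤ))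
    (z : ℍ) : (eisChi N k χ ∣[k] σ) (((N : ℤ) : ℝ) +ᵥ z) = (eisChi N k χ ∣[k] σ) z := by
  rw [eisChi, eisW_slash]
  exact eisW_vadd (mem_stabW.mp (T_pow_mem_stabW_translate hχ σ)) z

/-! ### Powers -/

theorem pow_slash_SL2 (f : ℍ → ℂ) (k : ℤ) (n : ℕ) (A : SL(2, ℤ)) :
    (f ^ n) ∣[(n : ℤ) * k] A = (f ∣[k] A) ^ n := by
  induction n with
  | zero =>
    simp only [pow_zero, Nat.cast_zero, zero_mul]
    ext z
    simp [SL_slash_apply]
  | succ n ih =>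
    rw [pow_succ, pow_succ, ← ih, ← mul_slash_SL2]
    congr 1
    push_cast; ring

theorem isBoundedAtImInfty_pow {f : ℍ → ℂ} (hf : IsBoundedAtImInfty f) (n : ℕ) :
    IsBoundedAtImInfty (f ^ n) := by
  induction n with
  | zero =>
    rw [pow_zero]
    exact Filter.const_boundedAtFilter _ (1 : ℂ)
  | succ n ih => rw [pow_succ]; exact Filter.BoundedAtFilter.mul ih hf

/-- **(E4b)** `(E_χ)^n` as a modular form of weight `n k` on `Γ₀(N)`, for `χ^n = 1`. -/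
def eisChiPowMF [NeZero N] {χ : ↥(Gamma0 N) →* ℂˣ} (hχ : TrivOnTr2 χ) {n : ℕ} (hn : n ≠ 0)
    (hχn : ∀ γ, χ γ ^ n = 1) {k : ℤ} (hk : 3 ≤ k) :
    ModularForm (Gamma0 N) ((n : ℤ) * k) where
  toFun := (eisChi N k χ) ^ n
  slash_action_eq' A hA := by
    obtain ⟨A, (hA : A ∈ Gamma0 N), rfl⟩ := hA
    change (eisChi N k χ ^ n) ∣[(n : ℤ) * k] A = _
    rw [pow_slash_SL2]
    have := eisChi_slash hχ.trivOnUnip k ⟨A, hA⟩
    simp only at this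
    rw [this, smul_pow, ← Units.val_pow_eq_pow_val, hχn ⟨A, hA⟩, Units.val_one, one_smul]
  holo' := (eisChi_mdifferentiable (norm_chi_eq_one hn hχn) hk).pow n
  bdd_at_cusps' {c} hc := by
    rw [Subgroup.IsArithmetic.isCusp_iff_isCusp_SL2Z] at hc
    rw [OnePoint.isBoundedAt_iff_forall_SL2Z hc]
    intro γ _
    rw [pow_slash_SL2]
    exact isBoundedAtImInfty_pow
      (isBoundedAtImInfty_eisChi_slash hχ (norm_chi_eq_one hn hχn) hk γ) n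

@[simp] theorem coe_eisChiPowMF [NeZero N] {χ : ↥(Gamma0 N) →* ℂˣ} (hχ : TrivOnTr2 χ) {n : ℕ}
    (hn : n ≠ 0) (hχn : ∀ γ, χ γ ^ n = 1) {k : ℤ} (hk : 3 ≤ k) :
    ⇑(eisChiPowMF hχ hn hχn hk) = (eisChi N k χ) ^ n := rfl

end Fermat.Agent.ES.KUM.EisPack20
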