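/-
Program J, chapter J1.5 (helper20), part (E3): the `χ`-twisted Eisenstein series of even weight
tends to `2` at `i∞` (when `χ(-1) = 1`), hence is not the zero function; every `SL(2, ℤ)`-slash of
it has a limit at `i∞`.
-/
import Fermat.Agent.ES.KUM.EisPack20
import Fermat.Agent.ES.KUM.EisLim25

set_option autoImplicit false

open EisensteinSeries UpperHalfPlane Matrix CongruenceSubgroup ModularForm Filter Topology
open scoped MatrixGroups Manifold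

noncomputable section

namespace Fermat.Agent.ES.KUM.EisNZ20

open Fermat.Agent.ES.KUM.EisChar20 Fermat.Agent.ES.KUM.EisPack20 Fermat.Agent.ES.KUM.EisLim25

variable {N : ℕ}

/-- The shear of `EisLim25` is right multiplication by `T^m`. -/
theorem shear_eq_vecMul (m : ℤ) (v : Fin 2 → ℤ) :
    shear m v = v ᵥ* ((ModularGroup.T ^ m : SL(2, ℤ)) : Matrix (Fin 2) (Fin 2) ℤ) := by
  rw [vecMul_T_zpow]
  ext i
  fin_cases i
  · rfl
  · show v 1 + m * v 0 = m * v 0 + v 1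
    ring

/-- Invariance of a weight under `T^m` in the `shear` form of `EisLim25`. -/
theorem shear_invariant_of_mem_stabW {w : (Fin 2 → ℤ) → ℂ} {m : ℤ}
    (h : ModularGroup.T ^ m ∈ stabW w) (v : Fin 2 → ℤ) : w (shear m v) = w v := by
  rw [shear_eq_vecMul]; exact mem_stabW.mp h v

/-- **(G3) in `stabW` form**: the limit at `i∞` of a weighted Eisenstein series whose weight is
`T^m`-invariant. -/
theorem tendsto_eisW {k : ℤ} (hk : 3 ≤ k) {w : (Fin 2 → ℤ) → ℂ} (hw : ∀ v, ‖w v‖ ≤ 1) {m : ℕ}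
    (hm : 0 < m) (hT : ModularGroup.T ^ (m : ℤ) ∈ stabW w) :
    Tendsto (eisW k w) atImInfty (𝓝 (∑' d : ℤ, w ![0, d] * (d : ℂ) ^ (-k))) :=
  tendsto_weighted hk hw (m := (m : ℤ)) (by exact_mod_cast hm)
    (shear_invariant_of_mem_stabW hT)

/-- Every `SL(2, ℤ)`-slash of `E_χ` has a limit at `i∞`. -/
theorem tendsto_eisChi_slash [NeZero N] {χ : ↥(Gamma0 N) →* ℂˣ} (hχ : TrivOnTr2 χ)
    (hfin : ∀ γ, ‖(χ γ : ℂ)‖ = 1) {k : ℤ} (hk : 3 ≤ k) (σ : SL(2, ℤ)) :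
    Tendsto (eisChi N k χ ∣[k] σ) atImInfty
      (𝓝 (∑' d : ℤ, wChi N χ (![0, d] ᵥ* ((σ⁻¹ : SL(2, ℤ)) : Matrix (Fin 2) (Fin 2) ℤ))
        * (d : ℂ) ^ (-k))) := by
  rw [eisChi, eisW_slash]
  exact tendsto_eisW hk (fun v => norm_wChi_le hfin _) (NeZero.pos N)
    (T_pow_mem_stabW_translate hχ σ)

/-! ### The values of the `χ`-weight on the vectors `(0, d)` -/

theorem neg_one_mem_Gamma0 (N : ℕ) : (-1 : SL(2, ℤ)) ∈ Gamma0 N := by
  rw [Gamma0_mem]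
  simp

theorem botRow_one : botRow (1 : SL(2, ℤ)) = ![0, 1] := by
  ext i
  fin_cases i <;> simp [botRow]

theorem botRow_neg_one : botRow (-1 : SL(2, ℤ)) = ![0, -1] := by
  ext i
  fin_cases i <;> simp [botRow]

theorem wChi_zero_one {χ : ↥(Gamma0 N) →* ℂˣ} (hχ : TrivOnUnip χ) : wChi N χ ![0, 1] = 1 := by
  have := wChi_botRow hχ (1 : ↥(Gamma0 N))
  rw [Subgroup.coe_one, botRow_one, map_one, inv_one, Units.val_one] at this
  exact this

theorem wChi_zero_neg_one {χ : ↥(Gamma0 N) →* ℂˣ} (hχ : TrivOnUnip χ)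
    (hneg : χ ⟨-1, neg_one_mem_Gamma0 N⟩ = 1) : wChi N χ ![0, -1] = 1 := by
  have := wChi_botRow hχ (⟨-1, neg_one_mem_Gamma0 N⟩ : ↥(Gamma0 N))
  rw [hneg, inv_one, Units.val_one] at this
  rw [← this]
  congr 1
  exact botRow_neg_one.symm

theorem wChi_zero_of_ne (χ : ↥(Gamma0 N) →* ℂˣ) {d : ℤ} (h1 : d ≠ 1) (h2 : d ≠ -1) :
    wChi N χ ![0, d] = 0 := by
  apply wChi_of_not
  rintro ⟨γ, hγ⟩
  have h0 : ((γ : SL(2, ℤ)) : Matrix (Fin 2) (Fin 2) ℤ) 1 0 = 0 := by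
    have := congrFun hγ 0
    simpa [botRow] using this
  have h1' : ((γ : SL(2, ℤ)) : Matrix (Fin 2) (Fin 2) ℤ) 1 1 = d := by
    have := congrFun hγ 1
    simpa [botRow] using this
  have hdet := (γ : SL(2, ℤ)).det_coe
  rw [Matrix.det_fin_two, h0, h1', mul_zero, sub_zero] at hdet
  have hu : IsUnit d := IsUnit.of_mul_eq_one _ (by rw [mul_comm]; exact hdet)
  rcases Int.isUnit_iff.mp hu with h | h
  · exact h1 h
  · exact h2 h

/-- **(E3)** `E_χ → 2` at `i∞` for even `k ≥ 4` and `χ(-1) = 1`. -/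
theorem tendsto_eisChi [NeZero N] {χ : ↥(Gamma0 N) →* ℂˣ} (hχ : TrivOnTr2 χ)
    (hfin : ∀ γ, ‖(χ γ : ℂ)‖ = 1) (hneg : χ ⟨-1, neg_one_mem_Gamma0 N⟩ = 1)
    {k : ℤ} (hk : 3 ≤ k) (hev : Even k) :
    Tendsto (eisChi N k χ) atImInfty (𝓝 2) := by
  have h := tendsto_eisChi_slash hχ hfin hk (1 : SL(2, ℤ))
  rw [SlashAction.slash_one] at h
  have hval : (∑' d : ℤ, wChi N χ (![0, d] ᵥ* (((1 : SL(2, ℤ))⁻¹ : SL(2, ℤ)) :
      Matrix (Fin 2) (Fin 2) ℤ)) * (d : ℂ) ^ (-k)) = 2 := by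
    simp only [inv_one, Matrix.SpecialLinearGroup.coe_one, vecMul_one]
    rw [tsum_of_primitive (w := wChi N χ) (fun d h1 h2 => wChi_zero_of_ne χ h1 h2),
      wChi_zero_one hχ.trivOnUnip, wChi_zero_neg_one hχ.trivOnUnip hneg, hev.neg.neg_one_zpow]
    norm_num
  rw [hval] at h
  exact h

/-- **(E3')** `E_χ` is not the zero function. -/
theorem eisChi_ne_zero [NeZero N] {χ : ↥(Gamma0 N) →* ℂˣ} (hχ : TrivOnTr2 χ)
    (hfin : ∀ γ, ‖(χ γ : ℂ)‖ = 1) (hneg : χ ⟨-1, neg_one_mem_Gamma0 N⟩ = 1)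
    {k : ℤ} (hk : 3 ≤ k) (hev : Even k) : eisChi N k χ ≠ 0 := by
  intro h0
  have h := tendsto_eisChi hχ hfin hneg hk hev
  rw [h0] at h
  have h' : Tendsto (0 : ℍ → ℂ) atImInfty (𝓝 0) := tendsto_const_nhds
  have := tendsto_nhds_unique h h'
  norm_num at this

end Fermat.Agent.ES.KUM.EisNZ20
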