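/-
Program J (S30), chapter J1.4 (KUM), helper25 — pure field theory (Mathlib only):
**an algebraic extension of characteristic zero all of whose elements have degree `≤ d` is finite of
degree `≤ d`** (primitive element theorem), and the corollary used for
"`Frac 𝒜 = Θ(F_ℂ)`": a subalgebra `A ⊆ Ω` over a field `K` all of whose elements have degree `≤ d`
over `K` and which contains an intermediate field `E₀` with `[E₀ : K] = d` is equal to `E₀`.
-/
import Mathlib

set_option autoImplicit false
set_option linter.style.haveILetI false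
set_option linter.unusedSectionVars false

open IntermediateField Polynomial

namespace Fermat.Agent.ES.KUM.BoundedDegree25

section Field

variable {K E : Type*} [Field K] [Field E] [Algebra K E] [CharZero K]

/-- There is an element of maximal degree. -/
theorem exists_max_natDegree (d : ℕ)
    (h : ∀ x : E, IsIntegral K x ∧ (minpoly K x).natDegree ≤ d) :
    ∃ x : E, ∀ y : E, (minpoly K y).natDegree ≤ (minpoly K x).natDegree := by
  classical
  let P : ℕ → Prop := fun n => ∃ x : E, (minpoly K x).natDegree = n
  have hP0 : P (minpoly K (0 : E)).natDegree := ⟨0, rfl⟩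
  have hspec : P (Nat.findGreatest P d) := Nat.findGreatest_spec (h 0).2 hP0
  obtain ⟨x, hx⟩ := hspec
  refine ⟨x, fun y => ?_⟩
  rw [hx]
  exact Nat.le_findGreatest (h y).2 ⟨y, rfl⟩

/-- **Bounded degree ⇒ simple extension**: an element of maximal degree generates `E`. -/
theorem adjoin_eq_top_of_max (d : ℕ)
    (h : ∀ x : E, IsIntegral K x ∧ (minpoly K x).natDegree ≤ d) {x : E}
    (hx : ∀ y : E, (minpoly K y).natDegree ≤ (minpoly K x).natDegree) : K⟮x⟯ = ⊤ := by
  rw [eq_top_iff]
  rintro y -
  -- the field `F = K(x, y)` is finite separable over `K`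
  set F : IntermediateField K E := IntermediateField.adjoin K {x, y} with hF
  have hxF : x ∈ F := IntermediateField.subset_adjoin K _ (by simp)
  have hyF : y ∈ F := IntermediateField.subset_adjoin K _ (by simp)
  haveI : FiniteDimensional K F := by
    apply IntermediateField.finiteDimensional_adjoin
    intro z hz
    exact (h z).1
  obtain ⟨z, hz⟩ := Field.exists_primitive_element K F
  -- `[F : K] = deg z ≤ deg x = [K(x) : K]`
  have h1 : Module.finrank K F = (minpoly K z).natDegree :=
    ((Field.primitive_element_iff_minpoly_natDegree_eq K z).mp hz).symm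
  have h2 : minpoly K z = minpoly K (z : E) := (minpoly.algebraMap_eq
    (algebraMap F E).injective z).symm
  have h3 : Module.finrank K F ≤ (minpoly K x).natDegree := by
    rw [h1, h2]; exact hx _
  have h4 : Module.finrank K K⟮x⟯ = (minpoly K x).natDegree :=
    IntermediateField.adjoin.finrank (h x).1
  have hle : K⟮x⟯ ≤ F := by
    rw [IntermediateField.adjoin_simple_le_iff]; exact hxF
  have heq : K⟮x⟯ = F := by
    apply IntermediateField.eq_of_le_of_finrank_le hle
    rw [h4]; exact h3
  rw [heq]
  exact hyF

/-- **Bounded degree ⇒ finite of bounded degree.** -/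
theorem finite_and_finrank_le (d : ℕ)
    (h : ∀ x : E, IsIntegral K x ∧ (minpoly K x).natDegree ≤ d) :
    FiniteDimensional K E ∧ Module.finrank K E ≤ d := by
  obtain ⟨x, hx⟩ := exists_max_natDegree d h
  have htop := adjoin_eq_top_of_max d h hx
  have hfin : FiniteDimensional K K⟮x⟯ := IntermediateField.adjoin.finiteDimensional (h x).1
  have hfr : Module.finrank K K⟮x⟯ = (minpoly K x).natDegree :=
    IntermediateField.adjoin.finrank (h x).1
  rw [htop] at hfin hfr
  have e : (⊤ : IntermediateField K E) ≃ₐ[K] E := IntermediateField.topEquiv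
  refine ⟨e.toLinearEquiv.finiteDimensional, ?_⟩
  rw [← e.toLinearEquiv.finrank_eq, hfr]
  exact (h x).2

end Field

section Subalgebra

variable {K Ω : Type*} [Field K] [Field Ω] [Algebra K Ω] [CharZero K]

/-- A `K`-subalgebra of a field all of whose elements are algebraic of degree `≤ d` over `K`
is finite-dimensional of dimension `≤ d`. -/
theorem subalgebra_finite_and_finrank_le (A : Subalgebra K Ω) (d : ℕ)
    (h : ∀ a ∈ A, IsIntegral K a ∧ (minpoly K a).natDegree ≤ d) :
    Module.Finite K A ∧ Module.finrank K A ≤ d := by
  -- `A` is a field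
  have hinj : Function.Injective (algebraMap ↥A Ω) := Subtype.val_injective
  haveI hint : Algebra.IsIntegral K ↥A :=
    ⟨fun a => (isIntegral_algebraMap_iff hinj).mp (h a a.2).1⟩
  have hfield : IsField ↥A := isField_of_isIntegral_of_isField' (Field.toIsField K)
  let E : IntermediateField K Ω := Subalgebra.toIntermediateField' A hfield
  have hE : ∀ x : E, IsIntegral K x ∧ (minpoly K x).natDegree ≤ d := by
    intro x
    have hx := h (x : Ω) x.2
    have h2 : minpoly K x = minpoly K (x : Ω) :=
      (minpoly.algebraMap_eq (algebraMap E Ω).injective x).symm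
    refine ⟨?_, by rw [h2]; exact hx.2⟩
    exact (isIntegral_algebraMap_iff (algebraMap E Ω).injective).mp hx.1
  exact finite_and_finrank_le d hE

/-- **The corollary for J1.4**: if moreover `A` contains an intermediate field `E₀` with
`[E₀ : K] = d`, then `A = E₀`. -/
theorem subalgebra_eq_of_le (A : Subalgebra K Ω) (E₀ : IntermediateField K Ω) (d : ℕ)
    (h : ∀ a ∈ A, IsIntegral K a ∧ (minpoly K a).natDegree ≤ d)
    (hle : E₀.toSubalgebra ≤ A) (h₀ : Module.finrank K E₀ = d) :
    A = E₀.toSubalgebra := by
  obtain ⟨hfin, hfr⟩ := subalgebra_finite_and_finrank_le A d h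
  symm
  apply Subalgebra.toSubmodule_injective
  apply Submodule.eq_of_le_of_finrank_le (show Subalgebra.toSubmodule E₀.toSubalgebra
    ≤ Subalgebra.toSubmodule A from hle)
  have h1 : Module.finrank K (Subalgebra.toSubmodule A) = Module.finrank K A := rfl
  have h2 : Module.finrank K (Subalgebra.toSubmodule E₀.toSubalgebra) = Module.finrank K E₀ := rfl
  rw [h1, h2, h₀]
  exact hfr

/-- elementwise form: every element of `A` lies in `E₀`. -/
theorem mem_of_mem_subalgebra (A : Subalgebra K Ω) (E₀ : IntermediateField K Ω) (d : ℕ)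
    (h : ∀ a ∈ A, IsIntegral K a ∧ (minpoly K a).natDegree ≤ d)
    (hle : E₀.toSubalgebra ≤ A) (h₀ : Module.finrank K E₀ = d) {a : Ω} (ha : a ∈ A) : a ∈ E₀ := by
  have := subalgebra_eq_of_le A E₀ d h hle h₀
  rw [this] at ha
  exact ha

end Subalgebra

end Fermat.Agent.ES.KUM.BoundedDegree25
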