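/-
Program J, chapter J1.4 (helper12), analytic half: the **orbit polynomial**.

`IsGrowth N G`: `G` is holomorphic on `ℍ`, `Γ₀(N)`-invariant, and every `SL(2,ℤ)`-translate
`G ∘ δ` has a pole of finite order at `i∞` (`(G ∘ δ) Δ ^ m` bounded at `i∞` for some `m`).
For such `G` the polynomial `∏_{x ∈ SL(2,ℤ)/Γ₀(N)} (X - G ∘ (rep x)⁻¹)` has coefficients in `ℂ[j]`
(`X0.exists_polynomial_jFun`): `G` is a root of a monic polynomial of degree `[SL(2,ℤ) : Γ₀(N)]`
over `ℂ[j]`.
-/
import Fermat.Agent.X0.LevelOneFunctions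
import Fermat.Agent.X0.HolOrder

set_option autoImplicit false
set_option linter.unusedSectionVars false

open UpperHalfPlane ModularForm
open scoped Topology Manifold MatrixGroups

noncomputable section

namespace Fermat.Agent.ES.KUM.OrbitPoly12

open Fermat.Agent.X0 Polynomial

local notation "Δ" => ModularForm.discriminant

/-! ### Poles of finite order at `i∞` -/

/-- `f Δ ^ m` is bounded at `i∞` for some `m`. -/
def HasPole (f : ℍ → ℂ) : Prop := ∃ m : ℕ, IsBoundedAtImInfty (fun z => f z * Δ z ^ m)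

theorem isBounded_discriminant : IsBoundedAtImInfty (Δ : ℍ → ℂ) :=
  ModularForm.discriminant_isZeroAtImInfty.boundedAtFilter

theorem isBounded_discriminant_pow (k : ℕ) : IsBoundedAtImInfty (fun z => Δ z ^ k) := by
  induction k with
  | zero =>
    simp only [pow_zero]
    exact Filter.const_boundedAtFilter _ (1 : ℂ)
  | succ k ih =>
    have : (fun z => Δ z ^ (k + 1)) = (fun z => Δ z ^ k) * (Δ : ℍ → ℂ) := by
      funext z
      simp [pow_succ]
    rw [this]
    exact ih.mul isBounded_discriminant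

theorem bounded_mono {f : ℍ → ℂ} {m m' : ℕ} (h : IsBoundedAtImInfty (fun z => f z * Δ z ^ m))
    (hm : m ≤ m') : IsBoundedAtImInfty (fun z => f z * Δ z ^ m') := by
  obtain ⟨k, rfl⟩ := Nat.exists_eq_add_of_le hm
  have : (fun z => f z * Δ z ^ (m + k)) = (fun z => f z * Δ z ^ m) * (fun z => Δ z ^ k) := by
    funext z
    simp [pow_add, mul_assoc]
  rw [this]
  exact h.mul (isBounded_discriminant_pow k)

theorem HasPole.const (c : ℂ) : HasPole (fun _ => c) := by
  refine ⟨0, ?_⟩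
  simp only [pow_zero, mul_one]
  exact Filter.const_boundedAtFilter _ c

theorem HasPole.add {f g : ℍ → ℂ} (hf : HasPole f) (hg : HasPole g) : HasPole (f + g) := by
  obtain ⟨m, hm⟩ := hf
  obtain ⟨n, hn⟩ := hg
  refine ⟨max m n, ?_⟩
  have : (fun z => (f + g) z * Δ z ^ (max m n))
      = (fun z => f z * Δ z ^ (max m n)) + (fun z => g z * Δ z ^ (max m n)) := by
    funext z
    simp [add_mul]
  rw [this]
  exact (bounded_mono hm (le_max_left m n)).add (bounded_mono hn (le_max_right m n))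

theorem HasPole.mul {f g : ℍ → ℂ} (hf : HasPole f) (hg : HasPole g) : HasPole (f * g) := by
  obtain ⟨m, hm⟩ := hf
  obtain ⟨n, hn⟩ := hg
  refine ⟨m + n, ?_⟩
  have : (fun z => (f * g) z * Δ z ^ (m + n))
      = (fun z => f z * Δ z ^ m) * (fun z => g z * Δ z ^ n) := by
    funext z
    simp [pow_add]
    ring
  rw [this]
  exact hm.mul hn

/-- Holomorphic functions on `ℍ` with a pole of finite order at `i∞`. -/
def poleAlg : Subalgebra ℂ (ℍ → ℂ) where
  carrier := {f | f ∈ HolH ∧ HasPole f}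
  mul_mem' := fun ⟨a1, a2⟩ ⟨b1, b2⟩ => ⟨HolH.mul_mem a1 b1, a2.mul b2⟩
  one_mem' := ⟨HolH.one_mem, HasPole.const 1⟩
  add_mem' := fun ⟨a1, a2⟩ ⟨b1, b2⟩ => ⟨HolH.add_mem a1 b1, a2.add b2⟩
  zero_mem' := ⟨HolH.zero_mem, HasPole.const 0⟩
  algebraMap_mem' := fun c => ⟨HolH.algebraMap_mem c, HasPole.const c⟩

theorem mem_poleAlg {f : ℍ → ℂ} : f ∈ poleAlg ↔ f ∈ HolH ∧ HasPole f := Iff.rfl

/-! ### The growth condition -/

variable (N : ℕ)

/-- `G` is holomorphic on `ℍ`, `Γ₀(N)`-invariant, and all its `SL(2,ℤ)`-translates have a pole of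
finite order at `i∞`. -/
def IsGrowth (G : ℍ → ℂ) : Prop :=
  G ∈ HolH ∧ (∀ γ ∈ CongruenceSubgroup.Gamma0 N, compSL G γ = G) ∧
    ∀ δ : SL(2, ℤ), HasPole (compSL G δ)

variable {N}

theorem IsGrowth.const (c : ℂ) : IsGrowth N (fun _ => c) :=
  ⟨HolH.algebraMap_mem c, fun _ _ => rfl, fun _ => HasPole.const c⟩

theorem IsGrowth.add {G H : ℍ → ℂ} (hG : IsGrowth N G) (hH : IsGrowth N H) :
    IsGrowth N (G + H) :=
  ⟨HolH.add_mem hG.1 hH.1, fun γ hγ => by
      rw [compSL_add_fun, hG.2.1 γ hγ, hH.2.1 γ hγ],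
    fun δ => by
      rw [compSL_add_fun]
      exact (hG.2.2 δ).add (hH.2.2 δ)⟩

theorem IsGrowth.mul {G H : ℍ → ℂ} (hG : IsGrowth N G) (hH : IsGrowth N H) :
    IsGrowth N (G * H) :=
  ⟨HolH.mul_mem hG.1 hH.1, fun γ hγ => by
      rw [compSL_mul_fun, hG.2.1 γ hγ, hH.2.1 γ hγ],
    fun δ => by
      rw [compSL_mul_fun]
      exact (hG.2.2 δ).mul (hH.2.2 δ)⟩

theorem IsGrowth.neg {G : ℍ → ℂ} (hG : IsGrowth N G) : IsGrowth N (-G) := by
  have h := (IsGrowth.const (N := N) (-1)).mul hG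
  have e : (fun _ : ℍ => (-1 : ℂ)) * G = -G := by
    funext z
    simp
  rwa [e] at h

theorem IsGrowth.pow {G : ℍ → ℂ} (hG : IsGrowth N G) (n : ℕ) : IsGrowth N (G ^ n) := by
  induction n with
  | zero =>
    rw [pow_zero]
    exact IsGrowth.const 1
  | succ n ih =>
    rw [pow_succ]
    exact ih.mul hG

/-- `j` satisfies the growth condition. -/
theorem isGrowth_jFun : IsGrowth N jFun := by
  refine ⟨lof_jFun_mdifferentiable, fun γ _ => funext fun z => lof_jFun_smul γ z, fun δ => ?_⟩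
  have e : compSL jFun δ = jFun := funext fun z => lof_jFun_smul δ z
  rw [e]
  refine ⟨1, ?_⟩
  have : (fun z => jFun z * Δ z ^ 1) = fun z => E₄ z ^ 3 := by
    funext z
    unfold jFun
    rw [pow_one, div_mul_cancel₀ _ (discriminant_ne_zero z)]
  rw [this]
  have h4 : IsBoundedAtImInfty (E₄ : ℍ → ℂ) := lof_isBoundedAtImInfty_of_modularForm E₄
  have : (fun z => E₄ z ^ 3) = (E₄ : ℍ → ℂ) * E₄ * E₄ := by
    funext z
    simp [pow_succ]
  rw [this]
  exact (h4.mul h4).mul h4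

variable (N)

/-- The `ℂ`-algebra of holomorphic functions satisfying the growth condition. -/
def growthAlg : Subalgebra ℂ HolH where
  carrier := {G | IsGrowth N (G : ℍ → ℂ)}
  mul_mem' := fun ha hb => IsGrowth.mul ha hb
  one_mem' := IsGrowth.const 1
  add_mem' := fun ha hb => IsGrowth.add ha hb
  zero_mem' := IsGrowth.const 0
  algebraMap_mem' := fun c => IsGrowth.const c

theorem mem_growthAlg {G : HolH} : G ∈ growthAlg N ↔ IsGrowth N (G : ℍ → ℂ) := Iff.rfl

/-! ### The orbit polynomial -/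

section Orbit

variable [NeZero N]

local notation "XN" => SL(2, ℤ) ⧸ CongruenceSubgroup.Gamma0 N

/-- coset representatives -/
def orep (x : XN) : SL(2, ℤ) := Quotient.out x

theorem orep_spec (x : XN) : ((orep N x : SL(2, ℤ)) : XN) = x := Quotient.out_eq' x

variable {N}

/-- The conjugates `G ∘ (rep x)⁻¹` of a function. -/
def conj (G : ℍ → ℂ) (x : XN) : ℍ → ℂ := compSL G (orep N x)⁻¹

/-- `SL(2,ℤ)` permutes the conjugates. -/
theorem conj_perm {G : ℍ → ℂ} (hinv : ∀ γ ∈ CongruenceSubgroup.Gamma0 N, compSL G γ = G)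
    (δ : SL(2, ℤ)) :
    ∃ σ : Equiv.Perm XN, ∀ x z, conj G x (δ • z) = conj G (σ x) z := by
  refine ⟨MulAction.toPerm δ⁻¹, fun x z => ?_⟩
  set a := orep N x with ha
  set b := orep N ((MulAction.toPerm δ⁻¹ : Equiv.Perm _) x) with hb
  have hcoset : ((b : SL(2, ℤ)) : XN) = ((δ⁻¹ * a : SL(2, ℤ)) : XN) := by
    rw [hb, orep_spec, MulAction.toPerm_apply]
    conv_lhs => rw [← orep_spec N x]
    rfl
  have hmem : b⁻¹ * (δ⁻¹ * a) ∈ CongruenceSubgroup.Gamma0 N := QuotientGroup.eq.mp hcoset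
  have hmem' : (b⁻¹ * (δ⁻¹ * a))⁻¹ ∈ CongruenceSubgroup.Gamma0 N := inv_mem hmem
  have h := hinv _ hmem'
  show G (a⁻¹ • δ • z) = G (b⁻¹ • z)
  have h1 : a⁻¹ • δ • z = (b⁻¹ * (δ⁻¹ * a))⁻¹ • (b⁻¹ • z) := by
    rw [← mul_smul, ← mul_smul]
    congr 1
    group
  rw [h1]
  exact congrFun h (b⁻¹ • z)

/-- The conjugate attached to the trivial coset is the function itself. -/
theorem conj_one {G : ℍ → ℂ} (hinv : ∀ γ ∈ CongruenceSubgroup.Gamma0 N, compSL G γ = G) :
    conj G (((1 : SL(2, ℤ)) : XN)) = G := by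
  have hmem : (orep N (((1 : SL(2, ℤ)) : XN)))⁻¹ * 1 ∈ CongruenceSubgroup.Gamma0 N :=
    QuotientGroup.eq.mp (orep_spec N _)
  rw [mul_one] at hmem
  exact hinv _ hmem

/-- **Orbit polynomial.** A function satisfying the growth condition is a root of a monic
polynomial of degree `[SL(2,ℤ) : Γ₀(N)]` with coefficients in `ℂ[j]`; more precisely the polynomial
specialises at every `z` to `∏_x (X - G((rep x)⁻¹ z))`. -/
theorem exists_orbit_poly [Fintype XN] {G : ℍ → ℂ} (hG : IsGrowth N G) :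
    ∃ Q : (ℂ[X])[X], Q.Monic ∧ Q.natDegree = Fintype.card XN ∧
      ∀ z, Q.map (Polynomial.evalRingHom (jFun z)) = ∏ x : XN, (X - C (conj G x z)) := by
  classical
  set n := Fintype.card XN with hn
  -- the polynomial over the algebra of functions with a pole of finite order
  let a : XN → poleAlg := fun x =>
    ⟨conj G x, compSL_mem_HolH hG.1 _, hG.2.2 _⟩
  let Qf : (poleAlg)[X] := ∏ x, (X - C (a x))
  have hfst : ∀ (k : ℕ) (z : ℍ),
      ((Qf.coeff k : poleAlg) : ℍ → ℂ) z = (∏ x : XN, (X - C (conj G x z))).coeff k := by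
    intro k z
    let φ : poleAlg →+* ℂ :=
      (Pi.evalRingHom (fun _ : ℍ => ℂ) z).comp (poleAlg.subtype : poleAlg →+* (ℍ → ℂ))
    have : (Qf.map φ) = ∏ x : XN, (X - C (conj G x z)) := by
      simp only [Qf, Polynomial.map_prod, Polynomial.map_sub, Polynomial.map_X, Polynomial.map_C]
      rfl
    rw [← this, Polynomial.coeff_map]
    rfl
  have hinv : ∀ (k : ℕ) (δ : SL(2, ℤ)) (z : ℍ),
      ((Qf.coeff k : poleAlg) : ℍ → ℂ) (δ • z) = ((Qf.coeff k : poleAlg) : ℍ → ℂ) z := by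
    intro k δ z
    obtain ⟨σ, hσ⟩ := conj_perm hG.2.1 δ
    rw [hfst, hfst]
    congr 1
    rw [← Equiv.prod_comp σ (fun x => (X - C (conj G x z) : ℂ[X]))]
    refine Finset.prod_congr rfl fun x _ => ?_
    rw [hσ]
  have hP : ∀ k : ℕ, ∃ P : ℂ[X], ∀ z, ((Qf.coeff k : poleAlg) : ℍ → ℂ) z = P.eval (jFun z) := by
    intro k
    obtain ⟨hhol, M, hM⟩ := (Qf.coeff k).2
    obtain ⟨P, -, hP⟩ := exists_polynomial_jFun (mem_HolH.mp hhol) (hinv k) M hM
    exact ⟨P, hP⟩
  choose P hP using hP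
  have hmonic : ∀ z, (∏ x : XN, (X - C (conj G x z))).Monic := fun z =>
    monic_prod_of_monic _ _ fun x _ => monic_X_sub_C _
  have hdeg : ∀ z, (∏ x : XN, (X - C (conj G x z))).natDegree = n := by
    intro z
    rw [natDegree_prod_of_monic _ _ fun x _ => monic_X_sub_C _]
    simp [hn]
  set S : (ℂ[X])[X] := ∑ i ∈ Finset.range n, C (P i) * X ^ i with hS
  have hSdeg : S.degree < n := by
    rw [Polynomial.degree_lt_iff_coeff_zero]
    intro m hm
    rw [hS, Polynomial.finsetSum_coeff]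
    refine Finset.sum_eq_zero fun i hi => ?_
    rw [Polynomial.coeff_C_mul_X_pow, if_neg]
    have := Finset.mem_range.mp hi
    omega
  refine ⟨X ^ n + S, Polynomial.monic_X_pow_add hSdeg, ?_, fun z => ?_⟩
  · have h1 : S.degree < ((X : (ℂ[X])[X]) ^ n).degree := by
      rw [Polynomial.degree_X_pow]
      exact hSdeg
    rw [Polynomial.natDegree_add_eq_left_of_degree_lt h1, Polynomial.natDegree_X_pow]
  · rw [(hmonic z).as_sum, hdeg z, Polynomial.map_add, Polynomial.map_pow, Polynomial.map_X, hS,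
      Polynomial.map_sum]
    congr 1
    refine Finset.sum_congr rfl fun i _ => ?_
    rw [Polynomial.map_mul, Polynomial.map_pow, Polynomial.map_X, Polynomial.map_C,
      Polynomial.coe_evalRingHom, ← hP, hfst]

/-- Root form of `exists_orbit_poly`. -/
theorem exists_monic_root [Fintype XN] {G : ℍ → ℂ} (hG : IsGrowth N G) :
    ∃ Q : (ℂ[X])[X], Q.Monic ∧ Q.natDegree = Fintype.card XN ∧
      ∀ z, (Q.map (Polynomial.evalRingHom (jFun z))).eval (G z) = 0 := by
  obtain ⟨Q, hQ1, hQ2, hQ3⟩ := exists_orbit_poly hG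
  refine ⟨Q, hQ1, hQ2, fun z => ?_⟩
  rw [hQ3, Polynomial.eval_prod]
  refine Finset.prod_eq_zero (Finset.mem_univ (((1 : SL(2, ℤ)) : XN))) ?_
  rw [conj_one hG.2.1]
  simp

end Orbit

end Fermat.Agent.ES.KUM.OrbitPoly12
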