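/-
Program J, chapter J1.4 (helper12): **ratios of modular forms of the same weight on `Γ₀(N)` lie in
the function field `Θ(F_ℂ) ⊆ MerH`**.

Inputs: `OrbitPoly12` (every function satisfying the growth condition has degree `≤ ψ(N)` over
`ℂ(j)`), `FieldL25.finrank_jL` (`[F_ℂ : ℂ(j)] = ψ(N)`), `BoundedDegree25` (bounded degree ⇒ finite of
bounded degree), `CReal5` (the realisation `realMer : F_ℂ → MerH`).
-/
import Fermat.Agent.ES.KUM.OrbitPoly12
import Fermat.Agent.ES.KUM.CReal5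
import Fermat.Agent.ES.KUM.FieldL25
import Fermat.Agent.ES.KUM.BoundedDegree25
import Fermat.Agent.X0.CuspGen
import Fermat.Agent.X0.Integrality
import Fermat.Agent.X0.G1Index

set_option autoImplicit false
set_option linter.unusedSectionVars false
set_option linter.style.haveILetI false

open ModularCurve HahnSeries UpperHalfPlane ModularForm
open scoped Topology Manifold MatrixGroups IntermediateField

noncomputable section

namespace Fermat.Agent.ES.KUM.RatioMem12

open Fermat.Agent.X0 Fermat.Agent.X0.SurjPoint Fermat.Agent.ES.KUM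
  Fermat.Agent.ES.KUM.OrbitPoly12 Fermat.Agent.ES.KUM.FieldL25 Polynomial

local notation "Δ" => ModularForm.discriminant

variable (N : ℕ) [NeZero N]

/-! ### The realisation of `R_ℂ` satisfies the growth condition -/

theorem isGrowth_jdFun (d : ℕ) [NeZero d] (hd : d ∣ N) : IsGrowth N (jdFun d) := by
  refine ⟨?_, fun γ hγ => ?_, fun δ => ?_⟩
  · rw [← realC_jdRC N d hd]
    exact (realC N (jdRC N d hd)).2
  · have hN : (N : ℤ) ∣ γ 1 0 := by
      rw [CongruenceSubgroup.Gamma0_mem] at hγ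
      exact (ZMod.intCast_zmod_eq_zero_iff_dvd _ _).mp hγ
    have hd' : (d : ℤ) ∣ γ 1 0 := (Int.natCast_dvd_natCast.mpr hd).trans hN
    funext z
    exact Analytic.jdFun_smul_of_dvd γ d hd' z
  · obtain ⟨m, P, h⟩ := CuspGen.exists_isQExp_compSL_jdFun' N d hd δ
    exact intg_qn_bounded N (intg_qn_of_isQExp N h)

theorem isGrowth_realC (u : RC N) : IsGrowth N ((realC N u : HolH) : ℍ → ℂ) := by
  induction u using RC_induction with
  | hgen d hd =>
      rw [realC_jdRC]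
      exact isGrowth_jdFun N d hd
  | hconst c =>
      rw [realC_algebraMap]
      exact IsGrowth.const c
  | hadd u v ihu ihv =>
      rw [map_add]
      exact ihu.add ihv
  | hmul u v ihu ihv =>
      rw [map_mul]
      exact ihu.mul ihv

theorem realC_mem_growthAlg (u : RC N) : realC N u ∈ growthAlg N := isGrowth_realC N u

/-! ### Weight `k` forms on `Γ₀(N)` as raw functions -/

/-- `A` is holomorphic on `ℍ`, weight `k` slash-invariant under `Γ₀(N)`, and bounded at all cusps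
(all `SL(2,ℤ)`-slashes are bounded at `i∞`). -/
structure IsForm (k : ℤ) (A : ℍ → ℂ) : Prop where
  hol : A ∈ HolH
  inv : ∀ γ ∈ CongruenceSubgroup.Gamma0 N, A ∣[k] γ = A
  bdd : ∀ δ : SL(2, ℤ), IsBoundedAtImInfty (A ∣[k] δ)

variable {N}

theorem IsForm.congr_weight {k k' : ℤ} {A : ℍ → ℂ} (hA : IsForm N k A) (h : k = k') :
    IsForm N k' A := h ▸ hA

theorem IsForm.mul {k l : ℤ} {A B : ℍ → ℂ} (hA : IsForm N k A) (hB : IsForm N l B) :
    IsForm N (k + l) (A * B) :=
  ⟨HolH.mul_mem hA.hol hB.hol, fun γ hγ => by rw [mul_slash_SL2, hA.inv γ hγ, hB.inv γ hγ],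
    fun δ => by
      rw [mul_slash_SL2]
      exact (hA.bdd δ).mul (hB.bdd δ)⟩

theorem isForm_one : IsForm N 0 (1 : ℍ → ℂ) :=
  ⟨HolH.one_mem, fun γ _ => by
      funext z
      rw [SL_slash_apply]
      simp,
    fun δ => by
      have : ((1 : ℍ → ℂ) ∣[(0 : ℤ)] δ) = fun _ => (1 : ℂ) := by
        funext z
        rw [SL_slash_apply]
        simp
      rw [this]
      exact Filter.const_boundedAtFilter _ (1 : ℂ)⟩

theorem IsForm.pow {k : ℤ} {A : ℍ → ℂ} (hA : IsForm N k A) (n : ℕ) :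
    IsForm N ((n : ℤ) * k) (A ^ n) := by
  induction n with
  | zero =>
    rw [pow_zero]
    exact isForm_one.congr_weight (by simp)
  | succ n ih =>
    rw [pow_succ]
    exact (ih.mul hA).congr_weight (by push_cast; ring)

/-- The transformation formula behind `isGrowth_of_isForm`. -/
theorem form_div_discriminant_smul {k : ℤ} (F : ℍ → ℂ) (δ : SL(2, ℤ)) (z : ℍ) :
    F (δ • z) * Δ (δ • z) ^ (-k) = (F ∣[12 * k] δ) z * Δ z ^ (-k) := by
  have hd : denom δ z ≠ 0 := denom_ne_zero δ z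
  rw [SL_slash_apply, lof_discriminant_smul, mul_zpow, ← zpow_mul]
  have h1 : (denom (↑δ) z) ^ (-(12 * k)) * (denom (↑δ) z) ^ ((12 : ℤ) * -k) *
      (denom (↑δ) z) ^ ((12 : ℤ) * k) * (denom (↑δ) z) ^ ((12 : ℤ) * k)
      = (denom (↑δ) z) ^ (-(12 * k)) * (denom (↑δ) z) ^ ((12 : ℤ) * k) := by
    rw [← zpow_add₀ hd, ← zpow_add₀ hd, ← zpow_add₀ hd, ← zpow_add₀ hd]
    congr 1
    ring
  have h2 : (denom (↑δ) z) ^ (-(12 * k)) * (denom (↑δ) z) ^ ((12 : ℤ) * k) = 1 := by
    rw [← zpow_add₀ hd]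
    simp
  have h3 : (denom (↑δ) z) ^ ((12 : ℤ) * -k) = (denom (↑δ) z) ^ (-(12 * k)) := by
    congr 1
    ring
  rw [h3]
  rw [h3] at h1
  calc F (δ • z) * (Δ z ^ (-k) * denom (↑δ) z ^ (-(12 * k)))
      = F (δ • z) * Δ z ^ (-k) * denom (↑δ) z ^ (-(12 * k)) := by ring
    _ = F (δ • z) * denom (↑δ) z ^ (-(12 * k)) * Δ z ^ (-k) := by ring

theorem mdifferentiable_discriminant_zpow (k : ℤ) :
    MDifferentiable 𝓘(ℂ) 𝓘(ℂ) (fun z : ℍ => Δ z ^ k) := by
  obtain ⟨n, rfl | rfl⟩ := Int.eq_nat_or_neg k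
  · simp only [zpow_natCast]
    exact lof_mdifferentiable_pow lof_mdifferentiable_discriminant n
  · simp only [zpow_neg, zpow_natCast]
    have h1 : MDifferentiable 𝓘(ℂ) 𝓘(ℂ) (fun z : ℍ => Δ z ^ n) :=
      lof_mdifferentiable_pow lof_mdifferentiable_discriminant n
    have h2 : MDifferentiable 𝓘(ℂ) 𝓘(ℂ) (fun _ : ℍ => (1 : ℂ)) := mdifferentiable_const
    have h3 := h2.div h1 (fun z => pow_ne_zero n (discriminant_ne_zero z))
    have e : (fun z : ℍ => (Δ z ^ n)⁻¹) = (fun _ : ℍ => (1 : ℂ)) / (fun z : ℍ => Δ z ^ n) := by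
      funext z
      simp
    rw [e]
    exact h3

/-- A form of weight `12 k` divided by `Δ ^ k` satisfies the growth condition. -/
theorem isGrowth_of_isForm {k : ℤ} {F : ℍ → ℂ} (hF : IsForm N (12 * k) F) :
    IsGrowth N (fun z => F z * Δ z ^ (-k)) := by
  refine ⟨?_, fun γ hγ => ?_, fun δ => ?_⟩
  · exact MDifferentiable.mul (mem_HolH.mp hF.hol) (mdifferentiable_discriminant_zpow (-k))
  · funext z
    show F (γ • z) * Δ (γ • z) ^ (-k) = F z * Δ z ^ (-k)
    rw [form_div_discriminant_smul, hF.inv γ hγ]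
  · refine ⟨k.toNat, ?_⟩
    have e : (fun z => compSL (fun z => F z * Δ z ^ (-k)) δ z * Δ z ^ k.toNat)
        = (F ∣[12 * k] δ) * (fun z => Δ z ^ (-k).toNat) := by
      funext z
      show F (δ • z) * Δ (δ • z) ^ (-k) * Δ z ^ k.toNat = (F ∣[12 * k] δ) z * Δ z ^ (-k).toNat
      rw [form_div_discriminant_smul, mul_assoc]
      congr 1
      rw [← zpow_natCast, ← zpow_natCast, ← zpow_add₀ (discriminant_ne_zero z)]
      congr 1
      omega
    rw [e]
    exact (hF.bdd δ).mul (isBounded_discriminant_pow _)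

/-! ### `ℂ(j)` inside `F_ℂ` and inside `MerH` -/

variable (N)

/-- `j` as an element of `HolH`. -/
def jH : HolH := ⟨jFun, jFun_mdifferentiable⟩

theorem jC_eq_jL : jC N = jL ℂ N := by
  apply Subtype.ext
  rw [coe_jL]
  show coeffEmb ℂ (qExpand ℚ 1 jq) = jqModC ℂ
  rw [coeffEmbC_jd, qExpand_one_apply]

theorem realMer_jL : realMer N (jL ℂ N) = algebraMap HolH MerH jH := by
  rw [← jC_eq_jL, realMer_jC]
  rfl

theorem realMer_comp_algebraMap :
    (realMer N).comp (algebraMap ℂ (FC N)) = (algebraMap HolH MerH).comp (algebraMap ℂ HolH) :=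
  RingHom.ext (realMer_algebraMap N)

theorem realMer_aeval (p : ℂ[X]) :
    realMer N (aeval (jL ℂ N) p) = algebraMap HolH MerH (aeval jH p) := by
  rw [aeval_def, aeval_def, hom_eval₂, hom_eval₂, realMer_comp_algebraMap, realMer_jL]

/-- evaluation at a point, as an algebra hom. -/
def evz (z : ℍ) : HolH →ₐ[ℂ] ℂ := (Pi.evalAlgHom ℂ (fun _ : ℍ => ℂ) z).comp HolH.val

theorem evz_apply (z : ℍ) (f : HolH) : evz z f = (f : ℍ → ℂ) z := rfl

theorem aeval_jH_apply (p : ℂ[X]) (z : ℍ) :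
    ((aeval jH p : HolH) : ℍ → ℂ) z = p.eval (jFun z) := by
  rw [← evz_apply, ← Polynomial.aeval_algHom_apply, evz_apply]
  show aeval (jFun z) p = _
  rw [Polynomial.coe_aeval_eq_eval]

theorem jH_mem_growthAlg : jH ∈ growthAlg N := isGrowth_jFun

theorem aeval_jH_mem (p : ℂ[X]) : aeval jH p ∈ growthAlg N := by
  have h := (aeval (⟨jH, jH_mem_growthAlg N⟩ : growthAlg N) p).2
  rwa [Polynomial.aeval_subalgebra_coe] at h

theorem aeval_jL_ne_zero {p : ℂ[X]} (hp : p ≠ 0) : aeval (jL ℂ N) p ≠ 0 := fun h =>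
  hp ((transcendental_iff.mp (isGen_jL ℂ N).transcendental) p h)

theorem aeval_jH_ne_zero {p : ℂ[X]} (hp : p ≠ 0) :
    algebraMap HolH MerH (aeval jH p) ≠ 0 := by
  rw [← realMer_aeval 1]
  exact (map_ne_zero (realMer 1)).mpr (aeval_jL_ne_zero 1 hp)

/-- The field `ℂ(j) ⊆ F_ℂ`. -/
abbrev KJ : Type := ↥(ℂ⟮jL ℂ N⟯ : IntermediateField ℂ (FC N))

/-- `MerH` as an `F_ℂ`-algebra through the realisation. -/
@[reducible] def algFC : Algebra (FC N) MerH := (realMer N).toAlgebra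

attribute [local instance] algFC

theorem algebraMap_FC_eq (f : FC N) : algebraMap (FC N) MerH f = realMer N f := rfl

theorem algebraMap_KJ_eq (k : KJ N) : algebraMap (KJ N) MerH k = realMer N (k : FC N) := rfl

/-- The generator of `ℂ(j)`. -/
def jK : KJ N := IntermediateField.AdjoinSimple.gen ℂ (jL ℂ N)

theorem coe_jK : ((jK N : KJ N) : FC N) = jL ℂ N := rfl

theorem coe_aeval_jK (p : ℂ[X]) : ((aeval (jK N) p : KJ N) : FC N) = aeval (jL ℂ N) p := by
  have := Polynomial.aeval_algHom_apply (IsScalarTower.toAlgHom ℂ (KJ N) (FC N)) (jK N) p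
  exact this.symm

theorem algebraMap_aeval_jK (p : ℂ[X]) :
    algebraMap (KJ N) MerH (aeval (jK N) p) = algebraMap HolH MerH (aeval jH p) := by
  rw [algebraMap_KJ_eq N, coe_aeval_jK, realMer_aeval]

/-- Every element of `ℂ(j)` is a quotient of two polynomials in `j`, the denominator non zero. -/
theorem exists_div_KJ (k : KJ N) : ∃ r s : ℂ[X], s ≠ 0 ∧
    algebraMap (KJ N) MerH k * algebraMap HolH MerH (aeval jH s)
      = algebraMap HolH MerH (aeval jH r) := by
  obtain ⟨r, s, h⟩ := (IntermediateField.mem_adjoin_simple_iff ℂ (k : FC N)).mp k.2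
  by_cases hs : s = 0
  · refine ⟨0, 1, one_ne_zero, ?_⟩
    have hk : (k : FC N) = 0 := by
      rw [h, hs]
      simp
    rw [algebraMap_KJ_eq N, hk]
    simp
  · refine ⟨r, s, hs, ?_⟩
    rw [algebraMap_KJ_eq N, h, ← realMer_aeval N, ← realMer_aeval N, ← map_mul,
      div_mul_cancel₀ _ (aeval_jL_ne_zero N hs)]

/-! ### The `ℂ(j)`-algebra generated by the growth algebra -/

/-- `x = a / p(j)` with `a` in the growth algebra and `p ≠ 0`. -/
def InA (x : MerH) : Prop :=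
  ∃ a ∈ growthAlg N, ∃ p : ℂ[X], p ≠ 0 ∧
    x * algebraMap HolH MerH (aeval jH p) = algebraMap HolH MerH a

/-- The `ℂ(j)`-subalgebra of `MerH` generated by the growth algebra. -/
def AJ : Subalgebra (KJ N) MerH :=
  Algebra.adjoin (KJ N) ((algebraMap HolH MerH) '' (growthAlg N : Set HolH))

theorem algebraMap_mem_AJ {a : HolH} (ha : a ∈ growthAlg N) : algebraMap HolH MerH a ∈ AJ N :=
  Algebra.subset_adjoin ⟨a, ha, rfl⟩

theorem inA_of_mem_AJ {x : MerH} (hx : x ∈ AJ N) : InA N x := by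
  unfold AJ at hx
  induction hx using Algebra.adjoin_induction with
  | mem y hy =>
      obtain ⟨a, ha, rfl⟩ := hy
      refine ⟨a, ha, 1, one_ne_zero, ?_⟩
      simp
  | algebraMap k =>
      obtain ⟨r, s, hs, h⟩ := exists_div_KJ N k
      exact ⟨aeval jH r, aeval_jH_mem N r, s, hs, h⟩
  | add x y _ _ hx hy =>
      obtain ⟨a, ha, p, hp, h1⟩ := hx
      obtain ⟨b, hb, q, hq, h2⟩ := hy
      refine ⟨a * aeval jH q + b * aeval jH p,
        (growthAlg N).add_mem ((growthAlg N).mul_mem ha (aeval_jH_mem N q))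
          ((growthAlg N).mul_mem hb (aeval_jH_mem N p)), p * q, mul_ne_zero hp hq, ?_⟩
      rw [map_mul, map_mul, map_add, map_mul, map_mul, ← h1, ← h2]
      ring
  | mul x y _ _ hx hy =>
      obtain ⟨a, ha, p, hp, h1⟩ := hx
      obtain ⟨b, hb, q, hq, h2⟩ := hy
      refine ⟨a * b, (growthAlg N).mul_mem ha hb, p * q, mul_ne_zero hp hq, ?_⟩
      rw [map_mul, map_mul, map_mul, ← h1, ← h2]
      ring

/-! ### Bounded degree -/

local notation "XN" => SL(2, ℤ) ⧸ CongruenceSubgroup.Gamma0 N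

/-- an element of the growth algebra is a root of a monic polynomial of degree `ψ(N)` over
`ℂ(j)`. -/
theorem exists_monic_KJ {a : HolH} (ha : a ∈ growthAlg N) :
    ∃ Q : (KJ N)[X], Q.Monic ∧ Q.natDegree = dedekindPsi N ∧
      aeval (algebraMap HolH MerH a) Q = 0 := by
  classical
  haveI : Fintype XN := Fintype.ofFinite _
  obtain ⟨Q, hQ1, hQ2, hQ3⟩ := exists_monic_root (N := N) ha
  let φ : ℂ[X] →+* KJ N := (aeval (jK N) : ℂ[X] →ₐ[ℂ] KJ N).toRingHom
  let θ : ℂ[X] →+* HolH := (aeval jH : ℂ[X] →ₐ[ℂ] HolH).toRingHom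
  refine ⟨Q.map φ, hQ1.map φ, ?_, ?_⟩
  · rw [hQ1.natDegree_map, hQ2, ← G1Index.g1_card N, Nat.card_eq_fintype_card]
  · have hcomp : (algebraMap (KJ N) MerH).comp φ = (algebraMap HolH MerH).comp θ :=
      RingHom.ext (algebraMap_aeval_jK N)
    rw [aeval_def, eval₂_map, hcomp, ← hom_eval₂]
    have h0 : eval₂ θ a Q = 0 := by
      apply Subtype.ext
      funext z
      show evz z (eval₂ θ a Q) = 0
      have hev : ((evz z : HolH →ₐ[ℂ] ℂ) : HolH →+* ℂ).comp θ
          = Polynomial.evalRingHom (jFun z) :=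
        RingHom.ext fun p => aeval_jH_apply p z
      have := hom_eval₂ Q θ ((evz z : HolH →ₐ[ℂ] ℂ) : HolH →+* ℂ) a
      rw [hev] at this
      have h2 : ((evz z : HolH →ₐ[ℂ] ℂ) : HolH →+* ℂ) (eval₂ θ a Q) = 0 := by
        rw [this, ← eval_map]
        exact hQ3 z
      exact h2
    rw [h0, map_zero]

/-- Every element of `AJ` is integral of degree `≤ ψ(N)` over `ℂ(j)`. -/
theorem isIntegral_of_mem_AJ {x : MerH} (hx : x ∈ AJ N) :
    IsIntegral (KJ N) x ∧ (minpoly (KJ N) x).natDegree ≤ dedekindPsi N := by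
  obtain ⟨a, ha, p, hp, h⟩ := inA_of_mem_AJ N hx
  obtain ⟨Q, hQ1, hQ2, hQ3⟩ := exists_monic_KJ N ha
  set k₀ : KJ N := (aeval (jK N) p)⁻¹ with hk₀
  have hc : algebraMap HolH MerH (aeval jH p) ≠ 0 := aeval_jH_ne_zero hp
  have hx' : x = algebraMap (KJ N) MerH k₀ * algebraMap HolH MerH a := by
    rw [hk₀, map_inv₀, algebraMap_aeval_jK, ← h]
    field_simp
  have hroot : aeval x (scaleRoots Q k₀) = 0 := by
    rw [hx']
    exact scaleRoots_aeval_eq_zero hQ3
  have hmonic : (scaleRoots Q k₀).Monic := (monic_scaleRoots_iff k₀).mpr hQ1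
  refine ⟨⟨scaleRoots Q k₀, hmonic, by rw [← aeval_def]; exact hroot⟩, ?_⟩
  have h1 := Polynomial.natDegree_le_natDegree (minpoly.min (KJ N) x hmonic hroot)
  rwa [natDegree_scaleRoots, hQ2] at h1

/-! ### `Θ(F_ℂ)` and the main theorem -/

/-- The realisation as a `ℂ(j)`-algebra hom. -/
def realAlgHom : FC N →ₐ[KJ N] MerH := IsScalarTower.toAlgHom (KJ N) (FC N) MerH

theorem realAlgHom_apply (f : FC N) : realAlgHom N f = realMer N f := rfl

/-- `Θ(F_ℂ)` as an intermediate field of `MerH / ℂ(j)`. -/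
def E0 : IntermediateField (KJ N) MerH := (realAlgHom N).fieldRange

theorem finrank_E0 : Module.finrank (KJ N) (E0 N) = dedekindPsi N := by
  rw [← finrank_jL ℂ N]
  exact (AlgEquiv.ofInjectiveField (realAlgHom N)).toLinearEquiv.finrank_eq.symm

theorem E0_le_AJ : (E0 N).toSubalgebra ≤ AJ N := by
  rintro _ ⟨f, rfl⟩
  obtain ⟨u, s, hs, rfl⟩ := exists_divC_ne_zero N f
  show realMer N ((u : FC N) / (s : FC N)) ∈ AJ N
  rw [map_div₀, realMer_coe, realMer_coe, div_eq_mul_inv]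
  refine (AJ N).mul_mem (algebraMap_mem_AJ N (realC_mem_growthAlg N u)) ?_
  have hs' := algebraMap_mem_AJ N (realC_mem_growthAlg N s)
  exact Subalgebra.inv_mem_of_algebraic (AJ N) (x := ⟨_, hs'⟩)
    (isIntegral_of_mem_AJ N hs').1.isAlgebraic

/-- **The growth algebra lies in `Θ(F_ℂ)`.** -/
theorem exists_realMer_eq_of_mem_growthAlg {a : HolH} (ha : a ∈ growthAlg N) :
    ∃ f : FC N, realMer N f = algebraMap HolH MerH a := by
  have h := BoundedDegree25.mem_of_mem_subalgebra (AJ N) (E0 N) (dedekindPsi N)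
    (fun x hx => isIntegral_of_mem_AJ N hx) (E0_le_AJ N) (finrank_E0 N)
    (algebraMap_mem_AJ N ha)
  obtain ⟨f, hf⟩ := h
  exact ⟨f, hf⟩

variable {N}

/-- **J1.4 (a), raw form.** The ratio of two weight `k` forms on `Γ₀(N)` lies in `Θ(F_ℂ)`. -/
theorem ratio_mem_raw {k : ℤ} {A B : ℍ → ℂ} (hA : IsForm N k A) (hB : IsForm N k B)
    (hB0 : B ≠ 0) :
    ∃ f : FC N, realMer N f * algebraMap HolH MerH ⟨B, hB.hol⟩
      = algebraMap HolH MerH ⟨A, hA.hol⟩ := by
  have hFa : IsForm N (12 * k) (A * B ^ 11) :=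
    (hA.mul (hB.pow 11)).congr_weight (by push_cast; ring)
  have hFb : IsForm N (12 * k) (B ^ 12) := (hB.pow 12).congr_weight (by push_cast; ring)
  have ha := isGrowth_of_isForm hFa
  have hb := isGrowth_of_isForm hFb
  let a : HolH := ⟨_, ha.1⟩
  let b : HolH := ⟨_, hb.1⟩
  obtain ⟨f₁, hf₁⟩ := exists_realMer_eq_of_mem_growthAlg N (a := a) ha
  obtain ⟨f₂, hf₂⟩ := exists_realMer_eq_of_mem_growthAlg N (a := b) hb
  have hb0 : b ≠ 0 := by
    intro h
    apply hB0
    funext z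
    have h1 : (b : ℍ → ℂ) z = 0 := by rw [h]; rfl
    have h2 : B z ^ 12 * Δ z ^ (-k) = 0 := h1
    rcases mul_eq_zero.mp h2 with h3 | h3
    · exact pow_eq_zero_iff (by norm_num) |>.mp h3
    · exact absurd h3 (zpow_ne_zero _ (discriminant_ne_zero z))
  have hrel : a * ⟨B, hB.hol⟩ = b * ⟨A, hA.hol⟩ := by
    apply Subtype.ext
    funext z
    show A z * B z ^ 11 * Δ z ^ (-k) * B z = B z ^ 12 * Δ z ^ (-k) * A z
    ring
  have hb0' : algebraMap HolH MerH b ≠ 0 :=
    (map_ne_zero_iff _ (IsFractionRing.injective HolH MerH)).mpr hb0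
  refine ⟨f₁ / f₂, ?_⟩
  rw [map_div₀, hf₁, hf₂, div_mul_eq_mul_div, div_eq_iff hb0', ← map_mul, ← map_mul, hrel,
    mul_comm]

/-- A modular form on `Γ₀(N)` is a form in the raw sense. -/
theorem isForm_of_modularForm {k : ℤ}
    (A : ModularForm ((CongruenceSubgroup.Gamma0 N : Subgroup SL(2, ℤ)) :
      Subgroup (GL (Fin 2) ℝ)) k) : IsForm N k (A : ℍ → ℂ) where
  hol := A.holo'
  inv γ hγ := A.slash_action_eq' _ ⟨γ, hγ, rfl⟩
  bdd δ := ModularFormClass.bdd_at_infty_slash A δ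

/-- **J1.4 (a).** The ratio of two modular forms of weight `k` on `Γ₀(N)` lies in `Θ(F_ℂ)`. -/
theorem ratio_mem (k : ℤ)
    (A B : ModularForm ((CongruenceSubgroup.Gamma0 N : Subgroup SL(2, ℤ)) :
      Subgroup (GL (Fin 2) ℝ)) k) (hB : B ≠ 0) :
    ∃ f : FC N, realMer N f * algebraMap HolH MerH ⟨(B : ℍ → ℂ), B.holo'⟩
      = algebraMap HolH MerH ⟨(A : ℍ → ℂ), A.holo'⟩ :=
  ratio_mem_raw (isForm_of_modularForm A) (isForm_of_modularForm B)
    (fun h => hB (DFunLike.coe_injective h))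

end Fermat.Agent.ES.KUM.RatioMem12
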