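/-
Program J, chapter J1.5 (helper20), bridge for (E5): for `χ ∈ KumChar N n`,
`eisRatio χ := E_χ / E_1 ∈ MerH` (weight `4`) is a nonzero eigenfunction of `Γ₀(N)` with
character `χ`, and its `n`-th power is the realisation of an element of `F_ℂ`.
-/
import Fermat.Agent.ES.KUM.EisNZ20
import Fermat.Agent.ES.KUM.KumInst18
import Fermat.Agent.ES.KUM.RatioMem12

set_option autoImplicit false
set_option linter.unusedSectionVars false

open EisensteinSeries UpperHalfPlane Matrix CongruenceSubgroup ModularForm Filter Topology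
open scoped MatrixGroups Manifold

noncomputable section

namespace Fermat.Agent.ES.KUM.EisBridge20

open Fermat.Agent.X0 Fermat.Agent.X0.SurjPoint Fermat.Agent.ES.KUM
open Fermat.Agent.ES.KUM.EisChar20 Fermat.Agent.ES.KUM.EisPack20 Fermat.Agent.ES.KUM.EisNZ20
open Fermat.Agent.ES.KUM.KumInst18

variable {N : ℕ} [NeZero N] {n : ℕ}

/-! ### (B1) the hypotheses of the Eisenstein files from `χ ∈ KumChar N n` -/

theorem trivOnTr2_of_mem {χ : ↥(Gamma0 N) →* ℂˣ} (h : χ ∈ KumChar N n) : TrivOnTr2 χ :=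
  fun γ hγ => h.2 γ (by rw [hγ]; norm_num)

theorem neg_one_of_mem {χ : ↥(Gamma0 N) →* ℂˣ} (h : χ ∈ KumChar N n) :
    χ ⟨-1, neg_one_mem_Gamma0 N⟩ = 1 := by
  apply h.2
  have : (((⟨-1, neg_one_mem_Gamma0 N⟩ : ↥(Gamma0 N)) : SL(2, ℤ)) :
      Matrix (Fin 2) (Fin 2) ℤ).trace = -2 := by
    simp
  rw [this]; norm_num

theorem norm_eq_one_of_mem [NeZero n] {χ : ↥(Gamma0 N) →* ℂˣ} (h : χ ∈ KumChar N n)
    (γ : ↥(Gamma0 N)) : ‖(χ γ : ℂ)‖ = 1 :=
  norm_chi_eq_one (NeZero.ne n) h.1 γ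

/-! ### (B2) `E_χ` as an element of `HolH` -/

/-- `E_χ` (weight `4`) as a holomorphic function on `ℍ`. -/
def eisHol [NeZero n] (χ : ↥(Gamma0 N) →* ℂˣ) (h : χ ∈ KumChar N n) : HolH :=
  ⟨eisChi N 4 χ, eisChi_mdifferentiable (norm_eq_one_of_mem h) (by norm_num)⟩

@[simp] theorem coe_eisHol [NeZero n] (χ : ↥(Gamma0 N) →* ℂˣ) (h : χ ∈ KumChar N n) :
    ((eisHol χ h : HolH) : ℍ → ℂ) = eisChi N 4 χ := rfl

theorem eisHol_ne_zero [NeZero n] (χ : ↥(Gamma0 N) →* ℂˣ) (h : χ ∈ KumChar N n) :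
    eisHol χ h ≠ 0 := by
  intro h0
  exact eisChi_ne_zero (trivOnTr2_of_mem h) (norm_eq_one_of_mem h) (neg_one_of_mem h)
    (by norm_num : (3 : ℤ) ≤ 4) (by decide : Even (4 : ℤ)) (congrArg Subtype.val h0)

/-- The pointwise transformation law. -/
theorem eisChi_smul_apply {χ : ↥(Gamma0 N) →* ℂˣ} (hχ : TrivOnUnip χ) (k : ℤ) (γ : ↥(Gamma0 N))
    (z : ℍ) :
    eisChi N k χ ((γ : SL(2, ℤ)) • z) = (χ γ : ℂ) * denom (γ : SL(2, ℤ)) z ^ k * eisChi N k χ z := by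
  have h := congrFun (eisChi_slash hχ k γ) z
  rw [SL_slash_apply, Pi.smul_apply, smul_eq_mul, _root_.zpow_neg,
    mul_inv_eq_iff_eq_mul₀ (zpow_ne_zero _ <| denom_ne_zero _ z)] at h
  rw [h]; ring

/-! ### (B3) the eigenfunction `E_χ / E_1` -/

/-- `E_χ / E_1 ∈ MerH`. -/
def eisRatio [NeZero n] (χ : ↥(Gamma0 N) →* ℂˣ) (h : χ ∈ KumChar N n) : MerH :=
  algebraMap HolH MerH (eisHol χ h) / algebraMap HolH MerH (eisHol 1 (KumChar N n).one_mem)

theorem algebraMap_eisHol_ne_zero [NeZero n] (χ : ↥(Gamma0 N) →* ℂˣ) (h : χ ∈ KumChar N n) :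
    algebraMap HolH MerH (eisHol χ h) ≠ 0 := by
  intro h0
  exact eisHol_ne_zero χ h ((IsFractionRing.injective HolH MerH) (by rw [h0, map_zero]))

theorem eisRatio_ne_zero [NeZero n] (χ : ↥(Gamma0 N) →* ℂˣ) (h : χ ∈ KumChar N n) :
    eisRatio χ h ≠ 0 :=
  div_ne_zero (algebraMap_eisHol_ne_zero χ h) (algebraMap_eisHol_ne_zero 1 _)

/-- **the eigen-law**: `(E_χ/E_1) ∘ γ = χ(γ) · (E_χ/E_1)` for `γ ∈ Γ₀(N)`. -/
theorem slMer_eisRatio [NeZero n] (χ : ↥(Gamma0 N) →* ℂˣ) (h : χ ∈ KumChar N n)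
    (γ : ↥(Gamma0 N)) :
    slMer (γ : SL(2, ℤ)) (eisRatio χ h) =
      algebraMap HolH MerH (algebraMap ℂ HolH ((χ γ : ℂˣ) : ℂ)) * eisRatio χ h := by
  have h1 := (KumChar N n).one_mem
  unfold eisRatio
  rw [slMer_div]
  have hb' : algebraMap HolH MerH (compSLHom (γ : SL(2, ℤ)) (eisHol 1 h1)) ≠ 0 := by
    intro h0
    have h2 := (IsFractionRing.injective HolH MerH) (by rw [h0, map_zero] :
      algebraMap HolH MerH (compSLHom (γ : SL(2, ℤ)) (eisHol 1 h1)) = algebraMap HolH MerH 0)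
    exact eisHol_ne_zero 1 h1 (compSLHom_injective _ (by rw [h2, map_zero]))
  have key : algebraMap HolH MerH (compSLHom (γ : SL(2, ℤ)) (eisHol χ h)) *
        algebraMap HolH MerH (eisHol 1 h1) =
      algebraMap HolH MerH (algebraMap ℂ HolH ((χ γ : ℂˣ) : ℂ)) *
        algebraMap HolH MerH (eisHol χ h) *
        algebraMap HolH MerH (compSLHom (γ : SL(2, ℤ)) (eisHol 1 h1)) := by
    rw [← map_mul, ← map_mul, ← map_mul]
    congr 1
    apply Subtype.ext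
    funext z
    have e1 := eisChi_smul_apply (trivOnTr2_of_mem h).trivOnUnip 4 γ z
    have e2 := eisChi_smul_apply (trivOnTr2_of_mem h1).trivOnUnip 4 γ z
    simp only [MonoidHom.one_apply, Units.val_one, one_mul] at e2
    show eisChi N 4 χ ((γ : SL(2, ℤ)) • z) * eisChi N 4 1 z =
      (χ γ : ℂ) * eisChi N 4 χ z * eisChi N 4 1 ((γ : SL(2, ℤ)) • z)
    rw [e1, e2]; ring
  have hB := algebraMap_eisHol_ne_zero 1 h1
  rw [div_eq_iff hb']
  field_simp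
  rw [key]

/-- `(E_χ/E_1)^n` is the ratio of the two modular forms `E_χ^n`, `E_1^n` of weight `4n`. -/
theorem eisRatio_pow [NeZero n] (χ : ↥(Gamma0 N) →* ℂˣ) (h : χ ∈ KumChar N n) :
    eisRatio χ h ^ n =
      algebraMap HolH MerH ⟨(eisChiPowMF (trivOnTr2_of_mem h) (NeZero.ne n) h.1
          (by norm_num : (3 : ℤ) ≤ 4) : ℍ → ℂ), ModularForm.holo' _⟩ /
        algebraMap HolH MerH ⟨(eisChiPowMF (trivOnTr2_of_mem (KumChar N n).one_mem) (NeZero.ne n)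
          (KumChar N n).one_mem.1 (by norm_num : (3 : ℤ) ≤ 4) : ℍ → ℂ), ModularForm.holo' _⟩ := by
  unfold eisRatio
  rw [div_pow, ← map_pow, ← map_pow]
  rfl

/-- **`(E_χ/E_1)^n ∈ Θ(F_ℂ)`** (J1.4 applied to the two Eisenstein forms). -/
theorem exists_realMer_eq_eisRatio_pow [NeZero n] (χ : ↥(Gamma0 N) →* ℂˣ)
    (h : χ ∈ KumChar N n) : ∃ f : FC N, f ≠ 0 ∧ eisRatio χ h ^ n = realMer N f := by
  have h1 := (KumChar N n).one_mem
  set A := eisChiPowMF (trivOnTr2_of_mem h) (NeZero.ne n) h.1 (by norm_num : (3 : ℤ) ≤ 4)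
  set B := eisChiPowMF (trivOnTr2_of_mem h1) (NeZero.ne n) h1.1 (by norm_num : (3 : ℤ) ≤ 4)
  have hB : B ≠ 0 := by
    intro h0
    have : (B : ℍ → ℂ) = 0 := by rw [h0]; rfl
    rw [coe_eisChiPowMF] at this
    have h2 : eisChi N 4 (1 : ↥(Gamma0 N) →* ℂˣ) = 0 := pow_eq_zero_iff (NeZero.ne n) |>.mp this
    exact eisHol_ne_zero 1 h1 (Subtype.ext h2)
  obtain ⟨f, hf⟩ := RatioMem12.ratio_mem ((n : ℤ) * 4) A B hB
  have hBne : algebraMap HolH MerH ⟨(B : ℍ → ℂ), B.holo'⟩ ≠ 0 := by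
    intro h0
    have h2 := (IsFractionRing.injective HolH MerH) (by rw [h0, map_zero] :
      algebraMap HolH MerH ⟨(B : ℍ → ℂ), B.holo'⟩ = algebraMap HolH MerH 0)
    exact hB (DFunLike.coe_injective (congrArg Subtype.val h2))
  have hpow : eisRatio χ h ^ n = realMer N f := by
    rw [eisRatio_pow, div_eq_iff hBne]
    exact hf.symm
  refine ⟨f, ?_, hpow⟩
  rintro rfl
  rw [map_zero] at hpow
  exact eisRatio_ne_zero χ h (pow_eq_zero_iff (NeZero.ne n) |>.mp hpow)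

end Fermat.Agent.ES.KUM.EisBridge20
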