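/-
Program J, J1 (MULT), final form.

`ParMult3.parMult` (helper3) discharges the hypothesis `MultTrivial18.ParMultStmt N`, so the
multiplier statement `KumInst18.MultTrivial N n` is now UNCONDITIONAL, the Kummer map over `ℂ`
lands in `KumChar N n` unconditionally and is injective, and the Kummer isomorphism
`Pic⁰(F_ℂ)[n] ≃+ KumChar N n` has (SURJ) = `KumInst18.HasEigenfunctions N n` (E5) as its only
remaining hypothesis.
-/
import Mathlib
import Fermat.Agent.ES.KUM.MultTrivial18
import Fermat.Agent.ES.KUM.ParMult3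

set_option autoImplicit false

open UpperHalfPlane ModularCurve AlgebraicCurve HahnSeries
open scoped MatrixGroups

noncomputable section

namespace Fermat.Agent.ES.KUM.MultTrivialFinal18

open Fermat.Agent.X0 Fermat.Agent.X0.SurjPoint Fermat.Agent.ES.KUM
  Fermat.Agent.ES.KUM.KummerAbstract17 Fermat.Agent.ES.KUM.KumInst18
  Fermat.Agent.ES.KUM.MultTrivial18

variable (N : ℕ) [NeZero N]

/-- **(PARMULT)** holds: helper3's multiplier formula at `i∞`. -/
theorem parMultStmt : ParMultStmt N :=
  fun n hn φ hφ a b hb hφn _ _ _ _ ha hbq m c hc =>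
    ParMult3.parMult N n hn φ hφ a b hb hφn ha hbq m c hc

/-- **(MULT)**, unconditional: for an `n`-th root `h` of (the realization of) `f` whose divisor is
divisible by `n`, the multiplier of `h` under every `γ ∈ Γ₀(N)` with `|tr γ| ≤ 2` is `1`. -/
theorem multTrivial (n : ℕ) (hn : n ≠ 0) : MultTrivial N n :=
  multTrivial_of_parMult N (parMultStmt N) n hn

/-- the Kummer character of a torsion class lies in `KumChar N n`, unconditionally. -/
theorem kumCharOf_mem_kumChar (n : ℕ) [NeZero n] (x : ↥(Pic0.torsion ℂ (FC N) n)) :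
    kumCharOf N n x ∈ KumChar N n :=
  kummerC_mem_kumChar N n (multTrivial N n (NeZero.ne n)) x

/-- the Kummer map with values in `KumChar N n`, unconditional. -/
def kummerToC' (n : ℕ) [NeZero n] : ↥(Pic0.torsion ℂ (FC N) n) →+ Additive ↥(KumChar N n) :=
  kummerToC N n (multTrivial N n (NeZero.ne n))

theorem kummerToC'_apply (n : ℕ) [NeZero n] (x : ↥(Pic0.torsion ℂ (FC N) n)) :
    ((Additive.toMul (kummerToC' N n x) : ↥(KumChar N n)) :
      ↥(CongruenceSubgroup.Gamma0 N) →* ℂˣ) = kumCharOf N n x := rfl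

theorem kummerToC'_injective (n : ℕ) [NeZero n] : Function.Injective (kummerToC' N n) := by
  intro x y hxy
  apply kummerC_injective' N n
  have h1 : ((Additive.toMul (kummerToC' N n x) : ↥(KumChar N n)) :
      ↥(CongruenceSubgroup.Gamma0 N) →* ℂˣ) =
      ((Additive.toMul (kummerToC' N n y) : ↥(KumChar N n)) :
      ↥(CongruenceSubgroup.Gamma0 N) →* ℂˣ) := by rw [hxy]
  exact h1

/-- **The Kummer isomorphism over `ℂ`**, with only (SURJ) = E5 left as a hypothesis. -/
def kummerEquivC'' (n : ℕ) [NeZero n] (hE : HasEigenfunctions N n) :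
    ↥(Pic0.torsion ℂ (FC N) n) ≃+ Additive ↥(KumChar N n) :=
  kummerEquivC' N n (parMultStmt N) hE

theorem kummerEquivC''_apply (n : ℕ) [NeZero n] (hE : HasEigenfunctions N n)
    (x : ↥(Pic0.torsion ℂ (FC N) n)) :
    ((Additive.toMul (kummerEquivC'' N n hE x) : ↥(KumChar N n)) :
      ↥(CongruenceSubgroup.Gamma0 N) →* ℂˣ) = kumCharOf N n x := rfl

theorem kummerEquivC''_eq_kummerToC' (n : ℕ) [NeZero n] (hE : HasEigenfunctions N n)
    (x : ↥(Pic0.torsion ℂ (FC N) n)) : kummerEquivC'' N n hE x = kummerToC' N n x := rfl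

end Fermat.Agent.ES.KUM.MultTrivialFinal18
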