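/-
Program J, J1.5 (E5) closed, and the Kummer isomorphism over `ℂ`, UNCONDITIONAL.

* `abs_trace_le_two_of_smul_eq` : an element of `SL(2, ℤ)` fixing a point of `ℍ` has `|tr| ≤ 2`
  (inhabits `DivAllPlaces25.FixedTrace`);
* `hasEigenfunctions N n : KumInst18.HasEigenfunctions N n` (SURJ): `DivAllPlaces25.hasEigenfunctions_of`
  fed with the Eisenstein ratio `EisBridge20.eisRatio` and `ParMult3.parMult`;
* `kummerEquivFinal N n : Pic⁰(F_ℂ)[n] ≃+ Additive (KumChar N n)` with no hypothesis left.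
-/
import Mathlib
import Fermat.Agent.ES.KUM.MultTrivialFinal18
import Fermat.Agent.ES.KUM.DivAllPlaces25
import Fermat.Agent.ES.KUM.EisBridge20

set_option autoImplicit false

open UpperHalfPlane ModularCurve AlgebraicCurve HahnSeries
open scoped MatrixGroups

noncomputable section

namespace Fermat.Agent.ES.KUM.HasEigenFinal18

open Fermat.Agent.X0 Fermat.Agent.X0.SurjPoint Fermat.Agent.ES.KUM
  Fermat.Agent.ES.KUM.KummerAbstract17 Fermat.Agent.ES.KUM.KumInst18
  Fermat.Agent.ES.KUM.MultTrivial18 Fermat.Agent.ES.KUM.MultTrivialFinal18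

/-- An element of `SL(2, ℤ)` fixing a point of `ℍ` has trace `|tr| ≤ 2`. -/
theorem abs_trace_le_two_of_smul_eq (γ : SL(2, ℤ)) (z : ℍ) (h : γ • z = z) :
    |((γ : SL(2, ℤ)) : Matrix (Fin 2) (Fin 2) ℤ).trace| ≤ 2 := by
  have hden : ((γ 1 0 : ℤ) : ℂ) * (z : ℂ) + ((γ 1 1 : ℤ) : ℂ) ≠ 0 := by
    have := UpperHalfPlane.denom_ne_zero (γ : GL (Fin 2) ℝ) z
    simpa [UpperHalfPlane.denom] using this
  have h1 : ((γ • z : ℍ) : ℂ) = (z : ℂ) := by rw [h]
  rw [UpperHalfPlane.coe_specialLinearGroup_apply] at h1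
  simp only [algebraMap_int_eq, Int.coe_castRingHom, Complex.ofReal_intCast] at h1
  rw [div_eq_iff hden] at h1
  -- real and imaginary parts
  have hy : 0 < (z : ℂ).im := z.im_pos
  set x : ℝ := (z : ℂ).re with hx
  set y : ℝ := (z : ℂ).im with hyy
  have hz : (z : ℂ) = (x : ℂ) + (y : ℂ) * Complex.I := (Complex.re_add_im (z : ℂ)).symm
  have hre := congr_arg Complex.re h1
  have him := congr_arg Complex.im h1
  rw [hz] at hre him
  simp only [Complex.add_re, Complex.mul_re, Complex.intCast_re, Complex.intCast_im,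
    Complex.ofReal_re, Complex.ofReal_im, Complex.I_re, Complex.I_im, Complex.add_im,
    Complex.mul_im, mul_zero, mul_one, zero_mul, sub_zero, add_zero, zero_add, sub_self] at hre him
  have hdet : ((γ 0 0 : ℤ) : ℝ) * (γ 1 1 : ℤ) - (γ 0 1 : ℤ) * (γ 1 0 : ℤ) = 1 := by
    have := Matrix.SpecialLinearGroup.det_coe γ
    rw [Matrix.det_fin_two] at this
    exact_mod_cast this
  have htr : ((γ : SL(2, ℤ)) : Matrix (Fin 2) (Fin 2) ℤ).trace = γ 0 0 + γ 1 1 :=
    Matrix.trace_fin_two _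
  rw [htr]
  have key : (((γ 0 0 + γ 1 1 : ℤ) : ℝ)) ^ 2 ≤ 4 := by
    push_cast
    set a : ℝ := ((γ 0 0 : ℤ) : ℝ)
    set b : ℝ := ((γ 0 1 : ℤ) : ℝ)
    set c : ℝ := ((γ 1 0 : ℤ) : ℝ)
    set d : ℝ := ((γ 1 1 : ℤ) : ℝ)
    have e1 : a - d = 2 * c * x := by
      have : y * (a - d - 2 * c * x) = 0 := by nlinarith [him]
      rcases mul_eq_zero.mp this with h0 | h0
      · exact absurd h0 hy.ne'
      · linarith
    have e2 : b = -c * (x ^ 2 + y ^ 2) := by linear_combination hre - x * e1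
    have e3 : a * d = 1 - c ^ 2 * (x ^ 2 + y ^ 2) := by linear_combination hdet + c * e2
    have : (a + d) ^ 2 = 4 - 4 * c ^ 2 * y ^ 2 := by
      linear_combination (a - d + 2 * c * x) * e1 + 4 * e3
    nlinarith [sq_nonneg (c * y)]
  have key' : (γ 0 0 + γ 1 1 : ℤ) ^ 2 ≤ 4 := by exact_mod_cast key
  exact abs_le_of_sq_le_sq' (by simpa using key') (by norm_num) |> fun h => abs_le.mpr h

variable (N : ℕ) [NeZero N]

/-- `DivAllPlaces25.FixedTrace` holds. -/
theorem fixedTrace : DivAllPlaces25.FixedTrace := abs_trace_le_two_of_smul_eq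

/-- **(SURJ) = (E5)**: every `χ ∈ KumChar N n` has an eigenfunction `h` (the Eisenstein ratio
`E_χ / E_1`) with `h ^ n = Θ f` and `n ∣ ord_v f` at every place. -/
theorem hasEigenfunctions (n : ℕ) [NeZero n] : HasEigenfunctions N n :=
  DivAllPlaces25.hasEigenfunctions_of N fixedTrace (parMultStmt N) (NeZero.ne n) fun χ hχ => by
    obtain ⟨f, _, hf⟩ := EisBridge20.exists_realMer_eq_eisRatio_pow χ hχ
    exact ⟨EisBridge20.eisRatio χ hχ, f, EisBridge20.eisRatio_ne_zero χ hχ, hf,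
      EisBridge20.slMer_eisRatio χ hχ⟩

/-- the Kummer map over `ℂ` is surjective onto `KumChar N n`. -/
theorem kummerC_surjective (n : ℕ) [NeZero n] (χ : ↥(CongruenceSubgroup.Gamma0 N) →* ℂˣ)
    (hχ : χ ∈ KumChar N n) :
    ∃ x : ↥(Pic0.torsion ℂ (FC N) n), kummerC N n x = Additive.ofMul χ :=
  kummerC_surjective_of N n (hasEigenfunctions N n) χ hχ

/-- **The Kummer isomorphism over `ℂ`**, unconditional:
`Pic⁰(F_ℂ)[n] ≃+ {χ : Γ₀(N) → ℂˣ | χ ^ n = 1, χ γ = 1 for |tr γ| ≤ 2}`. -/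
def kummerEquivFinal (n : ℕ) [NeZero n] :
    ↥(Pic0.torsion ℂ (FC N) n) ≃+ Additive ↥(KumChar N n) :=
  kummerEquivC'' N n (hasEigenfunctions N n)

theorem kummerEquivFinal_apply (n : ℕ) [NeZero n] (x : ↥(Pic0.torsion ℂ (FC N) n)) :
    ((Additive.toMul (kummerEquivFinal N n x) : ↥(KumChar N n)) :
      ↥(CongruenceSubgroup.Gamma0 N) →* ℂˣ) = kumCharOf N n x := rfl

theorem kummerEquivFinal_eq_kummerToC' (n : ℕ) [NeZero n] (x : ↥(Pic0.torsion ℂ (FC N) n)) :
    kummerEquivFinal N n x = kummerToC' N n x := rfl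

end Fermat.Agent.ES.KUM.HasEigenFinal18
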