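/-
Program J, chapter J1.3-INST (helper17): the abstract Kummer map of `KummerAbstract17`, instantiated
for `F_ℂ = FC N`, `M = MerH` (meromorphic functions on `ℍ`), `G = Γ₀(N)` acting by `slMer`.

* `kumSetting N : Setting ℂ (FC N) MerH ↥(Gamma0 N)` (`ι` = constants, `Θ = realMer N`,
  `act γ = slMer γ`);
* `constOnly_FC N : ConstOnly ℂ (FC N)` (functions without poles are constant);
* `hasRoots N n : (kumSetting N).HasRoots n` (`n ≠ 0`): `n`-th roots in `MerH` of elements of `F_ℂ`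
  all of whose orders are divisible by `n` (`RootsMer14` + the weak point dictionary `CPoint5`);
* `kummerC N n : ↥(Pic0.torsion ℂ (FC N) n) →+ Additive (↥(Gamma0 N) →* ℂˣ)` with
  `kummerC_eigen`, `kummerC_pow_eq_one`, `kummerC_injective` (under (INV)), `exists_kummerC_eq`,
  `finite_torsionC` (under (INV)).
-/
import Mathlib
import Fermat.Agent.ES.KUM.KummerAbstract17
import Fermat.Agent.ES.KUM.CPoint5
import Fermat.Agent.ES.KUM.RootsMer14
import Fermat.Agent.ES.KUM.FieldL25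
import Fermat.Agent.RR.LHypGen
import Fermat.Agent.S22.CocycleFG

set_option autoImplicit false
set_option linter.unusedSectionVars false

open UpperHalfPlane AlgebraicCurve ModularCurve
open scoped MatrixGroups

noncomputable section

namespace Fermat.Agent.ES.KUM.KummerInst17

open Fermat.Agent.X0 Fermat.Agent.X0.SurjPoint Fermat.Agent.ES.KUM
  Fermat.Agent.ES.KUM.KummerAbstract17

variable (N : ℕ) [NeZero N]

/-- The constants of `MerH`. -/
def constMer : ℂ →+* MerH := (algebraMap HolH MerH).comp (algebraMap ℂ HolH)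

theorem constMer_apply (c : ℂ) : constMer c = algebraMap HolH MerH (algebraMap ℂ HolH c) := rfl

/-- **The Kummer setting of `X₀(N)` over `ℂ`.** -/
def kumSetting : Setting ℂ (FC N) MerH ↥(CongruenceSubgroup.Gamma0 N) where
  ι := constMer
  Θ := realMer N
  Θ_algebraMap := realMer_algebraMap N
  act γ := slMer (γ : SL(2, ℤ))
  act_ι γ c := slMer_const (γ : SL(2, ℤ)) c
  act_Θ γ f := slMer_realMer_of_mem N (γ : SL(2, ℤ)) γ.2 f
  act_mul_eigen :=
    Setting.act_mul_eigen_of_right constMer (fun γ : ↥(CongruenceSubgroup.Gamma0 N) =>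
      slMer (γ : SL(2, ℤ))) (fun γ c => slMer_const (γ : SL(2, ℤ)) c)
      (fun γ δ h => slMer_mul (γ : SL(2, ℤ)) (δ : SL(2, ℤ)) h)

@[simp] theorem kumSetting_ι (c : ℂ) :
    (kumSetting N).ι c = algebraMap HolH MerH (algebraMap ℂ HolH c) := rfl

@[simp] theorem kumSetting_Θ (f : FC N) : (kumSetting N).Θ f = realMer N f := rfl

@[simp] theorem kumSetting_act (γ : ↥(CongruenceSubgroup.Gamma0 N)) (h : MerH) :
    (kumSetting N).act γ h = slMer (γ : SL(2, ℤ)) h := rfl

/-- `jC N` is a transcendental generator of `F_ℂ / ℂ`. -/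
theorem isGen_FC : FF.IsGen ℂ (FieldL25.jL ℂ N) := FieldL25.isGen_jL ℂ N

/-- Functions without poles on `X₀(N)_ℂ` are constant. -/
theorem constOnly_FC : ConstOnly ℂ (FC N) := fun _ hf =>
  Fermat.Agent.RR.LSpace.eq_algebraMap_of_forall_ord_nonneg
    (Fermat.Agent.RR.LHypGen.lHyp_of_isGen (isGen_FC N)) hf

instance hasPrincipalDivisors_FC : HasPrincipalDivisors ℂ (FC N) :=
  FieldL25.hasPrincipalDivisors_L ℂ N

/-- (ROOT) for `X₀(N)_ℂ`. -/
theorem hasRoots (n : ℕ) (hn : n ≠ 0) : (kumSetting N).HasRoots n := by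
  intro f hf0 hdiv
  obtain ⟨u, s, hs, rfl⟩ := exists_divC_ne_zero N f
  have hu : u ≠ 0 := by
    rintro rfl
    apply hf0
    simp
  have ha : realC N u ≠ 0 := fun h0 => hu (realC_injective N (by rw [h0, map_zero]))
  have hb : realC N s ≠ 0 := fun h0 => hs (realC_injective N (by rw [h0, map_zero]))
  have hreal : realMer N ((u : FC N) / (s : FC N))
      = algebraMap HolH MerH (realC N u) / algebraMap HolH MerH (realC N s) := by
    rw [map_div₀, realMer_coe, realMer_coe]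
  obtain ⟨x, -, hx⟩ := RootsMer14.exists_root_MerH n hn (realC N u) (realC N s) ha hb (by
    intro z
    obtain ⟨m, hm⟩ := hdiv (ptPlaceC N 1 z)
    refine ⟨(ptIdx N 1 z : ℤ) * m, ?_⟩
    rw [← ordMer_div_algebraMap z ha hb, ← hreal, ordMer_realMer N z hf0, hm]
    ring)
  exact ⟨x, by rw [hx, kumSetting_Θ, hreal]⟩

/-- **The Kummer map of `X₀(N)` over `ℂ`.** -/
def kummerC (n : ℕ) [NeZero n] :
    ↥(Pic0.torsion ℂ (FC N) n) →+ Additive (↥(CongruenceSubgroup.Gamma0 N) →* ℂˣ) :=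
  kummer (kumSetting N) n (hasRoots N n (NeZero.ne n)) (constOnly_FC N)

/-- The eigenvalue equation: for any datum `(D, f, h)` of `x` (`n • D = div f`, `h ^ n = realMer f`):
`h ∘ γ = κ(x)(γ) · h`. -/
theorem kummerC_eigen (n : ℕ) [NeZero n] (x : ↥(Pic0.torsion ℂ (FC N) n))
    {D : Divisor.degZero (K := ℂ) (F := FC N)} {f : FC N} {h : MerH}
    (hd : IsDatum (kumSetting N) n (x : Pic0 ℂ (FC N)) D f h)
    (γ : ↥(CongruenceSubgroup.Gamma0 N)) :
    slMer (γ : SL(2, ℤ)) h = algebraMap HolH MerH (algebraMap ℂ HolH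
      (((Additive.toMul (kummerC N n x) : ↥(CongruenceSubgroup.Gamma0 N) →* ℂˣ) γ : ℂˣ) : ℂ)) * h :=
  kummer_eigen (kumSetting N) n _ _ x hd γ

/-- Every torsion class has a datum. -/
theorem exists_isDatum (n : ℕ) [NeZero n] (x : ↥(Pic0.torsion ℂ (FC N) n)) :
    ∃ (D : Divisor.degZero (K := ℂ) (F := FC N)) (f : FC N) (h : MerH),
      IsDatum (kumSetting N) n (x : Pic0 ℂ (FC N)) D f h := by
  obtain ⟨D, f, h, hd, -⟩ := isKum_kummer (kumSetting N) n (hasRoots N n (NeZero.ne n))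
    (constOnly_FC N) x
  exact ⟨D, f, h, hd⟩

theorem kummerC_pow_eq_one (n : ℕ) [NeZero n] (x : ↥(Pic0.torsion ℂ (FC N) n))
    (γ : ↥(CongruenceSubgroup.Gamma0 N)) :
    (Additive.toMul (kummerC N n x) : ↥(CongruenceSubgroup.Gamma0 N) →* ℂˣ) γ ^ n = 1 :=
  kummer_pow_eq_one (kumSetting N) n _ _ x γ

theorem kummerC_eq_of_isKum (n : ℕ) [NeZero n] (x : ↥(Pic0.torsion ℂ (FC N) n))
    {χ : ↥(CongruenceSubgroup.Gamma0 N) →* ℂˣ}
    (hχ : IsKum (kumSetting N) n (x : Pic0 ℂ (FC N)) χ) : kummerC N n x = Additive.ofMul χ :=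
  kummer_eq_of_isKum (kumSetting N) n _ _ x hχ

/-- **Injectivity** of the Kummer map, under (INV). -/
theorem kummerC_injective (n : ℕ) [NeZero n] (hi : (kumSetting N).InvClosed n) :
    Function.Injective (kummerC N n) :=
  kummer_injective (kumSetting N) n _ _ hi

/-- **Image criterion.** -/
theorem exists_kummerC_eq (n : ℕ) [NeZero n] (χ : ↥(CongruenceSubgroup.Gamma0 N) →* ℂˣ)
    {h : MerH} (hh : h ≠ 0)
    (he : ∀ γ : ↥(CongruenceSubgroup.Gamma0 N), slMer (γ : SL(2, ℤ)) h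
      = algebraMap HolH MerH (algebraMap ℂ HolH ((χ γ : ℂˣ) : ℂ)) * h)
    {f : FC N} (hf : h ^ n = realMer N f) (hdiv : ∀ v : Place ℂ (FC N), (n : ℤ) ∣ v.ord f) :
    ∃ x : ↥(Pic0.torsion ℂ (FC N) n), kummerC N n x = Additive.ofMul χ :=
  exists_kummer_eq (kumSetting N) n _ _ χ hh he hf hdiv

/-- `Pic0(F_ℂ)[n]` is finite, under (INV). -/
theorem finite_torsionC (n : ℕ) [NeZero n] (hi : (kumSetting N).InvClosed n) :
    Finite ↥(Pic0.torsion ℂ (FC N) n) :=
  finite_torsion (kumSetting N) n (hasRoots N n (NeZero.ne n)) (constOnly_FC N) hi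
    ((Group.fg_iff_subgroup_fg _).mpr (Fermat.Agent.S22.gamma0_fg N))

/-- Compatibility in `n`. -/
theorem kummerC_nsmul (n m : ℕ) [NeZero n] [NeZero m] (x : ↥(Pic0.torsion ℂ (FC N) (n * m)))
    (y : ↥(Pic0.torsion ℂ (FC N) n)) (hy : (y : Pic0 ℂ (FC N)) = m • (x : Pic0 ℂ (FC N))) :
    haveI : NeZero (n * m) := ⟨mul_ne_zero (NeZero.ne n) (NeZero.ne m)⟩
    kummerC N n y = m • kummerC N (n * m) x := by
  have : NeZero (n * m) := ⟨mul_ne_zero (NeZero.ne n) (NeZero.ne m)⟩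
  exact kummer_nsmul (kumSetting N) n m _ _ (constOnly_FC N) x y hy

end Fermat.Agent.ES.KUM.KummerInst17
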