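/-
Program J, chapter J1 (helper17, assisting helper18): BRIDGE between the two instantiations of the
abstract Kummer map (`KumInst18` = route of record, `KummerInst17` = spare) and the LEVEL COMPATIBILITY
of `KumInst18.kummerC` needed by the Tate-module comparison (K2):

* `settingC_eq`, `kummerC_eq` : the two settings / Kummer maps coincide (`rfl`);
* `kummerC_nsmul` : `y = m • x` (`x ∈ J[n m]`, `y ∈ J[n]`) ⇒ `κ_n y = m • κ_{n m} x`;
* `kummerC_pow_succ` : the same for `n = p ^ k`, `m = p`, stated with `p ^ (k + 1)` — literally the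
  field `compat` of `TateChar11.KummerSystem`;
* `kumCharOf_pow_succ` : multiplicative form, `kumCharOf (p ^ k) y = kumCharOf (p ^ (k+1)) x ^ p`;
* `kummerC_of_le` : `J[n] ⊂ J[n m]`: the character does not change;
* `finite_torsionC18` : `Pic0(F_ℂ)[n]` is finite under `(settingC N).InvClosed n`.
-/
import Mathlib
import Fermat.Agent.ES.KUM.KumInst18
import Fermat.Agent.ES.KUM.KummerInst17

set_option autoImplicit false
set_option linter.unusedSectionVars false

open UpperHalfPlane AlgebraicCurve ModularCurve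
open scoped MatrixGroups

noncomputable section

namespace Fermat.Agent.ES.KUM.KumBridge17

open Fermat.Agent.X0 Fermat.Agent.X0.SurjPoint Fermat.Agent.ES.KUM
  Fermat.Agent.ES.KUM.KummerAbstract17

variable (N : ℕ) [NeZero N]

/-- The two Kummer settings coincide. -/
theorem settingC_eq : KumInst18.settingC N = KummerInst17.kumSetting N := rfl

/-- The two Kummer maps coincide. -/
theorem kummerC_eq (n : ℕ) [NeZero n] : KumInst18.kummerC N n = KummerInst17.kummerC N n := rfl

/-- **Level compatibility** of `KumInst18.kummerC`: `κ_n (m • x) = m • κ_{n m} x`. -/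
theorem kummerC_nsmul (n m : ℕ) [NeZero n] [NeZero m] [NeZero (n * m)]
    (x : ↥(Pic0.torsion ℂ (FC N) (n * m))) (y : ↥(Pic0.torsion ℂ (FC N) n))
    (hy : (y : Pic0 ℂ (FC N)) = m • (x : Pic0 ℂ (FC N))) :
    KumInst18.kummerC N n y = m • KumInst18.kummerC N (n * m) x :=
  kummer_nsmul (KumInst18.settingC N) n m _ _ (KumInst18.constOnlyC N) x y hy

/-- **Level compatibility, `p`-power form** (the field `compat` of `TateChar11.KummerSystem`). -/
theorem kummerC_pow_succ (p k : ℕ) [NeZero p]
    (x : ↥(Pic0.torsion ℂ (FC N) (p ^ (k + 1)))) (y : ↥(Pic0.torsion ℂ (FC N) (p ^ k)))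
    (hy : (y : Pic0 ℂ (FC N)) = p • (x : Pic0 ℂ (FC N))) :
    KumInst18.kummerC N (p ^ k) y = p • KumInst18.kummerC N (p ^ (k + 1)) x := by
  have h1 := (KumInst18.isKum_kummerC N (p ^ (k + 1)) x)
  have h2 : IsKum (KumInst18.settingC N) (p ^ k * p) (x : Pic0 ℂ (FC N))
      (KumInst18.kumCharOf N (p ^ (k + 1)) x) := by
    rw [← pow_succ]; exact h1
  have h3 := h2.nsmul
  rw [← hy] at h3
  have h4 := KumInst18.kummerC_eq_of_isKum N (p ^ k) y h3
  apply Additive.toMul.injective
  exact h4

/-- Multiplicative form of `kummerC_pow_succ`. -/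
theorem kumCharOf_pow_succ (p k : ℕ) [NeZero p]
    (x : ↥(Pic0.torsion ℂ (FC N) (p ^ (k + 1)))) (y : ↥(Pic0.torsion ℂ (FC N) (p ^ k)))
    (hy : (y : Pic0 ℂ (FC N)) = p • (x : Pic0 ℂ (FC N))) :
    KumInst18.kumCharOf N (p ^ k) y = KumInst18.kumCharOf N (p ^ (k + 1)) x ^ p := by
  have h := kummerC_pow_succ N p k x y hy
  exact congrArg Additive.toMul h

/-- `J[n] ⊂ J[n m]`: the Kummer character does not change. -/
theorem kumCharOf_of_le (n m : ℕ) [NeZero n] [NeZero m] [NeZero (n * m)]
    (y : ↥(Pic0.torsion ℂ (FC N) n)) (x : ↥(Pic0.torsion ℂ (FC N) (n * m)))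
    (hxy : (x : Pic0 ℂ (FC N)) = (y : Pic0 ℂ (FC N))) :
    KumInst18.kumCharOf N (n * m) x = KumInst18.kumCharOf N n y := by
  have h1 := (KumInst18.isKum_kummerC N n y).mul_right m
  rw [← hxy] at h1
  exact KumInst18.kummerC_eq_of_isKum N (n * m) x h1

/-- `Pic0(F_ℂ)[n]` is finite under (INV) (in `KumInst18`'s shape). -/
theorem finite_torsionC18 (n : ℕ) [NeZero n] (hi : (KumInst18.settingC N).InvClosed n) :
    Finite ↥(Pic0.torsion ℂ (FC N) n) :=
  KummerInst17.finite_torsionC N n hi

end Fermat.Agent.ES.KUM.KumBridge17
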