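/-
Program J (S30), chapter J1.5 (helper6): **weighted Eisenstein series** `wEis a k z = ∑_{v ∈ ℤ²} a(v)·(v₀ z + v₁)^{-k}`
for an arbitrary coefficient function `a : ℤ² → ℂ` with `‖a v‖ ≤ 1`, weight `k ≥ 3` (Mathlib only).

* `summable_term`, `norm_wEis_le`                      (E1) absolute convergence, majorant;
* `wEis_mdifferentiable`                               (E1) holomorphic on `ℍ`;
* `wEis_slash`, `wEis_slash_of_equivariant`            (E2) `wEis a k ∣[k] γ = wEis (a(· γ⁻¹)) k`, `= c • wEis a k`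
                                                       when `a(v γ⁻¹) = c·a(v)`;
* `isBoundedAtImInfty_wEis_slash`                      (E4) every `SL(2,ℤ)`-translate is bounded at `i∞`;
* `tendsto_wEis_strip`, `tendsto_wEis_atImInfty`       (E3) `wEis a k z → limVal a k = ∑_{v₀ = 0} a(v) v₁^{-k}`.
The character-twisted series `E_χ` of `EisChi6` is the case `a(v) = χ(γ_v)⁻¹` (`γ_v ∈ Γ0(N)` with bottom row `v`).
-/
import Mathlib

set_option autoImplicit false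

namespace Fermat.Agent.ES.KUM.EisW6

open UpperHalfPlane EisensteinSeries Matrix ModularForm CongruenceSubgroup Filter Complex
open scoped MatrixGroups Manifold Topology

noncomputable section

/-- weighted Eisenstein series with coefficient function `a` on `ℤ²`. -/
def wEis (a : (Fin 2 → ℤ) → ℂ) (k : ℤ) (z : ℍ) : ℂ :=
  ∑' v : Fin 2 → ℤ, a v * eisSummand k v z

variable {a : (Fin 2 → ℤ) → ℂ} {k : ℤ}

lemma norm_term_le (ha : ∀ v, ‖a v‖ ≤ 1) (v : Fin 2 → ℤ) (z : ℍ) :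
    ‖a v * eisSummand k v z‖ ≤ ‖eisSummand k v z‖ := by
  rw [norm_mul]
  exact mul_le_of_le_one_left (norm_nonneg _) (ha v)

lemma summable_norm_term (ha : ∀ v, ‖a v‖ ≤ 1) (hk : 3 ≤ k) (z : ℍ) :
    Summable fun v : Fin 2 → ℤ => ‖a v * eisSummand k v z‖ :=
  (summable_norm_eisSummand hk z).of_nonneg_of_le (fun _ => norm_nonneg _)
    (fun v => norm_term_le ha v z)

lemma summable_term (ha : ∀ v, ‖a v‖ ≤ 1) (hk : 3 ≤ k) (z : ℍ) :
    Summable fun v : Fin 2 → ℤ => a v * eisSummand k v z :=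
  (summable_norm_term ha hk z).of_norm

lemma norm_wEis_le (ha : ∀ v, ‖a v‖ ≤ 1) (hk : 3 ≤ k) (z : ℍ) :
    ‖wEis a k z‖ ≤ ∑' v : Fin 2 → ℤ, ‖eisSummand k v z‖ := by
  refine le_trans (norm_tsum_le_tsum_norm (summable_norm_term ha hk z)) ?_
  exact (summable_norm_term ha hk z).tsum_le_tsum (fun v => norm_term_le ha v z)
    (summable_norm_eisSummand hk z)

/-- right multiplication by `γ ∈ SL(2,ℤ)` as a permutation of `ℤ²`. -/
lemma vecMul_inv_cancel (γ : SL(2, ℤ)) (v : Fin 2 → ℤ) :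
    (v ᵥ* (γ : Matrix (Fin 2) (Fin 2) ℤ)) ᵥ* ((γ⁻¹ : SL(2, ℤ)) : Matrix (Fin 2) (Fin 2) ℤ) = v := by
  rw [Matrix.vecMul_vecMul, ← Matrix.SpecialLinearGroup.coe_mul, mul_inv_cancel,
    Matrix.SpecialLinearGroup.coe_one, Matrix.vecMul_one]

lemma vecMul_inv_cancel' (γ : SL(2, ℤ)) (v : Fin 2 → ℤ) :
    (v ᵥ* ((γ⁻¹ : SL(2, ℤ)) : Matrix (Fin 2) (Fin 2) ℤ)) ᵥ* (γ : Matrix (Fin 2) (Fin 2) ℤ) = v := by
  rw [Matrix.vecMul_vecMul, ← Matrix.SpecialLinearGroup.coe_mul, inv_mul_cancel,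
    Matrix.SpecialLinearGroup.coe_one, Matrix.vecMul_one]

def vecMulEquiv (γ : SL(2, ℤ)) : (Fin 2 → ℤ) ≃ (Fin 2 → ℤ) where
  toFun v := v ᵥ* (γ : Matrix (Fin 2) (Fin 2) ℤ)
  invFun v := v ᵥ* ((γ⁻¹ : SL(2, ℤ)) : Matrix (Fin 2) (Fin 2) ℤ)
  left_inv v := vecMul_inv_cancel γ v
  right_inv v := vecMul_inv_cancel' γ v

/-- (E2, general form) the slash action reindexes the coefficients. -/
lemma wEis_slash (a : (Fin 2 → ℤ) → ℂ) (k : ℤ) (γ : SL(2, ℤ)) :
    wEis a k ∣[k] γ =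
      wEis (fun v => a (v ᵥ* ((γ⁻¹ : SL(2, ℤ)) : Matrix (Fin 2) (Fin 2) ℤ))) k := by
  ext1 z
  simp_rw [SL_slash_apply, _root_.zpow_neg,
    mul_inv_eq_iff_eq_mul₀ (zpow_ne_zero _ <| denom_ne_zero _ z),
    wEis, eisSummand_SL2_apply, ← tsum_mul_right]
  symm
  rw [← (vecMulEquiv γ).tsum_eq]
  refine tsum_congr fun v => ?_
  have h1 : (vecMulEquiv γ v) ᵥ* ((γ⁻¹ : SL(2, ℤ)) : Matrix (Fin 2) (Fin 2) ℤ) = v :=
    vecMul_inv_cancel γ v
  have h2 : vecMulEquiv γ v = v ᵥ* (γ : Matrix (Fin 2) (Fin 2) ℤ) := rfl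
  rw [h1, ← h2]
  ring

/-- (E2) equivariant coefficients give a semi-invariant function. -/
lemma wEis_slash_of_equivariant (a : (Fin 2 → ℤ) → ℂ) (k : ℤ) (γ : SL(2, ℤ)) (c : ℂ)
    (h : ∀ v, a (v ᵥ* ((γ⁻¹ : SL(2, ℤ)) : Matrix (Fin 2) (Fin 2) ℤ)) = c * a v) :
    wEis a k ∣[k] γ = c • wEis a k := by
  rw [wEis_slash]
  ext z
  simp only [wEis, h, Pi.smul_apply, smul_eq_mul, mul_assoc, tsum_mul_left]

/-! ### the majorant `M(z) = ∑ ‖(cz+d)^{-k}‖` is `1`-periodic and bounded on `2 ≤ Im z` -/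

lemma denom_T_zpow (n : ℤ) (z : ℍ) : denom (ModularGroup.T ^ n : SL(2, ℤ)) z = 1 := by
  rw [ModularGroup.denom_apply]
  have h := ModularGroup.coe_T_zpow n
  have h10 : (ModularGroup.T ^ n : SL(2, ℤ)) 1 0 = 0 := by
    show ((ModularGroup.T ^ n : SL(2, ℤ)) : Matrix (Fin 2) (Fin 2) ℤ) 1 0 = 0
    rw [h]; rfl
  have h11 : (ModularGroup.T ^ n : SL(2, ℤ)) 1 1 = 1 := by
    show ((ModularGroup.T ^ n : SL(2, ℤ)) : Matrix (Fin 2) (Fin 2) ℤ) 1 1 = 1
    rw [h]; rfl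
  rw [h10, h11]
  simp

lemma tsum_norm_T_zpow (k n : ℤ) (z : ℍ) :
    ∑' v : Fin 2 → ℤ, ‖eisSummand k v ((ModularGroup.T ^ n : SL(2, ℤ)) • z)‖
      = ∑' v : Fin 2 → ℤ, ‖eisSummand k v z‖ := by
  rw [← (vecMulEquiv (ModularGroup.T ^ n)).tsum_eq (fun v => ‖eisSummand k v z‖)]
  refine tsum_congr fun v => ?_
  rw [eisSummand_SL2_apply, denom_T_zpow, _root_.one_zpow, one_mul]
  rfl

/-- the explicit bound. -/
def majBound (k : ℤ) : ℝ :=
  ∑' x : Fin 2 → ℤ, r ⟨⟨1, 2⟩, Nat.ofNat_pos⟩ ^ (-k) * ‖x‖ ^ (-k)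

lemma tsum_norm_eisSummand_le (hk : 3 ≤ k) (z : ℍ) (hz : 2 ≤ z.im) :
    ∑' v : Fin 2 → ℤ, ‖eisSummand k v z‖ ≤ majBound k := by
  obtain ⟨n, hn⟩ := ModularGroup_T_zpow_mem_verticalStrip z (N := 1) one_pos
  rw [← tsum_norm_T_zpow k (((1 : ℕ) : ℤ) * n) z]
  have hk' : (2 : ℝ) < k := by norm_cast
  apply (summable_norm_eisSummand hk _).tsum_le_tsum _
  · exact_mod_cast (summable_one_div_norm_rpow hk').mul_left <| r ⟨⟨1, 2⟩, Nat.ofNat_pos⟩ ^ (-k)
  · intro x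
    simp_rw [eisSummand, norm_zpow]
    exact_mod_cast
      summand_bound_of_mem_verticalStrip (lt_trans two_pos hk').le x two_pos
      (verticalStrip_anti_right 1 hz (by exact_mod_cast hn))

theorem isBoundedAtImInfty_wEis (ha : ∀ v, ‖a v‖ ≤ 1) (hk : 3 ≤ k) :
    IsBoundedAtImInfty (wEis a k) := by
  rw [UpperHalfPlane.isBoundedAtImInfty_iff]
  exact ⟨majBound k, 2, fun z hz =>
    (norm_wEis_le ha hk z).trans (tsum_norm_eisSummand_le hk z hz)⟩

/-- (E4, boundedness half) every `SL(2,ℤ)`-translate is bounded at `i∞`. -/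
theorem isBoundedAtImInfty_wEis_slash (ha : ∀ v, ‖a v‖ ≤ 1) (hk : 3 ≤ k) (A : SL(2, ℤ)) :
    IsBoundedAtImInfty (wEis a k ∣[k] A) := by
  rw [wEis_slash]
  exact isBoundedAtImInfty_wEis (fun v => ha _) hk

/-! ### holomorphy -/

theorem wEis_tendstoLocallyUniformly (ha : ∀ v, ‖a v‖ ≤ 1) (hk : 3 ≤ k) :
    TendstoLocallyUniformly (fun (s : Finset (Fin 2 → ℤ)) ↦ (∑ x ∈ s, a x * eisSummand k x ·))
      (wEis a k ·) Filter.atTop := by
  have hk' : (2 : ℝ) < k := by norm_cast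
  have p_sum : Summable fun x : Fin 2 → ℤ ↦ ‖x‖ ^ (-k) :=
    mod_cast (summable_one_div_norm_rpow hk')
  simp only [tendstoLocallyUniformly_iff_forall_isCompact, wEis]
  intro K hK
  obtain ⟨A, B, hB, HABK⟩ := subset_verticalStrip_of_isCompact hK
  refine (tendstoUniformlyOn_tsum (hu := p_sum.mul_left <| r ⟨⟨A, B⟩, hB⟩ ^ (-k : ℝ))
    (fun p z hz ↦ ?_)).mono HABK
  refine (norm_term_le ha p z).trans ?_
  simpa only [eisSummand, one_div, ← _root_.zpow_neg, norm_zpow, ← Real.rpow_intCast,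
    Int.cast_neg] using summand_bound_of_mem_verticalStrip (by positivity) p hB hz

lemma wEis_tendstoLocallyUniformlyOn (ha : ∀ v, ‖a v‖ ≤ 1) (hk : 3 ≤ k) :
    TendstoLocallyUniformlyOn (fun (s : Finset (Fin 2 → ℤ)) ↦
      ↑ₕ(fun (z : ℍ) ↦ ∑ x ∈ s, a x * eisSummand k x z)) (↑ₕ(wEis a k))
          Filter.atTop {z : ℂ | 0 < z.im} := by
  rw [← upperHalfPlaneSet, ← range_coe, ← Set.image_univ]
  apply TendstoLocallyUniformlyOn.comp (s := ⊤) _ _ _ (OpenPartialHomeomorph.continuousOn_symm _)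
  · simp only [Set.top_eq_univ, tendstoLocallyUniformlyOn_univ]
    apply wEis_tendstoLocallyUniformly ha hk
  · simp only [Topology.IsOpenEmbedding.toOpenPartialHomeomorph_target, Set.top_eq_univ,
      Set.mapsTo_range_iff, Set.mem_univ, forall_const]

/-- (E1) the weighted Eisenstein series is holomorphic on `ℍ`. -/
theorem wEis_mdifferentiable (ha : ∀ v, ‖a v‖ ≤ 1) (hk : 3 ≤ k) :
    MDiff (wEis a k) := by
  intro τ
  suffices DifferentiableAt ℂ (↑ₕ(wEis a k)) τ.1 by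
    convert!
      MDifferentiableAt.comp τ (DifferentiableAt.mdifferentiableAt this) τ.mdifferentiable_coe
    exact funext fun z ↦ (comp_ofComplex (wEis a k) z).symm
  refine DifferentiableOn.differentiableAt ?_ (isOpen_upperHalfPlaneSet.mem_nhds τ.2)
  refine (wEis_tendstoLocallyUniformlyOn ha hk).differentiableOn
    (Eventually.of_forall fun s ↦ ?_) isOpen_upperHalfPlaneSet
  have : (↑ₕ(fun (z : ℍ) ↦ ∑ x ∈ s, a x * eisSummand k x z))
      = fun w : ℂ => ∑ x ∈ s, a x * (↑ₕ(eisSummand k x)) w := by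
    ext w; simp [Function.comp]
  rw [this]
  exact DifferentiableOn.fun_sum
    fun x _ ↦ (eisSummand_extension_differentiableOn k x).const_mul (a x)

/-! ### (E3) the limit at `i∞` -/

lemma im_le_norm_linear (v : Fin 2 → ℤ) (hv : v 0 ≠ 0) (z : ℍ) :
    z.im ≤ ‖(v 0 : ℂ) * (z : ℂ) + v 1‖ := by
  have h1 : |((v 0 : ℂ) * (z : ℂ) + v 1).im| ≤ ‖(v 0 : ℂ) * (z : ℂ) + v 1‖ :=
    Complex.abs_im_le_norm _
  have h2 : ((v 0 : ℂ) * (z : ℂ) + v 1).im = (v 0 : ℝ) * z.im := by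
    simp
  rw [h2, abs_mul, abs_of_pos z.im_pos] at h1
  have h3 : (1 : ℝ) ≤ |(v 0 : ℝ)| := by
    have : (1 : ℤ) ≤ |v 0| := Int.one_le_abs hv
    exact_mod_cast this
  calc z.im = 1 * z.im := (one_mul _).symm
    _ ≤ |(v 0 : ℝ)| * z.im := mul_le_mul_of_nonneg_right h3 z.im_pos.le
    _ ≤ _ := h1

lemma tendsto_eisSummand_atImInfty (hk : 0 < k) (v : Fin 2 → ℤ) (hv : v 0 ≠ 0) :
    Tendsto (fun z : ℍ => eisSummand k v z) atImInfty (𝓝 0) := by
  have hk0 : k ≠ 0 := hk.ne'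
  have h1 : Tendsto (fun z : ℍ => (z.im) ^ (-k)) atImInfty (𝓝 0) := by
    have : Tendsto (fun x : ℝ => x ^ (-k)) atTop (𝓝 0) := tendsto_zpow_atTop_zero (by omega)
    exact this.comp tendsto_comap
  refine squeeze_zero_norm (fun z => ?_) h1
  simp only [eisSummand, norm_zpow]
  lift k to ℕ using hk.le
  rw [_root_.zpow_neg, _root_.zpow_neg, zpow_natCast, zpow_natCast]
  have hpos : 0 < z.im ^ k := pow_pos z.im_pos k
  exact inv_anti₀ hpos (pow_le_pow_left₀ z.im_pos.le (im_le_norm_linear v hv z) k)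

/-- the limit value: only the terms with `c = 0` survive. -/
def limVal (a : (Fin 2 → ℤ) → ℂ) (k : ℤ) : ℂ :=
  ∑' v : Fin 2 → ℤ, if v 0 = 0 then a v * ((v 1 : ℂ)) ^ (-k) else 0

lemma eisSummand_of_zero (v : Fin 2 → ℤ) (hv : v 0 = 0) (z : ℍ) :
    eisSummand k v z = ((v 1 : ℂ)) ^ (-k) := by
  simp [eisSummand, hv]

/-- (E3), strip form: along `Im z → ∞` inside the strip `|Re z| ≤ 1`. -/
theorem tendsto_wEis_strip (ha : ∀ v, ‖a v‖ ≤ 1) (hk : 3 ≤ k) :
    Tendsto (wEis a k) (atImInfty ⊓ 𝓟 (verticalStrip 1 2)) (𝓝 (limVal a k)) := by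
  have hk' : (2 : ℝ) < k := by norm_cast
  unfold limVal
  have hfun : wEis a k = fun z => ∑' v : Fin 2 → ℤ, a v * eisSummand k v z := rfl
  rw [hfun]
  refine tendsto_tsum_of_dominated_convergence
    (bound := fun x : Fin 2 → ℤ => r ⟨⟨1, 2⟩, Nat.ofNat_pos⟩ ^ (-k) * ‖x‖ ^ (-k))
    ?_ (fun v => ?_) ?_
  · exact_mod_cast (summable_one_div_norm_rpow hk').mul_left <| r ⟨⟨1, 2⟩, Nat.ofNat_pos⟩ ^ (-k)
  · by_cases hv : v 0 = 0
    · simp only [hv, if_true, eisSummand_of_zero v hv]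
      exact tendsto_const_nhds
    · simp only [hv, if_false]
      have := (tendsto_eisSummand_atImInfty (k := k) (by omega) v hv).const_mul (a v)
      rw [mul_zero] at this
      exact this.mono_left inf_le_left
  · have : verticalStrip 1 2 ∈ atImInfty ⊓ 𝓟 (verticalStrip 1 2) :=
      mem_inf_of_right (mem_principal_self _)
    filter_upwards [this] with z hz v
    refine (norm_term_le ha v z).trans ?_
    simp_rw [eisSummand, norm_zpow]
    exact_mod_cast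
      summand_bound_of_mem_verticalStrip (lt_trans two_pos hk').le v two_pos hz

/-- (E3) for a `1`-periodic weighted Eisenstein series, the limit at `i∞`. -/
theorem tendsto_wEis_atImInfty (ha : ∀ v, ‖a v‖ ≤ 1) (hk : 3 ≤ k)
    (hper : ∀ (n : ℤ) (z : ℍ), wEis a k ((ModularGroup.T ^ n : SL(2, ℤ)) • z) = wEis a k z) :
    Tendsto (wEis a k) atImInfty (𝓝 (limVal a k)) := by
  intro U hU
  have h := tendsto_wEis_strip ha hk hU
  rw [Filter.mem_map, Filter.mem_inf_principal, atImInfty_mem] at h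
  obtain ⟨A, hA⟩ := h
  rw [Filter.mem_map, atImInfty_mem]
  refine ⟨max A 2, fun z hz => ?_⟩
  obtain ⟨n, hn⟩ := ModularGroup_T_zpow_mem_verticalStrip z (N := 1) one_pos
  have hz2 : (2 : ℝ) ≤ z.im := (le_max_right _ _).trans hz
  have hmem : (ModularGroup.T ^ (((1 : ℕ) : ℤ) * n) : SL(2, ℤ)) • z ∈ verticalStrip 1 2 :=
    verticalStrip_anti_right 1 hz2 (by exact_mod_cast hn)
  have him : A ≤ ((ModularGroup.T ^ (((1 : ℕ) : ℤ) * n) : SL(2, ℤ)) • z).im := by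
    rw [ModularGroup.im_T_zpow_smul]
    exact (le_max_left _ _).trans hz
  have := hA _ him hmem
  simp only [Set.mem_preimage] at this ⊢
  rwa [hper] at this

end

end Fermat.Agent.ES.KUM.EisW6
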