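/-
Program J (S30), chapter J1.5 (helper6): **the `χ`-twisted Eisenstein series** `E_χ` for a character
`χ : Γ0(N) →* ℂˣ` trivial on the stabiliser of `∞` (`TrivAtInfty χ`; implied by the `KumChar` condition, see
`trivAtInfty_of_trace`) and of modulus one (`hu`; implied by `χ^n = 1`, see `norm_eq_one_of_pow`).

  `aChi χ v := (χ γ)⁻¹` if `v` is the bottom row of `γ ∈ Γ0(N)`, `0` otherwise;  `Echi χ k := wEis (aChi χ) k`.

* `Echi_mdifferentiable hu hk`                        (E1) holomorphic;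
* `Echi_slash hχ γ`, `Echi_smul`, `Echi_div_smul`      (E2) `E_χ ∣[k] γ = χ(γ) • E_χ` for `γ ∈ Γ0(N)`; pointwise forms;
* `tendsto_Echi hχ hu hk hk2`, `Echi_ne_zero`          (E3) `E_χ → 2` at `i∞` for even `k ≥ 4`;
* `Echi_bounded hu hk A`                               (E4) every `SL(2,ℤ)`-translate is bounded at `i∞`;
* `EchiPow hχ hk n hn0 hn : ModularForm (Gamma0 N) (n * k)` with `⇑ = (Echi χ k)^n`, `EchiPow_ne_zero`.
-/
import Mathlib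
import Fermat.Agent.ES.KUM.EisW6

set_option autoImplicit false

namespace Fermat.Agent.ES.KUM.EisChi6

open UpperHalfPlane EisensteinSeries Matrix ModularForm CongruenceSubgroup Filter Complex
open scoped MatrixGroups Manifold Topology
open Fermat.Agent.ES.KUM.EisW6

noncomputable section

variable {N : ℕ} (χ : ↥(Gamma0 N) →* ℂˣ) (k : ℤ)

/-! ### bottom rows -/

/-- bottom row of an element of `SL(2,ℤ)`. -/
def botRow (γ : SL(2, ℤ)) : Fin 2 → ℤ := (γ : Matrix (Fin 2) (Fin 2) ℤ) 1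

lemma botRow_mul (γ δ : SL(2, ℤ)) :
    botRow (γ * δ) = botRow γ ᵥ* (δ : Matrix (Fin 2) (Fin 2) ℤ) := by
  unfold botRow
  rw [Matrix.SpecialLinearGroup.coe_mul]
  exact Matrix.mul_apply_eq_vecMul _ _ 1

lemma botRow_one : botRow (1 : SL(2, ℤ)) = ![0, 1] := by
  unfold botRow
  rw [Matrix.SpecialLinearGroup.coe_one]
  ext i; fin_cases i
  · simp
  · show (1 : Matrix (Fin 2) (Fin 2) ℤ) 1 1 = 1
    simp

/-- if `γ, γ'` have the same bottom row then `γ' γ⁻¹` has lower-left entry `0`. -/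
lemma lowerLeft_mul_inv_of_botRow_eq {γ γ' : SL(2, ℤ)} (h : botRow γ' = botRow γ) :
    (γ' * γ⁻¹) 1 0 = 0 := by
  have h1 : botRow (γ' * γ⁻¹) = ![0, 1] := by
    rw [botRow_mul, h, ← botRow_mul, mul_inv_cancel, botRow_one]
  have := congrFun h1 0
  simpa [botRow] using this

/-- the coefficient function of the `χ`-twisted Eisenstein series. -/
def aChi (v : Fin 2 → ℤ) : ℂ := by
  classical
  exact if h : ∃ γ : ↥(Gamma0 N), botRow (γ : SL(2, ℤ)) = v then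
    (((χ h.choose)⁻¹ : ℂˣ) : ℂ) else 0

variable {χ}

/-- `χ` is trivial on the stabiliser of `∞` (upper triangular elements). -/
def TrivAtInfty (χ : ↥(Gamma0 N) →* ℂˣ) : Prop :=
  ∀ γ : ↥(Gamma0 N), (γ : SL(2, ℤ)) 1 0 = 0 → χ γ = 1

lemma aChi_botRow (hχ : TrivAtInfty χ) (γ : ↥(Gamma0 N)) :
    aChi χ (botRow (γ : SL(2, ℤ))) = (((χ γ)⁻¹ : ℂˣ) : ℂ) := by
  classical
  have hex : ∃ γ' : ↥(Gamma0 N), botRow (γ' : SL(2, ℤ)) = botRow (γ : SL(2, ℤ)) := ⟨γ, rfl⟩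
  unfold aChi
  rw [dif_pos hex]
  have h := hex.choose_spec
  have h0 : ((hex.choose * γ⁻¹ : ↥(Gamma0 N)) : SL(2, ℤ)) 1 0 = 0 := by
    have := lowerLeft_mul_inv_of_botRow_eq h
    simpa using this
  have h1 := hχ _ h0
  rw [map_mul, map_inv, mul_inv_eq_one] at h1
  rw [h1]

lemma aChi_of_not (v : Fin 2 → ℤ) (h : ¬ ∃ γ : ↥(Gamma0 N), botRow (γ : SL(2, ℤ)) = v) :
    aChi χ v = 0 := by
  classical
  unfold aChi
  rw [dif_neg h]

lemma aChi_equivariant (hχ : TrivAtInfty χ) (γ : ↥(Gamma0 N)) (v : Fin 2 → ℤ) :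
    aChi χ (v ᵥ* (((γ : SL(2, ℤ))⁻¹ : SL(2, ℤ)) : Matrix (Fin 2) (Fin 2) ℤ))
      = ((χ γ : ℂˣ) : ℂ) * aChi χ v := by
  by_cases hv : ∃ γ' : ↥(Gamma0 N), botRow (γ' : SL(2, ℤ)) = v
  · obtain ⟨γ', rfl⟩ := hv
    have : botRow (γ' : SL(2, ℤ)) ᵥ* (((γ : SL(2, ℤ))⁻¹ : SL(2, ℤ)) : Matrix (Fin 2) (Fin 2) ℤ)
        = botRow ((γ' * γ⁻¹ : ↥(Gamma0 N)) : SL(2, ℤ)) := by
      rw [Subgroup.coe_mul, botRow_mul, Subgroup.coe_inv]
    rw [this, aChi_botRow hχ, aChi_botRow hχ, map_mul, map_inv, _root_.mul_inv_rev, inv_inv]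
    push_cast
    ring
  · rw [aChi_of_not v hv, mul_zero]
    apply aChi_of_not
    rintro ⟨γ', hγ'⟩
    apply hv
    refine ⟨γ' * γ, ?_⟩
    rw [Subgroup.coe_mul, botRow_mul, hγ']
    exact vecMul_inv_cancel' (γ : SL(2, ℤ)) v

lemma norm_aChi_le (hu : ∀ γ, ‖((χ γ : ℂˣ) : ℂ)‖ = 1) (v : Fin 2 → ℤ) : ‖aChi χ v‖ ≤ 1 := by
  classical
  unfold aChi
  split_ifs with h
  · rw [Units.val_inv_eq_inv_val, norm_inv, hu, inv_one]
  · simp

lemma norm_eq_one_of_pow {n : ℕ} (hn0 : n ≠ 0) (hn : ∀ γ, χ γ ^ n = 1) (γ : ↥(Gamma0 N)) :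
    ‖((χ γ : ℂˣ) : ℂ)‖ = 1 := by
  have h1 : ((χ γ : ℂˣ) : ℂ) ^ n = 1 := by
    have := congrArg (fun u : ℂˣ => (u : ℂ)) (hn γ)
    simpa using this
  exact Complex.norm_eq_one_of_pow_eq_one h1 hn0

variable (χ)

/-- the `χ`-twisted Eisenstein series of weight `k`. -/
def Echi : ℍ → ℂ := wEis (aChi χ) k

variable {χ} {k}

theorem Echi_mdifferentiable (hu : ∀ γ, ‖((χ γ : ℂˣ) : ℂ)‖ = 1) (hk : 3 ≤ k) :
    MDiff (Echi χ k) :=
  wEis_mdifferentiable (norm_aChi_le hu) hk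

/-- (E2) `E_χ|_k γ = χ(γ)·E_χ` for `γ ∈ Γ0(N)`. -/
theorem Echi_slash (hχ : TrivAtInfty χ) (γ : ↥(Gamma0 N)) :
    Echi χ k ∣[k] (γ : SL(2, ℤ)) = ((χ γ : ℂˣ) : ℂ) • Echi χ k :=
  wEis_slash_of_equivariant _ k _ _ (aChi_equivariant hχ γ)

/-- (E4) all `SL(2,ℤ)`-translates are bounded at `i∞`. -/
theorem Echi_bounded (hu : ∀ γ, ‖((χ γ : ℂˣ) : ℂ)‖ = 1) (hk : 3 ≤ k) (A : SL(2, ℤ)) :
    IsBoundedAtImInfty (Echi χ k ∣[k] A) :=
  isBoundedAtImInfty_wEis_slash (norm_aChi_le hu) hk A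

/-! ### periodicity and the limit at `i∞` -/

lemma T_zpow_mem_Gamma0 (N : ℕ) (n : ℤ) : (ModularGroup.T ^ n : SL(2, ℤ)) ∈ Gamma0 N := by
  rw [Gamma0_mem]
  have h := ModularGroup.coe_T_zpow n
  have h10 : (ModularGroup.T ^ n : SL(2, ℤ)) 1 0 = 0 := by
    show ((ModularGroup.T ^ n : SL(2, ℤ)) : Matrix (Fin 2) (Fin 2) ℤ) 1 0 = 0
    rw [h]; rfl
  rw [h10]; simp

lemma lowerLeft_T_zpow (n : ℤ) : (ModularGroup.T ^ n : SL(2, ℤ)) 1 0 = 0 := by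
  have h := ModularGroup.coe_T_zpow n
  show ((ModularGroup.T ^ n : SL(2, ℤ)) : Matrix (Fin 2) (Fin 2) ℤ) 1 0 = 0
  rw [h]; rfl

theorem Echi_periodic (hχ : TrivAtInfty χ) (n : ℤ) (z : ℍ) :
    Echi χ k ((ModularGroup.T ^ n : SL(2, ℤ)) • z) = Echi χ k z := by
  have h := Echi_slash (k := k) hχ ⟨ModularGroup.T ^ n, T_zpow_mem_Gamma0 N n⟩
  have hχT : χ ⟨ModularGroup.T ^ n, T_zpow_mem_Gamma0 N n⟩ = 1 := hχ _ (lowerLeft_T_zpow n)
  rw [hχT] at h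
  have h2 := congrFun h z
  simp only [Units.val_one, one_smul] at h2
  rw [SL_slash_apply] at h2
  rw [denom_T_zpow, _root_.one_zpow, mul_one] at h2
  exact h2

lemma neg_one_mem_Gamma0 (N : ℕ) : (-1 : SL(2, ℤ)) ∈ Gamma0 N := by
  rw [Gamma0_mem]
  simp

lemma botRow_neg_one : botRow (-1 : SL(2, ℤ)) = ![0, -1] := by
  unfold botRow
  ext i; fin_cases i
  · simp
  · show ((-1 : SL(2, ℤ)) : Matrix (Fin 2) (Fin 2) ℤ) 1 1 = -1
    simp

lemma aChi_zero_one (hχ : TrivAtInfty χ) : aChi χ ![0, 1] = 1 := by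
  have h := aChi_botRow hχ (1 : ↥(Gamma0 N))
  rw [map_one, inv_one, Units.val_one, Subgroup.coe_one, botRow_one] at h
  exact h

lemma aChi_zero_neg_one (hχ : TrivAtInfty χ) : aChi χ ![0, -1] = 1 := by
  have h := aChi_botRow hχ (⟨-1, neg_one_mem_Gamma0 N⟩ : ↥(Gamma0 N))
  have h1 : χ ⟨-1, neg_one_mem_Gamma0 N⟩ = 1 := hχ _ (by simp)
  rw [h1, inv_one, Units.val_one] at h
  simpa [botRow_neg_one] using h

/-- a bottom row `(0, d)` of an element of `SL(2,ℤ)` has `d = ± 1`. -/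
lemma botRow_eq_of_zero (γ : SL(2, ℤ)) (h0 : botRow γ 0 = 0) :
    botRow γ = ![0, 1] ∨ botRow γ = ![0, -1] := by
  have hdet := Matrix.SpecialLinearGroup.det_coe γ
  rw [Matrix.det_fin_two] at hdet
  have h10 : (γ : Matrix (Fin 2) (Fin 2) ℤ) 1 0 = 0 := h0
  rw [h10, mul_zero, sub_zero] at hdet
  rcases Int.eq_one_or_neg_one_of_mul_eq_one' hdet with ⟨-, h⟩ | ⟨-, h⟩
  · left
    ext i; fin_cases i
    · exact h0
    · exact h
  · right
    ext i; fin_cases i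
    · exact h0
    · exact h

theorem limVal_aChi (hχ : TrivAtInfty χ) (hk : Even k) : limVal (aChi χ) k = 2 := by
  classical
  unfold limVal
  have hne : (![0, 1] : Fin 2 → ℤ) ≠ ![0, -1] := by
    intro h
    have := congrFun h 1
    simp at this
  rw [tsum_eq_sum (s := {![0, 1], ![0, -1]})]
  · rw [Finset.sum_pair hne]
    simp only [Matrix.cons_val_zero, if_true, Matrix.cons_val_one, aChi_zero_one hχ,
      aChi_zero_neg_one hχ, one_mul]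
    have h1 : ((1 : ℤ) : ℂ) ^ (-k) = 1 := by simp
    have h2 : (((-1 : ℤ)) : ℂ) ^ (-k) = 1 := by
      have : Even (-k) := hk.neg
      push_cast
      exact this.neg_one_zpow
    rw [h1, h2]; norm_num
  · intro v hv
    split_ifs with h0
    · have : aChi χ v = 0 := by
        apply aChi_of_not
        rintro ⟨γ, hγ⟩
        apply hv
        have := botRow_eq_of_zero (γ : SL(2, ℤ)) (by rw [hγ]; exact h0)
        rw [hγ] at this
        simpa using this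
      rw [this, zero_mul]
    · rfl

/-- (E3) `E_χ(z) → 2` as `Im z → ∞` (even weight). -/
theorem tendsto_Echi (hχ : TrivAtInfty χ) (hu : ∀ γ, ‖((χ γ : ℂˣ) : ℂ)‖ = 1) (hk : 3 ≤ k)
    (hk2 : Even k) : Tendsto (Echi χ k) atImInfty (𝓝 2) := by
  have := tendsto_wEis_atImInfty (norm_aChi_le hu) hk (fun n z => Echi_periodic (k := k) hχ n z)
  rwa [limVal_aChi hχ hk2] at this

theorem Echi_ne_zero (hχ : TrivAtInfty χ) (hu : ∀ γ, ‖((χ γ : ℂˣ) : ℂ)‖ = 1) (hk : 3 ≤ k)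
    (hk2 : Even k) : Echi χ k ≠ 0 := by
  intro h
  have h1 := tendsto_Echi hχ hu hk hk2
  rw [h] at h1
  have h2 : Tendsto (0 : ℍ → ℂ) atImInfty (𝓝 0) := tendsto_const_nhds
  have := tendsto_nhds_unique h1 h2
  norm_num at this

/-! ### the `n`-th power is a modular form on `Γ0(N)` -/

lemma pow_slash_SL2 (f : ℍ → ℂ) (k : ℤ) (n : ℕ) (A : SL(2, ℤ)) :
    (f ^ n) ∣[(n : ℤ) * k] A = (f ∣[k] A) ^ n := by
  induction n with
  | zero =>
    simp only [pow_zero, Nat.cast_zero, zero_mul]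
    exact is_invariant_one A
  | succ n ih =>
    rw [pow_succ, pow_succ, ← ih]
    have : ((n + 1 : ℕ) : ℤ) * k = (n : ℤ) * k + k := by push_cast; ring
    rw [this, mul_slash_SL2]

lemma isBoundedAtImInfty_pow {f : ℍ → ℂ} (hf : IsBoundedAtImInfty f) (n : ℕ) :
    IsBoundedAtImInfty (f ^ n) :=
  (boundedFilterSubalgebra ℂ atImInfty).pow_mem (x := f) hf n

/-- (E4) `E_χ^n` as a modular form of weight `n·k` on `Γ0(N)` (trivial character since `χ^n = 1`). -/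
def EchiPow [NeZero N] (hχ : TrivAtInfty χ) (hk : 3 ≤ k) (n : ℕ) (hn0 : n ≠ 0)
    (hn : ∀ γ, χ γ ^ n = 1) : ModularForm (Gamma0 N) ((n : ℤ) * k) where
  toFun := (Echi χ k) ^ n
  slash_action_eq' A hA := by
    obtain ⟨γ, hγ, rfl⟩ := hA
    have h1 : (Echi χ k ^ n) ∣[(n : ℤ) * k] γ = Echi χ k ^ n := by
      rw [pow_slash_SL2]
      have := Echi_slash (k := k) hχ ⟨γ, hγ⟩
      simp only at this
      rw [this, smul_pow, ← Units.val_pow_eq_pow_val, hn, Units.val_one, one_smul]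
    rw [SL_slash] at h1
    exact h1
  holo' := (Echi_mdifferentiable (norm_eq_one_of_pow hn0 hn) hk).pow n
  bdd_at_cusps' {c} hc := by
    rw [Subgroup.IsArithmetic.isCusp_iff_isCusp_SL2Z] at hc
    rw [OnePoint.isBoundedAt_iff_forall_SL2Z hc]
    intro γ _
    show IsBoundedAtImInfty ((Echi χ k ^ n) ∣[(n : ℤ) * k] γ)
    rw [pow_slash_SL2]
    exact isBoundedAtImInfty_pow (Echi_bounded (norm_eq_one_of_pow hn0 hn) hk γ) n

@[simp] lemma coe_EchiPow [NeZero N] (hχ : TrivAtInfty χ) (hk : 3 ≤ k) (n : ℕ) (hn0 : n ≠ 0)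
    (hn : ∀ γ, χ γ ^ n = 1) : ⇑(EchiPow hχ hk n hn0 hn) = (Echi χ k) ^ n := rfl

lemma EchiPow_ne_zero [NeZero N] (hχ : TrivAtInfty χ) (hk : 3 ≤ k) (hk2 : Even k) (n : ℕ)
    (hn0 : n ≠ 0) (hn : ∀ γ, χ γ ^ n = 1) : EchiPow hχ hk n hn0 hn ≠ 0 := by
  intro h
  have h1 : (Echi χ k) ^ n = 0 := by
    rw [← coe_EchiPow hχ hk n hn0 hn, h]; rfl
  exact Echi_ne_zero hχ (norm_eq_one_of_pow hn0 hn) hk hk2 (pow_eq_zero_iff hn0 |>.mp h1)

/-! ### convenience forms -/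

lemma trivAtInfty_one : TrivAtInfty (1 : ↥(Gamma0 N) →* ℂˣ) := fun _ _ => rfl

/-- the `KumChar` condition (`χ` trivial on elements of trace `≤ 2` in absolute value) implies
triviality on the stabiliser of `∞`. -/
lemma trivAtInfty_of_trace
    (h : ∀ γ : ↥(Gamma0 N), |((γ : SL(2, ℤ)) : Matrix (Fin 2) (Fin 2) ℤ).trace| ≤ 2 → χ γ = 1) :
    TrivAtInfty χ := by
  intro γ hγ
  apply h
  have hdet := Matrix.SpecialLinearGroup.det_coe (γ : SL(2, ℤ))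
  rw [Matrix.det_fin_two] at hdet
  have h10 : ((γ : SL(2, ℤ)) : Matrix (Fin 2) (Fin 2) ℤ) 1 0 = 0 := hγ
  rw [h10, mul_zero, sub_zero] at hdet
  rw [Matrix.trace_fin_two]
  rcases Int.eq_one_or_neg_one_of_mul_eq_one' hdet with ⟨h1, h2⟩ | ⟨h1, h2⟩
  · rw [h1, h2]; norm_num
  · rw [h1, h2]; norm_num

/-- pointwise form of (E2). -/
theorem Echi_smul (hχ : TrivAtInfty χ) (γ : ↥(Gamma0 N)) (z : ℍ) :
    Echi χ k ((γ : SL(2, ℤ)) • z)
      = ((χ γ : ℂˣ) : ℂ) * denom ((γ : SL(2, ℤ))) z ^ k * Echi χ k z := by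
  have h := congrFun (Echi_slash (k := k) hχ γ) z
  rw [SL_slash_apply, Pi.smul_apply, smul_eq_mul] at h
  have hd : denom ((γ : SL(2, ℤ))) z ^ k ≠ 0 := zpow_ne_zero _ (denom_ne_zero _ z)
  rw [_root_.zpow_neg, mul_inv_eq_iff_eq_mul₀ hd] at h
  rw [h]; ring

/-- the quotient `E_χ / E_1` transforms by `χ` under `Γ0(N)` (pointwise, no weight factor). -/
theorem Echi_div_smul (hχ : TrivAtInfty χ) (γ : ↥(Gamma0 N)) (z : ℍ) :
    Echi χ k ((γ : SL(2, ℤ)) • z) / Echi (1 : ↥(Gamma0 N) →* ℂˣ) k ((γ : SL(2, ℤ)) • z)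
      = ((χ γ : ℂˣ) : ℂ) * (Echi χ k z / Echi (1 : ↥(Gamma0 N) →* ℂˣ) k z) := by
  rw [Echi_smul hχ, Echi_smul trivAtInfty_one]
  have hd : denom ((γ : SL(2, ℤ))) z ^ k ≠ 0 := zpow_ne_zero _ (denom_ne_zero _ z)
  simp only [MonoidHom.one_apply, Units.val_one, one_mul]
  by_cases h1 : Echi (1 : ↥(Gamma0 N) →* ℂˣ) k z = 0
  · simp [h1]
  · field_simp

end

end Fermat.Agent.ES.KUM.EisChi6
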