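/-
Program J (S30), chapter J1.5 (E5-ASSEMBLY), helper10: **every `χ ∈ KumChar N n` has an eigenfunction**.

For `χ ∈ KumChar N n` (characters of `Γ₀(N)` of exponent `n`, trivial on the elements of trace
`|tr| ≤ 2`) and the weight `k = 4`, the quotient of the `χ`-twisted Eisenstein series by the
untwisted one
  `h_χ := E_χ / E_1 ∈ MerH`
is a nonzero meromorphic function on `ℍ` with `h_χ ∘ γ = χ(γ) h_χ` for `γ ∈ Γ₀(N)`, and
`h_χ ^ n = Θ f` for some `f ∈ F_ℂ` (`ratio_mem` applied to the modular forms `E_χ ^ n`, `E_1 ^ n` of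
weight `n k` on `Γ₀(N)`).  This is the hypothesis `H` of helper25's
`DivAllPlaces25.hasEigenfunctions_of`; combined with it we get `KumInst18.HasEigenfunctions N n`
(= surjectivity of the Kummer map) from the two remaining local inputs.

Inputs: `EisChi6` (helper6), `RatioMem15.ratio_mem` (helper15), `CReal5` (helper5), `KumInst18`
(helper18), `DivAllPlaces25` (helper25).
-/
import Fermat.Agent.ES.KUM.EisChi6
import Fermat.Agent.ES.KUM.RatioMem15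
import Fermat.Agent.ES.KUM.KumInst18
import Fermat.Agent.ES.KUM.DivAllPlaces25

set_option autoImplicit false
set_option linter.unusedSectionVars false

open UpperHalfPlane ModularForm CongruenceSubgroup ModularCurve AlgebraicCurve
open scoped MatrixGroups Manifold

noncomputable section

namespace Fermat.Agent.ES.KUM.EisSurj10

open Fermat.Agent.X0 Fermat.Agent.X0.SurjPoint Fermat.Agent.ES.KUM Fermat.Agent.ES.KUM.EisChi6
  Fermat.Agent.ES.KUM.KumInst18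

variable (N : ℕ) [NeZero N]

/-! ### The Eisenstein series as elements of `HolH` -/

/-- `E_χ` (weight `k ≥ 3`, `|χ| = 1`) as a holomorphic function on `ℍ`. -/
def EchiHol (χ : ↥(Gamma0 N) →* ℂˣ) (k : ℤ) (hu : ∀ γ, ‖((χ γ : ℂˣ) : ℂ)‖ = 1) (hk : 3 ≤ k) : HolH :=
  ⟨Echi χ k, Echi_mdifferentiable hu hk⟩

@[simp] theorem coe_EchiHol (χ : ↥(Gamma0 N) →* ℂˣ) (k : ℤ) (hu : ∀ γ, ‖((χ γ : ℂˣ) : ℂ)‖ = 1)
    (hk : 3 ≤ k) : ((EchiHol N χ k hu hk : HolH) : ℍ → ℂ) = Echi χ k := rfl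

theorem EchiHol_ne_zero {χ : ↥(Gamma0 N) →* ℂˣ} {k : ℤ} (hχ : TrivAtInfty χ)
    (hu : ∀ γ, ‖((χ γ : ℂˣ) : ℂ)‖ = 1) (hk : 3 ≤ k) (hk2 : Even k) : EchiHol N χ k hu hk ≠ 0 := by
  intro h
  exact Echi_ne_zero hχ hu hk hk2 (congrArg Subtype.val h)

theorem norm_one_char (γ : ↥(Gamma0 N)) :
    ‖(((1 : ↥(Gamma0 N) →* ℂˣ) γ : ℂˣ) : ℂ)‖ = 1 := by
  simp

/-- The transformation law of `E_χ` in `HolH`, in cross-multiplied form (no weight factor):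
`E_χ(γ z) E_1(z) = χ(γ) E_χ(z) E_1(γ z)`. -/
theorem compSLHom_EchiHol_mul {χ : ↥(Gamma0 N) →* ℂˣ} {k : ℤ} (hχ : TrivAtInfty χ)
    (hu : ∀ γ, ‖((χ γ : ℂˣ) : ℂ)‖ = 1) (hk : 3 ≤ k) (γ : ↥(Gamma0 N)) :
    compSLHom (γ : SL(2, ℤ)) (EchiHol N χ k hu hk) * EchiHol N 1 k (norm_one_char N) hk =
      algebraMap ℂ HolH ((χ γ : ℂˣ) : ℂ) * EchiHol N χ k hu hk *
        compSLHom (γ : SL(2, ℤ)) (EchiHol N 1 k (norm_one_char N) hk) := by
  apply Subtype.ext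
  funext z
  show Echi χ k ((γ : SL(2, ℤ)) • z) * Echi (1 : ↥(Gamma0 N) →* ℂˣ) k z =
    ((χ γ : ℂˣ) : ℂ) * Echi χ k z * Echi (1 : ↥(Gamma0 N) →* ℂˣ) k ((γ : SL(2, ℤ)) • z)
  rw [Echi_smul hχ, Echi_smul trivAtInfty_one]
  simp only [MonoidHom.one_apply, Units.val_one, one_mul]
  ring

/-! ### The eigenfunction `h_χ = E_χ / E_1` -/

/-- `h_χ := E_χ / E_1` as a meromorphic function on `ℍ`. -/
def hChi (χ : ↥(Gamma0 N) →* ℂˣ) (k : ℤ) (hu : ∀ γ, ‖((χ γ : ℂˣ) : ℂ)‖ = 1) (hk : 3 ≤ k) : MerH :=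
  algebraMap HolH MerH (EchiHol N χ k hu hk) /
    algebraMap HolH MerH (EchiHol N 1 k (norm_one_char N) hk)

theorem algebraMap_HolH_ne_zero {a : HolH} (ha : a ≠ 0) : algebraMap HolH MerH a ≠ 0 := fun h =>
  ha (IsFractionRing.injective HolH MerH (h.trans (map_zero _).symm))

theorem hChi_ne_zero {χ : ↥(Gamma0 N) →* ℂˣ} {k : ℤ} (hχ : TrivAtInfty χ)
    (hu : ∀ γ, ‖((χ γ : ℂˣ) : ℂ)‖ = 1) (hk : 3 ≤ k) (hk2 : Even k) : hChi N χ k hu hk ≠ 0 :=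
  div_ne_zero (algebraMap_HolH_ne_zero (EchiHol_ne_zero N hχ hu hk hk2))
    (algebraMap_HolH_ne_zero (EchiHol_ne_zero N trivAtInfty_one (norm_one_char N) hk hk2))

/-- **The eigen-law**: `h_χ ∘ γ = χ(γ) h_χ` for `γ ∈ Γ₀(N)`. -/
theorem slMer_hChi {χ : ↥(Gamma0 N) →* ℂˣ} {k : ℤ} (hχ : TrivAtInfty χ)
    (hu : ∀ γ, ‖((χ γ : ℂˣ) : ℂ)‖ = 1) (hk : 3 ≤ k) (hk2 : Even k) (γ : ↥(Gamma0 N)) :
    slMer (γ : SL(2, ℤ)) (hChi N χ k hu hk) =
      algebraMap HolH MerH (algebraMap ℂ HolH ((χ γ : ℂˣ) : ℂ)) * hChi N χ k hu hk := by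
  have hb : EchiHol N 1 k (norm_one_char N) hk ≠ 0 :=
    EchiHol_ne_zero N trivAtInfty_one (norm_one_char N) hk hk2
  have hb' : algebraMap HolH MerH (EchiHol N 1 k (norm_one_char N) hk) ≠ 0 :=
    algebraMap_HolH_ne_zero hb
  have hcb : algebraMap HolH MerH
      (compSLHom (γ : SL(2, ℤ)) (EchiHol N 1 k (norm_one_char N) hk)) ≠ 0 :=
    algebraMap_HolH_ne_zero fun h =>
      hb (compSLHom_injective (γ : SL(2, ℤ)) (h.trans (map_zero _).symm))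
  have key := congrArg (algebraMap HolH MerH) (compSLHom_EchiHol_mul N hχ hu hk γ)
  simp only [map_mul] at key
  unfold hChi
  rw [slMer_div, div_eq_iff hcb, mul_div_assoc', div_mul_eq_mul_div, eq_div_iff hb']
  rw [key]

/-! ### `h_χ ^ n ∈ Θ(F_ℂ)` -/

/-- `h_χ ^ n = Θ f` for some `f ∈ F_ℂ` (`ratio_mem` for `E_χ ^ n / E_1 ^ n`). -/
theorem exists_realMer_eq_hChi_pow {χ : ↥(Gamma0 N) →* ℂˣ} {k : ℤ} (hχ : TrivAtInfty χ) (hk : 3 ≤ k)
    (hk2 : Even k) (n : ℕ) (hn0 : n ≠ 0) (hn : ∀ γ, χ γ ^ n = 1) :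
    ∃ f : FC N, hChi N χ k (norm_eq_one_of_pow hn0 hn) hk ^ n = realMer N f := by
  have h1n : ∀ γ : ↥(Gamma0 N), (1 : ↥(Gamma0 N) →* ℂˣ) γ ^ n = 1 := fun γ => by simp
  obtain ⟨f, hf⟩ := RatioMem15.ratio_mem N ((n : ℤ) * k) (EchiPow hχ hk n hn0 hn)
    (EchiPow trivAtInfty_one hk n hn0 h1n) (EchiPow_ne_zero trivAtInfty_one hk hk2 n hn0 h1n)
  refine ⟨f, ?_⟩
  have hA : (⟨(EchiPow hχ hk n hn0 hn : ℍ → ℂ), (EchiPow hχ hk n hn0 hn).holo'⟩ : HolH) =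
      EchiHol N χ k (norm_eq_one_of_pow hn0 hn) hk ^ n := Subtype.ext rfl
  have hB : (⟨(EchiPow trivAtInfty_one hk n hn0 h1n : ℍ → ℂ),
      (EchiPow trivAtInfty_one hk n hn0 h1n).holo'⟩ : HolH) =
      EchiHol N 1 k (norm_one_char N) hk ^ n := Subtype.ext rfl
  rw [hA, hB, map_pow, map_pow] at hf
  have hb' : algebraMap HolH MerH (EchiHol N 1 k (norm_one_char N) hk) ^ n ≠ 0 :=
    pow_ne_zero n (algebraMap_HolH_ne_zero
      (EchiHol_ne_zero N trivAtInfty_one (norm_one_char N) hk hk2))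
  unfold hChi
  rw [div_pow, div_eq_iff hb', hf]

/-! ### The export -/

/-- **(E5), eigenfunction part.**  Every `χ ∈ KumChar N n` has a nonzero eigenfunction `h ∈ MerH`
whose `n`-th power lies in `Θ(F_ℂ)`.  (Literally the hypothesis `H` of
`DivAllPlaces25.hasEigenfunctions_of`.) -/
theorem exists_eigenfunction {n : ℕ} (hn0 : n ≠ 0) :
    ∀ χ ∈ KumChar N n, ∃ (h : MerH) (f : FC N), h ≠ 0 ∧ h ^ n = realMer N f ∧
      ∀ γ : ↥(Gamma0 N), slMer (γ : SL(2, ℤ)) h =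
        algebraMap HolH MerH (algebraMap ℂ HolH ((χ γ : ℂˣ) : ℂ)) * h := by
  intro χ hχK
  obtain ⟨hn, htr⟩ := (mem_kumChar_iff N).mp hχK
  have hχ : TrivAtInfty χ := trivAtInfty_of_trace htr
  have hk : (3 : ℤ) ≤ 4 := by norm_num
  have hk2 : Even (4 : ℤ) := ⟨2, by norm_num⟩
  obtain ⟨f, hf⟩ := exists_realMer_eq_hChi_pow N hχ hk hk2 n hn0 hn
  exact ⟨hChi N χ 4 (norm_eq_one_of_pow hn0 hn) hk, f,
    hChi_ne_zero N hχ (norm_eq_one_of_pow hn0 hn) hk hk2, hf,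
    fun γ => slMer_hChi N hχ (norm_eq_one_of_pow hn0 hn) hk hk2 γ⟩

/-- **(SURJ) = (E5)**: `HasEigenfunctions N n`, from the two local inputs of helper25's
`DivAllPlaces25` (fixed points have trace `|tr| ≤ 2`; the parabolic multiplier formula). -/
theorem hasEigenfunctions (hfix : DivAllPlaces25.FixedTrace)
    (hpar : MultTrivial18.ParMultStmt N) {n : ℕ} (hn0 : n ≠ 0) : HasEigenfunctions N n :=
  DivAllPlaces25.hasEigenfunctions_of N hfix hpar hn0 (exists_eigenfunction N hn0)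

end Fermat.Agent.ES.KUM.EisSurj10
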