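/-
Program J, chapter J1 (Kummer theory on `ℍ`): the multiplier `mult γ z = (c z + d)⁻²` on stabilisers.

* `den`, `den_mul` (cocycle), `mult_mul`, `mult_one`, `mult_neg`, `mult_mul_of_fixed`,
  `mult_inv_of_fixed`, `mult_pow_of_fixed`, `mult_conj`;
* `mult_eq_one_iff`: for `γ` fixing `z`, `mult γ z = 1 ↔ γ = 1 ∨ γ = -1`;
* `fixed_equations`, `trace_sq_le_four_of_fixed`, `trace_sq_lt_four_of_fixed`,
  `abs_trace_le_two_of_fixed`: an element of `SL(2, ℤ)` fixing a point of `ℍ` has `|tr| ≤ 2`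
  (and `tr ^ 2 < 4` unless it is `± 1`) — the converse of `EllMult14.exists_fixed_of_trace_sq_lt`;
* `mult_zpow_ordMer_eq_one`, `dvd_ordMer_of_isPrimitiveRoot`: invariance under a stabiliser element
  forces divisibility of the order.
-/
import Fermat.Agent.ES.KUM.EllMult14

set_option autoImplicit false

open UpperHalfPlane Complex Filter Topology
open scoped MatrixGroups Manifold

noncomputable section

namespace Fermat.Agent.ES.KUM.EllStab14

open Fermat.Agent.X0 Fermat.Agent.X0.SurjPoint Fermat.Agent.ES.KUM Fermat.Agent.ES.KUM.EllMult14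

/-- The automorphy factor `c z + d` with integer entries cast to `ℂ`. -/
def den (σ : SL(2, ℤ)) (z : ℍ) : ℂ := ((σ 1 0 : ℤ) : ℂ) * z + (σ 1 1 : ℤ)

theorem den_ne_zero (σ : SL(2, ℤ)) (z : ℍ) : den σ z ≠ 0 := moebC_denom_ne_zero σ z

theorem mult_eq_den (σ : SL(2, ℤ)) (z : ℍ) : mult σ z = (den σ z ^ 2)⁻¹ := rfl

/-- Cocycle relation. -/
theorem den_mul (γ δ : SL(2, ℤ)) (z : ℍ) : den (γ * δ) z = den γ (δ • z) * den δ z := by
  have hδ := den_ne_zero δ z
  simp only [den] at hδ ⊢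
  rw [coe_smul_eq_moebC]
  simp only [moebC]
  have h10 : ((γ * δ) 1 0 : ℤ) = γ 1 0 * δ 0 0 + γ 1 1 * δ 1 0 := by
    simp [Matrix.SpecialLinearGroup.coe_mul, Matrix.mul_apply, Fin.sum_univ_two]
  have h11 : ((γ * δ) 1 1 : ℤ) = γ 1 0 * δ 0 1 + γ 1 1 * δ 1 1 := by
    simp [Matrix.SpecialLinearGroup.coe_mul, Matrix.mul_apply, Fin.sum_univ_two]
  rw [h10, h11]
  push_cast
  field_simp
  ring

theorem den_one (z : ℍ) : den 1 z = 1 := by simp [den]

theorem den_neg (γ : SL(2, ℤ)) (z : ℍ) : den (-γ) z = -den γ z := by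
  simp [den, Matrix.SpecialLinearGroup.coe_neg]
  ring

theorem mult_mul (γ δ : SL(2, ℤ)) (z : ℍ) : mult (γ * δ) z = mult γ (δ • z) * mult δ z := by
  rw [mult_eq_den, mult_eq_den, mult_eq_den, den_mul, mul_pow, mul_inv]

theorem mult_one (z : ℍ) : mult 1 z = 1 := by rw [mult_eq_den, den_one]; simp

theorem mult_neg (γ : SL(2, ℤ)) (z : ℍ) : mult (-γ) z = mult γ z := by
  rw [mult_eq_den, mult_eq_den, den_neg, neg_sq]

theorem mult_mul_of_fixed {γ δ : SL(2, ℤ)} {z : ℍ} (hδ : δ • z = z) :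
    mult (γ * δ) z = mult γ z * mult δ z := by
  rw [mult_mul, hδ]

theorem mult_inv_of_fixed {γ : SL(2, ℤ)} {z : ℍ} (hγ : γ • z = z) :
    mult γ⁻¹ z = (mult γ z)⁻¹ := by
  have h := mult_mul_of_fixed (γ := γ⁻¹) hγ
  rw [inv_mul_cancel, mult_one] at h
  exact eq_inv_of_mul_eq_one_left h.symm

theorem mult_pow_of_fixed {γ : SL(2, ℤ)} {z : ℍ} (hγ : γ • z = z) (k : ℕ) :
    mult (γ ^ k) z = mult γ z ^ k := by
  induction k with
  | zero => simp [mult_one]
  | succ k ih => rw [pow_succ, mult_mul_of_fixed hγ, ih, pow_succ]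

/-- Conjugation invariance of the multiplier. -/
theorem mult_conj (g γ : SL(2, ℤ)) {z : ℍ} (hγ : γ • z = z) :
    mult (g * γ * g⁻¹) (g • z) = mult γ z := by
  have h1 : mult g⁻¹ (g • z) * mult g z = 1 := by
    rw [← mult_mul, inv_mul_cancel, mult_one]
  rw [mult_mul, mult_mul, inv_smul_smul, hγ]
  calc mult g z * mult γ z * mult g⁻¹ (g • z)
      = mult γ z * (mult g⁻¹ (g • z) * mult g z) := by ring
    _ = mult γ z := by rw [h1, mul_one]

/-- The multiplier at a fixed point is trivial only for `± 1`. -/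
theorem mult_eq_one_iff {γ : SL(2, ℤ)} {z : ℍ} (hγ : γ • z = z) :
    mult γ z = 1 ↔ γ = 1 ∨ γ = -1 := by
  constructor
  · intro h
    rw [mult_eq_den, inv_eq_one] at h
    have h2 : (den γ z - 1) * (den γ z + 1) = 0 := by linear_combination h
    -- `c = 0`
    have him : (den γ z).im = (γ 1 0 : ℤ) * z.im := by
      simp [den]
    have hc0 : (γ 1 0 : ℤ) = 0 := by
      have him0 : (den γ z).im = 0 := by
        rcases mul_eq_zero.1 h2 with h3 | h3
        · have : den γ z = 1 := by linear_combination h3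
          rw [this]; simp
        · have : den γ z = -1 := by linear_combination h3
          rw [this]; simp
      rw [him] at him0
      have := z.im_pos.ne'
      have h4 : ((γ 1 0 : ℤ) : ℝ) = 0 := by
        rcases mul_eq_zero.1 him0 with h5 | h5
        · exact h5
        · exact absurd h5 this
      exact_mod_cast h4
    have hdet : (γ 0 0 : ℤ) * γ 1 1 - γ 0 1 * γ 1 0 = 1 := by
      have := γ.det_coe
      rw [Matrix.det_fin_two] at this
      exact this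
    rw [hc0, mul_zero, sub_zero] at hdet
    -- the fixed point equation gives `b = 0`
    have hfix : moebC γ (z : ℂ) = z := by rw [← coe_smul_eq_moebC, hγ]
    simp only [moebC] at hfix
    rw [hc0] at hfix
    simp only [Int.cast_zero, zero_mul, zero_add] at hfix
    rcases Int.eq_one_or_neg_one_of_mul_eq_one' hdet with ⟨ha, hd⟩ | ⟨ha, hd⟩
    · left
      rw [ha, hd] at hfix
      have hb : ((γ 0 1 : ℤ) : ℂ) = 0 := by
        have : ((1 : ℤ) : ℂ) * (z : ℂ) + ((γ 0 1 : ℤ) : ℂ) = z := by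
          simpa using hfix
        linear_combination this
      have hb' : (γ 0 1 : ℤ) = 0 := by exact_mod_cast hb
      ext i j
      fin_cases i <;> fin_cases j <;> simp [ha, hd, hb', hc0]
    · right
      rw [ha, hd] at hfix
      have hb : ((γ 0 1 : ℤ) : ℂ) = 0 := by
        have h5 : (((-1 : ℤ) : ℂ) * (z : ℂ) + ((γ 0 1 : ℤ) : ℂ)) / ((-1 : ℤ) : ℂ) = z := hfix
        have h6 : (((-1 : ℤ) : ℂ)) ≠ 0 := by norm_num
        rw [div_eq_iff h6] at h5
        push_cast at h5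
        linear_combination h5
      have hb' : (γ 0 1 : ℤ) = 0 := by exact_mod_cast hb
      ext i j
      fin_cases i <;> fin_cases j <;>
        simp [Matrix.SpecialLinearGroup.coe_neg, ha, hd, hb', hc0]
  · rintro (rfl | rfl)
    · exact mult_one z
    · rw [mult_neg, mult_one]


/-- The two real equations expressing `γ z = z`. -/
theorem fixed_equations {γ : SL(2, ℤ)} {z : ℍ} (hγ : γ • z = z) :
    ((γ 0 0 : ℤ) : ℝ) = 2 * (γ 1 0 : ℤ) * z.re + (γ 1 1 : ℤ) ∧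
      ((γ 0 1 : ℤ) : ℝ) = -((γ 1 0 : ℤ) : ℝ) * (z.re ^ 2 + z.im ^ 2) := by
  have hfix : moebC γ (z : ℂ) = z := by rw [← coe_smul_eq_moebC, hγ]
  simp only [moebC] at hfix
  rw [div_eq_iff (moebC_denom_ne_zero γ z)] at hfix
  have hre := congrArg Complex.re hfix
  have him := congrArg Complex.im hfix
  simp only [add_re, mul_re, intCast_re, intCast_im, zero_mul, sub_zero, add_im, mul_im,
    add_zero, UpperHalfPlane.coe_re, UpperHalfPlane.coe_im] at hre him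
  have hy : z.im ≠ 0 := z.im_pos.ne'
  have h1 : ((γ 0 0 : ℤ) : ℝ) = 2 * (γ 1 0 : ℤ) * z.re + (γ 1 1 : ℤ) := by
    have : z.im * ((γ 0 0 : ℤ) : ℝ) = z.im * (2 * (γ 1 0 : ℤ) * z.re + (γ 1 1 : ℤ)) := by
      linear_combination him
    exact mul_left_cancel₀ hy this
  refine ⟨h1, ?_⟩
  rw [h1] at hre
  linear_combination hre

/-- An element of `SL(2, ℤ)` fixing a point of `ℍ` has `tr ^ 2 ≤ 4`. -/
theorem trace_sq_le_four_of_fixed {γ : SL(2, ℤ)} {z : ℍ} (hγ : γ • z = z) :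
    ((γ 0 0 : ℤ) + γ 1 1) ^ 2 ≤ 4 := by
  obtain ⟨h1, h2⟩ := fixed_equations hγ
  have hdet : ((γ 0 0 : ℤ) : ℝ) * (γ 1 1 : ℤ) - (γ 0 1 : ℤ) * (γ 1 0 : ℤ) = 1 := by
    have := γ.det_coe
    rw [Matrix.det_fin_two] at this
    exact_mod_cast this
  have key : (((γ 0 0 : ℤ) : ℝ) + (γ 1 1 : ℤ)) ^ 2 = 4 - 4 * ((γ 1 0 : ℤ) : ℝ) ^ 2 * z.im ^ 2 := by
    rw [h2] at hdet
    rw [h1] at hdet ⊢
    linear_combination 4 * hdet
  have hR : (((γ 0 0 : ℤ) : ℝ) + (γ 1 1 : ℤ)) ^ 2 ≤ 4 := by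
    rw [key]
    have : 0 ≤ 4 * ((γ 1 0 : ℤ) : ℝ) ^ 2 * z.im ^ 2 := by positivity
    linarith
  exact_mod_cast hR

/-- An element of `SL(2, ℤ)` fixing a point of `ℍ` is `± 1` or has `tr ^ 2 < 4`. -/
theorem trace_sq_lt_four_of_fixed {γ : SL(2, ℤ)} {z : ℍ} (hγ : γ • z = z) (h1 : γ ≠ 1)
    (hm1 : γ ≠ -1) : ((γ 0 0 : ℤ) + γ 1 1) ^ 2 < 4 := by
  obtain ⟨e1, e2⟩ := fixed_equations hγ
  have hdet : ((γ 0 0 : ℤ) : ℝ) * (γ 1 1 : ℤ) - (γ 0 1 : ℤ) * (γ 1 0 : ℤ) = 1 := by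
    have := γ.det_coe
    rw [Matrix.det_fin_two] at this
    exact_mod_cast this
  have key : (((γ 0 0 : ℤ) : ℝ) + (γ 1 1 : ℤ)) ^ 2 = 4 - 4 * ((γ 1 0 : ℤ) : ℝ) ^ 2 * z.im ^ 2 := by
    rw [e2] at hdet
    rw [e1] at hdet ⊢
    linear_combination 4 * hdet
  have hc0 : (γ 1 0 : ℤ) ≠ 0 := by
    intro hc
    -- then `mult γ z = 1`, so `γ = ± 1`
    have hden : den γ z = (γ 1 1 : ℤ) := by simp [den, hc]
    have hdetZ : (γ 0 0 : ℤ) * γ 1 1 - γ 0 1 * γ 1 0 = 1 := by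
      have := γ.det_coe
      rw [Matrix.det_fin_two] at this
      exact this
    rw [hc, mul_zero, sub_zero] at hdetZ
    have hd : (γ 1 1 : ℤ) = 1 ∨ (γ 1 1 : ℤ) = -1 := by
      rcases Int.eq_one_or_neg_one_of_mul_eq_one' hdetZ with ⟨-, hd⟩ | ⟨-, hd⟩
      · exact Or.inl hd
      · exact Or.inr hd
    have hmult : mult γ z = 1 := by
      rw [mult_eq_den, hden]
      rcases hd with hd | hd <;> rw [hd] <;> norm_num
    rcases (mult_eq_one_iff hγ).1 hmult with h | h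
    · exact h1 h
    · exact hm1 h
  have hR : (((γ 0 0 : ℤ) : ℝ) + (γ 1 1 : ℤ)) ^ 2 < 4 := by
    rw [key]
    have hcR : ((γ 1 0 : ℤ) : ℝ) ≠ 0 := by exact_mod_cast hc0
    have : 0 < 4 * ((γ 1 0 : ℤ) : ℝ) ^ 2 * z.im ^ 2 := by
      have := z.im_pos
      positivity
    linarith
  exact_mod_cast hR

/-- An element of `SL(2, ℤ)` fixing a point of `ℍ` has `|tr| ≤ 2` (the shape used in
`KumInst18.KumChar`). -/
theorem abs_trace_le_two_of_fixed {γ : SL(2, ℤ)} {z : ℍ} (hγ : γ • z = z) :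
    |(γ : Matrix (Fin 2) (Fin 2) ℤ).trace| ≤ 2 := by
  rw [Matrix.trace_fin_two]
  have h := trace_sq_le_four_of_fixed hγ
  have h4 : ((γ 0 0 : ℤ) + γ 1 1) ^ 2 ≤ 2 ^ 2 := by
    rw [show (2 : ℤ) ^ 2 = 4 by norm_num]
    exact h
  exact abs_le_of_sq_le_sq h4 (by norm_num)

/-- A non-zero meromorphic function invariant under `γ` fixing `z₀`: the multiplier is an
`ord`-th root of unity. -/
theorem mult_zpow_ordMer_eq_one {φ : MerH} (hφ : φ ≠ 0) (γ : SL(2, ℤ)) (z₀ : ℍ)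
    (hfix : γ • z₀ = z₀) (hinv : slMer γ φ = φ) : mult γ z₀ ^ (ordMer z₀ φ) = 1 := by
  have h1 : slMer γ φ = algebraMap HolH MerH (algebraMap ℂ HolH 1) * φ := by
    rw [map_one, map_one, one_mul]
    exact hinv
  exact (eq_mult_zpow_ordMer hφ γ z₀ hfix h1).symm

/-- If `φ ≠ 0` is invariant under `γ` fixing `z₀` and the multiplier is a primitive `e`-th root of
unity, then `e` divides the order of `φ` at `z₀`. -/
theorem dvd_ordMer_of_isPrimitiveRoot {φ : MerH} (hφ : φ ≠ 0) (γ : SL(2, ℤ)) (z₀ : ℍ)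
    (hfix : γ • z₀ = z₀) (hinv : slMer γ φ = φ) {e : ℕ} (he : IsPrimitiveRoot (mult γ z₀) e) :
    (e : ℤ) ∣ ordMer z₀ φ :=
  (he.zpow_eq_one_iff_dvd _).1 (mult_zpow_ordMer_eq_one hφ γ z₀ hfix hinv)

end Fermat.Agent.ES.KUM.EllStab14
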