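/-
Program J (S30), chapter J1, FINAL (helper10): **surjectivity of the Kummer map over `ℂ`,
unconditional**, and the Kummer isomorphism
  `kummerEquivFinal N n : Pic⁰(F_ℂ)[n] ≃+ Additive (KumChar N n)`.

* `hasEigenfunctions N hn0 : KumInst18.HasEigenfunctions N n` (= (SURJ) = (E5)):
  `EisSurj10.hasEigenfunctions` with its two local inputs discharged by
  `EllStab14.abs_trace_le_two_of_fixed` (helper14) and `MultTrivialFinal18.parMultStmt`
  (helper3's `ParMult3.parMult`, packaged by helper18);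
* `kummerEquivFinal N n := MultTrivialFinal18.kummerEquivC'' N n (hasEigenfunctions …)`, with
  underlying character `KumInst18.kumCharOf N n x` (`kummerEquivFinal_apply`, by `rfl`);
* `kummerC_surjective` : every `χ ∈ KumChar N n` is `kummerC N n x` for some `x`.
-/
import Fermat.Agent.ES.KUM.EisSurj10
import Fermat.Agent.ES.KUM.EllStab14
import Fermat.Agent.ES.KUM.MultTrivialFinal18

set_option autoImplicit false
set_option linter.unusedSectionVars false

open UpperHalfPlane ModularCurve AlgebraicCurve CongruenceSubgroup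
open scoped MatrixGroups

noncomputable section

namespace Fermat.Agent.ES.KUM.EisSurjFinal10

open Fermat.Agent.X0 Fermat.Agent.X0.SurjPoint Fermat.Agent.ES.KUM Fermat.Agent.ES.KUM.KumInst18

variable (N : ℕ) [NeZero N]

/-- Elements of `SL(2, ℤ)` fixing a point of `ℍ` have `|tr| ≤ 2` (helper14). -/
theorem fixedTrace : DivAllPlaces25.FixedTrace :=
  fun _ _ h => EllStab14.abs_trace_le_two_of_fixed h

/-- **(SURJ) = (E5), unconditional**: every `χ ∈ KumChar N n` has an eigenfunction `h ∈ MerH` with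
`h ^ n = Θ f`, `n ∣ ord_v f` at every place `v` of `F_ℂ`. -/
theorem hasEigenfunctions {n : ℕ} (hn0 : n ≠ 0) : HasEigenfunctions N n :=
  EisSurj10.hasEigenfunctions N fixedTrace (MultTrivialFinal18.parMultStmt N) hn0

/-- **The Kummer map over `ℂ` is onto `KumChar N n`.** -/
theorem kummerC_surjective (n : ℕ) [NeZero n] (χ : ↥(Gamma0 N) →* ℂˣ) (hχ : χ ∈ KumChar N n) :
    ∃ x : ↥(Pic0.torsion ℂ (FC N) n), kummerC N n x = Additive.ofMul χ :=
  kummerC_surjective_of N n (hasEigenfunctions N (NeZero.ne n)) χ hχ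

/-- **The Kummer isomorphism over `ℂ`, unconditional**:
`Pic⁰(F_ℂ)[n] ≃+ KumChar N n` (characters of `Γ₀(N)` of exponent `n` trivial on the elements of
trace `|tr| ≤ 2`). -/
def kummerEquivFinal (n : ℕ) [NeZero n] :
    ↥(Pic0.torsion ℂ (FC N) n) ≃+ Additive ↥(KumChar N n) :=
  MultTrivialFinal18.kummerEquivC'' N n (hasEigenfunctions N (NeZero.ne n))

theorem kummerEquivFinal_apply (n : ℕ) [NeZero n] (x : ↥(Pic0.torsion ℂ (FC N) n)) :
    ((Additive.toMul (kummerEquivFinal N n x) : ↥(KumChar N n)) : ↥(Gamma0 N) →* ℂˣ) =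
      kumCharOf N n x := rfl

theorem kummerEquivFinal_eq_kummerToC' (n : ℕ) [NeZero n] (x : ↥(Pic0.torsion ℂ (FC N) n)) :
    kummerEquivFinal N n x = MultTrivialFinal18.kummerToC' N n x := rfl

end Fermat.Agent.ES.KUM.EisSurjFinal10
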