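/-
Program J (S30), chapter J1.5 (helper6): **bridge between the two landed Eisenstein libraries**
`EisW6`/`EisChi6` (helper6) and `EisChar20`/`EisPack20` (helper20): the weighted sums and the
`χ`-twisted series are literally the same functions, so every theorem of one library applies to
the other (`tendsto_eisChi`, `eisChi_ne_zero`, `Echi_slash_vadd` are transported as examples).
-/
import Mathlib
import Fermat.Agent.ES.KUM.EisChi6
import Fermat.Agent.ES.KUM.EisPack20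

set_option autoImplicit false

namespace Fermat.Agent.ES.KUM.EisBridge6

open UpperHalfPlane EisensteinSeries Matrix ModularForm CongruenceSubgroup Filter Complex
open scoped MatrixGroups Manifold Topology
open Fermat.Agent.ES.KUM

noncomputable section

variable {N : ℕ} {χ : ↥(Gamma0 N) →* ℂˣ} {k : ℤ}

lemma wEis_eq_eisW (a : (Fin 2 → ℤ) → ℂ) (k : ℤ) : EisW6.wEis a k = EisChar20.eisW k a := rfl

lemma botRow_eq (γ : SL(2, ℤ)) : EisChi6.botRow γ = EisChar20.botRow γ := rfl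

lemma trivOnUnip_of_trivAtInfty (hχ : EisChi6.TrivAtInfty χ) : EisChar20.TrivOnUnip χ :=
  fun γ h0 _ => hχ γ h0

lemma trivAtInfty_of_trivOnTr2 (hχ : EisPack20.TrivOnTr2 χ)
    (hneg : χ ⟨-1, EisChi6.neg_one_mem_Gamma0 N⟩ = 1) : EisChi6.TrivAtInfty χ := by
  intro γ hγ
  have hdet := Matrix.SpecialLinearGroup.det_coe (γ : SL(2, ℤ))
  rw [Matrix.det_fin_two] at hdet
  have h10 : ((γ : SL(2, ℤ)) : Matrix (Fin 2) (Fin 2) ℤ) 1 0 = 0 := hγ
  rw [h10, mul_zero, sub_zero] at hdet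
  rcases Int.eq_one_or_neg_one_of_mul_eq_one' hdet with ⟨h1, h2⟩ | ⟨h1, h2⟩
  · apply hχ
    rw [Matrix.trace_fin_two, h1, h2]; norm_num
  · -- `γ = (-1) * (-γ)` and `-γ` has trace `2`
    have hmem : (-(γ : SL(2, ℤ))) ∈ Gamma0 N := by
      rw [Gamma0_mem]
      have : (-(γ : SL(2, ℤ))) 1 0 = -((γ : SL(2, ℤ)) 1 0) := by simp
      rw [this, hγ]; simp
    have htr : Matrix.trace (((⟨-(γ : SL(2, ℤ)), hmem⟩ : ↥(Gamma0 N)) : SL(2, ℤ)) :
        Matrix (Fin 2) (Fin 2) ℤ) = 2 := by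
      rw [Matrix.trace_fin_two]
      show ((-(γ : SL(2, ℤ)) : SL(2, ℤ)) : Matrix (Fin 2) (Fin 2) ℤ) 0 0
        + ((-(γ : SL(2, ℤ)) : SL(2, ℤ)) : Matrix (Fin 2) (Fin 2) ℤ) 1 1 = 2
      rw [Matrix.SpecialLinearGroup.coe_neg]
      simp only [Matrix.neg_apply, h1, h2]; norm_num
    have h3 := hχ _ htr
    have h4 : γ = ⟨-1, EisChi6.neg_one_mem_Gamma0 N⟩ * ⟨-(γ : SL(2, ℤ)), hmem⟩ := by
      apply Subtype.ext
      simp
    rw [h4, map_mul, hneg, h3, one_mul]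

/-- the two coefficient functions agree. -/
theorem aChi_eq_wChi (hχ : EisChi6.TrivAtInfty χ) : EisChi6.aChi χ = EisChar20.wChi N χ := by
  funext v
  by_cases hv : ∃ γ : ↥(Gamma0 N), EisChi6.botRow (γ : SL(2, ℤ)) = v
  · obtain ⟨γ, rfl⟩ := hv
    rw [EisChi6.aChi_botRow hχ γ, botRow_eq,
      EisChar20.wChi_botRow (trivOnUnip_of_trivAtInfty hχ) γ]
  · rw [EisChi6.aChi_of_not v hv, EisChar20.wChi_of_not hv]

/-- **the bridge**: helper6's `Echi χ k` is helper20's `eisChi N k χ`. -/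
theorem Echi_eq_eisChi (hχ : EisChi6.TrivAtInfty χ) (k : ℤ) :
    EisChi6.Echi χ k = EisChar20.eisChi N k χ := by
  unfold EisChi6.Echi EisChar20.eisChi
  rw [wEis_eq_eisW, aChi_eq_wChi hχ]

/-- the limit at `i∞` for helper20's series. -/
theorem tendsto_eisChi (hχ : EisChi6.TrivAtInfty χ) (hu : ∀ γ, ‖((χ γ : ℂˣ) : ℂ)‖ = 1)
    (hk : 3 ≤ k) (hk2 : Even k) : Tendsto (EisChar20.eisChi N k χ) atImInfty (𝓝 2) := by
  rw [← Echi_eq_eisChi hχ]
  exact EisChi6.tendsto_Echi hχ hu hk hk2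

theorem eisChi_ne_zero (hχ : EisChi6.TrivAtInfty χ) (hu : ∀ γ, ‖((χ γ : ℂˣ) : ℂ)‖ = 1)
    (hk : 3 ≤ k) (hk2 : Even k) : EisChar20.eisChi N k χ ≠ 0 := by
  rw [← Echi_eq_eisChi hχ]
  exact EisChi6.Echi_ne_zero hχ hu hk hk2

/-- `T^N`-periodicity of every `SL(2,ℤ)`-slash of `E_χ` (helper20's `eisChi_slash_vadd`). -/
theorem Echi_slash_vadd (hχ : EisChi6.TrivAtInfty χ) (hχ2 : EisPack20.TrivOnTr2 χ) (k : ℤ)
    (σ : SL(2, ℤ)) (z : ℍ) :
    (EisChi6.Echi χ k ∣[k] σ) ((((N : ℤ)) : ℝ) +ᵥ z) = (EisChi6.Echi χ k ∣[k] σ) z := by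
  rw [Echi_eq_eisChi hχ]
  exact EisPack20.eisChi_slash_vadd hχ2 k σ z

end

end Fermat.Agent.ES.KUM.EisBridge6
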