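/-
Program J, chapter J1 (Kummer theory on `ℍ`), file J1.0 (helper5): the TARGET GROUP of the Kummer
isomorphism and the elliptic half of "Kummer characters lie in it".

`KumChar N n` := characters `χ : Γ₀(N) →* ℂˣ` with `χ ^ n = 1` which are trivial on all elements of
trace `t` with `t ^ 2 ≤ 4` (parabolic and elliptic elements, `± 1`).

* `kummerC_pow`      : Kummer characters have exponent `n`;
* `kummerC_elliptic` : Kummer characters are trivial on elements with `tr ^ 2 < 4` (`EllMult14`);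
* `ParTriv N n`      : the parabolic statement (proved elsewhere: `ParMult3` + `ParConj14` + cusps);
* `kummerC_mem_KumChar`, `kummerEquivC` (given `ParTriv`, (INV) and the surjectivity statement).
-/
import Fermat.Agent.ES.KUM.KummerInst17
import Fermat.Agent.ES.KUM.EllMult14

set_option autoImplicit false
set_option linter.unusedSectionVars false

open UpperHalfPlane AlgebraicCurve ModularCurve CongruenceSubgroup
open scoped MatrixGroups

noncomputable section

namespace Fermat.Agent.ES.KUM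

open Fermat.Agent.X0 Fermat.Agent.X0.SurjPoint Fermat.Agent.ES.KUM.KummerAbstract17
  Fermat.Agent.ES.KUM.KummerInst17

/-- The square of the trace of `γ ∈ SL(2, ℤ)`. -/
def trSq (γ : SL(2, ℤ)) : ℤ := ((γ 0 0 : ℤ) + γ 1 1) ^ 2

/-- **Kummer characters of level `N` and exponent `n`**: characters of `Γ₀(N)` with values in `μ_n`,
trivial on parabolic and elliptic elements (and on `± 1`). -/
def KumChar (N n : ℕ) : Subgroup (↥(Gamma0 N) →* ℂˣ) where
  carrier := {χ | (∀ γ, χ γ ^ n = 1) ∧ ∀ γ : ↥(Gamma0 N), trSq (γ : SL(2, ℤ)) ≤ 4 → χ γ = 1}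
  mul_mem' := by
    rintro χ ψ ⟨h1, h2⟩ ⟨h3, h4⟩
    refine ⟨fun γ => ?_, fun γ hγ => ?_⟩
    · rw [MonoidHom.mul_apply, mul_pow, h1, h3, one_mul]
    · rw [MonoidHom.mul_apply, h2 γ hγ, h4 γ hγ, one_mul]
  one_mem' := ⟨fun γ => by simp, fun γ _ => rfl⟩
  inv_mem' := by
    rintro χ ⟨h1, h2⟩
    refine ⟨fun γ => ?_, fun γ hγ => ?_⟩
    · rw [MonoidHom.inv_apply, inv_pow, h1, inv_one]
    · rw [MonoidHom.inv_apply, h2 γ hγ, inv_one]

theorem mem_KumChar {N n : ℕ} {χ : ↥(Gamma0 N) →* ℂˣ} :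
    χ ∈ KumChar N n ↔
      (∀ γ, χ γ ^ n = 1) ∧ ∀ γ : ↥(Gamma0 N), trSq (γ : SL(2, ℤ)) ≤ 4 → χ γ = 1 := Iff.rfl

variable (N : ℕ) [NeZero N]

/-- The parabolic statement: Kummer characters are trivial on elements of trace `± 2`. -/
def ParTriv (n : ℕ) [NeZero n] : Prop :=
  ∀ (x : ↥(Pic0.torsion ℂ (FC N) n)) (γ : ↥(Gamma0 N)), trSq (γ : SL(2, ℤ)) = 4 →
    (Additive.toMul (kummerC N n x) : ↥(Gamma0 N) →* ℂˣ) γ = 1

/-- The surjectivity statement (E5). -/
def KumSurj (n : ℕ) [NeZero n] : Prop :=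
  ∀ χ ∈ KumChar N n, ∃ x : ↥(Pic0.torsion ℂ (FC N) n), kummerC N n x = Additive.ofMul χ

theorem kummerC_pow (n : ℕ) [NeZero n] (x : ↥(Pic0.torsion ℂ (FC N) n)) (γ : ↥(Gamma0 N)) :
    (Additive.toMul (kummerC N n x) : ↥(Gamma0 N) →* ℂˣ) γ ^ n = 1 :=
  kummerC_pow_eq_one N n x γ

/-- Kummer characters are trivial on elliptic elements. -/
theorem kummerC_elliptic (n : ℕ) [NeZero n] (x : ↥(Pic0.torsion ℂ (FC N) n)) (γ : ↥(Gamma0 N))
    (htr : trSq (γ : SL(2, ℤ)) < 4) :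
    (Additive.toMul (kummerC N n x) : ↥(Gamma0 N) →* ℂˣ) γ = 1 := by
  obtain ⟨D, f, h, hd⟩ := exists_isDatum N n x
  have heig := kummerC_eigen N n x hd γ
  obtain ⟨-, hf0, hdiv, hh⟩ := hd
  have hc := EllMult14.eq_one_of_trace_sq_lt N (NeZero.ne n) (γ : SL(2, ℤ)) γ.2 htr hf0 hh
    (fun z₀ => ⟨(D : Divisor ℂ (FC N)) (ptPlaceC N 1 z₀), (hdiv _).symm⟩) heig
  exact Units.ext hc

theorem kummerC_mem_KumChar (n : ℕ) [NeZero n] (hpar : ParTriv N n)
    (x : ↥(Pic0.torsion ℂ (FC N) n)) :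
    (Additive.toMul (kummerC N n x) : ↥(Gamma0 N) →* ℂˣ) ∈ KumChar N n := by
  refine ⟨fun γ => kummerC_pow N n x γ, fun γ hγ => ?_⟩
  rcases lt_or_eq_of_le hγ with h | h
  · exact kummerC_elliptic N n x γ h
  · exact hpar x γ h

/-- **The Kummer isomorphism of `X₀(N)` over `ℂ`**, given (INV), the parabolic statement and the
surjectivity statement. -/
def kummerEquivC (n : ℕ) [NeZero n] (hi : (kumSetting N).InvClosed n) (hpar : ParTriv N n)
    (hsurj : KumSurj N n) : ↥(Pic0.torsion ℂ (FC N) n) ≃+ Additive ↥(KumChar N n) :=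
  kummerEquiv (kumSetting N) n (hasRoots N n (NeZero.ne n)) (constOnly_FC N) hi (KumChar N n)
    (kummerC_mem_KumChar N n hpar) hsurj

theorem kummerEquivC_apply (n : ℕ) [NeZero n] (hi : (kumSetting N).InvClosed n)
    (hpar : ParTriv N n) (hsurj : KumSurj N n) (x : ↥(Pic0.torsion ℂ (FC N) n)) :
    ((Additive.toMul (kummerEquivC N n hi hpar hsurj x) : ↥(KumChar N n)) : ↥(Gamma0 N) →* ℂˣ)
      = Additive.toMul (kummerC N n x) := rfl

end Fermat.Agent.ES.KUM
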