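/-
Program J, input (FIN) (helper23): the target `KumChar N n` of the Kummer map is finite.

`Γ0(N)` has finite index in `SL(2, ℤ) = ⟨S, T⟩`, hence is finitely generated (Schreier), and a
character of exponent `n` of a finitely generated group is determined by its values, `n`-th roots
of unity, on a finite generating set.
-/
import Mathlib
import Fermat.Agent.ES.KUM.KumInst18

set_option autoImplicit false

open Matrix
open scoped MatrixGroups

namespace Fermat.Agent.ES.KUM.KumFin23

theorem fg_SL2Z : Group.FG SL(2, ℤ) := by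
  rw [Group.fg_iff]
  exact ⟨{ModularGroup.S, ModularGroup.T}, SpecialLinearGroup.SL2Z_generators, Set.toFinite _⟩

theorem fg_Gamma0 (N : ℕ) [NeZero N] : Group.FG ↥(CongruenceSubgroup.Gamma0 N) := by
  haveI := fg_SL2Z
  exact Subgroup.fg_of_index_ne_zero _

/-- Characters of exponent `n ≠ 0` of a finitely generated group: finitely many. -/
theorem finite_homs_of_exponent (G : Type*) [Group G] [hG : Group.FG G] {n : ℕ} (hn : n ≠ 0) :
    Finite {χ : G →* ℂˣ // ∀ g, χ g ^ n = 1} := by
  classical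
  obtain ⟨S, hS⟩ := Group.fg_def.mp hG
  haveI : NeZero n := ⟨hn⟩
  let f : {χ : G →* ℂˣ // ∀ g, χ g ^ n = 1} → ({x // x ∈ S} → rootsOfUnity n ℂ) :=
    fun χ s => ⟨χ.1 s.1, by rw [mem_rootsOfUnity]; exact χ.2 s.1⟩
  refine Finite.of_injective f ?_
  intro χ ψ h
  apply Subtype.ext
  refine MonoidHom.eq_of_eqOn_dense hS ?_
  intro s hs
  have := congrFun h ⟨s, hs⟩
  exact congrArg Subtype.val this

/-- **(FIN)** The target of the Kummer map is finite. -/
theorem finite_kumChar (N : ℕ) [NeZero N] {n : ℕ} (hn : n ≠ 0) :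
    Finite ↥(Fermat.Agent.ES.KUM.KumInst18.KumChar N n) := by
  haveI := fg_Gamma0 N
  haveI := finite_homs_of_exponent ↥(CongruenceSubgroup.Gamma0 N) hn
  let g : ↥(Fermat.Agent.ES.KUM.KumInst18.KumChar N n) →
      {χ : ↥(CongruenceSubgroup.Gamma0 N) →* ℂˣ // ∀ γ, χ γ ^ n = 1} :=
    fun χ => ⟨χ.1, χ.2.1⟩
  refine Finite.of_injective g ?_
  intro χ ψ h
  apply Subtype.ext
  have h' : (g χ).1 = (g ψ).1 := congrArg Subtype.val h
  exact h'

end Fermat.Agent.ES.KUM.KumFin23
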