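/-
Program J, chapter J1 (helper12): auxiliary lemmas around the parabolic multiplier formula
(`ParMult3`): roots of unity bookkeeping, invariant roots on a disc.
-/
import Mathlib
import Fermat.Agent.ES.KUM.RootsH14
import Fermat.Agent.X0.Integrality
import Fermat.Agent.X0.RealizeData
import Fermat.Agent.X0.HolOrder

set_option autoImplicit false
set_option linter.unusedSectionVars false

open Complex
open scoped Real

noncomputable section

namespace Fermat.Agent.ES.KUM.ParAux12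

/-! ### (C) `exp(2πi x) = 1 ↔ x ∈ ℤ` in the shape of the multiplier formula -/

/-- `exp(2πi·m·k/(n·N)) = 1 ↔ n N ∣ m k`. -/
theorem exp_eq_one_iff_dvd (m k : ℤ) (n N : ℕ) (hn : n ≠ 0) (hN : N ≠ 0) :
    Complex.exp (2 * π * I * m * k / (n * N)) = 1 ↔ ((n : ℤ) * N) ∣ m * k := by
  have hnN : ((n : ℂ) * N) ≠ 0 := by
    have h1 : (n : ℂ) ≠ 0 := by exact_mod_cast hn
    have h2 : (N : ℂ) ≠ 0 := by exact_mod_cast hN
    exact mul_ne_zero h1 h2
  have h2pi : (2 * π * I : ℂ) ≠ 0 := Complex.two_pi_I_ne_zero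
  rw [Complex.exp_eq_one_iff]
  constructor
  · rintro ⟨j, hj⟩
    refine ⟨j, ?_⟩
    have h1 : (m : ℂ) * k = j * ((n : ℂ) * N) := by
      have h3 : 2 * π * I * m * k = (j * ((n : ℂ) * N)) * (2 * π * I) := by
        rw [div_eq_iff hnN] at hj
        rw [hj]
        ring
      have h4 : (2 * π * I) * ((m : ℂ) * k) = (2 * π * I) * (j * ((n : ℂ) * N)) := by
        rw [← mul_assoc, h3]
        ring
      exact mul_left_cancel₀ h2pi h4
    have h5 : ((m * k : ℤ) : ℂ) = ((n * N * j : ℤ) : ℂ) := by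
      push_cast
      rw [h1]
      ring
    exact_mod_cast h5
  · rintro ⟨j, hj⟩
    refine ⟨j, ?_⟩
    rw [div_eq_iff hnN]
    have h1 : (m : ℂ) * k = (n : ℂ) * N * j := by exact_mod_cast congrArg (Int.cast : ℤ → ℂ) hj
    calc 2 * π * I * m * k = 2 * π * I * ((m : ℂ) * k) := by ring
      _ = 2 * π * I * ((n : ℂ) * N * j) := by rw [h1]
      _ = j * (2 * π * I) * ((n : ℂ) * N) := by ring

/-- The multiplier `exp(2πi·m·k/(n·N))` is an `n`-th root of `exp(2πi·m·k/N)`. -/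
theorem exp_pow (m k : ℤ) (n N : ℕ) (hn : n ≠ 0) :
    Complex.exp (2 * π * I * m * k / (n * N)) ^ n = Complex.exp (2 * π * I * m * k / N) := by
  rw [← Complex.exp_nat_mul]
  congr 1
  have h1 : (n : ℂ) ≠ 0 := by exact_mod_cast hn
  rcases eq_or_ne (N : ℂ) 0 with hN | hN
  · rw [hN]
    simp
  · field_simp

/-! ### (A) invariant roots on a disc -/

open Metric Set in
/-- A zero-free holomorphic function on a disc centred at `0`, invariant under the rotation
`q ↦ ζ q`, has a holomorphic `n`-th root invariant under the same rotation. -/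
theorem exists_invariant_root_ball {G : ℂ → ℂ} {ε : ℝ} (hε : 0 < ε)
    (hG : DifferentiableOn ℂ G (Metric.ball 0 ε))
    (hG0 : ∀ q ∈ Metric.ball (0 : ℂ) ε, G q ≠ 0) (n : ℕ) (hn : n ≠ 0) (ζ : ℂ) (hζ : ‖ζ‖ = 1)
    (hinv : ∀ q ∈ Metric.ball (0 : ℂ) ε, G (ζ * q) = G q) :
    ∃ r : ℂ → ℂ, DifferentiableOn ℂ r (Metric.ball 0 ε) ∧
      (∀ q ∈ Metric.ball (0 : ℂ) ε, r q ^ n = G q) ∧
      ∀ q ∈ Metric.ball (0 : ℂ) ε, r (ζ * q) = r q := by
  obtain ⟨r, hr, hrn⟩ := RootsH14.exists_root_ball_of_ne_zero hG hG0 n hn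
  refine ⟨r, hr, hrn, ?_⟩
  have hmaps : Set.MapsTo (fun q : ℂ => ζ * q) (Metric.ball 0 ε) (Metric.ball 0 ε) := by
    intro q hq
    rw [mem_ball_zero_iff] at hq ⊢
    rw [norm_mul, hζ, one_mul]
    exact hq
  have hr' : DifferentiableOn ℂ (fun q => r (ζ * q)) (Metric.ball 0 ε) :=
    hr.comp ((differentiableOn_const ζ).mul differentiableOn_id) hmaps
  have h0 : (0 : ℂ) ∈ Metric.ball (0 : ℂ) ε := Metric.mem_ball_self hε
  have hr0 : r 0 ≠ 0 := by
    intro h
    have := hrn 0 h0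
    rw [h, zero_pow hn] at this
    exact hG0 0 h0 this.symm
  have key := RootsH14.root_unique (B := Metric.ball (0 : ℂ) ε) Metric.isOpen_ball
    (convex_ball (0 : ℂ) ε).isPreconnected hn hr hr'
    (fun z hz => by rw [hrn z hz, hrn _ (hmaps hz), hinv z hz]) h0 hr0 (by simp)
  intro q hq
  exact (key hq).symm

/-! ### (B) normal form at the cusp of a function with a `q_N`-expansion -/

open Fermat.Agent.X0 UpperHalfPlane

theorem exists_qh_eq (N : ℕ) [NeZero N] {q : ℂ} (hq : ‖q‖ < 1) (hq0 : q ≠ 0) :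
    ∃ z : ℍ, qh N z = q := by
  have hN : (0 : ℝ) < N := by exact_mod_cast Nat.pos_of_ne_zero (NeZero.ne N)
  have h1 := Function.Periodic.im_invQParam_pos_of_norm_lt_one (h := (N : ℝ)) hN hq hq0
  refine ⟨⟨Function.Periodic.invQParam N q, h1⟩, ?_⟩
  unfold qh
  exact Function.Periodic.qParam_right_inv hN.ne' hq0

theorem qh_ne_zero (N : ℕ) (z : ℍ) : qh N z ≠ 0 := by
  unfold qh
  exact Function.Periodic.qParam_ne_zero _

/-- **Normal form at the cusp.** A function with a non-zero `q_N`-expansion `q^{-m} P(q)` is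
`q^{ord P - m} · U(q)` with `U` holomorphic and zero-free on a small disc. -/
theorem exists_cusp_normal_form (N : ℕ) [NeZero N] {f : ℍ → ℂ} {m : ℕ} {P : PowerSeries ℂ}
    (h : IsQExp N f m P) (hP : P ≠ 0) :
    ∃ (ε : ℝ) (U : ℂ → ℂ), 0 < ε ∧ ε ≤ 1 ∧ DifferentiableOn ℂ U (Metric.ball 0 ε) ∧
      (∀ q ∈ Metric.ball (0 : ℂ) ε, U q ≠ 0) ∧
      ∀ z : ℍ, ‖qh N z‖ < ε → f z = qh N z ^ ((P.order.toNat : ℤ) - m) * U (qh N z) := by
  set s := P.order.toNat with hs
  have hord : P.order = s := by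
    rw [hs, ENat.natCast_toNat]
    exact (PowerSeries.order_finite_iff_ne_zero.mpr hP).ne
  obtain ⟨hcs, hlt⟩ := PowerSeries.order_eq_nat.mp hord
  set c : ℕ → ℂ := fun n => PowerSeries.coeff (n + s) P with hc
  have hsummable : ∀ q : ℂ, ‖q‖ < 1 → Summable (fun n => c n * q ^ n) := by
    intro q hq
    by_cases hq0 : q = 0
    · subst hq0
      have : ∀ n : ℕ, n ≠ 0 → c n * (0 : ℂ) ^ n = 0 := fun n hn => by
        rw [zero_pow hn, mul_zero]
      exact (hasSum_single 0 this).summable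
    · obtain ⟨z, rfl⟩ := exists_qh_eq N hq hq0
      have h1 : Summable (fun n => PowerSeries.coeff n P * qh N z ^ n) := (h z).summable
      have h2 : Summable (fun n => PowerSeries.coeff (n + s) P * qh N z ^ (n + s)) :=
        (summable_nat_add_iff s).mpr h1
      have h3 := h2.mul_left ((qh N z ^ s)⁻¹)
      refine h3.congr fun n => ?_
      rw [hc, pow_add]
      field_simp
  set U : ℂ → ℂ := fun q => ∑' n, c n * q ^ n with hU
  have hsum : ∀ q : ℂ, ‖q‖ < 1 → HasSum (fun n => c n * q ^ n) (U q) := fun q hq =>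
    (hsummable q hq).hasSum
  have hUd : DifferentiableOn ℂ U (Metric.ball 0 1) := intg_differentiableOn_of_hasSum hsum
  have hU0 : U 0 = PowerSeries.coeff s P := by
    have : ∀ n : ℕ, n ≠ 0 → c n * (0 : ℂ) ^ n = 0 := fun n hn => by
      rw [zero_pow hn, mul_zero]
    rw [hU]
    show ∑' n, c n * (0 : ℂ) ^ n = _
    rw [tsum_eq_single 0 this, hc]
    simp
  have hU0' : U 0 ≠ 0 := by rw [hU0]; exact hcs
  have hUc : ContinuousAt U 0 :=
    (hUd.differentiableAt (Metric.ball_mem_nhds 0 one_pos)).continuousAt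
  obtain ⟨ε, hε, hεU⟩ := Metric.eventually_nhds_iff_ball.mp (hUc.eventually_ne hU0')
  refine ⟨min ε 1, U, lt_min hε one_pos, min_le_right _ _,
    hUd.mono (Metric.ball_subset_ball (min_le_right _ _)),
    fun q hq => hεU q (Metric.ball_subset_ball (min_le_left _ _) hq), fun z hz => ?_⟩
  have hq0 : qh N z ≠ 0 := qh_ne_zero N z
  have hq1 : ‖qh N z‖ < 1 := lt_of_lt_of_le hz (min_le_right _ _)
  have h1 : f z * qh N z ^ m = ∑' n, PowerSeries.coeff n P * qh N z ^ n := (h z).tsum_eq.symm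
  have h2 : ∑' n, PowerSeries.coeff n P * qh N z ^ n = qh N z ^ s * U (qh N z) := by
    rw [← (h z).summable.sum_add_tsum_nat_add s]
    have h3 : ∑ i ∈ Finset.range s, PowerSeries.coeff i P * qh N z ^ i = 0 := by
      refine Finset.sum_eq_zero fun i hi => ?_
      rw [hlt i (Finset.mem_range.mp hi), zero_mul]
    rw [h3, zero_add, hU]
    show _ = qh N z ^ s * ∑' n, c n * qh N z ^ n
    rw [← tsum_mul_left]
    refine tsum_congr fun n => ?_
    rw [hc, pow_add]
    ring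
  rw [h2] at h1
  rw [zpow_sub₀ hq0, zpow_natCast, zpow_natCast, div_mul_eq_mul_div, ← h1,
    mul_div_assoc, div_self (pow_ne_zero m hq0), mul_one]

/-! ### (SHIFT) the shift `z ↦ z + iR` on `HolH` -/

open scoped Manifold MatrixGroups Topology
open Filter

/-- The point `z + iR`. -/
def shiftPt (R : ℝ) (hR : 0 ≤ R) (z : ℍ) : ℍ :=
  ⟨(z : ℂ) + R * Complex.I, by
    have : ((z : ℂ) + R * Complex.I).im = z.im + R := by simp
    rw [this]
    exact add_pos_of_pos_of_nonneg z.im_pos hR⟩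

@[simp] theorem coe_shiftPt (R : ℝ) (hR : 0 ≤ R) (z : ℍ) :
    ((shiftPt R hR z : ℍ) : ℂ) = (z : ℂ) + R * Complex.I := rfl

theorem im_shiftPt (R : ℝ) (hR : 0 ≤ R) (z : ℍ) : (shiftPt R hR z).im = z.im + R := by
  show ((z : ℂ) + R * Complex.I).im = z.im + R
  simp

theorem shift_mem_HolH (R : ℝ) (hR : 0 ≤ R) {f : ℍ → ℂ} (hf : f ∈ HolH) :
    (fun z => f (shiftPt R hR z)) ∈ HolH := by
  rw [mem_HolH, UpperHalfPlane.mdifferentiable_iff] at hf ⊢
  have hmaps : Set.MapsTo (fun w : ℂ => w + R * Complex.I) {z : ℂ | 0 < z.im} {z : ℂ | 0 < z.im} := by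
    intro w hw
    have hw' : 0 < w.im := hw
    show 0 < (w + R * Complex.I).im
    have : (w + R * Complex.I).im = w.im + R := by simp
    rw [this]
    exact add_pos_of_pos_of_nonneg hw' hR
  have h1 : DifferentiableOn ℂ ((f ∘ ofComplex) ∘ fun w : ℂ => w + R * Complex.I) {z : ℂ | 0 < z.im} :=
    hf.comp (differentiableOn_id.add_const _) hmaps
  refine h1.congr fun w hw => ?_
  have hw' : 0 < w.im := hw
  simp only [Function.comp_apply]
  congr 1
  apply UpperHalfPlane.ext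
  rw [coe_shiftPt, ofComplex_apply_of_im_pos hw', ofComplex_apply_of_im_pos (hmaps hw)]

/-- The shift `f ↦ f(· + iR)` as a ring endomorphism of `HolH`. -/
def shiftH (R : ℝ) (hR : 0 ≤ R) : HolH →+* HolH where
  toFun f := ⟨fun z => (f : ℍ → ℂ) (shiftPt R hR z), shift_mem_HolH R hR f.2⟩
  map_one' := rfl
  map_mul' _ _ := rfl
  map_zero' := rfl
  map_add' _ _ := rfl

theorem shiftH_apply (R : ℝ) (hR : 0 ≤ R) (f : HolH) (z : ℍ) :
    (shiftH R hR f : ℍ → ℂ) z = (f : ℍ → ℂ) (shiftPt R hR z) := rfl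

theorem shiftH_apply' (R : ℝ) (hR : 0 ≤ R) (f : HolH) (z : ℍ) :
    (shiftH R hR f : ℍ → ℂ) z = (f : ℍ → ℂ) ⟨(z : ℂ) + R * Complex.I, (shiftPt R hR z).2⟩ := rfl

theorem shiftH_algebraMap (R : ℝ) (hR : 0 ≤ R) (c : ℂ) :
    shiftH R hR (algebraMap ℂ HolH c) = algebraMap ℂ HolH c := rfl

/-- The shift is injective (identity theorem). -/
theorem shiftH_injective (R : ℝ) (hR : 0 ≤ R) : Function.Injective (shiftH R hR) := by
  rw [injective_iff_map_eq_zero]
  intro f hf
  -- `f` vanishes on the open half plane `Im > R`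
  have hfd : DifferentiableOn ℂ ((f : ℍ → ℂ) ∘ ofComplex) {z : ℂ | 0 < z.im} :=
    UpperHalfPlane.mdifferentiable_iff.mp f.2
  have han : AnalyticOnNhd ℂ ((f : ℍ → ℂ) ∘ ofComplex) {z : ℂ | 0 < z.im} :=
    hfd.analyticOnNhd isOpen_upperHalfPlaneSet
  have hz0 : ((R + 1 : ℝ) : ℂ) * Complex.I ∈ {z : ℂ | 0 < z.im} := by
    show 0 < (((R + 1 : ℝ) : ℂ) * Complex.I).im
    simp
    linarith
  have hev : ((f : ℍ → ℂ) ∘ ofComplex) =ᶠ[𝓝 (((R + 1 : ℝ) : ℂ) * Complex.I)] 0 := by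
    have hopen : IsOpen {w : ℂ | R < w.im} := isOpen_lt continuous_const Complex.continuous_im
    have hmem : ((R + 1 : ℝ) : ℂ) * Complex.I ∈ {w : ℂ | R < w.im} := by
      show R < (((R + 1 : ℝ) : ℂ) * Complex.I).im
      simp
    filter_upwards [hopen.mem_nhds hmem] with w hw
    have hw' : R < w.im := hw
    have hpos : 0 < (w - R * Complex.I).im := by
      have : (w - R * Complex.I).im = w.im - R := by simp
      rw [this]
      linarith
    have h1 := congrArg (fun g : HolH => (g : ℍ → ℂ) ⟨w - R * Complex.I, hpos⟩) hf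
    simp only [shiftH_apply] at h1
    have h2 : shiftPt R hR ⟨w - R * Complex.I, hpos⟩ = ofComplex w := by
      apply UpperHalfPlane.ext
      rw [coe_shiftPt, ofComplex_apply_of_im_pos (lt_of_le_of_lt hR hw')]
      show w - R * Complex.I + R * Complex.I = w
      ring
    rw [h2] at h1
    exact h1
  have hconn : IsPreconnected {z : ℂ | 0 < z.im} :=
    (Complex.isConnected_of_upperHalfPlane subset_rfl (by grind)).isPreconnected
  have hzero := han.eqOn_zero_of_preconnected_of_eventuallyEq_zero hconn hz0 hev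
  apply Subtype.ext
  funext z
  have := hzero z.im_pos
  simpa [Function.comp_apply, ofComplex_apply] using this

theorem shiftPt_T_zpow (R : ℝ) (hR : 0 ≤ R) (m : ℤ) (z : ℍ) :
    shiftPt R hR (ModularGroup.T ^ m • z) = ModularGroup.T ^ m • shiftPt R hR z := by
  apply UpperHalfPlane.ext
  rw [coe_shiftPt, UpperHalfPlane.modular_T_zpow_smul, UpperHalfPlane.modular_T_zpow_smul,
    UpperHalfPlane.coe_vadd, UpperHalfPlane.coe_vadd, coe_shiftPt]
  ring

theorem shiftH_compSLHom_T_zpow (R : ℝ) (hR : 0 ≤ R) (m : ℤ) (f : HolH) :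
    shiftH R hR (compSLHom (ModularGroup.T ^ m) f)
      = compSLHom (ModularGroup.T ^ m) (shiftH R hR f) := by
  apply Subtype.ext
  funext z
  show (f : ℍ → ℂ) (ModularGroup.T ^ m • shiftPt R hR z)
    = (f : ℍ → ℂ) (shiftPt R hR (ModularGroup.T ^ m • z))
  rw [shiftPt_T_zpow]

/-! ### The functions `q_N ^ j` -/

theorem qh_zpow_eq_exp (N : ℕ) (j : ℤ) (z : ℍ) :
    qh N z ^ j = Complex.exp (j * (2 * π * Complex.I * (z : ℂ) / N)) := by
  rw [Complex.exp_int_mul]
  rfl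

theorem qz_mem_HolH (N : ℕ) (j : ℤ) : (fun z : ℍ => qh N z ^ j) ∈ HolH := by
  rw [mem_HolH, UpperHalfPlane.mdifferentiable_iff]
  have h1 : DifferentiableOn ℂ (fun w : ℂ => Complex.exp (j * (2 * π * Complex.I * w / N)))
      {z : ℂ | 0 < z.im} := by
    apply Differentiable.differentiableOn
    fun_prop
  refine h1.congr fun w hw => ?_
  have hw' : 0 < w.im := hw
  simp only [Function.comp_apply]
  rw [qh_zpow_eq_exp, ofComplex_apply_of_im_pos hw']

/-- `z ↦ q_N(z) ^ j` (`j : ℤ`) as an element of `HolH`. -/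
def qz (N : ℕ) (j : ℤ) : HolH := ⟨fun z : ℍ => qh N z ^ j, qz_mem_HolH N j⟩

theorem qz_apply (N : ℕ) (j : ℤ) (z : ℍ) : (qz N j : ℍ → ℂ) z = qh N z ^ j := rfl

theorem qz_zero (N : ℕ) : qz N 0 = 1 := by
  apply Subtype.ext
  funext z
  show qh N z ^ (0 : ℤ) = 1
  simp

theorem qz_add (N : ℕ) (i j : ℤ) : qz N (i + j) = qz N i * qz N j := by
  apply Subtype.ext
  funext z
  show qh N z ^ (i + j) = qh N z ^ i * qh N z ^ j
  exact zpow_add₀ (qh_ne_zero N z) i j

theorem qz_ne_zero (N : ℕ) (j : ℤ) (z : ℍ) : (qz N j : ℍ → ℂ) z ≠ 0 :=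
  zpow_ne_zero _ (qh_ne_zero N z)

theorem qz_neg_mul_cancel (N : ℕ) (j : ℤ) : qz N (-j) * qz N j = 1 := by
  rw [← qz_add, neg_add_cancel, qz_zero]

/-! ### (QLIM) the limit at `i∞` -/

theorem order_eq_of_coeff' {f : HahnSeries ℤ ℂ} {k : ℤ} (h1 : f.coeff k ≠ 0)
    (h2 : ∀ j < k, f.coeff j = 0) : f.order = k := by
  have hf : f ≠ 0 := by
    rintro rfl
    exact h1 rfl
  apply le_antisymm (HahnSeries.order_le_of_coeff_ne_zero h1)
  by_contra hlt
  exact hf (HahnSeries.coeff_order_eq_zero.mp (h2 _ (not_le.mp hlt)))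

/-- The order of `q^{-m} P`. -/
theorem order_laurentOf' {P : PowerSeries ℂ} (hP : P ≠ 0) (m : ℕ) :
    (laurentOf m P).order = (P.order.toNat : ℤ) - m := by
  have hord : P.order = (P.order.toNat : ℕ∞) := by
    rw [ENat.natCast_toNat]
    exact (PowerSeries.order_finite_iff_ne_zero.mpr hP).ne
  obtain ⟨h1, h2⟩ := (PowerSeries.order_eq_nat).mp hord
  set s := P.order.toNat
  apply order_eq_of_coeff'
  · rw [Analytic.coeff_laurentOf, if_pos (by omega)]
    have : ((s : ℤ) - m + m).toNat = s := by omega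
    rwa [this]
  · intro j hj
    rw [Analytic.coeff_laurentOf]
    split_ifs with h
    · exact h2 _ (by omega)
    · rfl

theorem tendsto_qh_atImInfty (N : ℕ) [NeZero N] :
    Tendsto (fun z : ℍ => qh N z) atImInfty (𝓝 0) := by
  have hN : (0 : ℝ) < N := by exact_mod_cast Nat.pos_of_ne_zero (NeZero.ne N)
  exact UpperHalfPlane.qParam_tendsto_atImInfty hN

/-- **(QLIM)** `a · q_N^{-ord}` has a non-zero limit at `i∞`. -/
theorem exists_tendsto_of_isQExp (N : ℕ) [NeZero N] {a : HolH} {m : ℕ} {P : PowerSeries ℂ}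
    (ha : IsQExp N (a : ℍ → ℂ) m P) (hP : P ≠ 0) :
    ∃ La : ℂ, La ≠ 0 ∧ Tendsto
      (fun z : ℍ => (a : ℍ → ℂ) z * qh N z ^ (-(laurentOf m P).order)) atImInfty (𝓝 La) := by
  obtain ⟨ε, U, hε, -, hUd, hU0, hU⟩ := exists_cusp_normal_form N ha hP
  have h0 : (0 : ℂ) ∈ Metric.ball (0 : ℂ) ε := Metric.mem_ball_self hε
  refine ⟨U 0, hU0 0 h0, ?_⟩
  have hUc : ContinuousAt U 0 :=
    (hUd.differentiableAt (Metric.ball_mem_nhds 0 hε)).continuousAt
  have h1 : Tendsto (fun z : ℍ => U (qh N z)) atImInfty (𝓝 (U 0)) :=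
    hUc.tendsto.comp (tendsto_qh_atImInfty N)
  refine h1.congr' ?_
  have hev : ∀ᶠ z : ℍ in atImInfty, ‖qh N z‖ < ε := by
    have := (tendsto_qh_atImInfty N).eventually (Metric.ball_mem_nhds (0 : ℂ) hε)
    filter_upwards [this] with z hz
    exact mem_ball_zero_iff.mp hz
  filter_upwards [hev] with z hz
  rw [hU z hz, order_laurentOf' hP, mul_comm (qh N z ^ _) (U _), mul_assoc,
    ← zpow_add₀ (qh_ne_zero N z), add_neg_cancel, zpow_zero, mul_one]

theorem tendsto_shiftPt (R : ℝ) (hR : 0 ≤ R) : Tendsto (shiftPt R hR) atImInfty atImInfty := by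
  rw [atImInfty, tendsto_comap_iff]
  have h1 : (UpperHalfPlane.im ∘ shiftPt R hR) = fun z : ℍ => z.im + R := by
    funext z
    exact im_shiftPt R hR z
  rw [h1]
  exact tendsto_atTop_add_const_right _ R tendsto_comap

/-- Limits at `i∞` are preserved by the shift. -/
theorem tendsto_shiftH (R : ℝ) (hR : 0 ≤ R) {f : HolH} {L : ℂ}
    (h : Tendsto (f : ℍ → ℂ) atImInfty (𝓝 L)) :
    Tendsto (shiftH R hR f : ℍ → ℂ) atImInfty (𝓝 L) :=
  h.comp (tendsto_shiftPt R hR)

/-- **(QLIM), shifted form.** After a large shift `a · q_N^{-ord}` is zero-free on `ℍ`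
(and still tends to the same non-zero limit). -/
theorem exists_shift_ne_zero (N : ℕ) [NeZero N] {a : HolH} {m : ℕ} {P : PowerSeries ℂ}
    (ha : IsQExp N (a : ℍ → ℂ) m P) (hP : P ≠ 0) :
    ∃ La : ℂ, La ≠ 0 ∧ ∃ R₀ : ℝ, 0 ≤ R₀ ∧ ∀ (R : ℝ) (hR : 0 ≤ R), R₀ ≤ R →
      (∀ z : ℍ, (shiftH R hR (a * qz N (-(laurentOf m P).order)) : ℍ → ℂ) z ≠ 0) ∧
      Tendsto (shiftH R hR (a * qz N (-(laurentOf m P).order)) : ℍ → ℂ) atImInfty (𝓝 La) := by
  obtain ⟨La, hLa, hlim⟩ := exists_tendsto_of_isQExp N ha hP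
  obtain ⟨ε, U, hε, -, hUd, hU0, hU⟩ := exists_cusp_normal_form N ha hP
  have hev : ∀ᶠ z : ℍ in atImInfty, ‖qh N z‖ < ε := by
    have := (tendsto_qh_atImInfty N).eventually (Metric.ball_mem_nhds (0 : ℂ) hε)
    filter_upwards [this] with z hz
    exact mem_ball_zero_iff.mp hz
  obtain ⟨A, hA⟩ := (atImInfty_mem _).mp hev
  refine ⟨La, hLa, max 0 A, le_max_left _ _, fun R hR hRA => ⟨fun z => ?_, ?_⟩⟩
  · show (a : ℍ → ℂ) (shiftPt R hR z) * qh N (shiftPt R hR z) ^ (-(laurentOf m P).order) ≠ 0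
    have hz : ‖qh N (shiftPt R hR z)‖ < ε := by
      apply hA
      rw [im_shiftPt]
      have := z.im_pos
      have h2 : A ≤ R := le_trans (le_max_right 0 A) hRA
      linarith
    rw [hU _ hz]
    exact mul_ne_zero (mul_ne_zero (zpow_ne_zero _ (qh_ne_zero N _))
      (hU0 _ (mem_ball_zero_iff.mpr hz))) (zpow_ne_zero _ (qh_ne_zero N _))
  · exact tendsto_shiftH R hR (f := a * qz N (-(laurentOf m P).order)) hlim

end Fermat.Agent.ES.KUM.ParAux12
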