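/-
Program J, chapter J1.3b, group-theoretic glue for the PARABOLIC half.

* `exists_conj_of_trace_two`, `exists_conj_of_trace_sq`: an element of `SL(2, ℤ)` with `tr ^ 2 = 4`
  is `± σ T^m σ⁻¹` for some `σ ∈ SL(2, ℤ)`, `m ∈ ℤ`;
* `slMer_neg`: `-1` acts trivially on `MerH`;
* `slMer_T_zpow_of_conj`: if `γ = ± σ T^m σ⁻¹` and `h ∘ γ = c h`, then `h' := h ∘ σ` satisfies
  `h' ∘ T^m = c h'`, so that the multiplier formula at `i∞` applies to `h'`.
-/
import Fermat.Agent.ES.KUM.CReal5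

set_option autoImplicit false

open UpperHalfPlane
open scoped MatrixGroups Manifold

noncomputable section

namespace Fermat.Agent.ES.KUM.ParConj14

open Matrix ModularGroup

/-- An element of `SL(2, ℤ)` of trace `2` is conjugate to a power of `T`. -/
theorem exists_conj_of_trace_two (γ : SL(2, ℤ)) (htr : (γ 0 0 : ℤ) + γ 1 1 = 2) :
    ∃ (σ : SL(2, ℤ)) (m : ℤ), γ = σ * T ^ m * σ⁻¹ := by
  set a : ℤ := γ 0 0 with ha
  set b : ℤ := γ 0 1 with hb
  set c : ℤ := γ 1 0 with hc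
  set d : ℤ := γ 1 1 with hd
  have hdet : a * d - b * c = 1 := by
    have := γ.det_coe
    rw [Matrix.det_fin_two] at this
    exact this
  suffices h : ∃ (σ : SL(2, ℤ)) (m : ℤ), γ * σ = σ * T ^ m by
    obtain ⟨σ, m, h⟩ := h
    exact ⟨σ, m, by rw [← h, mul_assoc, mul_inv_cancel, mul_one]⟩
  by_cases hc0 : c = 0
  · -- upper triangular
    rw [hc0, mul_zero, sub_zero] at hdet
    have h1 : a = 1 ∧ d = 1 := by
      rcases Int.eq_one_or_neg_one_of_mul_eq_one' hdet with h | ⟨h1, h2⟩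
      · exact h
      · rw [h1, h2] at htr
        norm_num at htr
    refine ⟨1, b, ?_⟩
    rw [mul_one, one_mul]
    ext i j
    rw [coe_T_zpow]
    fin_cases i <;> fin_cases j <;> simp [← ha, ← hb, ← hc, ← hd, h1.1, h1.2, hc0]
  · -- general case
    have hd1 : d - 1 = -(a - 1) := by linarith
    have hbc : b * c = -(a - 1) ^ 2 := by
      have : a * d = 1 + b * c := by linarith
      have hd' : d = 2 - a := by linarith
      rw [hd'] at this
      linarith [this]
    have hg : 0 < Int.gcd (a - 1) c :=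
      Int.gcd_pos_of_ne_zero_right _ hc0
    obtain ⟨g, p, q, hg0, hpq, hp, hq⟩ := Int.exists_gcd_one' hg
    have hgZ : (g : ℤ) ≠ 0 := by exact_mod_cast hg0.ne'
    have hq0 : q ≠ 0 := by
      rintro rfl
      rw [zero_mul] at hq
      exact hc0 hq
    have hcop : IsCoprime p q := Int.isCoprime_iff_gcd_eq_one.2 hpq
    -- `b q = - g p ^ 2`
    have hbq : b * q = -(g : ℤ) * p ^ 2 := by
      have h1 : (g : ℤ) * (b * q) = (g : ℤ) * (-(g : ℤ) * p ^ 2) := by
        have : b * c = -(a - 1) ^ 2 := hbc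
        rw [hq, hp] at this
        linear_combination this
      exact mul_left_cancel₀ hgZ h1
    -- `q ∣ g`
    have hqg : q ∣ (g : ℤ) := by
      have h1 : q ∣ (g : ℤ) * p ^ 2 := ⟨-b, by linear_combination hbq⟩
      exact (hcop.symm.pow_right).dvd_of_dvd_mul_right h1
    obtain ⟨g', hg'⟩ := hqg
    have hb' : b = -g' * p ^ 2 := by
      have h1 : q * b = q * (-g' * p ^ 2) := by
        rw [hg'] at hbq
        linear_combination hbq
      exact mul_left_cancel₀ hq0 h1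
    obtain ⟨u, v, huv⟩ := hcop
    have hdetσ : Matrix.det !![p, -v; q, u] = 1 := by
      rw [Matrix.det_fin_two_of]
      linear_combination huv
    refine ⟨⟨!![p, -v; q, u], hdetσ⟩, -g', ?_⟩
    have ha' : a = 1 + g' * q * p := by
      have : a - 1 = p * g := hp
      rw [hg'] at this
      linear_combination this
    have hc' : c = g' * q ^ 2 := by
      rw [hq, hg']
      ring
    have hd' : d = 1 - g' * q * p := by linarith
    ext i j
    rw [Matrix.SpecialLinearGroup.coe_mul, Matrix.SpecialLinearGroup.coe_mul, coe_T_zpow]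
    have hγ : (γ : Matrix (Fin 2) (Fin 2) ℤ) = !![a, b; c, d] := by
      ext i j
      fin_cases i <;> fin_cases j <;> rfl
    rw [hγ]
    fin_cases i <;> fin_cases j
    · simp [Matrix.mul_apply, Fin.sum_univ_two]
      rw [ha', hb']
      ring
    · simp [Matrix.mul_apply, Fin.sum_univ_two]
      rw [ha', hb']
      linear_combination (-g' * p) * huv
    · simp [Matrix.mul_apply, Fin.sum_univ_two]
      rw [hc', hd']
      ring
    · simp [Matrix.mul_apply, Fin.sum_univ_two]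
      rw [hc', hd']
      linear_combination (-g' * q) * huv


/-- An element of `SL(2, ℤ)` with `tr ^ 2 = 4` is, up to sign, conjugate to a power of `T`. -/
theorem exists_conj_of_trace_sq (γ : SL(2, ℤ)) (htr : ((γ 0 0 : ℤ) + γ 1 1) ^ 2 = 4) :
    ∃ (σ : SL(2, ℤ)) (m : ℤ), γ = σ * T ^ m * σ⁻¹ ∨ γ = -(σ * T ^ m * σ⁻¹) := by
  have h2 : ((γ 0 0 : ℤ) + γ 1 1 - 2) * ((γ 0 0 : ℤ) + γ 1 1 + 2) = 0 := by
    linear_combination htr
  rcases mul_eq_zero.1 h2 with h | h
  · obtain ⟨σ, m, hσ⟩ := exists_conj_of_trace_two γ (by linarith)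
    exact ⟨σ, m, Or.inl hσ⟩
  · have hneg : ((-γ : SL(2, ℤ)) 0 0 : ℤ) + (-γ : SL(2, ℤ)) 1 1 = 2 := by
      simp only [Matrix.SpecialLinearGroup.coe_neg, Matrix.neg_apply]
      linarith
    obtain ⟨σ, m, hσ⟩ := exists_conj_of_trace_two (-γ) hneg
    exact ⟨σ, m, Or.inr (by rw [← hσ, neg_neg])⟩

open Fermat.Agent.X0 Fermat.Agent.X0.SurjPoint Fermat.Agent.ES.KUM

theorem compSL_neg (f : ℍ → ℂ) (γ : SL(2, ℤ)) : compSL f (-γ) = compSL f γ := by
  funext z
  simp only [compSL]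
  rw [SL_neg_smul]

theorem compSLHom_neg (γ : SL(2, ℤ)) (a : HolH) : compSLHom (-γ) a = compSLHom γ a :=
  Subtype.ext (compSL_neg a.1 γ)

/-- `-1` acts trivially on meromorphic functions. -/
theorem slMer_neg (γ : SL(2, ℤ)) (h : MerH) : slMer (-γ) h = slMer γ h := by
  obtain ⟨a, b, -, rfl⟩ := exists_div_MerH h
  rw [slMer_div, slMer_div, compSLHom_neg, compSLHom_neg]

/-- Transport of an eigen-relation along a conjugation: if `γ = ± σ T^m σ⁻¹` and `h ∘ γ = c h`, then
`h' := h ∘ σ` satisfies `h' ∘ T^m = c h'`. -/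
theorem slMer_T_zpow_of_conj {h : MerH} {γ σ : SL(2, ℤ)} {m : ℤ}
    (hγ : γ = σ * T ^ m * σ⁻¹ ∨ γ = -(σ * T ^ m * σ⁻¹)) {c : ℂ}
    (hc : slMer γ h = algebraMap HolH MerH (algebraMap ℂ HolH c) * h) :
    slMer (T ^ m) (slMer σ h) = algebraMap HolH MerH (algebraMap ℂ HolH c) * slMer σ h := by
  have hc' : slMer (σ * T ^ m * σ⁻¹) h = algebraMap HolH MerH (algebraMap ℂ HolH c) * h := by
    rcases hγ with hγ | hγ
    · rw [← hγ]; exact hc
    · rw [← slMer_neg, ← hγ]; exact hc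
  have h1 : slMer (σ * T ^ m) h = slMer (σ * T ^ m * σ⁻¹ * σ) h := by
    rw [inv_mul_cancel_right]
  rw [← slMer_mul, h1, slMer_mul, hc', map_mul, slMer_const]

/-- For `γ = ± σ T^m σ⁻¹ ∈ Γ` (any subgroup-like invariance), a `γ`-invariant function `φ` gives a
`T^m`-invariant function `φ ∘ σ`. -/
theorem slMer_T_zpow_of_conj_of_invariant {φ : MerH} {γ σ : SL(2, ℤ)} {m : ℤ}
    (hγ : γ = σ * T ^ m * σ⁻¹ ∨ γ = -(σ * T ^ m * σ⁻¹)) (hinv : slMer γ φ = φ) :
    slMer (T ^ m) (slMer σ φ) = slMer σ φ := by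
  have h1 : slMer γ φ = algebraMap HolH MerH (algebraMap ℂ HolH 1) * φ := by
    rw [map_one, map_one, one_mul]
    exact hinv
  have h2 := slMer_T_zpow_of_conj (h := φ) hγ h1
  rwa [map_one, map_one, one_mul] at h2

end Fermat.Agent.ES.KUM.ParConj14
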