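/-
Program J, chapter J1 (PAR-core), helper26: **the branch selection lemma** (pure analysis, Mathlib only).

If `h : [0,1] → ℂ` is continuous, `h 0 = 1` and `h t ^ n` stays close to `1`, then `h 1` is close to `1`
(quantitatively `‖h 1 - 1‖ ≤ 2 ‖h 1 ^ n - 1‖`): the `n`-th roots of a small disc around `1` are `n`
disjoint small discs and a continuous path cannot jump.  Consequence: a multiplier `c` with `c ^ n = 1`
relating the two end points of a path along which `g ^ n` is almost constant is `1` (`eq_one_of_path`),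
and **(CORE-A)** `eq_one_of_tendsto_pow`: a continuous `Q : ℍ → ℂ` with `Q ^ n → L ≠ 0` at `i∞` and
`Q (x +ᵥ z) = c * Q z` has `c = 1`.
-/
import Mathlib

set_option autoImplicit false

namespace Fermat.Agent.ES.KUM.ParCore26

open Set

/-- `‖w ^ j - 1‖ ≤ (1 + δ) ^ j - 1` for `‖w - 1‖ ≤ δ`. -/
theorem norm_pow_sub_one_le {w : ℂ} {δ : ℝ} (hw : ‖w - 1‖ ≤ δ) (j : ℕ) :
    ‖w ^ j - 1‖ ≤ (1 + δ) ^ j - 1 := by
  have hδ : 0 ≤ δ := (norm_nonneg _).trans hw
  have hnw : ‖w‖ ≤ 1 + δ := by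
    have : w = 1 + (w - 1) := by ring
    calc ‖w‖ = ‖1 + (w - 1)‖ := by rw [← this]
      _ ≤ ‖(1 : ℂ)‖ + ‖w - 1‖ := norm_add_le _ _
      _ ≤ 1 + δ := by rw [norm_one]; linarith
  induction j with
  | zero => simp
  | succ j ih =>
    have h1 : w ^ (j + 1) - 1 = (w ^ j - 1) * w + (w - 1) := by ring
    have hpow : 0 ≤ (1 + δ) ^ j - 1 := (norm_nonneg _).trans ih
    calc ‖w ^ (j + 1) - 1‖ = ‖(w ^ j - 1) * w + (w - 1)‖ := by rw [h1]
      _ ≤ ‖w ^ j - 1‖ * ‖w‖ + ‖w - 1‖ := by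
          refine (norm_add_le _ _).trans ?_
          rw [norm_mul]
      _ ≤ ((1 + δ) ^ j - 1) * (1 + δ) + δ := by
          gcongr
      _ = (1 + δ) ^ (j + 1) - 1 := by ring

/-- Bernoulli-type upper bound: `(1 + δ) ^ j ≤ 1 + 2 j δ` as long as `j δ ≤ 1/2`... (we use the
cruder form with `n`). -/
theorem one_add_pow_le {δ : ℝ} (hδ : 0 ≤ δ) {n : ℕ} (hn : (n : ℝ) * δ ≤ 1 / 2) (j : ℕ) (hj : j ≤ n) :
    (1 + δ) ^ j ≤ 1 + 2 * j * δ := by
  induction j with
  | zero => simp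
  | succ j ih =>
    have hj' : j ≤ n := Nat.le_of_succ_le hj
    have ih' := ih hj'
    have hjn : (j : ℝ) ≤ n := by exact_mod_cast hj'
    have hjδ : (j : ℝ) * δ ≤ 1 / 2 := (mul_le_mul_of_nonneg_right hjn hδ).trans hn
    have h0 : (0 : ℝ) ≤ j := Nat.cast_nonneg j
    calc (1 + δ) ^ (j + 1) = (1 + δ) ^ j * (1 + δ) := pow_succ _ _
      _ ≤ (1 + 2 * j * δ) * (1 + δ) := by gcongr
      _ = 1 + 2 * j * δ + δ + 2 * (j * δ) * δ := by ring
      _ ≤ 1 + 2 * j * δ + δ + 2 * (1 / 2) * δ := by gcongr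
      _ = 1 + 2 * ((j + 1 : ℕ) : ℝ) * δ := by push_cast; ring

/-- **the local dichotomy**: near `1`, `w` is controlled by `w ^ n`. -/
theorem norm_sub_one_le {n : ℕ} (hn : 0 < n) {w : ℂ} (hw : ‖w - 1‖ ≤ 1 / (4 * n)) :
    ‖w - 1‖ ≤ 2 * ‖w ^ n - 1‖ := by
  have hn0 : (0 : ℝ) < n := by exact_mod_cast hn
  set δ : ℝ := 1 / (4 * n) with hδdef
  have hδ0 : 0 ≤ δ := by positivity
  have hnδ : (n : ℝ) * δ = 1 / 4 := by
    rw [hδdef]; field_simp
  have hnδ' : (n : ℝ) * δ ≤ 1 / 2 := by rw [hnδ]; norm_num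
  -- the geometric sum `S = ∑_{j<n} w^j` is close to `n`
  have hgeom : w ^ n - 1 = (w - 1) * ∑ j ∈ Finset.range n, w ^ j := by
    rw [mul_comm]; exact (geom_sum_mul w n).symm
  have hS : ‖(∑ j ∈ Finset.range n, w ^ j) - n‖ ≤ n / 2 := by
    have h1 : (∑ j ∈ Finset.range n, w ^ j) - n = ∑ j ∈ Finset.range n, (w ^ j - 1) := by
      rw [Finset.sum_sub_distrib]; simp
    rw [h1]
    calc ‖∑ j ∈ Finset.range n, (w ^ j - 1)‖ ≤ ∑ j ∈ Finset.range n, ‖w ^ j - 1‖ :=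
          norm_sum_le _ _
      _ ≤ ∑ j ∈ Finset.range n, (2 * (n : ℝ) * δ) := by
          refine Finset.sum_le_sum fun j hj => ?_
          have hjn : j ≤ n := (Finset.mem_range.mp hj).le
          have h2 := norm_pow_sub_one_le hw j
          have h3 := one_add_pow_le hδ0 hnδ' j hjn
          have hjn' : (j : ℝ) ≤ n := by exact_mod_cast hjn
          have : 2 * (j : ℝ) * δ ≤ 2 * (n : ℝ) * δ := by gcongr
          linarith
      _ = n * (2 * (n * δ)) := by rw [Finset.sum_const, Finset.card_range, nsmul_eq_mul]; ring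
      _ = n / 2 := by rw [hnδ]; ring
  have hSn : (n : ℝ) / 2 ≤ ‖∑ j ∈ Finset.range n, w ^ j‖ := by
    have h1 : ‖(n : ℂ)‖ = n := by simp
    have h2 : ‖(n : ℂ)‖ ≤ ‖∑ j ∈ Finset.range n, w ^ j‖ + ‖(∑ j ∈ Finset.range n, w ^ j) - n‖ := by
      have := norm_sub_le (∑ j ∈ Finset.range n, w ^ j) ((∑ j ∈ Finset.range n, w ^ j) - n)
      simpa using this
    linarith
  have hS1 : (1 : ℝ) / 2 ≤ ‖∑ j ∈ Finset.range n, w ^ j‖ := by
    have : (1 : ℝ) ≤ n := by exact_mod_cast hn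
    linarith
  rw [hgeom, norm_mul]
  have := norm_nonneg (w - 1)
  nlinarith

/-- **branch selection along a path.** -/
theorem norm_sub_one_le_of_path {n : ℕ} (hn : 0 < n) (h : ℝ → ℂ)
    (hcont : ContinuousOn h (Icc 0 1)) (h0 : h 0 = 1)
    (hsmall : ∀ t ∈ Icc (0 : ℝ) 1, ‖h t ^ n - 1‖ < 1 / (16 * n)) :
    ‖h 1 - 1‖ ≤ 2 * ‖h 1 ^ n - 1‖ := by
  have hn0 : (0 : ℝ) < n := by exact_mod_cast hn
  refine norm_sub_one_le hn ?_
  by_contra hbig
  rw [not_le] at hbig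
  -- intermediate value theorem for `t ↦ ‖h t - 1‖`
  have hcont' : ContinuousOn (fun t => ‖h t - 1‖) (Icc 0 1) :=
    (hcont.sub continuousOn_const).norm
  have hivt := intermediate_value_Icc (zero_le_one' ℝ) hcont'
  have hmem : (1 / (4 * n) : ℝ) ∈ Icc (‖h 0 - 1‖) (‖h 1 - 1‖) := by
    rw [h0, sub_self, norm_zero]
    exact ⟨by positivity, hbig.le⟩
  obtain ⟨t, ht, htval⟩ := hivt hmem
  have h1 := norm_sub_one_le hn (w := h t) (le_of_eq htval)
  have h2 := hsmall t ht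
  have htval' : ‖h t - 1‖ = 1 / (4 * n) := htval
  rw [htval'] at h1
  have h3 : (1 : ℝ) / (4 * n) = 4 * (1 / (16 * n)) := by field_simp; norm_num
  have h4 : (0 : ℝ) < 1 / (16 * n) := by positivity
  linarith

/-- **no monodromy**: if `g ^ n` is almost constant along a path and `g 1 = c * g 0` with
`c ^ n = 1`, then `c = 1`. -/
theorem eq_one_of_path {n : ℕ} (hn : 0 < n) (g : ℝ → ℂ)
    (hcont : ContinuousOn g (Icc 0 1)) (hne : g 0 ≠ 0)
    (hsmall : ∀ t ∈ Icc (0 : ℝ) 1, ‖g t ^ n / g 0 ^ n - 1‖ < 1 / (16 * n))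
    (c : ℂ) (hc : g 1 = c * g 0) (hcn : c ^ n = 1) : c = 1 := by
  have key := norm_sub_one_le_of_path hn (fun t => g t / g 0)
    (hcont.div_const _) (div_self hne) (fun t ht => by
      have := hsmall t ht
      simpa [div_pow] using this)
  have h1 : g 1 / g 0 = c := by rw [hc]; field_simp
  simp only [h1, hcn, sub_self, norm_zero, mul_zero] at key
  have := norm_le_zero_iff.mp key
  exact sub_eq_zero.mp this

open UpperHalfPlane Filter Topology in
/-- **(CORE-A)**: a continuous function `Q` on `ℍ` whose `n`-th power tends to a nonzero limit at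
`i∞` and which is multiplied by a constant `c` under a horizontal translation satisfies `c = 1`. -/
theorem eq_one_of_tendsto_pow {Q : ℍ → ℂ} (hQ : Continuous Q) {n : ℕ} (hn : n ≠ 0) {L : ℂ}
    (hL : L ≠ 0) (hlim : Tendsto (fun z => Q z ^ n) atImInfty (𝓝 L)) {x : ℝ} {c : ℂ}
    (hper : ∀ z : ℍ, Q (x +ᵥ z) = c * Q z) : c = 1 := by
  have hn' : 0 < n := Nat.pos_of_ne_zero hn
  have hn0 : (0 : ℝ) < n := by exact_mod_cast hn'
  -- translations preserve `atImInfty`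
  have htr : Tendsto (fun z : ℍ => x +ᵥ z) atImInfty atImInfty := by
    rw [atImInfty, tendsto_comap_iff]
    have : (UpperHalfPlane.im ∘ fun z : ℍ => x +ᵥ z) = UpperHalfPlane.im := by
      funext z; simp [vadd_im]
    rw [this]
    exact tendsto_comap
  -- `c ^ n = 1`
  have hcn : c ^ n = 1 := by
    have h1 : Tendsto (fun z => Q (x +ᵥ z) ^ n) atImInfty (𝓝 L) := hlim.comp htr
    have h2 : Tendsto (fun z => Q (x +ᵥ z) ^ n) atImInfty (𝓝 (c ^ n * L)) := by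
      have : (fun z => Q (x +ᵥ z) ^ n) = fun z => c ^ n * Q z ^ n := by
        funext z; rw [hper, mul_pow]
      rw [this]
      exact hlim.const_mul _
    have h3 := tendsto_nhds_unique h1 h2
    have h4 : (c ^ n - 1) * L = 0 := by rw [sub_mul, one_mul, ← h3, sub_self]
    rcases mul_eq_zero.mp h4 with h5 | h5
    · exact sub_eq_zero.mp h5
    · exact absurd h5 hL
  -- a height above which `Q ^ n` is `ε`-close to `L`
  have hLpos : 0 < ‖L‖ := norm_pos_iff.mpr hL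
  set ε : ℝ := ‖L‖ / (32 * n + 1) with hε
  have hεpos : 0 < ε := by positivity
  have hεL : ε * (32 * n + 1) = ‖L‖ := by rw [hε]; field_simp
  have hev : {z : ℍ | ‖Q z ^ n - L‖ < ε} ∈ atImInfty := by
    have := hlim (Metric.ball_mem_nhds L hεpos)
    simpa [Metric.ball, dist_eq_norm] using this
  obtain ⟨Y, hY⟩ := (atImInfty_mem _).mp hev
  -- the base point
  let z₀ : ℍ := ⟨Complex.I * (max Y 1 : ℝ), by
    have : (0 : ℝ) < max Y 1 := lt_max_of_lt_right one_pos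
    simp [this]⟩
  have hz₀ : Y ≤ z₀.im := by
    have : z₀.im = max Y 1 := by
      show (Complex.I * ((max Y 1 : ℝ) : ℂ)).im = max Y 1
      simp
    rw [this]; exact le_max_left _ _
  have hclose : ∀ t : ℝ, ‖Q ((t * x) +ᵥ z₀) ^ n - L‖ < ε := fun t =>
    hY _ (by rw [vadd_im]; exact hz₀)
  let g : ℝ → ℂ := fun t => Q ((t * x) +ᵥ z₀)
  have hg0 : g 0 = Q z₀ := by
    show Q (((0 : ℝ) * x) +ᵥ z₀) = Q z₀
    rw [zero_mul, zero_vadd]
  have hg1 : g 1 = c * g 0 := by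
    rw [hg0]
    show Q (((1 : ℝ) * x) +ᵥ z₀) = c * Q z₀
    rw [one_mul, hper]
  have hgcont : Continuous g := by
    refine hQ.comp ?_
    refine UpperHalfPlane.isEmbedding_coe.continuous_iff.mpr ?_
    have : ((↑) ∘ fun t : ℝ => (t * x) +ᵥ z₀ : ℝ → ℂ) = fun t : ℝ => ((t * x : ℝ) : ℂ) + (z₀ : ℂ) := by
      funext t; simp [coe_vadd]
    rw [this]
    fun_prop
  -- `‖Q z₀ ^ n‖ > ‖L‖ - ε`
  have hden : ‖L‖ - ε < ‖g 0 ^ n‖ := by
    have h1 := hclose 0
    have h2 : ‖L‖ ≤ ‖g 0 ^ n‖ + ‖g 0 ^ n - L‖ := by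
      have := norm_sub_le (g 0 ^ n) (g 0 ^ n - L)
      simpa using this
    have h3 : ‖g 0 ^ n - L‖ < ε := by
      have : g 0 = Q (((0 : ℝ) * x) +ᵥ z₀) := rfl
      rw [this]; exact h1
    linarith
  have hLε : 0 < ‖L‖ - ε := by
    have : ‖L‖ - ε = ε * (32 * n) := by rw [← hεL]; ring
    rw [this]; positivity
  have hne : g 0 ≠ 0 := by
    intro h0
    rw [h0, zero_pow hn, norm_zero] at hden
    linarith
  refine eq_one_of_path hn' g hgcont.continuousOn hne (fun t _ => ?_) c hg1 hcn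
  have hpowne : g 0 ^ n ≠ 0 := pow_ne_zero n hne
  have h1 : g t ^ n / g 0 ^ n - 1 = (g t ^ n - g 0 ^ n) / g 0 ^ n := by
    field_simp
  rw [h1, norm_div]
  have hnum : ‖g t ^ n - g 0 ^ n‖ < 2 * ε := by
    have h2 : g t ^ n - g 0 ^ n = (g t ^ n - L) - (g 0 ^ n - L) := by ring
    rw [h2]
    refine (norm_sub_le _ _).trans_lt ?_
    have ht := hclose t
    have h0 : ‖g 0 ^ n - L‖ < ε := hclose 0
    have ht' : ‖g t ^ n - L‖ < ε := ht
    linarith
  have hdenpos : 0 < ‖g 0 ^ n‖ := hLε.trans hden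
  rw [div_lt_iff₀ hdenpos]
  have h3 : 1 / (16 * (n : ℝ)) * (‖L‖ - ε) = 2 * ε := by
    have : ‖L‖ - ε = ε * (32 * n) := by rw [← hεL]; ring
    rw [this]; field_simp; ring
  have h4 : 1 / (16 * (n : ℝ)) * (‖L‖ - ε) < 1 / (16 * (n : ℝ)) * ‖g 0 ^ n‖ := by
    have : (0 : ℝ) < 1 / (16 * n) := by positivity
    exact mul_lt_mul_of_pos_left hden this
  linarith

end Fermat.Agent.ES.KUM.ParCore26
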