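/-
Program J (S30), chapter J1.3b (helper6): **the topological core of the parabolic multiplier formula**
(route (B) of ParMult; Mathlib only).

`eq_one_of_tendsto_pow`: a continuous `Q : ℍ → ℂ` whose `n`-th power tends to a nonzero limit at `i∞`
and which satisfies `Q (x +ᵥ z) = c · Q z` (`x : ℝ`) has `c = 1`.  Proof: on `{Im z ≥ Y}` the quotient of `Q`
by the principal `n`-th root of `Q^n / L` is a continuous map from a connected set to the finite set
of `n`-th roots of unity, hence constant; so `c = r(x + z) / r(z) → 1`.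
-/
import Mathlib

set_option autoImplicit false

namespace Fermat.Agent.ES.KUM.ParCore6

open UpperHalfPlane Filter Complex
open scoped Topology

/-- the closed upper region `{Im z ≥ Y}` of `ℍ` is preconnected. -/
lemma isPreconnected_im_ge (Y : ℝ) : IsPreconnected {z : ℍ | Y ≤ z.im} := by
  -- path connected via straight segments: use convexity in `ℂ` through the embedding
  have hconv : Convex ℝ {w : ℂ | Y ≤ w.im ∧ 0 < w.im} := by
    intro x hx y hy a b ha hb hab
    refine ⟨?_, ?_⟩
    · have : (a • x + b • y).im = a * x.im + b * y.im := by simp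
      rw [this]
      calc Y = a * Y + b * Y := by rw [← add_mul, hab, one_mul]
        _ ≤ a * x.im + b * y.im :=
          add_le_add (mul_le_mul_of_nonneg_left hx.1 ha) (mul_le_mul_of_nonneg_left hy.1 hb)
    · have : (a • x + b • y).im = a * x.im + b * y.im := by simp
      rw [this]
      rcases ha.eq_or_lt with rfl | ha'
      · simp only [zero_add] at hab; subst hab; simpa using hy.2
      · exact add_pos_of_pos_of_nonneg (mul_pos ha' hx.2) (mul_nonneg hb hy.2.le)
  have hpre : IsPreconnected {w : ℂ | Y ≤ w.im ∧ 0 < w.im} := hconv.isPreconnected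
  -- transport along `ofComplex`
  have hcont : ContinuousOn (fun w : ℂ => (ofComplex w : ℍ)) {w : ℂ | Y ≤ w.im ∧ 0 < w.im} := by
    intro w hw
    exact (UpperHalfPlane.contMDiffAt_ofComplex (n := 0) hw.2).continuousAt.continuousWithinAt
  have himg : (fun w : ℂ => (ofComplex w : ℍ)) '' {w : ℂ | Y ≤ w.im ∧ 0 < w.im}
      = {z : ℍ | Y ≤ z.im} := by
    ext z
    constructor
    · rintro ⟨w, hw, rfl⟩
      have : ((ofComplex w : ℍ) : ℂ) = w := ofComplex_apply_of_im_pos hw.2 ▸ rfl
      show Y ≤ (ofComplex w : ℍ).im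
      rw [UpperHalfPlane.im, this]; exact hw.1
    · intro hz
      refine ⟨(z : ℂ), ⟨hz, z.im_pos⟩, ?_⟩
      exact ofComplex_apply z
  rw [← himg]
  exact hpre.image _ hcont

lemma tendsto_vadd_atImInfty (x : ℝ) : Tendsto (fun z : ℍ => x +ᵥ z) atImInfty atImInfty := by
  rw [atImInfty, tendsto_comap_iff]
  have : (UpperHalfPlane.im ∘ fun z : ℍ => x +ᵥ z) = UpperHalfPlane.im := by
    funext z; simp
  rw [this]
  exact tendsto_comap

/-- **(CORE-A)** a continuous function `Q` on `ℍ` whose `n`-th power tends to a nonzero limit at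
`i∞` and which satisfies `Q (x + z) = c · Q z` has `c = 1`. -/
theorem eq_one_of_tendsto_pow {Q : ℍ → ℂ} (hQ : Continuous Q) {n : ℕ} (hn : n ≠ 0) {L : ℂ}
    (hL : L ≠ 0) (hlim : Tendsto (fun z => Q z ^ n) atImInfty (𝓝 L)) {x : ℝ} {c : ℂ}
    (hper : ∀ z : ℍ, Q (x +ᵥ z) = c * Q z) : c = 1 := by
  have hn0 : (n : ℂ) ≠ 0 := by exact_mod_cast hn
  -- `W → 1`
  set W : ℍ → ℂ := fun z => Q z ^ n / L with hW
  have hWlim : Tendsto W atImInfty (𝓝 1) := by
    have := hlim.div_const L
    rwa [div_self hL] at this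
  have hWcont : Continuous W := (hQ.pow n).div_const L
  -- the region where `W` is close to `1`
  have hball : ∀ᶠ z in atImInfty, ‖W z - 1‖ < 1 / 2 := by
    have := hWlim (Metric.ball_mem_nhds (1 : ℂ) (by norm_num : (0 : ℝ) < 1 / 2))
    filter_upwards [this] with z hz
    simpa [dist_eq_norm] using hz
  obtain ⟨Y, hY⟩ := (atImInfty_mem _).mp hball
  set S : Set ℍ := {z : ℍ | Y ≤ z.im} with hS
  have hslit : ∀ z ∈ S, W z ∈ slitPlane := by
    intro z hz
    have h1 : ‖W z - 1‖ < 1 := lt_trans (hY z hz) (by norm_num)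
    have := Complex.mem_slitPlane_of_norm_lt_one h1
    simpa using this
  have hW0 : ∀ z ∈ S, W z ≠ 0 := fun z hz => slitPlane_ne_zero (hslit z hz)
  -- the principal root
  set r : ℍ → ℂ := fun z => exp (log (W z) / n) with hr
  have hrpow : ∀ z ∈ S, r z ^ n = W z := by
    intro z hz
    rw [hr]
    simp only
    rw [← exp_nat_mul, mul_div_cancel₀ _ hn0, exp_log (hW0 z hz)]
  have hrcont : ContinuousOn r S := by
    intro z hz
    have h1 : ContinuousAt (fun z => log (W z)) z :=
      (hWcont.continuousAt).clog (hslit z hz)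
    have h2 : ContinuousAt r z := (h1.div_const _).cexp
    exact h2.continuousWithinAt
  have hr0 : ∀ z, r z ≠ 0 := fun z => exp_ne_zero _
  have hrlim : Tendsto r atImInfty (𝓝 1) := by
    have h1 : Tendsto (fun z => log (W z)) atImInfty (𝓝 (log 1)) :=
      (continuousAt_clog one_mem_slitPlane).tendsto.comp hWlim
    have h2 : Tendsto (fun z => log (W z) / n) atImInfty (𝓝 (log 1 / n)) := h1.div_const _
    have h3 : Tendsto r atImInfty (𝓝 (exp (log 1 / n))) :=
      (continuous_exp.tendsto (log 1 / n)).comp h2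
    simpa using h3
  -- an `n`-th root of `L`
  obtain ⟨lam, hlam⟩ := IsAlgClosed.exists_pow_nat_eq L (Nat.pos_of_ne_zero hn)
  have hlam0 : lam ≠ 0 := by
    rintro rfl
    rw [zero_pow hn] at hlam
    exact hL hlam.symm
  -- the quotient has values in the `n`-th roots of unity
  set g : ℍ → ℂ := fun z => Q z / (lam * r z) with hg
  have hgpow : ∀ z ∈ S, g z ^ n = 1 := by
    intro z hz
    rw [hg]
    simp only
    rw [div_pow, mul_pow, hlam, hrpow z hz, hW]
    simp only
    have hQ0 : Q z ^ n ≠ 0 := by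
      intro h0
      apply hW0 z hz
      rw [hW]; simp only; rw [h0, zero_div]
    field_simp
  have hgcont : ContinuousOn g S := by
    refine hQ.continuousOn.div (continuousOn_const.mul hrcont) ?_
    intro z _
    exact mul_ne_zero hlam0 (hr0 z)
  set T : Set ℂ := {w : ℂ | w ^ n = 1} with hT
  have hTfin : T.Finite := by
    have : T = ↑(Polynomial.nthRootsFinset n (1 : ℂ)) := by
      ext w
      simp [hT, Polynomial.mem_nthRootsFinset (Nat.pos_of_ne_zero hn)]
    rw [this]
    exact Finset.finite_toSet _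
  have hSpre : IsPreconnected S := isPreconnected_im_ge Y
  have hmaps : Set.MapsTo g S T := fun z hz => hgpow z hz
  -- hence `c = r (x + z) / r z` on `S`
  have hc : ∀ z ∈ S, c = r (x +ᵥ z) / r z := by
    intro z hz
    have hz' : x +ᵥ z ∈ S := by
      show Y ≤ (x +ᵥ z).im
      rw [vadd_im]; exact hz
    have heq : g (x +ᵥ z) = g z := hSpre.constant_of_mapsTo hTfin.isDiscrete hgcont hmaps hz' hz
    rw [hg] at heq
    simp only at heq
    rw [hper z] at heq
    have hQz : Q z ≠ 0 := by
      intro h0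
      apply hW0 z hz
      rw [hW]; simp only; rw [h0, zero_pow hn, zero_div]
    have h1 : lam * r (x +ᵥ z) ≠ 0 := mul_ne_zero hlam0 (hr0 _)
    have h2 : lam * r z ≠ 0 := mul_ne_zero hlam0 (hr0 _)
    rw [div_eq_div_iff h1 h2] at heq
    have h3 : c * r z = r (x +ᵥ z) := by
      have : Q z * lam * (c * r z) = Q z * lam * r (x +ᵥ z) := by linear_combination heq
      exact mul_left_cancel₀ (mul_ne_zero hQz hlam0) this
    rw [← h3, mul_div_cancel_right₀ _ (hr0 z)]
  -- pass to the limit
  have hlim2 : Tendsto (fun z => r (x +ᵥ z) / r z) atImInfty (𝓝 (1 / 1)) :=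
    (hrlim.comp (tendsto_vadd_atImInfty x)).div hrlim one_ne_zero
  have hev : ∀ᶠ z in atImInfty, r (x +ᵥ z) / r z = c := by
    rw [Filter.Eventually, atImInfty_mem]
    exact ⟨Y, fun z hz => (hc z hz).symm⟩
  have hlim3 : Tendsto (fun _ : ℍ => c) atImInfty (𝓝 (1 / 1)) :=
    hlim2.congr' hev
  have := tendsto_nhds_unique hlim3 tendsto_const_nhds
  rw [← this]; norm_num

end Fermat.Agent.ES.KUM.ParCore6
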