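/-
Program J, chapter J1 (Kummer theory on `ℍ`), piece (PAR-core) (helper3):
**the multiplier formula at `i∞`**.

Let `φ ∈ MerH = Frac(HolH)` be a non-zero meromorphic function on `ℍ` such that `φ ^ n = a / b` with
`a b : HolH` having `q_N`-expansions `q_N^{-mₐ} Pₐ(q_N)`, `q_N^{-m_b} P_b(q_N)`, and suppose that
`φ ∘ T^m = c · φ` for a constant `c`.  Then

  `c = exp (2 π i · m · k / (n N))`,   `k := ord_{q_N}(a) - ord_{q_N}(b)`.

Proof: write `φ = α / β`.  Let `S_a, S_b` be the unit parts of the expansions of `a`, `b` (power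
series in `q`, non-zero at `0`).  Comparing `a ∘ T^m · b = c^n · a · b ∘ T^m` at `q → 0` gives
`c^n = ω^k` (`ω = exp(2πi m/N)`) and `G(ω q) = G(q)` for `G = S_a / S_b`.  On a small disc `G` has a
holomorphic `n`-th root `ρ` (`RootsH14.exists_root_ball_of_ne_zero`), automatically invariant under
`q ↦ ω q` (`RootsH14.root_unique`).  On the half plane `Im z > A` the functions
`u = α · exp(-2πi k z/(n N))` and `v = β · ρ(q_N)` satisfy `u^n = v^n`, hence `u = ξ v` for a constant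
`ξ` (`root_unique` again); evaluating at `z` and `z + m` gives the formula.  No division of
holomorphic functions and no meromorphic normal forms are used.

Main statements (namespace `Fermat.Agent.ES.KUM.ParMult3`): `parMult` (the formula),
`exp_eq_one_of_invariant` (`n = 1`, `c = 1`), `parMult_eq_one` (triviality of the multiplier),
`order_laurentOf`, `core` (function form), `exists_ne_zero_of_im_gt`.
-/
import Fermat.Agent.ES.KUM.CReal5
import Fermat.Agent.ES.KUM.RootsH14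
import Fermat.Agent.X0.QExpRing
import Fermat.Agent.X0.JdExp

set_option autoImplicit false

open UpperHalfPlane Metric Set Filter Topology
open scoped MatrixGroups Manifold Real

noncomputable section

namespace Fermat.Agent.ES.KUM.ParMult3

open Fermat.Agent.X0 Fermat.Agent.X0.SurjPoint Fermat.Agent.ES.KUM Fermat.Agent.ES.KUM.RootsH14

/-! ### Part I: the unit part of a `q`-expansion -/

/-- The sum function of a power series. -/
def qSum (P : PowerSeries ℂ) (q : ℂ) : ℂ := ∑' n : ℕ, PowerSeries.coeff n P * q ^ n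

/-- `P / X ^ order P`. -/
def unitPart (P : PowerSeries ℂ) : PowerSeries ℂ :=
  PowerSeries.mk fun n => PowerSeries.coeff (n + P.order.toNat) P

theorem coeff_zero_unitPart {P : PowerSeries ℂ} (hP : P ≠ 0) :
    PowerSeries.coeff 0 (unitPart P) ≠ 0 := by
  rw [unitPart, PowerSeries.coeff_mk, zero_add]
  exact PowerSeries.coeff_order hP

theorem isQExp_unitPart {N : ℕ} {f : ℍ → ℂ} {m : ℕ} {P : PowerSeries ℂ}
    (hP : IsQExp N f m P) :
    IsQExp N (fun z => f z * qh N z ^ m / qh N z ^ P.order.toNat) 0 (unitPart P) := by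
  intro z
  have hq0 : qh N z ≠ 0 := qh_ne_zero N z
  have h1 := hP z
  rw [← hasSum_nat_add_iff' P.order.toNat] at h1
  have hz : ∑ i ∈ Finset.range P.order.toNat, PowerSeries.coeff i P * qh N z ^ i = 0 := by
    refine Finset.sum_eq_zero fun i hi => ?_
    rw [PowerSeries.coeff_of_lt_order_toNat i (Finset.mem_range.mp hi), zero_mul]
  rw [hz, sub_zero] at h1
  have h2 := h1.div_const (qh N z ^ P.order.toNat)
  rw [pow_zero, mul_one]
  refine h2.congr_fun fun n => ?_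
  rw [unitPart, PowerSeries.coeff_mk, pow_add]
  field_simp

theorem qSum_qh {N : ℕ} {f : ℍ → ℂ} {m : ℕ} {P : PowerSeries ℂ}
    (hP : IsQExp N f m P) (z : ℍ) :
    f z * qh N z ^ m = qh N z ^ P.order.toNat * qSum (unitPart P) (qh N z) := by
  have h := (isQExp_unitPart hP z).tsum_eq
  rw [pow_zero, mul_one] at h
  have hq0 : qh N z ^ P.order.toNat ≠ 0 := pow_ne_zero _ (qh_ne_zero N z)
  rw [qSum, h, mul_div_cancel₀ _ hq0]

theorem qSum_zero (P : PowerSeries ℂ) : qSum P 0 = PowerSeries.coeff 0 P := by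
  rw [qSum, tsum_eq_single 0]
  · simp
  · intro n hn
    simp [hn]

theorem differentiableOn_qSum {N : ℕ} [NeZero N] {f : ℍ → ℂ} {m : ℕ} {P : PowerSeries ℂ}
    (hP : IsQExp N f m P) : DifferentiableOn ℂ (qSum P) (ball 0 1) := by
  have h := hP.hasFPowerSeriesOnBall.differentiableOn
  rw [← ENNReal.coe_one, Metric.eball_coe, NNReal.coe_one] at h
  exact h

theorem differentiableOn_qSum_unitPart {N : ℕ} [NeZero N] {f : ℍ → ℂ} {m : ℕ}
    {P : PowerSeries ℂ} (hP : IsQExp N f m P) :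
    DifferentiableOn ℂ (qSum (unitPart P)) (ball 0 1) :=
  differentiableOn_qSum (isQExp_unitPart hP)

theorem qSum_unitPart_zero {P : PowerSeries ℂ} (hP : P ≠ 0) : qSum (unitPart P) 0 ≠ 0 := by
  rw [qSum_zero]
  exact coeff_zero_unitPart hP

/-! ### Part II: translation by `T ^ m` -/

/-- `ω = exp (2 π i m / N)`. -/
def omega (N : ℕ) (m : ℤ) : ℂ := Complex.exp (2 * π * Complex.I * m / N)

theorem omega_ne_zero (N : ℕ) (m : ℤ) : omega N m ≠ 0 := Complex.exp_ne_zero _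

theorem norm_omega (N : ℕ) (m : ℤ) : ‖omega N m‖ = 1 := by
  have h : 2 * (π : ℂ) * Complex.I * m / N = ((2 * π * m / N : ℝ) : ℂ) * Complex.I := by
    push_cast
    ring
  rw [omega, h, Complex.norm_exp_ofReal_mul_I]

theorem qh_T_zpow_smul (N : ℕ) (m : ℤ) (z : ℍ) :
    qh N (ModularGroup.T ^ m • z) = omega N m * qh N z := by
  rw [UpperHalfPlane.modular_T_zpow_smul, omega, qh, qh, Function.Periodic.qParam,
    Function.Periodic.qParam, ← Complex.exp_add]
  congr 1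
  rw [UpperHalfPlane.coe_vadd]
  push_cast
  ring

theorem coe_T_zpow_smul (m : ℤ) (z : ℍ) :
    ((ModularGroup.T ^ m • z : ℍ) : ℂ) = (z : ℂ) + m := by
  rw [UpperHalfPlane.modular_T_zpow_smul, UpperHalfPlane.coe_vadd]
  push_cast
  ring

theorem im_T_zpow_smul (m : ℤ) (z : ℍ) : (ModularGroup.T ^ m • z).im = z.im := by
  rw [UpperHalfPlane.modular_T_zpow_smul, UpperHalfPlane.vadd_im]

/-! ### Part III: non-vanishing high up -/

/-- A non-zero holomorphic function on `ℍ` does not vanish identically on `Im z > A`. -/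
theorem exists_ne_zero_of_im_gt {f : ℍ → ℂ} (hf : f ∈ HolH) (hf0 : f ≠ 0) (A : ℝ) :
    ∃ z : ℍ, A < z.im ∧ f z ≠ 0 := by
  by_contra hcon
  have hall : ∀ z : ℍ, A < z.im → f z = 0 := by
    intro z hz
    by_contra h0
    exact hcon ⟨z, hz, h0⟩
  have hpos : 0 < ((max A 0 + 1 : ℝ) * Complex.I : ℂ).im := by
    simp only [Complex.mul_im, Complex.ofReal_re, Complex.I_im, mul_one, Complex.ofReal_im,
      Complex.I_re, mul_zero, add_zero]
    have := le_max_right A 0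
    linarith
  set z₀ : ℍ := ⟨(max A 0 + 1 : ℝ) * Complex.I, hpos⟩ with hz₀
  apply hf0
  apply eq_zero_of_ordH_eq_top hf z₀
  unfold ordH
  rw [analyticOrderAt_eq_top]
  have hopen : IsOpen {w : ℂ | max A 0 < w.im} := isOpen_lt continuous_const Complex.continuous_im
  have hmem : (z₀ : ℂ) ∈ {w : ℂ | max A 0 < w.im} := by
    show max A 0 < ((max A 0 + 1 : ℝ) * Complex.I : ℂ).im
    simp
  filter_upwards [hopen.mem_nhds hmem] with w hw
  have hw' : max A 0 < w.im := hw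
  have hw0 : 0 < w.im := lt_of_le_of_lt (le_max_right A 0) hw'
  rw [Function.comp_apply, ofComplex_apply_of_im_pos hw0]
  exact hall _ (lt_of_le_of_lt (le_max_left A 0) hw')

/-! ### Part IV: three algebraic identities -/

theorem alg1 (ω q A' A B B' Sa' Sa Sb Sb' cn : ℂ) (oa ob ma mb : ℕ) (hq : q ≠ 0)
    (E1 : A' * (ω * q) ^ ma = (ω * q) ^ oa * Sa') (E2 : B * q ^ mb = q ^ ob * Sb)
    (E3 : A * q ^ ma = q ^ oa * Sa) (E4 : B' * (ω * q) ^ mb = (ω * q) ^ ob * Sb')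
    (R3 : A' * B = cn * A * B') :
    ω ^ (oa + mb) * Sa' * Sb = cn * ω ^ (ob + ma) * Sa * Sb' := by
  have hQ : q ^ (oa + ob + ma + mb) ≠ 0 := pow_ne_zero _ hq
  apply mul_right_cancel₀ hQ
  calc ω ^ (oa + mb) * Sa' * Sb * q ^ (oa + ob + ma + mb)
      = ((ω * q) ^ oa * Sa') * (q ^ ob * Sb) * (q ^ ma * (ω * q) ^ mb) := by ring
    _ = (A' * (ω * q) ^ ma) * (B * q ^ mb) * (q ^ ma * (ω * q) ^ mb) := by rw [← E1, ← E2]
    _ = (A' * B) * ((ω * q) ^ ma * q ^ mb * (q ^ ma * (ω * q) ^ mb)) := by ring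
    _ = (cn * A * B') * ((ω * q) ^ ma * q ^ mb * (q ^ ma * (ω * q) ^ mb)) := by rw [R3]
    _ = cn * (A * q ^ ma) * (B' * (ω * q) ^ mb) * ((ω * q) ^ ma * q ^ mb) := by ring
    _ = cn * (q ^ oa * Sa) * ((ω * q) ^ ob * Sb') * ((ω * q) ^ ma * q ^ mb) := by rw [E3, E4]
    _ = cn * ω ^ (ob + ma) * Sa * Sb' * q ^ (oa + ob + ma + mb) := by ring

theorem alg2 (αz βz Az Bz q E r Sa Sb : ℂ) (oa ob ma mb n : ℕ) (hq : q ≠ 0) (hSb : Sb ≠ 0)
    (R1 : αz ^ n * Bz = Az * βz ^ n) (E2 : Bz * q ^ mb = q ^ ob * Sb)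
    (E3 : Az * q ^ ma = q ^ oa * Sa) (hE : E ^ n * q ^ (oa + mb) = q ^ (ob + ma))
    (hr : r ^ n = Sa / Sb) : (αz * E) ^ n = (βz * r) ^ n := by
  rw [mul_pow, mul_pow, hr]
  apply mul_right_cancel₀ (mul_ne_zero hSb (pow_ne_zero (oa + mb) hq))
  calc αz ^ n * E ^ n * (Sb * q ^ (oa + mb))
      = αz ^ n * Sb * (E ^ n * q ^ (oa + mb)) := by ring
    _ = αz ^ n * Sb * q ^ (ob + ma) := by rw [hE]
    _ = αz ^ n * (q ^ ob * Sb) * q ^ ma := by ring
    _ = αz ^ n * (Bz * q ^ mb) * q ^ ma := by rw [E2]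
    _ = (αz ^ n * Bz) * q ^ mb * q ^ ma := by ring
    _ = (Az * βz ^ n) * q ^ mb * q ^ ma := by rw [R1]
    _ = βz ^ n * (Az * q ^ ma) * q ^ mb := by ring
    _ = βz ^ n * (q ^ oa * Sa) * q ^ mb := by rw [E3]
    _ = βz ^ n * (Sa / Sb) * (Sb * q ^ (oa + mb)) := by
        field_simp
        ring

theorem alg3 (ξ c αz αz' βz βz' rq E ε : ℂ) (e1 : ξ * (βz * rq) = αz * E)
    (e2 : ξ * (βz' * rq) = αz' * (E * ε)) (R2 : αz' * βz = c * αz * βz')
    (hα : αz ≠ 0) (hβ' : βz' ≠ 0) (hE : E ≠ 0) : c * ε = 1 := by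
  have h : αz * βz' * E * (c * ε - 1) = 0 := by
    linear_combination (-E * ε) * R2 + (-βz) * e2 + βz' * e1
  rcases mul_eq_zero.mp h with h1 | h1
  · exact absurd h1 (mul_ne_zero (mul_ne_zero hα hβ') hE)
  · exact sub_eq_zero.mp h1

/-! ### Part V: the analytic core -/

section Core

variable {N n : ℕ} [NeZero N]

/-- The functional equation of the unit parts. -/
theorem unit_relation {a b : ℍ → ℂ} {ma mb : ℕ} {Pa Pb : PowerSeries ℂ}
    (ha : IsQExp N a ma Pa) (hb : IsQExp N b mb Pb) (m : ℤ) (c : ℂ)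
    (R3 : ∀ z : ℍ, a (ModularGroup.T ^ m • z) * b z = c ^ n * a z * b (ModularGroup.T ^ m • z))
    {q : ℂ} (hq0 : q ≠ 0) (hq1 : ‖q‖ < 1) :
    omega N m ^ (Pa.order.toNat + mb) * qSum (unitPart Pa) (omega N m * q) *
        qSum (unitPart Pb) q =
      c ^ n * omega N m ^ (Pb.order.toNat + ma) * qSum (unitPart Pa) q *
        qSum (unitPart Pb) (omega N m * q) := by
  obtain ⟨z, rfl⟩ := exists_qh_eq N hq0 hq1
  have E1 := qSum_qh ha (ModularGroup.T ^ m • z)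
  have E4 := qSum_qh hb (ModularGroup.T ^ m • z)
  rw [qh_T_zpow_smul] at E1 E4
  exact alg1 _ _ _ _ _ _ _ _ _ _ _ _ _ _ _ hq0 E1 (qSum_qh hb z) (qSum_qh ha z) E4 (R3 z)

/-- **The analytic core.** -/
theorem core (hn : n ≠ 0) {α β a b : ℍ → ℂ} (hα : α ∈ HolH) (hβ : β ∈ HolH)
    {ma mb : ℕ} {Pa Pb : PowerSeries ℂ} (ha : IsQExp N a ma Pa) (hb : IsQExp N b mb Pb)
    (hPa : Pa ≠ 0) (hPb : Pb ≠ 0) (m : ℤ) (c : ℂ)
    (hne : ∀ A : ℝ, ∃ z : ℍ, A < z.im ∧ α z ≠ 0 ∧ β z ≠ 0 ∧ β (ModularGroup.T ^ m • z) ≠ 0)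
    (R1 : ∀ z : ℍ, α z ^ n * b z = a z * β z ^ n)
    (R2 : ∀ z : ℍ, α (ModularGroup.T ^ m • z) * β z = c * α z * β (ModularGroup.T ^ m • z))
    (R3 : ∀ z : ℍ, a (ModularGroup.T ^ m • z) * b z =
      c ^ n * a z * b (ModularGroup.T ^ m • z)) :
    c * Complex.exp (2 * π * Complex.I *
      (((Pb.order.toNat + ma : ℕ) : ℂ) - ((Pa.order.toNat + mb : ℕ) : ℂ)) / (n * N) * m) = 1 := by
  set ω := omega N m with hω
  set oa := Pa.order.toNat with hoa
  set ob := Pb.order.toNat with hob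
  set Sa := qSum (unitPart Pa) with hSa
  set Sb := qSum (unitPart Pb) with hSb
  have hSad : DifferentiableOn ℂ Sa (ball 0 1) := differentiableOn_qSum_unitPart ha
  have hSbd : DifferentiableOn ℂ Sb (ball 0 1) := differentiableOn_qSum_unitPart hb
  have hSa0 : Sa 0 ≠ 0 := qSum_unitPart_zero hPa
  have hSb0 : Sb 0 ≠ 0 := qSum_unitPart_zero hPb
  have hSac : ContinuousAt Sa 0 := hSad.continuousOn.continuousAt (ball_mem_nhds 0 one_pos)
  have hSbc : ContinuousAt Sb 0 := hSbd.continuousOn.continuousAt (ball_mem_nhds 0 one_pos)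
  have hmulc : ContinuousAt (fun q : ℂ => ω * q) 0 := by fun_prop
  have hSac' : ContinuousAt (fun q : ℂ => Sa (ω * q)) 0 :=
    ContinuousAt.comp_of_eq hSac hmulc (mul_zero ω)
  have hSbc' : ContinuousAt (fun q : ℂ => Sb (ω * q)) 0 :=
    ContinuousAt.comp_of_eq hSbc hmulc (mul_zero ω)
  -- Step 1: `ω ^ s = c ^ n * ω ^ t`
  have hrel : ∀ q : ℂ, q ≠ 0 → ‖q‖ < 1 →
      ω ^ (oa + mb) * Sa (ω * q) * Sb q = c ^ n * ω ^ (ob + ma) * Sa q * Sb (ω * q) :=
    fun q hq0 hq1 => unit_relation ha hb m c R3 hq0 hq1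
  have hlam : ω ^ (oa + mb) = c ^ n * ω ^ (ob + ma) := by
    have hF : ContinuousAt (fun q : ℂ => ω ^ (oa + mb) * Sa (ω * q) * Sb q -
        c ^ n * ω ^ (ob + ma) * Sa q * Sb (ω * q)) 0 :=
      ((continuousAt_const.mul hSac').mul hSbc).sub ((continuousAt_const.mul hSac).mul hSbc')
    have hev : ∀ᶠ q in 𝓝[≠] (0 : ℂ), ω ^ (oa + mb) * Sa (ω * q) * Sb q -
        c ^ n * ω ^ (ob + ma) * Sa q * Sb (ω * q) = 0 := by
      have h1 : ∀ᶠ q in 𝓝[≠] (0 : ℂ), q ∈ ball (0 : ℂ) 1 :=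
        nhdsWithin_le_nhds (ball_mem_nhds 0 one_pos)
      filter_upwards [h1, self_mem_nhdsWithin] with q hq1 hq0
      rw [mem_ball_zero_iff] at hq1
      exact sub_eq_zero.mpr (hrel q hq0 hq1)
    have ht1 := hF.tendsto.mono_left (nhdsWithin_le_nhds (s := {(0 : ℂ)}ᶜ))
    have ht2 : Tendsto (fun q : ℂ => ω ^ (oa + mb) * Sa (ω * q) * Sb q -
        c ^ n * ω ^ (ob + ma) * Sa q * Sb (ω * q)) (𝓝[≠] 0) (𝓝 0) :=
      (tendsto_congr' hev).mpr tendsto_const_nhds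
    have h0 := tendsto_nhds_unique ht1 ht2
    simp only [mul_zero] at h0
    have h1 : (ω ^ (oa + mb) - c ^ n * ω ^ (ob + ma)) * (Sa 0 * Sb 0) = 0 := by
      linear_combination h0
    rcases mul_eq_zero.mp h1 with h2 | h2
    · exact sub_eq_zero.mp h2
    · exact absurd h2 (mul_ne_zero hSa0 hSb0)
  have hωs : ω ^ (oa + mb) ≠ 0 := pow_ne_zero _ (omega_ne_zero N m)
  have hcross : ∀ q : ℂ, ‖q‖ < 1 → Sa (ω * q) * Sb q = Sa q * Sb (ω * q) := by
    intro q hq1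
    rcases eq_or_ne q 0 with rfl | hq0
    · rw [mul_zero]
    · have h := hrel q hq0 hq1
      rw [← hlam] at h
      apply mul_left_cancel₀ hωs
      linear_combination h
  -- Step 2: a small disc on which `Sa`, `Sb` do not vanish
  obtain ⟨ε, hε, hball⟩ : ∃ ε > 0, ∀ q ∈ ball (0 : ℂ) ε, Sa q ≠ 0 ∧ Sb q ≠ 0 ∧ ‖q‖ < 1 := by
    have h1 := hSac.eventually_ne hSa0
    have h2 := hSbc.eventually_ne hSb0
    have h3 : ∀ᶠ q in 𝓝 (0 : ℂ), ‖q‖ < 1 := by
      filter_upwards [ball_mem_nhds (0 : ℂ) one_pos] with q hq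
      exact mem_ball_zero_iff.mp hq
    exact Metric.eventually_nhds_iff_ball.mp (h1.and (h2.and h3))
  have hNpos : (0 : ℝ) < N := by exact_mod_cast Nat.pos_of_ne_zero (NeZero.ne N)
  set A : ℝ := max 0 (-(N : ℝ) * Real.log ε / (2 * π)) with hA
  have hA0 : 0 ≤ A := le_max_left _ _
  set ρ : ℝ := Real.exp (-2 * π * A / N) with hρ
  have hρε : ρ ≤ ε := by
    have h1 : Real.exp (-2 * π * A / N) ≤ Real.exp (Real.log ε) := by
      apply Real.exp_le_exp.mpr
      have hA' : -(N : ℝ) * Real.log ε / (2 * π) ≤ A := le_max_right _ _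
      rw [div_le_iff₀ (by positivity)] at hA'
      rw [div_le_iff₀ hNpos]
      linarith
    rwa [Real.exp_log hε] at h1
  have hUq : ∀ w : ℂ, A < w.im → ‖Function.Periodic.qParam (N : ℝ) w‖ < ρ := fun w hw =>
    (Function.Periodic.norm_qParam_lt_iff hNpos A w).mpr hw
  have hSaρ : ∀ q ∈ ball (0 : ℂ) ρ, Sa q ≠ 0 ∧ Sb q ≠ 0 ∧ ‖q‖ < 1 := fun q hq =>
    hball q (ball_subset_ball hρε hq)
  have hρ1 : ball (0 : ℂ) ρ ⊆ ball 0 1 := fun q hq => mem_ball_zero_iff.mpr (hSaρ q hq).2.2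
  -- Step 3: the `n`-th root of `G = Sa / Sb` on the disc
  have hGd : DifferentiableOn ℂ (fun q => Sa q / Sb q) (ball 0 ρ) :=
    (hSad.mono hρ1).div (hSbd.mono hρ1) fun q hq => (hSaρ q hq).2.1
  have hG0 : ∀ q ∈ ball (0 : ℂ) ρ, Sa q / Sb q ≠ 0 := fun q hq =>
    div_ne_zero (hSaρ q hq).1 (hSaρ q hq).2.1
  obtain ⟨rt, hrtd, hrt⟩ := exists_root_ball_of_ne_zero hGd hG0 n hn
  have hρpos : 0 < ρ := Real.exp_pos _
  have h0ρ : (0 : ℂ) ∈ ball (0 : ℂ) ρ := mem_ball_self hρpos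
  have hωball : ∀ q ∈ ball (0 : ℂ) ρ, ω * q ∈ ball (0 : ℂ) ρ := by
    intro q hq
    rw [mem_ball_zero_iff] at hq ⊢
    rwa [norm_mul, norm_omega, one_mul]
  have hrtne : ∀ q ∈ ball (0 : ℂ) ρ, rt q ≠ 0 := by
    intro q hq h0
    have := hrt q hq
    rw [h0, zero_pow hn] at this
    exact hG0 q hq this.symm
  have hrtω : ∀ q ∈ ball (0 : ℂ) ρ, rt q = rt (ω * q) := by
    have hd' : DifferentiableOn ℂ (fun q => rt (ω * q)) (ball 0 ρ) :=
      hrtd.comp (differentiableOn_id.const_mul ω) hωball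
    have hEq : EqOn rt (fun q => rt (ω * q)) (ball 0 ρ) := by
      refine root_unique isOpen_ball (convex_ball (0 : ℂ) ρ).isPreconnected hn hrtd hd' ?_ h0ρ
        (hrtne 0 h0ρ) ?_
      · intro q hq
        show rt q ^ n = rt (ω * q) ^ n
        rw [hrt q hq, hrt (ω * q) (hωball q hq),
          div_eq_div_iff (hSaρ q hq).2.1 (hSaρ _ (hωball q hq)).2.1]
        exact (hcross q (hSaρ q hq).2.2).symm
      · show rt 0 = rt (ω * 0)
        rw [mul_zero]
    exact fun q hq => hEq hq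
  -- Step 4: the half plane
  set U : Set ℂ := {w : ℂ | A < w.im} with hU
  have hUo : IsOpen U := isOpen_lt continuous_const Complex.continuous_im
  have hUc : IsPreconnected U := (convex_halfSpace_im_gt A).isPreconnected
  have hUpos : ∀ w ∈ U, 0 < w.im := fun w hw => lt_of_le_of_lt hA0 hw
  have hαd : DifferentiableOn ℂ (α ∘ ofComplex) U :=
    (UpperHalfPlane.mdifferentiable_iff.1 hα).mono hUpos
  have hβd : DifferentiableOn ℂ (β ∘ ofComplex) U :=
    (UpperHalfPlane.mdifferentiable_iff.1 hβ).mono hUpos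
  set κ : ℂ := 2 * π * Complex.I *
    (((ob + ma : ℕ) : ℂ) - ((oa + mb : ℕ) : ℂ)) / (n * N) with hκ
  have hEd : DifferentiableOn ℂ (fun w : ℂ => Complex.exp (κ * w)) U := by
    apply Differentiable.differentiableOn
    fun_prop
  have hqd : DifferentiableOn ℂ (fun w : ℂ => rt (Function.Periodic.qParam (N : ℝ) w)) U :=
    hrtd.comp (Function.Periodic.differentiable_qParam (h := (N : ℝ))).differentiableOn
      (fun w hw => mem_ball_zero_iff.mpr (hUq w hw))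
  have hud : DifferentiableOn ℂ (fun w => (α ∘ ofComplex) w * Complex.exp (κ * w)) U :=
    hαd.mul hEd
  have hvd : DifferentiableOn ℂ
      (fun w => (β ∘ ofComplex) w * rt (Function.Periodic.qParam (N : ℝ) w)) U := hβd.mul hqd
  have hEn : ∀ w : ℂ, Complex.exp (κ * w) ^ n * Function.Periodic.qParam (N : ℝ) w ^ (oa + mb)
      = Function.Periodic.qParam (N : ℝ) w ^ (ob + ma) := by
    intro w
    rw [Function.Periodic.qParam, ← Complex.exp_nat_mul, ← Complex.exp_nat_mul,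
      ← Complex.exp_nat_mul, ← Complex.exp_add]
    congr 1
    rw [hκ]
    have hnC : (n : ℂ) ≠ 0 := by exact_mod_cast hn
    have hNC : (N : ℂ) ≠ 0 := by exact_mod_cast (NeZero.ne N)
    push_cast
    field_simp
    ring
  have hpowU : ∀ w ∈ U, ((α ∘ ofComplex) w * Complex.exp (κ * w)) ^ n =
      ((β ∘ ofComplex) w * rt (Function.Periodic.qParam (N : ℝ) w)) ^ n := by
    intro w hw
    have hw0 := hUpos w hw
    rw [Function.comp_apply, Function.comp_apply, ofComplex_apply_of_im_pos hw0]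
    have hqball : Function.Periodic.qParam (N : ℝ) w ∈ ball (0 : ℂ) ρ :=
      mem_ball_zero_iff.mpr (hUq w hw)
    exact alg2 _ _ _ _ _ _ _ _ _ oa ob ma mb n (qh_ne_zero N ⟨w, hw0⟩) (hSaρ _ hqball).2.1
      (R1 ⟨w, hw0⟩) (qSum_qh hb ⟨w, hw0⟩) (qSum_qh ha ⟨w, hw0⟩) (hEn w) (hrt _ hqball)
  -- Step 5: a good point and the constant `ξ`
  obtain ⟨z₁, hz₁A, hαz₁, hβz₁, hβz₁'⟩ := hne A
  have hw₁ : (z₁ : ℂ) ∈ U := hz₁A
  have hw₁' : ((ModularGroup.T ^ m • z₁ : ℍ) : ℂ) ∈ U := by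
    show A < ((ModularGroup.T ^ m • z₁ : ℍ) : ℂ).im
    rw [UpperHalfPlane.coe_im, im_T_zpow_smul]
    exact hz₁A
  have hq₁ : Function.Periodic.qParam (N : ℝ) (z₁ : ℂ) ∈ ball (0 : ℂ) ρ :=
    mem_ball_zero_iff.mpr (hUq _ hw₁)
  have hv₁ : (β ∘ ofComplex) (z₁ : ℂ) * rt (Function.Periodic.qParam (N : ℝ) (z₁ : ℂ)) ≠ 0 := by
    rw [Function.comp_apply, ofComplex_apply]
    exact mul_ne_zero hβz₁ (hrtne _ hq₁)
  have hu₁ : (α ∘ ofComplex) (z₁ : ℂ) * Complex.exp (κ * (z₁ : ℂ)) ≠ 0 := by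
    rw [Function.comp_apply, ofComplex_apply]
    exact mul_ne_zero hαz₁ (Complex.exp_ne_zero _)
  set ξ : ℂ := ((α ∘ ofComplex) (z₁ : ℂ) * Complex.exp (κ * (z₁ : ℂ))) /
    ((β ∘ ofComplex) (z₁ : ℂ) * rt (Function.Periodic.qParam (N : ℝ) (z₁ : ℂ))) with hξ
  have hξn : ξ ^ n = 1 := by
    rw [hξ, div_pow, hpowU _ hw₁, div_self (pow_ne_zero n hv₁)]
  have hEq : EqOn
      (fun w => ξ * ((β ∘ ofComplex) w * rt (Function.Periodic.qParam (N : ℝ) w)))
      (fun w => (α ∘ ofComplex) w * Complex.exp (κ * w)) U := by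
    refine root_unique hUo hUc hn (hvd.const_mul ξ) hud ?_ hw₁ ?_ ?_
    · intro w hw
      show (ξ * ((β ∘ ofComplex) w * rt (Function.Periodic.qParam (N : ℝ) w))) ^ n = _
      rw [mul_pow, hξn, one_mul, hpowU w hw]
    · show ξ * ((β ∘ ofComplex) (z₁ : ℂ) * rt (Function.Periodic.qParam (N : ℝ) (z₁ : ℂ))) ≠ 0
      rw [hξ, div_mul_cancel₀ _ hv₁]
      exact hu₁
    · show ξ * ((β ∘ ofComplex) (z₁ : ℂ) * rt (Function.Periodic.qParam (N : ℝ) (z₁ : ℂ))) = _
      rw [hξ, div_mul_cancel₀ _ hv₁]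
  have e1 := hEq hw₁
  have e2 := hEq hw₁'
  simp only [Function.comp_apply, ofComplex_apply] at e1 e2
  have hq' : Function.Periodic.qParam (N : ℝ) ((ModularGroup.T ^ m • z₁ : ℍ) : ℂ) =
      ω * Function.Periodic.qParam (N : ℝ) (z₁ : ℂ) := qh_T_zpow_smul N m z₁
  rw [hq', ← hrtω _ hq₁, coe_T_zpow_smul, mul_add, Complex.exp_add] at e2
  exact alg3 ξ c _ _ _ _ _ _ _ e1 e2 (R2 z₁) hαz₁ hβz₁' (Complex.exp_ne_zero _)

end Core

/-! ### Part VI: the statement in `MerH` -/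

theorem order_laurentOf {P : PowerSeries ℂ} (hP : P ≠ 0) (m : ℕ) :
    (laurentOf m P).order = (P.order.toNat : ℤ) - m := by
  have hc : (laurentOf m P).coeff ((P.order.toNat : ℤ) - m) ≠ 0 := by
    rw [laurentOf_coeff, if_pos (by omega)]
    have : ((P.order.toNat : ℤ) - m + m).toNat = P.order.toNat := by
      rw [sub_add_cancel, Int.toNat_natCast]
    rw [this]
    exact PowerSeries.coeff_order hP
  have hne : laurentOf m P ≠ 0 := by
    intro h
    rw [h] at hc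
    exact hc (by simp)
  apply le_antisymm
  · exact HahnSeries.order_le_of_coeff_ne_zero hc
  · rw [HahnSeries.le_order_iff_forall hne]
    intro k hk
    rw [laurentOf_coeff]
    split_ifs with h0
    · apply PowerSeries.coeff_of_lt_order_toNat
      omega
    · rfl

theorem algebraMap_MerH_ne_zero {x : HolH} (hx : x ≠ 0) : algebraMap HolH MerH x ≠ 0 := by
  rw [Ne, ← map_zero (algebraMap HolH MerH)]
  exact fun h0 => hx (IsFractionRing.injective HolH MerH h0)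

/-- **The multiplier formula at `i∞`** (PAR-core).  If `φ ∈ MerH` is non-zero, `φ ^ n = a / b`
with `a b : HolH` having `q_N`-expansions, and `φ ∘ T^m = c • φ`, then
`c = exp (2 π i m k / (n N))`, where `k = ord_{q_N} a - ord_{q_N} b` is the order of the
`q_N`-expansion of `φ ^ n`. -/
theorem parMult (N n : ℕ) [NeZero N] (hn : n ≠ 0) (φ : MerH) (hφ : φ ≠ 0) (a b : HolH)
    (hb : b ≠ 0) (hφn : φ ^ n = algebraMap HolH MerH a / algebraMap HolH MerH b)
    {ma mb : ℕ} {Pa Pb : PowerSeries ℂ}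
    (ha : IsQExp N (a : ℍ → ℂ) ma Pa) (hbq : IsQExp N (b : ℍ → ℂ) mb Pb)
    (m : ℤ) (c : ℂ)
    (hc : slMer (ModularGroup.T ^ m) φ = algebraMap HolH MerH (algebraMap ℂ HolH c) * φ) :
    c = Complex.exp (2 * π * Complex.I * m *
      (((laurentOf ma Pa).order - (laurentOf mb Pb).order : ℤ) : ℂ) / (n * N)) := by
  obtain ⟨α, β, hβ, rfl⟩ := exists_div_MerH φ
  set γ : SL(2, ℤ) := ModularGroup.T ^ m with hγ
  have hinj := IsFractionRing.injective HolH MerH
  have hβ' := algebraMap_MerH_ne_zero hβ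
  have hb' := algebraMap_MerH_ne_zero hb
  have hα : α ≠ 0 := by
    rintro rfl
    rw [map_zero, zero_div] at hφ
    exact hφ rfl
  have ha0 : a ≠ 0 := by
    rintro rfl
    rw [map_zero, zero_div] at hφn
    exact hφ (pow_eq_zero_iff hn |>.mp hφn)
  have hγβ : compSLHom γ β ≠ 0 := (map_ne_zero_iff _ (compSLHom_injective γ)).mpr hβ
  have hγb : compSLHom γ b ≠ 0 := (map_ne_zero_iff _ (compSLHom_injective γ)).mpr hb
  have hγβ' := algebraMap_MerH_ne_zero hγβ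
  have hγb' := algebraMap_MerH_ne_zero hγb
  -- the three relations in `HolH`
  have R1H : α ^ n * b = a * β ^ n := by
    apply hinj
    rw [div_pow, div_eq_div_iff (pow_ne_zero n hβ') hb'] at hφn
    rw [map_mul, map_mul, map_pow, map_pow]
    exact hφn
  have R2H : compSLHom γ α * β = algebraMap ℂ HolH c * α * compSLHom γ β := by
    apply hinj
    rw [slMer_div, mul_div_assoc', div_eq_div_iff hγβ' hβ'] at hc
    rw [map_mul, map_mul, map_mul]
    exact hc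
  have R3H : compSLHom γ a * b = algebraMap ℂ HolH c ^ n * a * compSLHom γ b := by
    apply hinj
    have h1 := congrArg (slMer γ) hφn
    rw [map_pow, hc, mul_pow, hφn, slMer_div, mul_div_assoc', div_eq_div_iff hb' hγb'] at h1
    rw [map_mul, map_mul, map_mul, map_pow]
    linear_combination -h1
  have R1 : ∀ z : ℍ, (α : ℍ → ℂ) z ^ n * (b : ℍ → ℂ) z = (a : ℍ → ℂ) z * (β : ℍ → ℂ) z ^ n :=
    fun z => congrArg (fun f : HolH => (f : ℍ → ℂ) z) R1H
  have R2 : ∀ z : ℍ, (α : ℍ → ℂ) (γ • z) * (β : ℍ → ℂ) z =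
      c * (α : ℍ → ℂ) z * (β : ℍ → ℂ) (γ • z) :=
    fun z => congrArg (fun f : HolH => (f : ℍ → ℂ) z) R2H
  have R3 : ∀ z : ℍ, (a : ℍ → ℂ) (γ • z) * (b : ℍ → ℂ) z =
      c ^ n * (a : ℍ → ℂ) z * (b : ℍ → ℂ) (γ • z) :=
    fun z => congrArg (fun f : HolH => (f : ℍ → ℂ) z) R3H
  have hPa : Pa ≠ 0 := fun h0 => ha0 (Subtype.ext (ha.eq_zero_iff.mpr h0))
  have hPb : Pb ≠ 0 := fun h0 => hb (Subtype.ext (hbq.eq_zero_iff.mpr h0))
  have hne : ∀ A : ℝ, ∃ z : ℍ, A < z.im ∧ (α : ℍ → ℂ) z ≠ 0 ∧ (β : ℍ → ℂ) z ≠ 0 ∧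
      (β : ℍ → ℂ) (γ • z) ≠ 0 := by
    intro A
    have hf0 : α * β * compSLHom γ β ≠ 0 := mul_ne_zero (mul_ne_zero hα hβ) hγβ
    have hf0' : ((α * β * compSLHom γ β : HolH) : ℍ → ℂ) ≠ 0 := fun h0 => hf0 (Subtype.ext h0)
    obtain ⟨z, hzA, hz⟩ := exists_ne_zero_of_im_gt (α * β * compSLHom γ β).2 hf0' A
    have hz' : (α : ℍ → ℂ) z * (β : ℍ → ℂ) z * (β : ℍ → ℂ) (γ • z) ≠ 0 := hz
    exact ⟨z, hzA, (mul_ne_zero_iff.mp (mul_ne_zero_iff.mp hz').1).1,
      (mul_ne_zero_iff.mp (mul_ne_zero_iff.mp hz').1).2, (mul_ne_zero_iff.mp hz').2⟩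
  have hcore := core hn α.2 β.2 ha hbq hPa hPb m c hne R1 R2 R3
  rw [eq_inv_of_mul_eq_one_left hcore, ← Complex.exp_neg, order_laurentOf hPa,
    order_laurentOf hPb]
  congr 1
  push_cast
  ring

/-- The case `n = 1`, `c = 1`: if `φ = a / b` is invariant under `T ^ m`, then
`exp (2 π i m k / N) = 1`, `k` the order of the `q_N`-expansion of `φ`. -/
theorem exp_eq_one_of_invariant (N : ℕ) [NeZero N] (φ : MerH) (hφ : φ ≠ 0) (a b : HolH)
    (hb : b ≠ 0) (hφab : φ = algebraMap HolH MerH a / algebraMap HolH MerH b)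
    {ma mb : ℕ} {Pa Pb : PowerSeries ℂ}
    (ha : IsQExp N (a : ℍ → ℂ) ma Pa) (hbq : IsQExp N (b : ℍ → ℂ) mb Pb)
    (m : ℤ) (hinv : slMer (ModularGroup.T ^ m) φ = φ) :
    Complex.exp (2 * π * Complex.I * m *
      (((laurentOf ma Pa).order - (laurentOf mb Pb).order : ℤ) : ℂ) / N) = 1 := by
  have h := parMult N 1 one_ne_zero φ hφ a b hb (by rw [pow_one]; exact hφab) ha hbq m 1
    (by rw [hinv, map_one, map_one, one_mul])
  rw [Nat.cast_one, one_mul] at h
  exact h.symm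

/-- **Triviality of the multiplier at a cusp.**  In the situation of `parMult`, if the order `k`
of the expansion of `φ ^ n` is `n * (K * d)` and `exp (2 π i m K / N) = 1` (`K` the ramification
index of the cusp, obtained from `exp_eq_one_of_invariant` applied to a uniformiser), then
`c = 1`. -/
theorem parMult_eq_one (N n : ℕ) [NeZero N] (hn : n ≠ 0) (φ : MerH) (hφ : φ ≠ 0) (a b : HolH)
    (hb : b ≠ 0) (hφn : φ ^ n = algebraMap HolH MerH a / algebraMap HolH MerH b)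
    {ma mb : ℕ} {Pa Pb : PowerSeries ℂ}
    (ha : IsQExp N (a : ℍ → ℂ) ma Pa) (hbq : IsQExp N (b : ℍ → ℂ) mb Pb)
    (m : ℤ) (c : ℂ)
    (hc : slMer (ModularGroup.T ^ m) φ = algebraMap HolH MerH (algebraMap ℂ HolH c) * φ)
    (K d : ℤ) (hk : (laurentOf ma Pa).order - (laurentOf mb Pb).order = n * (K * d))
    (hK : Complex.exp (2 * π * Complex.I * m * (K : ℂ) / N) = 1) : c = 1 := by
  have h := parMult N n hn φ hφ a b hb hφn ha hbq m c hc
  rw [hk] at h
  have hnC : (n : ℂ) ≠ 0 := by exact_mod_cast hn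
  have he : 2 * π * Complex.I * m * (((n : ℤ) * (K * d) : ℤ) : ℂ) / (n * N) =
      (d : ℂ) * (2 * π * Complex.I * m * (K : ℂ) / N) := by
    push_cast
    field_simp
  rw [he, Complex.exp_int_mul, hK, one_zpow] at h
  exact h

end Fermat.Agent.ES.KUM.ParMult3
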