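/-
Program J, chapter J1 (helper16): **the parabolic multiplier statement, discharged** — helper3's
`ParMult3.parMult` inhabits helper18's `MultTrivial18.ParMultStmt N` (and `CCusp16.ParMultStmt N`), hence
the unconditional forms of

* `multTrivial N n : KumInst18.MultTrivial N n` (via `MultTrivial18.multTrivial_of_parMult`);
* `dvd_ord_cuspPlaceC` : `n ∣ ord_v f` at the cusp places for an `n`-th root of `realMer N f` invariant
  under the elements of `Γ₀(N)` with `|trace| ≤ 2` (PAR-ASSEMBLY (←), `ParAsm16`).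
-/
import Fermat.Agent.ES.KUM.ParAsm16
import Fermat.Agent.ES.KUM.ParMult3

set_option autoImplicit false
set_option linter.unusedSectionVars false

open ModularCurve HahnSeries UpperHalfPlane AlgebraicCurve
open scoped Topology Manifold MatrixGroups
open MulAction Subgroup CongruenceSubgroup

noncomputable section

namespace Fermat.Agent.ES.KUM.ParFinal16

open Fermat.Agent.X0 Fermat.Agent.ES.KUM Fermat.Agent.X0.SurjPoint Fermat.Agent.ES.KUM.CCusp16

variable (N : ℕ) [NeZero N]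

/-- **(PARMULT)**, unconditional: helper3's multiplier formula in helper18's literal shape. -/
theorem parMultStmt : MultTrivial18.ParMultStmt N :=
  fun n hn φ hφ a b hb hφn _ _ _ _ ha hbq m c hc =>
    ParMult3.parMult N n hn φ hφ a b hb hφn ha hbq m c hc

theorem parMultStmt' : CCusp16.ParMultStmt N := ParAsm16.parMultStmt_of N (parMultStmt N)

theorem parDvdStmt : CCusp16.ParDvdStmt N := ParAsm16.parDvdStmt_of N (parMultStmt N)

/-- **(MULT)**, unconditional. -/
theorem multTrivial (n : ℕ) (hn : n ≠ 0) : KumInst18.MultTrivial N n :=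
  MultTrivial18.multTrivial_of_parMult N (parMultStmt N) n hn

/-- **PAR-ASSEMBLY (←)**, unconditional, `|trace| ≤ 2` form. -/
theorem dvd_ord_cuspPlaceC {n : ℕ} (hn : n ≠ 0)
    {f : FC N} (hf : f ≠ 0) (h : MerH) (hh : h ^ n = realMer N f)
    (hinv : ∀ γ : SL(2, ℤ), γ ∈ Gamma0 N →
      |((γ : SL(2, ℤ)) : Matrix (Fin 2) (Fin 2) ℤ).trace| ≤ 2 → slMer γ h = h)
    (g : SL(2, ℤ)) : (n : ℤ) ∣ (cuspPlaceC N g).ord f :=
  ParAsm16.dvd_ord_cuspPlaceC N (parMultStmt N) hn hf h hh hinv g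

/-- The same at every place over `∞`. -/
theorem dvd_ord_of_ord_jC_neg {n : ℕ} (hn : n ≠ 0)
    {f : FC N} (hf : f ≠ 0) (h : MerH) (hh : h ^ n = realMer N f)
    (hinv : ∀ γ : SL(2, ℤ), γ ∈ Gamma0 N →
      |((γ : SL(2, ℤ)) : Matrix (Fin 2) (Fin 2) ℤ).trace| ≤ 2 → slMer γ h = h)
    (v : Place ℂ (FC N)) (hv : v.ord (jC N) < 0) : (n : ℤ) ∣ v.ord f :=
  ParAsm16.dvd_ord_of_ord_jC_neg N (parMultStmt N) hn hf h hh hinv v hv

/-- Eigen-character form, unconditional. -/
theorem dvd_ord_cuspPlaceC_of_eigen {n : ℕ} (hn : n ≠ 0)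
    {χ : ↥(Gamma0 N) →* ℂˣ} (hχ : χ ∈ KumInst18.KumChar N n) {h : MerH} {f : FC N} (hf : f ≠ 0)
    (hpow : h ^ n = realMer N f)
    (he : ∀ γ : ↥(Gamma0 N), slMer (γ : SL(2, ℤ)) h =
      algebraMap HolH MerH (algebraMap ℂ HolH ((χ γ : ℂˣ) : ℂ)) * h)
    (g : SL(2, ℤ)) : (n : ℤ) ∣ (cuspPlaceC N g).ord f :=
  ParAsm16.dvd_ord_cuspPlaceC_of_eigen N (parMultStmt N) hn hχ hf hpow he g

end Fermat.Agent.ES.KUM.ParFinal16
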