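/-
Program J, chapter J1, ParMult route (B), leaf (QLIM) (helper16): **the leading term at `i∞`** of a function
with a `q_N`-expansion.

If `IsQExp N f m P` with `P ≠ 0` and `k := (laurentOf m P).order` (`= P.order - m`), then
`f z * q_N(z) ^ (-k) → coeff (P.order) P ≠ 0` as `Im z → ∞`.  Consequently `f` is zero-free on a half-plane
`Im z > R`.
-/
import Fermat.Agent.X0.QExpRing
import Fermat.Agent.X0.RealizeData

set_option autoImplicit false
set_option linter.unusedSectionVars false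

open UpperHalfPlane Function Filter Topology HahnSeries
open scoped MatrixGroups Manifold

noncomputable section

namespace Fermat.Agent.ES.KUM.ParLim16

open Fermat.Agent.X0 Fermat.Agent.X0.Analytic PowerSeries

variable {N : ℕ} [NeZero N]

/-- The order of `laurentOf m P` for `P ≠ 0`. -/
theorem order_laurentOf' {R : Type*} [CommRing R] (m : ℕ) {P : PowerSeries R} (hP : P ≠ 0) :
    (laurentOf m P).order = (P.order.toNat : ℤ) - m := by
  have hd : P.order = (P.order.toNat : ℕ∞) := (PowerSeries.coe_toNat_order hP).symm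
  obtain ⟨h1, h2⟩ := (PowerSeries.order_eq_nat).mp hd
  set s := P.order.toNat
  have hc : (laurentOf m P).coeff ((s : ℤ) - m) ≠ 0 := by
    rw [coeff_laurentOf, if_pos (by omega)]
    have : ((s : ℤ) - m + m).toNat = s := by omega
    rwa [this]
  have hf : laurentOf m P ≠ 0 := by
    intro h0
    rw [h0] at hc
    exact hc rfl
  apply le_antisymm (HahnSeries.order_le_of_coeff_ne_zero hc)
  by_contra hlt
  apply hf
  apply HahnSeries.coeff_order_eq_zero.mp
  rw [coeff_laurentOf]
  split_ifs with h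
  · exact h2 _ (by omega)
  · rfl

/-- The tail expansion: `f z * q^m = q^d * ∑ coeff (n + d) P q^n`, `d = P.order`. -/
theorem hasSum_tail {f : ℍ → ℂ} {m : ℕ} {P : PowerSeries ℂ} (hf : IsQExp N f m P) (hP : P ≠ 0)
    (z : ℍ) :
    HasSum (fun n : ℕ => coeff (n + P.order.toNat) P * qh N z ^ n)
      (f z * qh N z ^ m / qh N z ^ P.order.toNat) := by
  have hd : P.order = (P.order.toNat : ℕ∞) := (PowerSeries.coe_toNat_order hP).symm
  obtain ⟨-, h2⟩ := (PowerSeries.order_eq_nat).mp hd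
  set d := P.order.toNat
  have hq : qh N z ≠ 0 := qh_ne_zero N z
  have h1 := hf z
  have h3 : HasSum (fun n : ℕ => coeff (n + d) P * qh N z ^ (n + d))
      (f z * qh N z ^ m - ∑ i ∈ Finset.range d, coeff i P * qh N z ^ i) :=
    (hasSum_nat_add_iff' d).mpr h1
  have h4 : ∑ i ∈ Finset.range d, coeff i P * qh N z ^ i = 0 := by
    apply Finset.sum_eq_zero
    intro i hi
    rw [h2 i (Finset.mem_range.mp hi), zero_mul]
  rw [h4, sub_zero] at h3
  have h5 := h3.mul_right (qh N z ^ d)⁻¹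
  rw [← div_eq_mul_inv] at h5
  have h6 : (fun n : ℕ => coeff (n + d) P * qh N z ^ n) =
      fun i : ℕ => coeff (i + d) P * qh N z ^ (i + d) * (qh N z ^ d)⁻¹ := by
    funext n
    rw [_root_.pow_add]
    field_simp
  rw [h6]
  exact h5

/-- **(QLIM)**  `f z * q_N(z) ^ (-k) → L ≠ 0`, `k = (laurentOf m P).order`, `L = coeff (P.order) P`. -/
theorem tendsto_of_isQExp {f : ℍ → ℂ} {m : ℕ} {P : PowerSeries ℂ} (hf : IsQExp N f m P)
    (hP : P ≠ 0) :
    Tendsto (fun z : ℍ => f z * qh N z ^ (-(laurentOf m P).order)) atImInfty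
      (𝓝 (coeff P.order.toNat P)) := by
  set d := P.order.toNat with hd
  -- the tail function on the disc
  set H : ℂ → ℂ := fun q => ∑' n : ℕ, coeff (n + d) P * q ^ n with hH
  have hsum : ∀ q : ℂ, ‖q‖ < 1 → HasSum (fun n : ℕ => coeff (n + d) P * q ^ n) (H q) := by
    intro q hq
    rcases eq_or_ne q 0 with rfl | hq0
    · have h0 : HasSum (fun n : ℕ => coeff (n + d) P * (0 : ℂ) ^ n) (coeff (0 + d) P) := by
        simpa +contextual [zero_pow_eq] using hasSum_ite_eq 0 (coeff (0 + d) P)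
      rw [hH]
      simp only
      rw [h0.tsum_eq]
      exact h0
    · obtain ⟨z, rfl⟩ := exists_qh_eq N hq0 hq
      exact (hasSum_tail hf hP z).summable.hasSum
  have hball := hasFPowerSeriesOnBall_of_hasSum hsum
  have hcont : ContinuousAt H 0 := hball.hasFPowerSeriesAt.continuousAt
  have hH0 : H 0 = coeff d P := by
    have h0 : HasSum (fun n : ℕ => coeff (n + d) P * (0 : ℂ) ^ n) (coeff (0 + d) P) := by
      simpa +contextual [zero_pow_eq] using hasSum_ite_eq 0 (coeff (0 + d) P)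
    rw [hH]
    simp only
    rw [h0.tsum_eq, zero_add]
  have hNpos : (0 : ℝ) < N := by exact_mod_cast Nat.pos_of_ne_zero (NeZero.ne N)
  have htend : Tendsto (fun z : ℍ => qh N z) atImInfty (𝓝 0) :=
    UpperHalfPlane.qParam_tendsto_atImInfty hNpos
  have h4 : Tendsto (fun z : ℍ => H (qh N z)) atImInfty (𝓝 (H 0)) := hcont.tendsto.comp htend
  rw [hH0] at h4
  refine h4.congr (fun z => ?_)
  have hq : qh N z ≠ 0 := qh_ne_zero N z
  rw [(hsum (qh N z) (norm_qh_lt_one N z)).unique (hasSum_tail hf hP z), order_laurentOf' m hP,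
    ← hd, neg_sub, zpow_sub₀ hq, zpow_natCast, zpow_natCast]
  ring

/-- The leading coefficient is nonzero. -/
theorem coeff_order_ne_zero {P : PowerSeries ℂ} (hP : P ≠ 0) : coeff P.order.toNat P ≠ 0 :=
  PowerSeries.coeff_order hP

/-- **(QLIM)**, existential form. -/
theorem exists_tendsto_of_isQExp {f : ℍ → ℂ} {m : ℕ} {P : PowerSeries ℂ} (hf : IsQExp N f m P)
    (hP : P ≠ 0) :
    ∃ L : ℂ, L ≠ 0 ∧
      Tendsto (fun z : ℍ => f z * qh N z ^ (-(laurentOf m P).order)) atImInfty (𝓝 L) :=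
  ⟨_, coeff_order_ne_zero hP, tendsto_of_isQExp hf hP⟩

/-- A nonzero function with a `q_N`-expansion is zero-free on a half-plane `Im z ≥ R`. -/
theorem exists_forall_ne_zero {f : ℍ → ℂ} {m : ℕ} {P : PowerSeries ℂ} (hf : IsQExp N f m P)
    (hP : P ≠ 0) : ∃ R : ℝ, 0 ≤ R ∧ ∀ z : ℍ, R ≤ z.im → f z ≠ 0 := by
  have h1 := tendsto_of_isQExp hf hP
  have h2 : ∀ᶠ z : ℍ in atImInfty, f z * qh N z ^ (-(laurentOf m P).order) ≠ 0 :=
    h1.eventually_ne (coeff_order_ne_zero hP)
  rw [Filter.Eventually, atImInfty_mem] at h2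
  obtain ⟨A, hA⟩ := h2
  refine ⟨max A 0, le_max_right _ _, fun z hz h0 => ?_⟩
  have := hA z (le_trans (le_max_left _ _) hz)
  exact this (by rw [h0, zero_mul])

end Fermat.Agent.ES.KUM.ParLim16
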