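/-
Program J, chapter J1 (Kummer theory on `ℍ`), (PAR-core) (helper4, independent spare of helper3's
`ParMult3`): **the parabolic multiplier formula at `i∞`**.

If `φ ∈ MerH`, `φ ≠ 0`, `φ ^ n = a / b` with `a, b` holomorphic on `ℍ` having `q_N`-expansion data
(`IsQExp N a mₐ Pₐ`, `IsQExp N b m_b P_b`) and `φ ∘ T^m = c φ`, then
`c = exp (2πi · m · k / (n N))`, `k = ord (q^{-mₐ} Pₐ) - ord (q^{-m_b} P_b)` (`parMult`).

Proof.  `φ = α / β`; `a q^{mₐ} = q^{dₐ} A(q)`, `b q^{m_b} = q^{d_b} B(q)` with `A, B` holomorphic on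
the unit disc and nonzero at `0` (`exists_normal_form`, Mathlib's `cuspFunction`); on a small disc
`A = ρA ^ n`, `B = ρB ^ n` (`RootsH14.exists_root_ball_of_ne_zero`).  After the shift
`z ↦ z + iR` (`shiftHom`, an injective endomorphism of the domain `HolH` commuting with `T^m`)
everything lives in `HolH`: with `e_j = exp (2πi j (z + iR) / (n N))`,
`u = α e_{d_b + mₐ} ρB(q)`, `v = β e_{dₐ + m_b} ρA(q)` satisfy `u ^ n = v ^ n`, hence `u = ξ v`
with a constant `ξ` (`eq_const_mul_of_pow_eq`).  Applying `T^m` and cancelling `ξ β (β ∘ T^m) e_t`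
gives `ε_t ρA(ζ₀ q) ρB(q) = c ε_s ρA(q) ρB(ζ₀ q)` for all `q = q_N(z + iR)`; let `Im z → ∞`.
-/
import Fermat.Agent.ES.KUM.CReal5
import Fermat.Agent.ES.KUM.RootsH14
import Fermat.Agent.X0.QExpBasic

set_option autoImplicit false

open UpperHalfPlane hiding I
open Complex Filter Topology Metric
open scoped Real Manifold MatrixGroups

noncomputable section

namespace Fermat.Agent.ES.KUM.ParMultAlt4

open Fermat.Agent.X0 Fermat.Agent.X0.QExpBasic Fermat.Agent.X0.SurjPoint Fermat.Agent.ES.KUM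

local notation "𝕢" => Function.Periodic.qParam

/-! ### The shift `z ↦ z + i R` -/

/-- The shift `z ↦ z + i R` of the upper half plane (`R : ℕ`). -/
def shiftPt (R : ℕ) (z : ℍ) : ℍ :=
  ⟨(z : ℂ) + (R : ℂ) * I, by
    have h : ((z : ℂ) + (R : ℂ) * I).im = z.im + R := by simp
    rw [h]
    have := z.im_pos
    positivity⟩

@[simp] theorem coe_shiftPt (R : ℕ) (z : ℍ) : ((shiftPt R z : ℍ) : ℂ) = (z : ℂ) + (R : ℂ) * I := rfl

theorem im_shiftPt (R : ℕ) (z : ℍ) : (shiftPt R z).im = z.im + R := by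
  show ((z : ℂ) + (R : ℂ) * I).im = z.im + R
  simp

theorem shift_mem_HolH {f : ℍ → ℂ} (hf : f ∈ HolH) (R : ℕ) :
    (fun z => f (shiftPt R z)) ∈ HolH := by
  rw [mem_HolH, UpperHalfPlane.mdifferentiable_iff] at hf ⊢
  have h1 : DifferentiableOn ℂ (fun w : ℂ => (f ∘ ofComplex) (w + (R : ℂ) * I)) {z | 0 < z.im} := by
    refine hf.comp (by fun_prop) ?_
    intro w hw
    have hw0 : 0 < w.im := hw
    show 0 < (w + (R : ℂ) * I).im
    have : (w + (R : ℂ) * I).im = w.im + R := by simp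
    rw [this]
    positivity
  refine h1.congr fun w hw => ?_
  have hw0 : 0 < w.im := hw
  have hw' : 0 < (w + (R : ℂ) * I).im := by
    have : (w + (R : ℂ) * I).im = w.im + R := by simp
    rw [this]
    positivity
  simp only [Function.comp_apply, ofComplex_apply_of_im_pos hw, ofComplex_apply_of_im_pos hw']
  rfl

/-- The shift as a ring endomorphism of `HolH`. -/
def shiftHom (R : ℕ) : HolH →+* HolH where
  toFun f := ⟨fun z => (f : ℍ → ℂ) (shiftPt R z), shift_mem_HolH f.2 R⟩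
  map_one' := rfl
  map_mul' _ _ := rfl
  map_zero' := rfl
  map_add' _ _ := rfl

@[simp] theorem shiftHom_apply (R : ℕ) (f : HolH) (z : ℍ) :
    ((shiftHom R f : HolH) : ℍ → ℂ) z = (f : ℍ → ℂ) (shiftPt R z) := rfl

theorem shiftHom_const (R : ℕ) (c : ℂ) : shiftHom R (algebraMap ℂ HolH c) = algebraMap ℂ HolH c :=
  rfl

theorem shiftPt_T_zpow (R : ℕ) (m : ℤ) (z : ℍ) :
    shiftPt R (ModularGroup.T ^ m • z) = ModularGroup.T ^ m • shiftPt R z := by
  apply UpperHalfPlane.ext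
  rw [coe_shiftPt, ModularGroup.coe_T_zpow_smul_eq, ModularGroup.coe_T_zpow_smul_eq, coe_shiftPt]
  ring

theorem shiftHom_compSLHom (R : ℕ) (m : ℤ) (f : HolH) :
    shiftHom R (compSLHom (ModularGroup.T ^ m) f) = compSLHom (ModularGroup.T ^ m) (shiftHom R f) := by
  apply Subtype.ext
  funext z
  show (f : ℍ → ℂ) (ModularGroup.T ^ m • shiftPt R z) = (f : ℍ → ℂ) (shiftPt R (ModularGroup.T ^ m • z))
  rw [shiftPt_T_zpow]

theorem shiftHom_injective (R : ℕ) : Function.Injective (shiftHom R) := by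
  rw [injective_iff_map_eq_zero]
  intro f hf
  have h0 : ∀ z : ℍ, (f : ℍ → ℂ) (shiftPt R z) = 0 := fun z => by
    have := congrArg (fun g : HolH => (g : ℍ → ℂ) z) hf
    simpa using this
  -- `f` vanishes near `z₀ = i (R + 2)`
  set z₀ : ℍ := shiftPt R ⟨2 * I, by simp⟩ with hz₀
  apply Subtype.ext
  apply eq_zero_of_ordH_eq_top f.2 z₀
  unfold ordH
  rw [analyticOrderAt_eq_top]
  have hopen : IsOpen {w : ℂ | (R : ℝ) < w.im} := isOpen_lt continuous_const Complex.continuous_im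
  have hmem : (z₀ : ℂ) ∈ {w : ℂ | (R : ℝ) < w.im} := by
    show (R : ℝ) < ((2 * I : ℂ) + (R : ℂ) * I).im
    simp
  filter_upwards [hopen.mem_nhds hmem] with w hw
  have hw : (R : ℝ) < w.im := hw
  have hw1 : 0 < (w - (R : ℂ) * I).im := by
    have : (w - (R : ℂ) * I).im = w.im - R := by simp
    rw [this]; linarith
  have hw2 : 0 < w.im := lt_of_le_of_lt (Nat.cast_nonneg R) hw
  have h1 := h0 ⟨w - (R : ℂ) * I, hw1⟩
  have h2 : shiftPt R ⟨w - (R : ℂ) * I, hw1⟩ = ofComplex w := by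
    rw [ofComplex_apply_of_im_pos hw2]
    apply UpperHalfPlane.ext
    show (w - (R : ℂ) * I) + (R : ℂ) * I = w
    ring
  rw [h2] at h1
  exact h1

/-! ### Exponentials `z ↦ exp (2πi w (z + iR))` -/

/-- `z ↦ exp (2πi w (z + iR))` as a function on `ℍ`. -/
def expShFun (R : ℕ) (w : ℂ) : ℍ → ℂ := fun z => cexp (2 * π * I * w * ((z : ℂ) + (R : ℂ) * I))

theorem expShFun_mem (R : ℕ) (w : ℂ) : expShFun R w ∈ HolH := by
  rw [mem_HolH, UpperHalfPlane.mdifferentiable_iff]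
  have : DifferentiableOn ℂ (fun v : ℂ => cexp (2 * π * I * w * (v + (R : ℂ) * I))) {z | 0 < z.im} := by
    fun_prop
  refine this.congr fun v hv => ?_
  simp only [Function.comp_apply, expShFun, ofComplex_apply_of_im_pos hv, coe_mk]

/-- `z ↦ exp (2πi w (z + iR))` as an element of `HolH`. -/
def expSh (R : ℕ) (w : ℂ) : HolH := ⟨expShFun R w, expShFun_mem R w⟩

theorem expSh_apply (R : ℕ) (w : ℂ) (z : ℍ) :
    ((expSh R w : HolH) : ℍ → ℂ) z = cexp (2 * π * I * w * ((z : ℂ) + (R : ℂ) * I)) := rfl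

theorem expSh_apply_ne_zero (R : ℕ) (w : ℂ) (z : ℍ) : ((expSh R w : HolH) : ℍ → ℂ) z ≠ 0 :=
  Complex.exp_ne_zero _

theorem expSh_ne_zero (R : ℕ) (w : ℂ) : expSh R w ≠ 0 := by
  intro h
  have := congrArg (fun g : HolH => (g : ℍ → ℂ) ⟨I, by simp⟩) h
  exact expSh_apply_ne_zero R w _ this

theorem expSh_pow (R : ℕ) (w : ℂ) (n : ℕ) : expSh R w ^ n = expSh R (n * w) := by
  apply Subtype.ext
  funext z
  show ((expSh R w : HolH) : ℍ → ℂ) z ^ n = ((expSh R ((n : ℂ) * w) : HolH) : ℍ → ℂ) z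
  rw [expSh_apply, expSh_apply, ← Complex.exp_nat_mul]
  congr 1
  ring

theorem expSh_T_zpow (R : ℕ) (w : ℂ) (m : ℤ) :
    compSLHom (ModularGroup.T ^ m) (expSh R w) =
      algebraMap ℂ HolH (cexp (2 * π * I * w * m)) * expSh R w := by
  apply Subtype.ext
  funext z
  show ((expSh R w : HolH) : ℍ → ℂ) (ModularGroup.T ^ m • z) =
    cexp (2 * π * I * w * m) * ((expSh R w : HolH) : ℍ → ℂ) z
  rw [expSh_apply, expSh_apply, ModularGroup.coe_T_zpow_smul_eq, ← Complex.exp_add]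
  congr 1
  ring

/-- `q_N (z + iR) ^ j = exp (2πi (j/N) (z + iR))`. -/
theorem qh_shiftPt_pow (N : ℕ) (R : ℕ) (j : ℕ) (z : ℍ) :
    qh N (shiftPt R z) ^ j = ((expSh R ((j : ℂ) / N) : HolH) : ℍ → ℂ) z := by
  rw [expSh_apply, qh, Function.Periodic.qParam, ← Complex.exp_nat_mul, coe_shiftPt]
  congr 1
  push_cast
  ring

/-! ### Normal form of a `q_N`-expansion -/

theorem order_eq_of_coeff {f : HahnSeries ℤ ℂ} {k : ℤ} (h1 : f.coeff k ≠ 0)
    (h2 : ∀ j < k, f.coeff j = 0) : f.order = k := by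
  have hf : f ≠ 0 := by
    rintro rfl
    exact h1 rfl
  apply le_antisymm (HahnSeries.order_le_of_coeff_ne_zero h1)
  by_contra hlt
  exact hf (HahnSeries.coeff_order_eq_zero.mp (h2 _ (not_le.mp hlt)))

theorem order_laurentOf {P : PowerSeries ℂ} {s : ℕ} (hP : P.order = s) (m : ℕ) :
    (laurentOf m P).order = (s : ℤ) - m := by
  obtain ⟨h1, h2⟩ := (PowerSeries.order_eq_nat).mp hP
  apply order_eq_of_coeff
  · rw [laurentOf_coeff, if_pos (by omega)]
    have : ((s : ℤ) - m + m).toNat = s := by omega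
    rwa [this]
  · intro j hj
    rw [laurentOf_coeff]
    split_ifs with h
    · exact h2 _ (by omega)
    · rfl

theorem exists_normal_form (N : ℕ) [NeZero N] {f : HolH} (hf : f ≠ 0) {m : ℕ} {P : PowerSeries ℂ}
    (hP : IsQExp N ((f : HolH) : ℍ → ℂ) m P) :
    ∃ (d : ℕ) (A : ℂ → ℂ), (laurentOf m P).order = (d : ℤ) - m ∧
      DifferentiableOn ℂ A (ball 0 1) ∧ A 0 ≠ 0 ∧
      ∀ z : ℍ, (f : ℍ → ℂ) z * qh N z ^ m = qh N z ^ d * A (qh N z) := by
  have hP0 : P ≠ 0 := by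
    rintro rfl
    apply hf
    apply Subtype.ext
    funext z
    have h1 := hP z
    simp only [map_zero, zero_mul] at h1
    have h2 := h1.unique hasSum_zero
    have hq : qh N z ^ m ≠ 0 := pow_ne_zero _ (qh_ne_zero' N z)
    exact (mul_eq_zero.mp h2).resolve_right hq
  set d := P.order.toNat with hd
  have hord : P.order = d := (PowerSeries.coe_toNat_order hP0).symm
  set Q := PowerSeries.divXPowOrder P with hQ
  have hQ0 : PowerSeries.constantCoeff Q ≠ 0 := by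
    rw [Ne, PowerSeries.constantCoeff_divXPowOrder_eq_zero_iff]
    exact hP0
  have hcoeff : ∀ n, PowerSeries.coeff n Q = PowerSeries.coeff (n + d) P :=
    fun n => PowerSeries.coeff_divXPowOrder
  have hlow : ∀ i < d, PowerSeries.coeff i P = 0 := fun i hi =>
    PowerSeries.coeff_of_lt_order_toNat i hi
  set E : HolH := expSh 0 (-(d : ℂ) / N) with hE
  have hN : (N : ℂ) ≠ 0 := by exact_mod_cast NeZero.ne N
  have hqE : ∀ z : ℍ, qh N z ^ d * (E : ℍ → ℂ) z = 1 := by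
    intro z
    rw [hE, expSh_apply, qh, Function.Periodic.qParam, ← Complex.exp_nat_mul, ← Complex.exp_add]
    rw [Complex.exp_eq_one_iff]
    refine ⟨0, ?_⟩
    push_cast
    field_simp
    ring
  set F : ℍ → ℂ := fun z => (f : ℍ → ℂ) z * qh N z ^ m * (E : ℍ → ℂ) z with hF
  have hFhol : F ∈ HolH := HolH.mul_mem (twist_mem_HolH f.2 m) E.2
  have hsum : ∀ z : ℍ, HasSum (fun n : ℕ => PowerSeries.coeff n Q * qh N z ^ n) (F z) := by
    intro z
    have h1 := (hasSum_nat_add_iff' d).mpr (hP z)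
    have h2 : ∑ i ∈ Finset.range d, PowerSeries.coeff i P * qh N z ^ i = 0 :=
      Finset.sum_eq_zero fun i hi => by rw [hlow i (Finset.mem_range.mp hi), zero_mul]
    rw [h2, sub_zero] at h1
    have h3 := h1.mul_right ((E : ℍ → ℂ) z)
    have h4 : (fun n : ℕ => PowerSeries.coeff n Q * qh N z ^ n) =
        fun n : ℕ => PowerSeries.coeff (n + d) P * qh N z ^ (n + d) * (E : ℍ → ℂ) z := by
      funext n
      rw [hcoeff n, pow_add, mul_assoc, mul_assoc, hqE z, mul_one]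
    rw [h4]
    exact h3
  have hper := periodic_of_hasSum (h := N) hsum
  have han := analyticAt_cuspFunction_of_hasSum (h := N) hFhol hsum
  have hc' : ∀ τ : ℍ, HasSum (fun k : ℕ => PowerSeries.coeff k Q • 𝕢 (N : ℝ) τ ^ k) (F τ) :=
    fun τ => by simpa only [smul_eq_mul, qh] using hsum τ
  have hbdd := isBoundedAtImInfty_of_hasSum_qExpansion (h_pos (h := N)) hc'
  have hball := hasFPowerSeriesOnBall_cuspFunction (h_pos (h := N)) han hc'
  refine ⟨d, cuspFunction (N : ℝ) F, order_laurentOf hord m,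
    differentiableOn_cuspFunction_ball (h_pos (h := N)) hper hFhol hbdd, ?_, ?_⟩
  · have h0 := hball.hasFPowerSeriesAt.coeff_zero 1
    have h1 : (FormalMultilinearSeries.ofScalars ℂ (fun k : ℕ => PowerSeries.coeff k Q)).coeff 0
        = PowerSeries.coeff 0 Q := FormalMultilinearSeries.coeff_ofScalars ..
    rw [← h0]
    change (FormalMultilinearSeries.ofScalars ℂ (fun k : ℕ => PowerSeries.coeff k Q)).coeff 0 ≠ 0
    rw [h1, PowerSeries.coeff_zero_eq_constantCoeff_apply]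
    exact hQ0
  · intro z
    have h1 := eq_cuspFunction z (h_pos (h := N)).ne' hper
    have h2 : 𝕢 (N : ℝ) (z : ℂ) = qh N z := rfl
    rw [h2] at h1
    rw [h1]
    show _ = qh N z ^ d * ((f : ℍ → ℂ) z * qh N z ^ m * (E : ℍ → ℂ) z)
    have := hqE z
    linear_combination (-((f : ℍ → ℂ) z * qh N z ^ m)) * this

/-! ### The parameter `q_N (z + iR)` -/

theorem norm_qh_shiftPt (N : ℕ) (R : ℕ) (z : ℍ) :
    ‖qh N (shiftPt R z)‖ = Real.exp (-2 * π * (z.im + R) / N) := by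
  rw [qh, Function.Periodic.norm_qParam]
  have h : ((shiftPt R z : ℍ) : ℂ).im = z.im + R := im_shiftPt R z
  rw [h]

theorem exists_shift (N : ℕ) [NeZero N] {ε : ℝ} (hε : 0 < ε) :
    ∃ R : ℕ, ∀ z : ℍ, qh N (shiftPt R z) ∈ ball (0 : ℂ) ε := by
  have hNpos : (0 : ℝ) < N := h_pos (h := N)
  obtain ⟨R, hR⟩ := exists_nat_gt (-(N : ℝ) * Real.log ε / (2 * π))
  refine ⟨R, fun z => ?_⟩
  rw [mem_ball_zero_iff, norm_qh_shiftPt]
  have h1 : -2 * π * (z.im + R) / N < Real.log ε := by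
    have hz := z.im_pos
    have h2 : -(N : ℝ) * Real.log ε < (2 * π) * R := by
      have := (div_lt_iff₀ (by positivity : (0 : ℝ) < 2 * π)).mp hR
      linarith
    rw [div_lt_iff₀ hNpos]
    have h3 : 0 < 2 * π * z.im := by positivity
    nlinarith
  calc Real.exp (-2 * π * (z.im + R) / N) < Real.exp (Real.log ε) := Real.exp_lt_exp.mpr h1
    _ = ε := Real.exp_log hε

theorem comp_qsh_mem_HolH (N : ℕ) (R : ℕ) {ε : ℝ} {g : ℂ → ℂ}
    (hg : DifferentiableOn ℂ g (ball 0 ε))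
    (hq : ∀ z : ℍ, qh N (shiftPt R z) ∈ ball (0 : ℂ) ε) :
    (fun z : ℍ => g (qh N (shiftPt R z))) ∈ HolH := by
  rw [mem_HolH, UpperHalfPlane.mdifferentiable_iff]
  have h1 : DifferentiableOn ℂ (fun w : ℂ => g (𝕢 (N : ℝ) (w + (R : ℂ) * I))) {z | 0 < z.im} := by
    refine hg.comp (f := fun w : ℂ => 𝕢 (N : ℝ) (w + (R : ℂ) * I)) ?_ ?_
    · unfold Function.Periodic.qParam
      fun_prop
    · intro w hw
      have hw0 : 0 < w.im := hw
      exact hq ⟨w, hw0⟩
  refine h1.congr fun w hw => ?_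
  simp only [Function.comp_apply, ofComplex_apply_of_im_pos hw]
  rfl

theorem tendsto_qh_shiftPt (N : ℕ) [NeZero N] (R : ℕ) :
    Tendsto (fun z : ℍ => qh N (shiftPt R z)) atImInfty (𝓝 0) := by
  have h1 : Tendsto (fun τ : ℍ => 𝕢 (N : ℝ) τ) atImInfty (𝓝 0) :=
    UpperHalfPlane.qParam_tendsto_atImInfty (h_pos (h := N))
  have h2 : (fun z : ℍ => qh N (shiftPt R z)) =
      fun z : ℍ => 𝕢 (N : ℝ) z * cexp (2 * π * I * ((R : ℂ) * I) / (N : ℝ)) := by
    funext z
    rw [qh, coe_shiftPt, Function.Periodic.qParam, Function.Periodic.qParam, ← Complex.exp_add]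
    congr 1
    ring
  rw [h2]
  simpa using h1.mul_const (cexp (2 * π * I * ((R : ℂ) * I) / (N : ℝ)))

theorem exists_ball_ne_zero {A : ℂ → ℂ} (hA : DifferentiableOn ℂ A (ball 0 1)) (h0 : A 0 ≠ 0) :
    ∃ ε : ℝ, 0 < ε ∧ ε ≤ 1 ∧ ∀ q ∈ ball (0 : ℂ) ε, A q ≠ 0 := by
  have hc : ContinuousAt A 0 :=
    (hA.differentiableAt (isOpen_ball.mem_nhds (mem_ball_self one_pos))).continuousAt
  have h1 : ∀ᶠ q in 𝓝 (0 : ℂ), A q ≠ 0 := hc.eventually_ne h0
  obtain ⟨ε, hε, hsub⟩ := Metric.eventually_nhds_iff_ball.mp h1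
  refine ⟨min ε 1, lt_min hε one_pos, min_le_right _ _, fun q hq => hsub q ?_⟩
  exact ball_subset_ball (min_le_left _ _) hq

/-! ### `n`-th roots of unity in `HolH` are constants -/

theorem eq_const_mul_of_pow_eq {n : ℕ} (hn : n ≠ 0) {u v : HolH} (h : u ^ n = v ^ n) :
    ∃ ξ : ℂ, ξ ≠ 0 ∧ u = algebraMap ℂ HolH ξ * v := by
  have : NeZero n := ⟨hn⟩
  have hζ : IsPrimitiveRoot (cexp (2 * π * I / n)) n := Complex.isPrimitiveRoot_exp n hn
  have hinj : Function.Injective (algebraMap ℂ HolH) := (algebraMap ℂ HolH).injective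
  have hζ' : IsPrimitiveRoot (algebraMap ℂ HolH (cexp (2 * π * I / n))) n :=
    hζ.map_of_injective hinj
  have hprod := hζ'.pow_sub_pow_eq_prod_sub_mul u v (Nat.pos_of_ne_zero hn)
  rw [h, sub_self] at hprod
  obtain ⟨ξ', hξ', hzero⟩ := Finset.prod_eq_zero_iff.mp hprod.symm
  have hξ'n : ξ' ^ n = 1 := (Polynomial.mem_nthRootsFinset (Nat.pos_of_ne_zero hn) 1).mp hξ'
  obtain ⟨i, -, hi⟩ := hζ'.eq_pow_of_pow_eq_one hξ'n
  refine ⟨cexp (2 * π * I / n) ^ i, pow_ne_zero _ (Complex.exp_ne_zero _), ?_⟩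
  rw [map_pow, hi]
  exact sub_eq_zero.mp hzero

theorem compSLHom_const (γ : SL(2, ℤ)) (c : ℂ) :
    compSLHom γ (algebraMap ℂ HolH c) = algebraMap ℂ HolH c := rfl

/-! ### The parabolic multiplier formula -/

theorem parMult (N : ℕ) [NeZero N] (n : ℕ) (hn : n ≠ 0) (φ : MerH) (hφ : φ ≠ 0) (a b : HolH)
    (hb : b ≠ 0)
    (hφn : φ ^ n = algebraMap HolH MerH a / algebraMap HolH MerH b)
    {mₐ m_b : ℕ} {Pₐ P_b : PowerSeries ℂ}
    (ha : IsQExp N ((a : HolH) : ℍ → ℂ) mₐ Pₐ) (hbq : IsQExp N ((b : HolH) : ℍ → ℂ) m_b P_b)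
    (m : ℤ) (c : ℂ)
    (hc : slMer (ModularGroup.T ^ m) φ = algebraMap HolH MerH (algebraMap ℂ HolH c) * φ) :
    c = Complex.exp (2 * Real.pi * Complex.I * m *
      (((laurentOf mₐ Pₐ).order - (laurentOf m_b P_b).order : ℤ) : ℂ) / (n * N)) := by
  -- `φ = α / β`
  obtain ⟨α, β, hβ, rfl⟩ := exists_div_MerH φ
  have hι : Function.Injective (algebraMap HolH MerH) := IsFractionRing.injective HolH MerH
  have hιβ : algebraMap HolH MerH β ≠ 0 := fun h => hβ (hι (by rw [h, map_zero]))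
  have hιb : algebraMap HolH MerH b ≠ 0 := fun h => hb (hι (by rw [h, map_zero]))
  have hα : α ≠ 0 := by
    rintro rfl
    apply hφ
    rw [map_zero, zero_div]
  -- (i) `α^n b = a β^n`
  have h1 : α ^ n * b = a * β ^ n := by
    apply hι
    rw [div_pow, div_eq_div_iff (pow_ne_zero _ hιβ) hιb] at hφn
    rw [map_mul, map_mul, map_pow, map_pow]
    exact hφn
  -- (ii) `τα β = c α τβ`
  set τ := compSLHom (ModularGroup.T ^ m) with hτ
  have hτinj : Function.Injective τ := compSLHom_injective _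
  have hτβ : τ β ≠ 0 := fun h => hβ (hτinj (by rw [h, map_zero]))
  have hιτβ : algebraMap HolH MerH (τ β) ≠ 0 := fun h => hτβ (hι (by rw [h, map_zero]))
  have h2 : τ α * β = algebraMap ℂ HolH c * α * τ β := by
    apply hι
    rw [slMer_div, ← mul_div_assoc, div_eq_div_iff hιτβ hιβ] at hc
    rw [map_mul, map_mul, map_mul]
    exact hc
  have ha0 : a ≠ 0 := by
    rintro rfl
    rw [zero_mul] at h1
    exact mul_ne_zero (pow_ne_zero _ hα) hb h1
  -- normal forms of the expansions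
  obtain ⟨dₐ, A, hordA, hAdiff, hA0, hAeq⟩ := exists_normal_form N ha0 ha
  obtain ⟨d_b, B, hordB, hBdiff, hB0, hBeq⟩ := exists_normal_form N hb hbq
  obtain ⟨εA, hεA, hεA1, hAne⟩ := exists_ball_ne_zero hAdiff hA0
  obtain ⟨εB, hεB, hεB1, hBne⟩ := exists_ball_ne_zero hBdiff hB0
  set ε := min εA εB with hε
  have hεpos : 0 < ε := lt_min hεA hεB
  have hsubA : ball (0 : ℂ) ε ⊆ ball 0 εA := ball_subset_ball (min_le_left _ _)
  have hsubB : ball (0 : ℂ) ε ⊆ ball 0 εB := ball_subset_ball (min_le_right _ _)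
  have hsub1 : ball (0 : ℂ) ε ⊆ ball 0 1 := hsubA.trans (ball_subset_ball hεA1)
  obtain ⟨ρA, hρAd, hρA⟩ := RootsH14.exists_root_ball_of_ne_zero (hAdiff.mono hsub1)
    (fun z hz => hAne z (hsubA hz)) n hn
  obtain ⟨ρB, hρBd, hρB⟩ := RootsH14.exists_root_ball_of_ne_zero (hBdiff.mono hsub1)
    (fun z hz => hBne z (hsubB hz)) n hn
  obtain ⟨R, hR⟩ := exists_shift N hεpos
  have h0mem : (0 : ℂ) ∈ ball (0 : ℂ) ε := mem_ball_self hεpos
  have hρA0 : ρA 0 ≠ 0 := by
    intro h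
    have := hρA 0 h0mem
    rw [h, zero_pow hn] at this
    exact hA0 this.symm
  have hρB0 : ρB 0 ≠ 0 := by
    intro h
    have := hρB 0 h0mem
    rw [h, zero_pow hn] at this
    exact hB0 this.symm
  -- the shifted objects
  have hSinj := shiftHom_injective R
  set rA : HolH := ⟨fun z => ρA (qh N (shiftPt R z)), comp_qsh_mem_HolH N R hρAd hR⟩ with hrA
  set rB : HolH := ⟨fun z => ρB (qh N (shiftPt R z)), comp_qsh_mem_HolH N R hρBd hR⟩ with hrB
  have hnC : (n : ℂ) ≠ 0 := by exact_mod_cast hn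
  have hNC : (N : ℂ) ≠ 0 := by exact_mod_cast NeZero.ne N
  set s : ℕ := d_b + mₐ with hs
  set t : ℕ := dₐ + m_b with ht
  set es : HolH := expSh R ((s : ℂ) / (n * N)) with hes
  set et : HolH := expSh R ((t : ℂ) / (n * N)) with het
  have hpow : ∀ (j : ℕ) (z : ℍ), ((expSh R ((j : ℂ) / (n * N)) : HolH) : ℍ → ℂ) z ^ n =
      qh N (shiftPt R z) ^ j := by
    intro j z
    rw [qh_shiftPt_pow, expSh_apply, expSh_apply, ← Complex.exp_nat_mul]
    congr 1
    field_simp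
  -- `u^n = v^n`
  set u : HolH := shiftHom R α * es * rB with hu
  set v : HolH := shiftHom R β * et * rA with hv
  have huv : u ^ n = v ^ n := by
    apply Subtype.ext
    funext z
    show ((α : ℍ → ℂ) (shiftPt R z) * (es : ℍ → ℂ) z * ρB (qh N (shiftPt R z))) ^ n =
      ((β : ℍ → ℂ) (shiftPt R z) * (et : ℍ → ℂ) z * ρA (qh N (shiftPt R z))) ^ n
    rw [mul_pow, mul_pow, mul_pow, mul_pow, hpow s z, hpow t z, hρA _ (hR z), hρB _ (hR z)]
    have e1 : (α : ℍ → ℂ) (shiftPt R z) ^ n * (b : ℍ → ℂ) (shiftPt R z) =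
        (a : ℍ → ℂ) (shiftPt R z) * (β : ℍ → ℂ) (shiftPt R z) ^ n :=
      congrArg (fun g : HolH => (g : ℍ → ℂ) (shiftPt R z)) h1
    have e2 := hAeq (shiftPt R z)
    have e3 := hBeq (shiftPt R z)
    rw [hs, ht, pow_add, pow_add]
    linear_combination (qh N (shiftPt R z) ^ mₐ * qh N (shiftPt R z) ^ m_b) * e1
      - ((α : ℍ → ℂ) (shiftPt R z) ^ n * qh N (shiftPt R z) ^ mₐ) * e3
      + ((β : ℍ → ℂ) (shiftPt R z) ^ n * qh N (shiftPt R z) ^ m_b) * e2
  obtain ⟨ξ, hξ0, huv'⟩ := eq_const_mul_of_pow_eq hn huv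
  -- apply `τ`
  set εs : ℂ := cexp (2 * π * I * ((s : ℂ) / (n * N)) * m) with hεs
  set εt : ℂ := cexp (2 * π * I * ((t : ℂ) / (n * N)) * m) with hεt
  have h3 : τ (shiftHom R α) * (algebraMap ℂ HolH εs * es) * τ rB =
      algebraMap ℂ HolH ξ * (τ (shiftHom R β) * (algebraMap ℂ HolH εt * et) * τ rA) := by
    have := congrArg τ huv'
    rw [hu, hv, map_mul, map_mul, map_mul, map_mul, map_mul, hτ, compSLHom_const,
      hes, het, expSh_T_zpow, expSh_T_zpow] at this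
    exact this
  have h4 : τ (shiftHom R α) * shiftHom R β =
      algebraMap ℂ HolH c * shiftHom R α * τ (shiftHom R β) := by
    have := congrArg (shiftHom R) h2
    rw [map_mul, map_mul, map_mul, shiftHom_const, hτ, shiftHom_compSLHom, shiftHom_compSLHom] at this
    exact this
  have hSβ : shiftHom R β ≠ 0 := fun h => hβ (hSinj (by rw [h, map_zero]))
  have hτSβ : τ (shiftHom R β) ≠ 0 := fun h => hSβ (hτinj (by rw [h, map_zero]))
  have hξ' : algebraMap ℂ HolH ξ ≠ 0 := fun h =>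
    hξ0 ((algebraMap ℂ HolH).injective (by rw [h, map_zero]))
  have huv'' : shiftHom R α * es * rB = algebraMap ℂ HolH ξ * (shiftHom R β * et * rA) := huv'
  have hkey0 : (algebraMap ℂ HolH εt * τ rA * rB -
      algebraMap ℂ HolH c * algebraMap ℂ HolH εs * rA * τ rB) *
      (algebraMap ℂ HolH ξ * shiftHom R β * τ (shiftHom R β) * et) = 0 := by
    linear_combination (-(shiftHom R β * rB)) * h3 +
      (algebraMap ℂ HolH εs * es * τ rB * rB) * h4 +
      (algebraMap ℂ HolH c * algebraMap ℂ HolH εs * τ rB * τ (shiftHom R β)) * huv''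
  have hne : algebraMap ℂ HolH ξ * shiftHom R β * τ (shiftHom R β) * et ≠ 0 :=
    mul_ne_zero (mul_ne_zero (mul_ne_zero hξ' hSβ) hτSβ) (expSh_ne_zero R _)
  have hkey : algebraMap ℂ HolH εt * τ rA * rB =
      algebraMap ℂ HolH c * algebraMap ℂ HolH εs * rA * τ rB :=
    sub_eq_zero.mp ((mul_eq_zero.mp hkey0).resolve_right hne)
  -- pointwise form
  set ζ₀ : ℂ := cexp (2 * π * I * (((1 : ℕ) : ℂ) / N) * m) with hζ₀
  have hqT : ∀ z : ℍ, qh N (shiftPt R (ModularGroup.T ^ m • z)) = ζ₀ * qh N (shiftPt R z) := by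
    intro z
    have e1 := qh_shiftPt_pow N R 1 (ModularGroup.T ^ m • z)
    have e2 := qh_shiftPt_pow N R 1 z
    rw [pow_one] at e1 e2
    have e3 := congrArg (fun g : HolH => (g : ℍ → ℂ) z) (expSh_T_zpow R (((1 : ℕ) : ℂ) / N) m)
    rw [e1, e2]
    exact e3
  have hpt : ∀ z : ℍ, εt * ρA (ζ₀ * qh N (shiftPt R z)) * ρB (qh N (shiftPt R z)) -
      c * εs * ρA (qh N (shiftPt R z)) * ρB (ζ₀ * qh N (shiftPt R z)) = 0 := by
    intro z
    have e := congrArg (fun g : HolH => (g : ℍ → ℂ) z) hkey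
    have e' : εt * ρA (qh N (shiftPt R (ModularGroup.T ^ m • z))) * ρB (qh N (shiftPt R z)) =
        c * εs * ρA (qh N (shiftPt R z)) * ρB (qh N (shiftPt R (ModularGroup.T ^ m • z))) := e
    rw [hqT z] at e'
    exact sub_eq_zero.mpr e'
  -- let `Im z → ∞`
  have hcA : ContinuousAt ρA 0 :=
    (hρAd.differentiableAt (isOpen_ball.mem_nhds h0mem)).continuousAt
  have hcB : ContinuousAt ρB 0 :=
    (hρBd.differentiableAt (isOpen_ball.mem_nhds h0mem)).continuousAt
  have hcA' : ContinuousAt (fun x : ℂ => ρA (ζ₀ * x)) 0 := by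
    have h1 : ContinuousAt (fun x : ℂ => ζ₀ * x) 0 := (continuous_const.mul continuous_id).continuousAt
    have h2 : ContinuousAt ρA (ζ₀ * 0) := by rw [mul_zero]; exact hcA
    exact ContinuousAt.comp (g := ρA) (f := fun x : ℂ => ζ₀ * x) h2 h1
  have hcB' : ContinuousAt (fun x : ℂ => ρB (ζ₀ * x)) 0 := by
    have h1 : ContinuousAt (fun x : ℂ => ζ₀ * x) 0 := (continuous_const.mul continuous_id).continuousAt
    have h2 : ContinuousAt ρB (ζ₀ * 0) := by rw [mul_zero]; exact hcB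
    exact ContinuousAt.comp (g := ρB) (f := fun x : ℂ => ζ₀ * x) h2 h1
  set g : ℂ → ℂ := fun x => εt * ρA (ζ₀ * x) * ρB x - c * εs * ρA x * ρB (ζ₀ * x) with hg
  have hgc : ContinuousAt g 0 :=
    ((continuousAt_const.mul hcA').mul hcB).sub (((continuousAt_const).mul hcA).mul hcB')
  have hlim : Tendsto (fun z : ℍ => g (qh N (shiftPt R z))) atImInfty (𝓝 (g 0)) :=
    hgc.tendsto.comp (tendsto_qh_shiftPt N R)
  have hzero : (fun z : ℍ => g (qh N (shiftPt R z))) = fun _ => (0 : ℂ) := funext hpt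
  rw [hzero] at hlim
  have hg0 : g 0 = 0 := (tendsto_nhds_unique hlim tendsto_const_nhds)
  have hfin : εt = c * εs := by
    have h5 : (εt - c * εs) * (ρA 0 * ρB 0) = 0 := by
      have h6 : εt * ρA (ζ₀ * 0) * ρB 0 - c * εs * ρA 0 * ρB (ζ₀ * 0) = 0 := hg0
      rw [mul_zero] at h6
      linear_combination h6
    exact sub_eq_zero.mp ((mul_eq_zero.mp h5).resolve_right (mul_ne_zero hρA0 hρB0))
  have hεs0 : εs ≠ 0 := Complex.exp_ne_zero _
  have hc' : c = εt / εs := by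
    rw [hfin, mul_div_assoc, div_self hεs0, mul_one]
  rw [hc', hεt, hεs, ← Complex.exp_sub, hordA, hordB]
  congr 1
  rw [hs, ht]
  push_cast
  field_simp
  ring

end Fermat.Agent.ES.KUM.ParMultAlt4
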