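/-
Program J, chapter J1 (helper3): (PARMULT) discharged.  `ParMult3.parMult` in the two literal
consumer shapes `MultTrivial18.ParMultStmt N` (helper18) and `CCusp16.ParMultStmt N` (helper16),
and the resulting unconditional statements: `multTrivial` (Kummer multipliers are trivial on
`|tr| ≤ 2`), `parDvdStmt`, and the Kummer isomorphism over `ℂ` with only (SURJ) left.
-/
import Fermat.Agent.ES.KUM.ParMult3
import Fermat.Agent.ES.KUM.MultTrivial18
import Fermat.Agent.ES.KUM.CuspDiv16

set_option autoImplicit false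

open UpperHalfPlane ModularCurve AlgebraicCurve
open scoped MatrixGroups

noncomputable section

namespace Fermat.Agent.ES.KUM.ParMultFinal3

open Fermat.Agent.X0 Fermat.Agent.X0.SurjPoint Fermat.Agent.ES.KUM
  Fermat.Agent.ES.KUM.KumInst18

variable (N : ℕ) [NeZero N]

/-- (PARMULT) in helper18's literal shape. -/
theorem parMultStmt18 : MultTrivial18.ParMultStmt N :=
  fun n hn φ hφ a b hb hφn _ _ _ _ ha hbq m c hc =>
    ParMult3.parMult N n hn φ hφ a b hb hφn ha hbq m c hc

/-- (PARMULT) in helper16's literal shape. -/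
theorem parMultStmt16 : CCusp16.ParMultStmt N :=
  fun n hn φ hφ a b hb hφn _ _ _ _ ha hbq m c hc =>
    ParMult3.parMult N n hn φ hφ a b hb hφn ha hbq m c hc

/-- The invariant case in divisibility form (helper16's `ParDvdStmt`). -/
theorem parDvdStmt16 : CCusp16.ParDvdStmt N :=
  CCusp16.parDvdStmt_of_parMultStmt N (parMultStmt16 N)

/-- **(MULT)**, unconditionally: Kummer multipliers of the elements of trace `|tr| ≤ 2` are
trivial. -/
theorem multTrivial (n : ℕ) (hn : n ≠ 0) : MultTrivial N n :=
  MultTrivial18.multTrivial_of_parMult N (parMultStmt18 N) n hn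

/-- **The Kummer isomorphism over `ℂ`**, with only (SURJ) = `HasEigenfunctions N n` left. -/
def kummerEquivC3 (n : ℕ) [NeZero n] (hE : HasEigenfunctions N n) :
    ↥(Pic0.torsion ℂ (FC N) n) ≃+ Additive ↥(KumChar N n) :=
  MultTrivial18.kummerEquivC' N n (parMultStmt18 N) hE

theorem kummerEquivC3_apply (n : ℕ) [NeZero n] (hE : HasEigenfunctions N n)
    (x : ↥(Pic0.torsion ℂ (FC N) n)) :
    ((Additive.toMul (kummerEquivC3 N n hE x) : ↥(KumChar N n)) :
      ↥(CongruenceSubgroup.Gamma0 N) →* ℂˣ) = kumCharOf N n x := rfl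

end Fermat.Agent.ES.KUM.ParMultFinal3
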